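import Mathlib

set_option autoImplicit false

open scoped NumberField Pointwise

namespace Fermat.Agent.S14

section CyclotomicDefs

variable (p : ℕ) [NeZero p] (K : Type) [Field K] [NumberField K] [IsCyclotomicExtension {p} ℚ K]

/-- The exponent `k < p` with `σ ζ = ζ ^ k` for every `p`-th root of unity `ζ` of `K`
(Mathlib: `IsCyclotomicExtension.Rat.galEquivZMod_apply_of_pow_eq`, `galEquivZMod_smul_of_pow_eq`). -/
noncomputable def chi (σ : K ≃ₐ[ℚ] K) : ℕ := (IsCyclotomicExtension.Rat.galEquivZMod p K σ).val.val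

/-- `x ∈ K` has type `ω²` modulo `p`-th powers: `σ x = x ^ (χ(σ)²) * c ^ p`. -/
def IsOmegaSq (x : K) : Prop :=
  ∀ σ : K ≃ₐ[ℚ] K, ∃ c : K, σ x = x ^ (chi p K σ ^ 2) * c ^ p

/-- A class functional of type `ω²`: an additive `𝔽_p`-valued function on the nonzero ideals of
`𝓞 K`, trivial on principal ideals, with `π (σ • I) = χ(σ)² * π I`. -/
structure IsPi (π : Ideal (𝓞 K) → ZMod p) : Prop where
  mul : ∀ I J : Ideal (𝓞 K), I ≠ ⊥ → J ≠ ⊥ → π (I * J) = π I + π J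
  principal : ∀ x : 𝓞 K, x ≠ 0 → π (Ideal.span {x}) = 0
  equivariant : ∀ (σ : K ≃ₐ[ℚ] K) (I : Ideal (𝓞 K)), I ≠ ⊥ →
    π (σ • I) = (chi p K σ : ZMod p) ^ 2 * π I

/-- The cyclotomic unit of type `ω²`: `η = ∏_σ (σ⁻¹ (1 + ζ)) ^ (χ(σ)²)`. -/
noncomputable def eta (ζ : 𝓞 K) : 𝓞 K :=
  ∏ σ : K ≃ₐ[ℚ] K, (σ⁻¹ • (1 + ζ)) ^ (chi p K σ ^ 2)

end CyclotomicDefs

section DensityDefs

variable (K : Type) [Field K] [NumberField K]

/-- The mass `∑_{v ∈ S} N(v)^(-s)` of a set of primes (Mathlib's `primeIdealZetaSum`). -/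
noncomputable abbrev mass (S : Set (IsDedekindDomain.HeightOneSpectrum (𝓞 K))) (s : ℝ) : ℝ :=
  NumberField.Set.primeIdealZetaSum S s

/-- The Dedekind zeta function as a real sum over the nonzero ideals. -/
noncomputable def zetaR (s : ℝ) : ℝ :=
  ∑' I : nonZeroDivisors (Ideal (𝓞 K)), (Ideal.absNorm (I : Ideal (𝓞 K)) : ℝ) ^ (-s)

/-- The partial zeta function of an ideal class. -/
noncomputable def zetaClass (C : ClassGroup (𝓞 K)) (s : ℝ) : ℝ :=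
  ∑' I : {I : nonZeroDivisors (Ideal (𝓞 K)) // ClassGroup.mk0 I = C},
    (Ideal.absNorm ((I : nonZeroDivisors (Ideal (𝓞 K))) : Ideal (𝓞 K)) : ℝ) ^ (-s)

/-- `H_s(x) = Ψ(x) |N x|^(-s)` (it vanishes at `x = 0` for `s > 0` since `0 ^ (-s) = 0`). -/
noncomputable def Hfun (Ψ : K → ℝ) (s : ℝ) (x : K) : ℝ := Ψ x * (|Algebra.norm ℚ x| : ℝ) ^ (-s)

end DensityDefs

end Fermat.Agent.S14
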