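import Mathlib

set_option autoImplicit false

namespace Fermat.Agent.S14

namespace EigenFunctional

lemma exists_additive_ne_zero (p : ℕ) [Fact p.Prime] (V : Type) [AddCommGroup V]
    (hV : ∀ x : V, p • x = 0) (v : V) (hv : v ≠ 0) :
    ∃ f : V → ZMod p, (∀ x y, f (x + y) = f x + f y) ∧ f v ≠ 0 := by
  have inst : Module (ZMod p) V := AddCommGroup.zmodModule hV
  have h : ∃ φ : V →ₗ[ZMod p] ZMod p, φ v ≠ 0 :=
    Module.Projective.exists_dual_ne_zero (ZMod p) hv
  obtain ⟨φ, hφ⟩ := h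
  exact ⟨fun x => φ x, fun x y => map_add φ x y, hφ⟩

/-- A finite abelian group element outside the `p`-th powers is detected by a homomorphism to
`ZMod p`. -/
lemma exists_hom_ne_zero {B : Type} [CommGroup B] (p : ℕ) [Fact p.Prime] (c : B)
    (hc : ¬ ∃ b : B, b ^ p = c) :
    ∃ f : B → ZMod p, (∀ x y, f (x * y) = f x + f y) ∧ f c ≠ 0 := by
  classical
  have hV : ∀ x : Additive (B ⧸ (powMonoidHom p : B →* B).range), p • x = 0 := by
    intro x
    induction x using Additive.rec with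
    | _ q =>
    induction q using QuotientGroup.induction_on with
    | _ b =>
    rw [← ofMul_pow, ← QuotientGroup.mk_pow]
    have : ((b ^ p : B) : B ⧸ (powMonoidHom p : B →* B).range) = 1 := by
      rw [QuotientGroup.eq_one_iff]
      exact ⟨b, rfl⟩
    rw [this]
    rfl
  have hv : (Additive.ofMul (QuotientGroup.mk c : B ⧸ (powMonoidHom p : B →* B).range)) ≠ 0 := by
    intro h
    apply hc
    have h1 : (QuotientGroup.mk c : B ⧸ (powMonoidHom p : B →* B).range) = 1 := by
      have := congrArg Additive.toMul h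
      simpa using this
    rw [QuotientGroup.eq_one_iff] at h1
    obtain ⟨b, hb⟩ := h1
    exact ⟨b, hb⟩
  obtain ⟨φ, hφadd, hφ⟩ := exists_additive_ne_zero p
    (Additive (B ⧸ (powMonoidHom p : B →* B).range)) hV _ hv
  refine ⟨fun b => φ (Additive.ofMul (QuotientGroup.mk b : B ⧸ (powMonoidHom p : B →* B).range)),
    ?_, hφ⟩
  intro x y
  beta_reduce
  rw [QuotientGroup.mk_mul, ofMul_mul, hφadd]

end EigenFunctional

open EigenFunctional in
/-- K4 (abstract). -/
theorem exists_eigen_functional {A Δ : Type} [CommGroup A] [Finite A] [Group Δ] [Fintype Δ]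
    [MulDistribMulAction Δ A] (p : ℕ) [Fact p.Prime] (hΔ : ¬ p ∣ Fintype.card Δ)
    (ψ : Δ →* (ZMod p)ˣ) (c : A) (hc1 : c ≠ 1) (hcp : c ^ p = 1)
    (hc : ∀ δ : Δ, δ • c = c ^ ((ψ δ : ZMod p).val)) :
    ∃ π : A →* Multiplicative (ZMod p), (∃ a : A, π a ≠ 1) ∧
      ∀ (δ : Δ) (a : A), π (δ • a) = π a ^ ((ψ δ : ZMod p).val) := by
  classical
  have hp : p.Prime := Fact.out
  -- `k` maximal with `c` a `p^k`-th power
  have hex : ∃ k : ℕ, (∃ d : A, d ^ (p ^ k) = c) ∧ ¬ ∃ d : A, d ^ (p ^ (k + 1)) = c := by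
    by_contra hcon
    have hall : ∀ k : ℕ, ∃ d : A, d ^ (p ^ k) = c := by
      intro k
      induction k with
      | zero => exact ⟨c, by simp⟩
      | succ k ih =>
        by_contra h
        exact hcon ⟨k, ih, h⟩
    obtain ⟨d, hd⟩ := hall (Nat.card A)
    have h1 : d ^ (p ^ (Nat.card A + 1)) = 1 := by
      rw [pow_succ, pow_mul, hd, hcp]
    have h2 : orderOf d ∣ p ^ (Nat.card A + 1) := orderOf_dvd_of_pow_eq_one h1
    obtain ⟨j, hj, hj'⟩ := (Nat.dvd_prime_pow hp).mp h2
    have h3 : j = Nat.card A + 1 := by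
      by_contra hne
      have hjle : j ≤ Nat.card A := by omega
      apply hc1
      rw [← hd]
      have : orderOf d ∣ p ^ Nat.card A := by
        rw [hj']
        exact pow_dvd_pow p hjle
      exact orderOf_dvd_iff_pow_eq_one.mp this
    have h4 : orderOf d ≤ Nat.card A := orderOf_le_card
    rw [hj', h3] at h4
    have h5 : Nat.card A + 1 < p ^ (Nat.card A + 1) := Nat.lt_pow_self hp.one_lt
    omega
  obtain ⟨k, ⟨d, hd⟩, hk⟩ := hex
  -- the subgroup of `p^k`-th powers
  let B : Subgroup A := (powMonoidHom (p ^ k) : A →* A).range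
  let P : A → B := fun a => ⟨a ^ (p ^ k), a, rfl⟩
  have hPmul : ∀ x y, P (x * y) = P x * P y := by
    intro x y
    apply Subtype.ext
    simp [P, mul_pow]
  have hPc : ¬ ∃ b : B, b ^ p = P d := by
    rintro ⟨⟨b, x, hx⟩, hb⟩
    apply hk
    refine ⟨x, ?_⟩
    have h1 : b ^ p = d ^ (p ^ k) := by
      have := congrArg Subtype.val hb
      simpa [P] using this
    rw [pow_succ, pow_mul]
    have hx' : x ^ (p ^ k) = b := hx
    rw [hx', h1, hd]
  obtain ⟨f, hfmul, hfc⟩ := exists_hom_ne_zero p (P d) hPc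
  have hf1 : f 1 = 0 := by
    have := hfmul 1 1
    rw [mul_one] at this
    have h : f 1 + 0 = f 1 + f 1 := by rw [add_zero]; exact this
    exact (add_left_cancel h).symm
  have hfpow : ∀ (x : B) (n : ℕ), f (x ^ n) = (n : ZMod p) * f x := by
    intro x n
    induction n with
    | zero => simp [hf1]
    | succ n ih => rw [pow_succ, hfmul, ih]; push_cast; ring
  -- the averaged functional
  let πa : A → ZMod p := fun a => ∑ δ : Δ, (((ψ δ)⁻¹ : (ZMod p)ˣ) : ZMod p) * f (P (δ • a))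
  have hπmul : ∀ x y, πa (x * y) = πa x + πa y := by
    intro x y
    simp only [πa]
    rw [← Finset.sum_add_distrib]
    refine Finset.sum_congr rfl fun δ _ => ?_
    rw [smul_mul', hPmul, hfmul]
    ring
  have hπeq : ∀ (δ' : Δ) (a : A), πa (δ' • a) = ((ψ δ' : (ZMod p)ˣ) : ZMod p) * πa a := by
    intro δ' a
    simp only [πa]
    rw [Finset.mul_sum]
    refine Fintype.sum_equiv (Equiv.mulRight δ') _ _ fun δ => ?_
    simp only [Equiv.coe_mulRight]
    have h : ((ψ δ' : (ZMod p)ˣ) : ZMod p) * (((ψ δ')⁻¹ : (ZMod p)ˣ) : ZMod p) = 1 := by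
      rw [← Units.val_mul, mul_inv_cancel, Units.val_one]
    rw [mul_smul, map_mul, mul_inv_rev, Units.val_mul, ← mul_assoc, ← mul_assoc, h, one_mul]
  have hπd : πa d = (Fintype.card Δ : ZMod p) * f (P d) := by
    simp only [πa]
    have h1 : ∀ δ : Δ, (((ψ δ)⁻¹ : (ZMod p)ˣ) : ZMod p) * f (P (δ • d)) = f (P d) := by
      intro δ
      have h2 : P (δ • d) = P d ^ ((ψ δ : ZMod p).val) := by
        apply Subtype.ext
        show (δ • d) ^ (p ^ k) = (d ^ (p ^ k)) ^ ((ψ δ : ZMod p).val)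
        rw [← smul_pow', hd, hc δ]
      rw [h2, hfpow, ZMod.natCast_zmod_val, ← mul_assoc, ← Units.val_mul, inv_mul_cancel,
        Units.val_one, one_mul]
    rw [Finset.sum_congr rfl fun δ _ => h1 δ, Finset.sum_const, Finset.card_univ, nsmul_eq_mul]
  have hπd0 : πa d ≠ 0 := by
    rw [hπd]
    refine mul_ne_zero ?_ hfc
    rw [Ne, ZMod.natCast_eq_zero_iff]
    exact hΔ
  refine ⟨⟨⟨fun a => Multiplicative.ofAdd (πa a), ?_⟩, ?_⟩, ⟨d, ?_⟩, ?_⟩
  · show Multiplicative.ofAdd (πa 1) = 1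
    have : πa 1 = 0 := by
      have h := hπmul 1 1
      rw [mul_one] at h
      have h' : πa 1 + 0 = πa 1 + πa 1 := by rw [add_zero]; exact h
      exact (add_left_cancel h').symm
    rw [this]
    rfl
  · intro x y
    show Multiplicative.ofAdd (πa (x * y)) = Multiplicative.ofAdd (πa x) * Multiplicative.ofAdd (πa y)
    rw [hπmul, ofAdd_add]
  · show Multiplicative.ofAdd (πa d) ≠ 1
    intro h
    apply hπd0
    exact Multiplicative.ofAdd.injective h
  · intro δ a
    show Multiplicative.ofAdd (πa (δ • a)) = Multiplicative.ofAdd (πa a) ^ ((ψ δ : ZMod p).val)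
    rw [hπeq, ← ofAdd_nsmul, nsmul_eq_mul, ZMod.natCast_zmod_val]

end Fermat.Agent.S14
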