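import Fermat.Prelude.Def_ClassGroup_GaloisAction
import Fermat.Agent.S14.EigenFunctional
import Fermat.Agent.S14.Defs

set_option autoImplicit false

open scoped NumberField Pointwise nonZeroDivisors

namespace Fermat.Agent.S14

namespace ExistsPi

theorem ideal_pow_inj {R : Type} [CommRing R] [IsDedekindDomain R] (I J : Ideal R) (n : ℕ)
    (hn : n ≠ 0) (h : I ^ n = J ^ n) : I = J := by
  have h1 : I ∣ J := (UniqueFactorizationMonoid.pow_dvd_pow_iff_dvd hn).mp (by rw [h])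
  have h2 : J ∣ I := (UniqueFactorizationMonoid.pow_dvd_pow_iff_dvd hn).mp (by rw [h])
  exact dvd_antisymm h1 h2

section
variable (K : Type) [Field K] [NumberField K]

/-- The ring automorphism of `𝓞 K` induced by `σ`. -/
noncomputable def rEquiv (σ : K ≃ₐ[ℚ] K) : 𝓞 K ≃+* 𝓞 K :=
  MulSemiringAction.toRingEquiv (K ≃ₐ[ℚ] K) (𝓞 K) σ

/-- The Galois action on the class group. -/
@[reducible] noncomputable def clAction : MulDistribMulAction (K ≃ₐ[ℚ] K) (ClassGroup (𝓞 K)) where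
  smul σ C := ClassGroup.mulEquiv (rEquiv K σ) C
  one_smul C := by
    show ClassGroup.mulEquiv (rEquiv K 1) C = C
    have : rEquiv K 1 = RingEquiv.refl (𝓞 K) := by
      ext x
      simp [rEquiv]
    rw [this, ClassGroup.mulEquiv_refl_apply]
  mul_smul σ τ C := by
    show ClassGroup.mulEquiv (rEquiv K (σ * τ)) C =
      ClassGroup.mulEquiv (rEquiv K σ) (ClassGroup.mulEquiv (rEquiv K τ) C)
    have : rEquiv K (σ * τ) = (rEquiv K τ).trans (rEquiv K σ) := by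
      ext x
      simp [rEquiv]
    rw [this, ClassGroup.mulEquiv_trans_apply]
  smul_mul σ C D := map_mul (ClassGroup.mulEquiv (rEquiv K σ)) C D
  smul_one σ := map_one (ClassGroup.mulEquiv (rEquiv K σ))

lemma smul_mem_nonZeroDivisors (σ : K ≃ₐ[ℚ] K) (I : (Ideal (𝓞 K))⁰) :
    σ • (I : Ideal (𝓞 K)) ∈ (Ideal (𝓞 K))⁰ := (Ideal.mapNonZero (rEquiv K σ) I).2

lemma clAction_mk0 (σ : K ≃ₐ[ℚ] K) (I : (Ideal (𝓞 K))⁰) :
    (clAction K).smul σ (ClassGroup.mk0 I) =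
      ClassGroup.mk0 ⟨σ • (I : Ideal (𝓞 K)), smul_mem_nonZeroDivisors K σ I⟩ := by
  show ClassGroup.mulEquiv (rEquiv K σ) (ClassGroup.mk0 I) = _
  rw [ClassGroup.mulEquiv_mk0]
  rfl

lemma smul_span_singleton (σ : K ≃ₐ[ℚ] K) (x : 𝓞 K) :
    σ • Ideal.span {x} = Ideal.span {σ • x} := by
  rw [Ideal.pointwise_smul_def, Ideal.map_span, Set.image_singleton]; rfl

lemma smul_ideal_pow (σ : K ≃ₐ[ℚ] K) (I : Ideal (𝓞 K)) (n : ℕ) : σ • I ^ n = (σ • I) ^ n := by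
  rw [Ideal.pointwise_smul_def, Ideal.pointwise_smul_def, Ideal.map_pow]

omit [NumberField K] in
lemma mem_nzd {I : Ideal (𝓞 K)} (h : I ≠ ⊥) : I ∈ (Ideal (𝓞 K))⁰ :=
  mem_nonZeroDivisors_iff_ne_zero.mpr h

omit [NumberField K] in
lemma span_mem_nzd {x : 𝓞 K} (h : x ≠ 0) : Ideal.span {x} ∈ (Ideal (𝓞 K))⁰ :=
  mem_nzd K (by rwa [Ne, Ideal.span_singleton_eq_bot])

lemma mk0_span {x : 𝓞 K} (h : x ≠ 0) :
    ClassGroup.mk0 ⟨Ideal.span {x}, span_mem_nzd K h⟩ = 1 := by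
  rw [ClassGroup.mk0_eq_one_iff]
  exact ⟨⟨x, rfl⟩⟩

end

/-- The class of `σ 𝔞` is the `χ(σ)²`-th power of the class of `𝔞`. -/
lemma class_smul_eq {p : ℕ} [Fact p.Prime] (K : Type) [Field K] [NumberField K]
    [IsCyclotomicExtension {p} ℚ K] (α : 𝓞 K) (hα : α ≠ 0) (hα2 : IsOmegaSq p K (α : K))
    (𝔞 : Ideal (𝓞 K)) (h𝔞 : Ideal.span {α} = 𝔞 ^ p) (h𝔞0 : 𝔞 ≠ ⊥) (σ : K ≃ₐ[ℚ] K)
    (hσ𝔞 : σ • 𝔞 ∈ (Ideal (𝓞 K))⁰) :
    ClassGroup.mk0 ⟨σ • 𝔞, hσ𝔞⟩ = ClassGroup.mk0 ⟨𝔞, mem_nzd K h𝔞0⟩ ^ (chi p K σ ^ 2) := by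
  have hp : p.Prime := Fact.out
  obtain ⟨c, hc⟩ := hα2 σ
  obtain ⟨a, b, hb, rfl⟩ := IsFractionRing.div_surjective (A := 𝓞 K) c
  have hb0 : b ≠ 0 := nonZeroDivisors.ne_zero hb
  have hbK : (algebraMap (𝓞 K) K b) ≠ 0 := by
    rwa [Ne, map_eq_zero_iff _ NumberField.RingOfIntegers.coe_injective]
  have hσα : σ • α ≠ 0 := by
    intro h
    apply hα
    have := congrArg (fun x => σ⁻¹ • x) h
    simpa using this
  -- the identity in `𝓞 K`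
  have hid : (σ • α) * b ^ p = α ^ (chi p K σ ^ 2) * a ^ p := by
    apply NumberField.RingOfIntegers.coe_injective
    have h1 : ((σ • α : 𝓞 K) : K) = σ (α : K) := rfl
    show algebraMap (𝓞 K) K ((σ • α) * b ^ p) = algebraMap (𝓞 K) K (α ^ (chi p K σ ^ 2) * a ^ p)
    rw [map_mul, map_mul, map_pow, map_pow, map_pow]
    have h2 : algebraMap (𝓞 K) K (σ • α) = σ (α : K) := rfl
    rw [h2, hc, div_pow]
    field_simp
  have ha0 : a ≠ 0 := by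
    rintro rfl
    rw [zero_pow hp.ne_zero, mul_zero] at hid
    exact (mul_ne_zero hσα (pow_ne_zero p hb0)) hid
  -- ideals
  have hI : (σ • 𝔞 * Ideal.span {b}) ^ p = (𝔞 ^ (chi p K σ ^ 2) * Ideal.span {a}) ^ p := by
    rw [mul_pow, mul_pow, ← smul_ideal_pow, ← h𝔞, smul_span_singleton, Ideal.span_singleton_pow,
      Ideal.span_singleton_mul_span_singleton, hid, ← pow_mul, mul_comm (chi p K σ ^ 2) p, pow_mul,
      ← h𝔞, Ideal.span_singleton_pow, Ideal.span_singleton_pow,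
      Ideal.span_singleton_mul_span_singleton]
  have hI' := ideal_pow_inj _ _ p hp.ne_zero hI
  have h3 : ClassGroup.mk0 ⟨σ • 𝔞, hσ𝔞⟩ * ClassGroup.mk0 ⟨Ideal.span {b}, span_mem_nzd K hb0⟩ =
      ClassGroup.mk0 ⟨𝔞, mem_nzd K h𝔞0⟩ ^ (chi p K σ ^ 2) *
        ClassGroup.mk0 ⟨Ideal.span {a}, span_mem_nzd K ha0⟩ := by
    rw [← map_pow, ← map_mul, ← map_mul]
    congr 1
    exact Subtype.ext hI'
  rwa [mk0_span K hb0, mk0_span K ha0, mul_one, mul_one] at h3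

end ExistsPi

open ExistsPi in
/-- K4 (concrete). -/
theorem exists_pi {p : ℕ} [Fact p.Prime] (hp : 3 ≤ p) (K : Type) [Field K] [NumberField K]
    [IsCyclotomicExtension {p} ℚ K] (α : 𝓞 K) (hα : α ≠ 0) (hα2 : IsOmegaSq p K (α : K))
    (𝔞 : Ideal (𝓞 K)) (h𝔞 : Ideal.span {α} = 𝔞 ^ p) (hnp : ¬ 𝔞.IsPrincipal) :
    ∃ π : Ideal (𝓞 K) → ZMod p, IsPi p K π ∧ ∃ I : Ideal (𝓞 K), I ≠ ⊥ ∧ π I ≠ 0 := by
  classical
  have hpp : p.Prime := Fact.out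
  let _ : MulDistribMulAction (K ≃ₐ[ℚ] K) (ClassGroup (𝓞 K)) := clAction K
  have hsmul : ∀ (σ : K ≃ₐ[ℚ] K) (I : (Ideal (𝓞 K))⁰), σ • ClassGroup.mk0 I =
      ClassGroup.mk0 ⟨σ • (I : Ideal (𝓞 K)), smul_mem_nonZeroDivisors K σ I⟩ :=
    fun σ I => clAction_mk0 K σ I
  have h𝔞0 : 𝔞 ≠ ⊥ := by
    rintro rfl
    apply hα
    have h1 : (⊥ : Ideal (𝓞 K)) ^ p = ⊥ := by
      rw [← Ideal.zero_eq_bot]; exact zero_pow hpp.ne_zero
    rw [h1] at h𝔞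
    simpa using h𝔞
  set ψ : (K ≃ₐ[ℚ] K) →* (ZMod p)ˣ :=
    (powMonoidHom 2).comp (IsCyclotomicExtension.Rat.galEquivZMod p K).toMonoidHom with hψ
  have hψval : ∀ σ : K ≃ₐ[ℚ] K, ((ψ σ : (ZMod p)ˣ) : ZMod p) = (chi p K σ : ZMod p) ^ 2 := by
    intro σ
    simp only [hψ, MonoidHom.coe_comp, Function.comp_apply, powMonoidHom_apply,
      Units.val_pow_eq_pow_val, chi]
    rw [ZMod.natCast_zmod_val]
    rfl
  have hcard : ¬ p ∣ Fintype.card (K ≃ₐ[ℚ] K) := by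
    rw [Fintype.card_congr (IsCyclotomicExtension.Rat.galEquivZMod p K).toEquiv, ZMod.card_units]
    intro h
    have := Nat.le_of_dvd (by have := hpp.two_le; omega) h
    have := hpp.two_le
    omega
  set c : ClassGroup (𝓞 K) := ClassGroup.mk0 ⟨𝔞, mem_nzd K h𝔞0⟩ with hcdef
  have hc1 : c ≠ 1 := by
    rw [hcdef, Ne, ClassGroup.mk0_eq_one_iff]
    exact hnp
  have hcp : c ^ p = 1 := by
    rw [hcdef, ← map_pow]
    have : (⟨𝔞, mem_nzd K h𝔞0⟩ : (Ideal (𝓞 K))⁰) ^ p = ⟨Ideal.span {α}, span_mem_nzd K hα⟩ :=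
      Subtype.ext h𝔞.symm
    rw [this, mk0_span K hα]
  have hpowmod : ∀ n : ℕ, c ^ n = c ^ (n % p) := by
    intro n
    conv_lhs => rw [← Nat.div_add_mod n p, pow_add, pow_mul, hcp, one_pow, one_mul]
  have hc : ∀ σ : K ≃ₐ[ℚ] K, σ • c = c ^ ((ψ σ : ZMod p).val) := by
    intro σ
    rw [hcdef, hsmul σ ⟨𝔞, mem_nzd K h𝔞0⟩]
    rw [class_smul_eq K α hα hα2 𝔞 h𝔞 h𝔞0 σ, ← hcdef, hpowmod, hψval σ]
    have : ((chi p K σ : ZMod p) ^ 2).val = chi p K σ ^ 2 % p := by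
      rw [← Nat.cast_pow, ZMod.val_natCast]
    rw [this]
  obtain ⟨πA, ⟨a, ha⟩, hπA⟩ := exists_eigen_functional p hcard ψ c hc1 hcp hc
  refine ⟨fun I => if h : I ≠ ⊥ then Multiplicative.toAdd (πA (ClassGroup.mk0 ⟨I, mem_nzd K h⟩))
    else 0, ⟨?_, ?_, ?_⟩, ?_⟩
  · intro I J hI hJ
    have hIJ : I * J ≠ ⊥ := mul_ne_zero hI hJ
    rw [dif_pos hI, dif_pos hJ, dif_pos hIJ, ← toAdd_mul, ← map_mul, ← map_mul]
    rfl
  · intro x hx
    have hx' : Ideal.span {x} ≠ ⊥ := by rwa [Ne, Ideal.span_singleton_eq_bot]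
    rw [dif_pos hx']
    have : ClassGroup.mk0 ⟨Ideal.span {x}, mem_nzd K hx'⟩ = 1 := mk0_span K hx
    rw [this, map_one]
    rfl
  · intro σ I hI
    have hσI : σ • I ≠ ⊥ := mem_nonZeroDivisors_iff_ne_zero.mp
      (smul_mem_nonZeroDivisors K σ ⟨I, mem_nzd K hI⟩)
    rw [dif_pos hI, dif_pos hσI]
    have h1 : ClassGroup.mk0 ⟨σ • I, mem_nzd K hσI⟩ = σ • ClassGroup.mk0 ⟨I, mem_nzd K hI⟩ :=
      (hsmul σ ⟨I, mem_nzd K hI⟩).symm
    rw [h1, hπA, toAdd_pow, nsmul_eq_mul, ZMod.natCast_zmod_val, hψval]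
  · obtain ⟨I, rfl⟩ := ClassGroup.mk0_surjective a
    have hI0 : (I : Ideal (𝓞 K)) ≠ ⊥ := mem_nonZeroDivisors_iff_ne_zero.mp I.2
    refine ⟨I, hI0, ?_⟩
    beta_reduce
    rw [dif_pos hI0]
    intro h
    apply ha
    have : πA (ClassGroup.mk0 I) = Multiplicative.ofAdd 0 := by
      rw [← h]; rfl
    rw [this]
    rfl

end Fermat.Agent.S14
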