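import Fermat.Agent.S14.Defs

set_option autoImplicit false

open scoped NumberField
open TrivSqZeroExt Polynomial

namespace Fermat.Agent.S14

namespace Phi2

/-- The ring `F[ε₁, ε₂] / (ε₁², ε₂²)`. -/
abbrev DN2 (F : Type) [CommRing F] := DualNumber (DualNumber F)

section DN2

variable {F : Type} [CommRing F]

theorem c00_mul (x y : DN2 F) : (x * y).fst.fst = x.fst.fst * y.fst.fst := by
  simp

theorem c10_mul (x y : DN2 F) :
    (x * y).fst.snd = x.fst.fst * y.fst.snd + x.fst.snd * y.fst.fst := by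
  simp

theorem c01_mul (x y : DN2 F) :
    (x * y).snd.fst = x.fst.fst * y.snd.fst + x.snd.fst * y.fst.fst := by
  simp

theorem c11_mul (x y : DN2 F) :
    (x * y).snd.snd = x.fst.fst * y.snd.snd + x.fst.snd * y.snd.fst
      + x.snd.fst * y.fst.snd + x.snd.snd * y.fst.fst := by
  simp
  ring

theorem dn2_ext {x y : DN2 F} (h00 : x.fst.fst = y.fst.fst) (h10 : x.fst.snd = y.fst.snd)
    (h01 : x.snd.fst = y.snd.fst) (h11 : x.snd.snd = y.snd.snd) : x = y := by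
  apply TrivSqZeroExt.ext <;> apply TrivSqZeroExt.ext <;> assumption

variable (F) in
/-- The element `(1 + ε₁) (1 + ε₂)`. -/
def E : DN2 F := inl (inl 1 + inr 1) + inr (inl 1 + inr 1)

@[simp] theorem E_c00 : (E F).fst.fst = 1 := by simp [E]
@[simp] theorem E_c10 : (E F).fst.snd = 1 := by simp [E]
@[simp] theorem E_c01 : (E F).snd.fst = 1 := by simp [E]
@[simp] theorem E_c11 : (E F).snd.snd = 1 := by simp [E]

theorem E_pow (k : ℕ) : (E F ^ k).fst.fst = 1 ∧ (E F ^ k).fst.snd = k ∧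
    (E F ^ k).snd.fst = k ∧ (E F ^ k).snd.snd = (k : F) ^ 2 := by
  induction k with
  | zero => simp
  | succ k ih =>
    obtain ⟨h1, h2, h3, h4⟩ := ih
    rw [pow_succ]
    refine ⟨?_, ?_, ?_, ?_⟩
    · rw [c00_mul, h1, E_c00, one_mul]
    · rw [c10_mul, h1, h2, E_c00, E_c10]; push_cast; ring
    · rw [c01_mul, h1, h3, E_c00, E_c01]; push_cast; ring
    · rw [c11_mul, h1, h2, h3, h4, E_c00, E_c10, E_c01, E_c11]; push_cast; ring

theorem E_sub_one_pow_three : (E F - 1) ^ 3 = 0 := by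
  have h0 : (E F - 1).fst.fst = 0 := by simp
  have h1 : (E F - 1).fst.snd = 1 := by simp
  have h2 : (E F - 1).snd.fst = 1 := by simp
  have h3 : (E F - 1).snd.snd = 1 := by simp
  rw [pow_succ, pow_two]
  apply dn2_ext
  · rw [c00_mul, c00_mul, h0]; simp
  · rw [c10_mul, c10_mul, c00_mul, h0, h1]; simp
  · rw [c01_mul, c01_mul, c00_mul, h0, h2]; simp
  · rw [c11_mul, c11_mul, c10_mul, c01_mul, c00_mul, h0, h1, h2, h3]; simp

/-- The substitution `ε₁ ↦ k ε₁, ε₂ ↦ k ε₂`. -/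
def scale (k : F) : DN2 F →+* DN2 F where
  toFun x := inl (inl x.fst.fst + inr (k * x.fst.snd)) + inr (inl (k * x.snd.fst) + inr (k ^ 2 * x.snd.snd))
  map_one' := by apply dn2_ext <;> simp
  map_zero' := by apply dn2_ext <;> simp
  map_add' x y := by apply dn2_ext <;> simp <;> ring
  map_mul' x y := by
    apply dn2_ext
    · rw [c00_mul]; simp
    · rw [c10_mul]; simp; ring
    · rw [c01_mul]; simp; ring
    · rw [c11_mul]; simp; ring

@[simp] theorem scale_c00 (k : F) (x : DN2 F) : (scale k x).fst.fst = x.fst.fst := by simp [scale]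
@[simp] theorem scale_c10 (k : F) (x : DN2 F) : (scale k x).fst.snd = k * x.fst.snd := by
  simp [scale]
@[simp] theorem scale_c01 (k : F) (x : DN2 F) : (scale k x).snd.fst = k * x.snd.fst := by
  simp [scale]
@[simp] theorem scale_c11 (k : F) (x : DN2 F) : (scale k x).snd.snd = k ^ 2 * x.snd.snd := by
  simp [scale]

theorem scale_E (k : ℕ) : scale (k : F) (E F) = E F ^ k := by
  obtain ⟨h1, h2, h3, h4⟩ := E_pow (F := F) k
  apply dn2_ext
  · rw [h1]; simp
  · rw [h2]; simp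
  · rw [h3]; simp
  · rw [h4]; simp

end DN2

section Field

variable {F : Type} [Field F]

/-- The mixed second logarithmic derivative. -/
noncomputable def phiOf (x : DN2 F) : F :=
  x.snd.snd / x.fst.fst - x.fst.snd * x.snd.fst / x.fst.fst ^ 2

theorem phiOf_mul (x y : DN2 F) (hx : x.fst.fst ≠ 0) (hy : y.fst.fst ≠ 0) :
    phiOf (x * y) = phiOf x + phiOf y := by
  unfold phiOf
  rw [c00_mul, c10_mul, c01_mul, c11_mul]
  field_simp
  ring

theorem phiOf_scale (k : F) (x : DN2 F) : phiOf (scale k x) = k ^ 2 * phiOf x := by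
  unfold phiOf
  rw [scale_c00, scale_c10, scale_c01, scale_c11]
  ring

end Field

section Cyclo

variable (p : ℕ) [Fact p.Prime]

theorem cyclotomic_zmod : cyclotomic p (ZMod p) = (X - 1) ^ (p - 1) := by
  have h := cyclotomic_prime_mul_X_sub_one (ZMod p) p
  have h2 : (X : (ZMod p)[X]) ^ p - 1 = (X - 1) ^ p := by
    rw [sub_pow_char, one_pow]
  have hp : p = (p - 1) + 1 := by
    have := (Fact.out : p.Prime).pos
    omega
  rw [h2] at h
  have hne : (X - 1 : (ZMod p)[X]) ≠ 0 := X_sub_C_ne_zero (1 : ZMod p)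
  apply mul_right_cancel₀ hne
  rw [h, ← pow_succ, ← hp]

theorem aeval_E_cyclotomic (hp : 4 ≤ p) : aeval (E (ZMod p)) (cyclotomic p ℤ) = 0 := by
  have h1 : aeval (E (ZMod p)) (cyclotomic p ℤ) = aeval (E (ZMod p)) (cyclotomic p (ZMod p)) := by
    rw [← map_cyclotomic_int p (ZMod p), ← algebraMap_int_eq, aeval_map_algebraMap]
  rw [h1, cyclotomic_zmod]
  have h3 : p - 1 = 3 + (p - 4) := by omega
  simp only [map_pow, map_sub, aeval_X, map_one]
  rw [h3, pow_add, E_sub_one_pow_three, zero_mul]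

end Cyclo

section NF

variable {p : ℕ} [Fact p.Prime] (K : Type) [Field K] [NumberField K]
  [IsCyclotomicExtension {p} ℚ K]

omit [Fact p.Prime] [NumberField K] [IsCyclotomicExtension {p} ℚ K] in
theorem coe_primitive (ζ : 𝓞 K) (hζ : IsPrimitiveRoot ζ p) : IsPrimitiveRoot (ζ : K) p :=
  hζ.map_of_injective NumberField.RingOfIntegers.coe_injective

theorem gen_eq (ζ : 𝓞 K) (hζ : IsPrimitiveRoot ζ p) :
    (coe_primitive K ζ hζ).integralPowerBasis.gen = ζ := by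
  rw [IsPrimitiveRoot.integralPowerBasis_gen]; rfl

theorem aeval_E_minpoly (hp : 4 ≤ p) (ζ : 𝓞 K) (hζ : IsPrimitiveRoot ζ p) :
    aeval (E (ZMod p)) (minpoly ℤ (coe_primitive K ζ hζ).integralPowerBasis.gen) = 0 := by
  rw [gen_eq K ζ hζ, ← minpoly.algebraMap_eq (B' := K) NumberField.RingOfIntegers.coe_injective ζ,
    ← cyclotomic_eq_minpoly (coe_primitive K ζ hζ) (Fact.out : p.Prime).pos]
  exact aeval_E_cyclotomic p hp

/-- The ring homomorphism `𝓞 K → 𝔽_p[ε₁, ε₂]/(ε₁², ε₂²)`, `ζ ↦ (1 + ε₁)(1 + ε₂)`. -/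
noncomputable def theta (hp : 4 ≤ p) (ζ : 𝓞 K) (hζ : IsPrimitiveRoot ζ p) :
    𝓞 K →ₐ[ℤ] DN2 (ZMod p) :=
  (coe_primitive K ζ hζ).integralPowerBasis.lift (E (ZMod p)) (aeval_E_minpoly K hp ζ hζ)

theorem theta_zeta (hp : 4 ≤ p) (ζ : 𝓞 K) (hζ : IsPrimitiveRoot ζ p) :
    theta K hp ζ hζ ζ = E (ZMod p) := by
  have h3 : theta K hp ζ hζ (coe_primitive K ζ hζ).integralPowerBasis.gen = E (ZMod p) :=
    PowerBasis.lift_gen _ _ _
  rwa [gen_eq K ζ hζ] at h3

theorem exists_aeval (ζ : 𝓞 K) (hζ : IsPrimitiveRoot ζ p) (x : 𝓞 K) :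
    ∃ f : ℤ[X], x = aeval ζ f := by
  have := (coe_primitive K ζ hζ).integralPowerBasis.exists_eq_aeval' x
  rwa [gen_eq K ζ hζ] at this

theorem theta_smul (hp : 4 ≤ p) (ζ : 𝓞 K) (hζ : IsPrimitiveRoot ζ p) (σ : K ≃ₐ[ℚ] K) (x : 𝓞 K) :
    theta K hp ζ hζ (σ • x) = scale ((chi p K σ : ℕ) : ZMod p) (theta K hp ζ hζ x) := by
  obtain ⟨f, rfl⟩ := exists_aeval K ζ hζ x
  have hσζ : σ • ζ = ζ ^ chi p K σ :=
    IsCyclotomicExtension.Rat.galEquivZMod_smul_of_pow_eq p K σ hζ.pow_eq_one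
  have h1 : σ • (aeval ζ f) = aeval (σ • ζ) f := by
    have := Polynomial.aeval_algHom_apply (MulSemiringAction.toAlgHom ℤ (𝓞 K) σ) ζ f
    simpa using this.symm
  rw [h1, hσζ, ← Polynomial.aeval_algHom_apply, ← Polynomial.aeval_algHom_apply, map_pow,
    theta_zeta]
  have h2 : scale ((chi p K σ : ℕ) : ZMod p) (aeval (E (ZMod p)) f) =
      aeval (scale ((chi p K σ : ℕ) : ZMod p) (E (ZMod p))) f := by
    rw [aeval_def, aeval_def, hom_eval₂]
    congr 1
    exact RingHom.ext_int _ _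
  rw [← scale_E, h2]

theorem isMaximal_span (ζ : 𝓞 K) (hζ : IsPrimitiveRoot ζ p) :
    (Ideal.span {ζ - 1}).IsMaximal := by
  have hprime : Prime (ζ - 1) := (coe_primitive K ζ hζ).zeta_sub_one_prime'
  have hne : ζ - 1 ≠ 0 := hprime.ne_zero
  have h1 : (Ideal.span {ζ - 1}).IsPrime := (Ideal.span_singleton_prime hne).mpr hprime
  exact h1.isMaximal (by simpa [Ideal.span_singleton_eq_bot] using hne)

theorem c00_ne_zero (hp : 4 ≤ p) (ζ : 𝓞 K) (hζ : IsPrimitiveRoot ζ p) (x : 𝓞 K)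
    (hx : x ∉ Ideal.span {ζ - 1}) : (theta K hp ζ hζ x).fst.fst ≠ 0 := by
  let f : 𝓞 K →+* ZMod p :=
    (TrivSqZeroExt.fstHom (ZMod p) (ZMod p) (ZMod p)).toRingHom.comp
      ((TrivSqZeroExt.fstHom (ZMod p) (DualNumber (ZMod p)) (DualNumber (ZMod p))).toRingHom.comp
        (theta K hp ζ hζ).toRingHom)
  have hf : ∀ y, f y = (theta K hp ζ hζ y).fst.fst := fun y => rfl
  have hker : Ideal.span {ζ - 1} ≤ RingHom.ker f := by
    rw [Ideal.span_le, Set.singleton_subset_iff]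
    show f (ζ - 1) = 0
    rw [map_sub, map_one, hf, theta_zeta, E_c00, sub_self]
  have heq := (isMaximal_span K ζ hζ).eq_of_le (RingHom.ker_ne_top f) hker
  intro h0
  apply hx
  rw [heq]
  show f x = 0
  rw [hf, h0]

end NF

end Phi2

/-- K1a -/
theorem exists_phi2 {p : ℕ} [Fact p.Prime] (hp : 5 ≤ p) (K : Type) [Field K] [NumberField K]
    [IsCyclotomicExtension {p} ℚ K] (ζ : 𝓞 K) (hζ : IsPrimitiveRoot ζ p) :
    ∃ φ : 𝓞 K → ZMod p,
      (∀ x y : 𝓞 K, x ∉ Ideal.span {ζ - 1} → y ∉ Ideal.span {ζ - 1} → φ (x * y) = φ x + φ y) ∧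
      (∀ x y : 𝓞 K, x ∉ Ideal.span {ζ - 1} → x - y ∈ Ideal.span {(ζ - 1) ^ 3} → φ x = φ y) ∧
      (∀ (σ : K ≃ₐ[ℚ] K) (x : 𝓞 K), x ∉ Ideal.span {ζ - 1} →
        φ (σ • x) = (chi p K σ : ZMod p) ^ 2 * φ x) ∧
      (∀ b : ℤ, ¬ (p : ℤ) ∣ b → φ (b : 𝓞 K) = 0) ∧
      φ (1 + ζ) = (4 : ZMod p)⁻¹ := by
  have hp4 : 4 ≤ p := by omega
  refine ⟨fun x => Phi2.phiOf (Phi2.theta K hp4 ζ hζ x), ?_, ?_, ?_, ?_, ?_⟩
  · intro x y hx hy
    show Phi2.phiOf (Phi2.theta K hp4 ζ hζ (x * y)) = _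
    rw [map_mul]
    exact Phi2.phiOf_mul _ _ (Phi2.c00_ne_zero K hp4 ζ hζ x hx) (Phi2.c00_ne_zero K hp4 ζ hζ y hy)
  · intro x y _ hxy
    have : Phi2.theta K hp4 ζ hζ x = Phi2.theta K hp4 ζ hζ y := by
      obtain ⟨z, hz⟩ := Ideal.mem_span_singleton.mp hxy
      have h := congrArg (Phi2.theta K hp4 ζ hζ) hz
      rw [map_sub, map_mul, map_pow, map_sub, Phi2.theta_zeta, map_one,
        Phi2.E_sub_one_pow_three, zero_mul] at h
      exact sub_eq_zero.mp h
    show Phi2.phiOf _ = Phi2.phiOf _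
    rw [this]
  · intro σ x _
    show Phi2.phiOf _ = _ * Phi2.phiOf _
    rw [Phi2.theta_smul, Phi2.phiOf_scale]
  · intro b _
    show Phi2.phiOf _ = 0
    rw [map_intCast]
    simp [Phi2.phiOf]
  · show Phi2.phiOf _ = _
    rw [map_add, map_one, Phi2.theta_zeta]
    have h2 : (2 : ZMod p) ≠ 0 := by
      intro h
      have h' : ((2 : ℕ) : ZMod p) = 0 := by exact_mod_cast h
      rw [ZMod.natCast_eq_zero_iff] at h'
      have := Nat.le_of_dvd (by norm_num) h'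
      omega
    have h4 : (4 : ZMod p) ≠ 0 := by
      have : (4 : ZMod p) = 2 * 2 := by norm_num
      rw [this]
      exact mul_ne_zero h2 h2
    have e0 : (1 + Phi2.E (ZMod p)).fst.fst = 2 := by simp; norm_num
    have e1 : (1 + Phi2.E (ZMod p)).fst.snd = 1 := by simp
    have e2 : (1 + Phi2.E (ZMod p)).snd.fst = 1 := by simp
    have e3 : (1 + Phi2.E (ZMod p)).snd.snd = 1 := by simp
    unfold Phi2.phiOf
    rw [e0, e1, e2, e3]
    field_simp
    norm_num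

end Fermat.Agent.S14
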