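import Mathlib

/-!
# S14 / K1b (abstract part): multiplicity one (`mult_one`)

Pure linear algebra.  `g` acts on a free `ℤ`-module `M` of rank `m - 1`, is killed by
`1 + X + ⋯ + X^(m-1)` and by no nonzero integer polynomial of degree `≤ m - 2`.  Then the
characteristic polynomial of `g` is `1 + X + ⋯ + X^(m-1)`, which is separable modulo a prime
`p ≡ 1 mod m`; hence every eigenspace of `g` on `M / pM` is at most one-dimensional.
-/

set_option autoImplicit false

open Polynomial

namespace Fermat.Agent.S14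

namespace MultOne

/-- The polynomial `1 + X + ⋯ + X^(m-1)`. -/
noncomputable def geomPoly (R : Type) [CommRing R] (m : ℕ) : R[X] := ∑ j ∈ Finset.range m, X ^ j

lemma geomPoly_mul (R : Type) [CommRing R] (m : ℕ) : geomPoly R m * (X - 1) = X ^ m - 1 := by
  unfold geomPoly
  exact geom_sum_mul X m

lemma geomPoly_map (R S : Type) [CommRing R] [CommRing S] (f : R →+* S) (m : ℕ) :
    (geomPoly R m).map f = geomPoly S m := by
  simp [geomPoly, Polynomial.map_sum]

lemma geomPoly_coeff (R : Type) [CommRing R] (m k : ℕ) :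
    (geomPoly R m).coeff k = if k < m then 1 else 0 := by
  unfold geomPoly
  rw [Polynomial.finsetSum_coeff]
  simp [Polynomial.coeff_X_pow, Finset.sum_ite_eq, Finset.mem_range]

/-- The characteristic polynomial of `g` is `1 + X + ⋯ + X^(m-1)`. -/
lemma charpoly_eq_geomPoly {M : Type} [AddCommGroup M] [Module.Free ℤ M] [Module.Finite ℤ M]
    (g : M →ₗ[ℤ] M) (m : ℕ) (hm : 2 ≤ m)
    (hrank : Module.finrank ℤ M = m - 1)
    (hnorm : ∑ j ∈ Finset.range m, g ^ j = 0)
    (hNR : ∀ c : Fin (m - 1) → ℤ, (∑ j : Fin (m - 1), c j • g ^ (j : ℕ)) = 0 → c = 0) :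
    g.charpoly = geomPoly ℤ m := by
  have hmon : g.charpoly.Monic := LinearMap.charpoly_monic g
  have hdeg : g.charpoly.natDegree = m - 1 := by rw [LinearMap.charpoly_natDegree, hrank]
  set D : ℤ[X] := g.charpoly - geomPoly ℤ m with hD
  have hcoeff : ∀ N : ℕ, m - 2 < N → D.coeff N = 0 := by
    intro N hN
    rw [hD, Polynomial.coeff_sub, geomPoly_coeff]
    rcases Nat.lt_or_ge N m with h | h
    · have hN' : N = m - 1 := by omega
      rw [if_pos h, hN', ← hdeg, hmon.coeff_natDegree, sub_self]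
    · rw [if_neg (by omega), sub_zero]
      exact Polynomial.coeff_eq_zero_of_natDegree_lt (by omega)
  have hDdeg : D.natDegree < m - 1 :=
    lt_of_le_of_lt (Polynomial.natDegree_le_iff_coeff_eq_zero.mpr hcoeff) (by omega)
  have haeval : aeval g D = 0 := by
    rw [hD, map_sub, LinearMap.aeval_self_charpoly]
    simp [geomPoly, map_sum, hnorm]
  rw [Polynomial.aeval_eq_sum_range' hDdeg, Finset.sum_range] at haeval
  have hc := hNR (fun j => D.coeff j) haeval
  have hD0 : D = 0 := by
    ext N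
    rcases Nat.lt_or_ge N (m - 1) with h | h
    · simpa using congrFun hc ⟨N, h⟩
    · simpa using hcoeff N (by omega)
  exact sub_eq_zero.mp hD0

lemma geomPoly_separable (p m : ℕ) [Fact p.Prime] (hm : 2 ≤ m) (hpm : p % m = 1) :
    (geomPoly (ZMod p) m).Separable := by
  have hp : p.Prime := Fact.out
  have hndvd : ¬ p ∣ m := by
    intro h
    have hle : p ≤ m := Nat.le_of_dvd (by omega) h
    rcases Nat.lt_or_ge p m with h' | h'
    · rw [Nat.mod_eq_of_lt h'] at hpm
      exact hp.one_lt.ne' hpm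
    · have : p = m := le_antisymm hle h'
      rw [this, Nat.mod_self] at hpm
      omega
  have hsep : (X ^ m - C (1 : ZMod p)).Separable :=
    Polynomial.separable_X_pow_sub_C (1 : ZMod p)
      (by rwa [Ne, ZMod.natCast_eq_zero_iff]) one_ne_zero
  refine hsep.of_dvd ⟨X - 1, ?_⟩
  rw [map_one, geomPoly_mul]

/-- Reduction of the coordinates of `w` (in the chosen basis) modulo `p`. -/
noncomputable def red {M : Type} [AddCommGroup M] [Module.Free ℤ M] [Module.Finite ℤ M] (p : ℕ)
    (w : M) : Module.Free.ChooseBasisIndex ℤ M → ZMod p :=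
  fun i => (((Module.Free.chooseBasis ℤ M).repr w i : ℤ) : ZMod p)

section
variable {M : Type} [AddCommGroup M] [Module.Free ℤ M] [Module.Finite ℤ M] (p : ℕ)

lemma red_add (w w' : M) : red p (w + w') = red p w + red p w' := by
  funext i; simp [red]

lemma red_sub (w w' : M) : red p (w - w') = red p w - red p w' := by
  funext i; simp [red]

lemma red_zsmul (n : ℤ) (w : M) : red p (n • w) = (n : ZMod p) • red p w := by
  funext i; simp [red]

lemma red_p_smul (w : M) : red p ((p : ℤ) • w) = 0 := by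
  rw [red_zsmul]; simp

lemma red_eq_zero_iff [Fact p.Prime] (w : M) : red p w = 0 ↔ ∃ z : M, w = (p : ℤ) • z := by
  constructor
  · intro h
    let b := Module.Free.chooseBasis ℤ M
    refine ⟨b.equivFun.symm (fun i => b.repr w i / (p : ℤ)), ?_⟩
    apply b.repr.injective
    ext i
    have hi : (p : ℤ) ∣ b.repr w i := by
      have := congrFun h i
      simpa [red, ZMod.intCast_zmod_eq_zero_iff_dvd] using this
    rw [map_smul]
    simp only [Finsupp.smul_apply, smul_eq_mul]
    have h1 : ⇑(b.repr (b.equivFun.symm fun i => b.repr w i / (p : ℤ))) =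
        fun i => b.repr w i / (p : ℤ) := by
      rw [← Module.Basis.equivFun_apply, LinearEquiv.apply_symm_apply]
    rw [h1]
    exact (Int.mul_ediv_cancel' hi).symm
  · rintro ⟨z, rfl⟩
    exact red_p_smul p z

lemma red_map (g : M →ₗ[ℤ] M) (w : M) :
    red p (g w) = ((LinearMap.toMatrix (Module.Free.chooseBasis ℤ M)
      (Module.Free.chooseBasis ℤ M) g).map (Int.castRingHom (ZMod p))).mulVec (red p w) := by
  funext i
  have h := LinearMap.toMatrix_mulVec_repr (Module.Free.chooseBasis ℤ M)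
    (Module.Free.chooseBasis ℤ M) g w
  have h2 := RingHom.map_mulVec (Int.castRingHom (ZMod p))
    (LinearMap.toMatrix (Module.Free.chooseBasis ℤ M) (Module.Free.chooseBasis ℤ M) g)
    (fun j => (Module.Free.chooseBasis ℤ M).repr w j) i
  simp only [red]
  rw [← h]
  exact h2

end

end MultOne

open MultOne in
/-- MULT1 (pure linear algebra). -/
theorem mult_one {M : Type} [AddCommGroup M] [Module.Free ℤ M] [Module.Finite ℤ M]
    (g : M →ₗ[ℤ] M) (m p : ℕ) [Fact p.Prime] (hm : 2 ≤ m) (hpm : p % m = 1)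
    (hrank : Module.finrank ℤ M = m - 1)
    (hnorm : ∑ j ∈ Finset.range m, g ^ j = 0)
    (hNR : ∀ c : Fin (m - 1) → ℤ, (∑ j : Fin (m - 1), c j • g ^ (j : ℕ)) = 0 → c = 0)
    (t : ℤ) (x y : M)
    (hx : ∃ z : M, g x - t • x = (p : ℤ) • z) (hy : ∃ z : M, g y - t • y = (p : ℤ) • z)
    (hx0 : ¬ ∃ z : M, x = (p : ℤ) • z) :
    ∃ (j : ℤ) (z : M), y - j • x = (p : ℤ) • z := by
  classical
  set A := LinearMap.toMatrix (Module.Free.chooseBasis ℤ M) (Module.Free.chooseBasis ℤ M) g
    with hA
  set Abar := A.map (Int.castRingHom (ZMod p)) with hAbar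
  set φ : (Module.Free.ChooseBasisIndex ℤ M → ZMod p) →ₗ[ZMod p]
      (Module.Free.ChooseBasisIndex ℤ M → ZMod p) := Matrix.toLin' Abar with hφ
  have hchar : φ.charpoly = geomPoly (ZMod p) m := by
    rw [hφ, Matrix.charpoly_toLin', hAbar, Matrix.charpoly_map,
      ← geomPoly_map ℤ (ZMod p) (Int.castRingHom _) m,
      ← charpoly_eq_geomPoly g m hm hrank hnorm hNR]
    rfl
  have hmult : φ.charpoly.rootMultiplicity (t : ZMod p) ≤ 1 := by
    rw [hchar]
    exact rootMultiplicity_le_one_of_separable (geomPoly_separable p m hm hpm) _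
  have hfin : Module.finrank (ZMod p) (Module.End.eigenspace φ (t : ZMod p)) ≤ 1 :=
    (LinearMap.finrank_eigenspace_le φ _).trans hmult
  have hmem : ∀ w : M, (∃ z : M, g w - t • w = (p : ℤ) • z) →
      red p w ∈ Module.End.eigenspace φ (t : ZMod p) := by
    rintro w ⟨z, hz⟩
    rw [Module.End.mem_eigenspace_iff, hφ, Matrix.toLin'_apply, hAbar, hA, ← red_map]
    have h1 : g w = t • w + (p : ℤ) • z := by rw [← hz]; abel
    rw [h1, red_add, red_zsmul, red_p_smul, add_zero]
  obtain ⟨v, hv⟩ := finrank_le_one_iff.mp hfin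
  obtain ⟨a, ha⟩ := hv ⟨red p x, hmem x hx⟩
  obtain ⟨c, hc⟩ := hv ⟨red p y, hmem y hy⟩
  have hxne : red p x ≠ 0 := fun h => hx0 ((red_eq_zero_iff p x).mp h)
  have ha0 : a ≠ 0 := by
    rintro rfl
    rw [zero_smul] at ha
    exact hxne (congrArg Subtype.val ha).symm
  have hxy : red p y = (c * a⁻¹) • red p x := by
    have ha' : a • (v : Module.Free.ChooseBasisIndex ℤ M → ZMod p) = red p x :=
      congrArg Subtype.val ha
    have hc' : c • (v : Module.Free.ChooseBasisIndex ℤ M → ZMod p) = red p y :=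
      congrArg Subtype.val hc
    rw [← ha', ← hc', smul_smul, mul_assoc, inv_mul_cancel₀ ha0, mul_one]
  refine ⟨((c * a⁻¹).val : ℤ), ?_⟩
  refine (red_eq_zero_iff p _).mp ?_
  rw [red_sub, red_zsmul, hxy]
  simp
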