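import Mathlib

/-!
# S14 / K1b (units, part 1): no multiplicative relation (`units_no_relation`)

`K = ℚ(ζ_p)`, `g` a generator of `Gal(K/ℚ)`, `m = (p-1)/2`.  If for every unit `u` the product
`∏_{j < m-1} (g^j u)^(c_j)` is a root of unity, then `c = 0`.  Proof: the places
`w₀ ∘ g^(j-(m-1))`, `j < m - 1`, are pairwise distinct and different from the distinguished
place `w₀` of Mathlib's `logSpace`; the relation gives a linear functional on `logSpace K`
vanishing on the unit lattice, which spans `logSpace K` (Dirichlet's unit theorem).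
-/

set_option autoImplicit false

open scoped NumberField
open NumberField NumberField.InfinitePlace NumberField.Units NumberField.Units.dirichletUnitTheorem

namespace Fermat.Agent.S14

namespace UnitsRel

section General

variable {K : Type} [Field K] [NumberField K]

/-- The place `w ∘ σ`. -/
noncomputable def placeComap (w : InfinitePlace K) (σ : K ≃ₐ[ℚ] K) : InfinitePlace K :=
  w.comap (σ : K →+* K)

lemma placeComap_apply (w : InfinitePlace K) (σ : K ≃ₐ[ℚ] K) (x : K) :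
    placeComap w σ x = w (σ x) := rfl

lemma placeComap_mul (w : InfinitePlace K) (σ τ : K ≃ₐ[ℚ] K) :
    placeComap (placeComap w σ) τ = placeComap w (σ * τ) := by
  apply InfinitePlace.ext
  intro x
  simp [placeComap_apply, AlgEquiv.mul_apply]

lemma placeComap_one (w : InfinitePlace K) : placeComap w 1 = w := by
  apply InfinitePlace.ext
  intro x
  simp [placeComap_apply]

/-- An automorphism fixing an infinite place is an involution. -/
lemma mul_self_eq_one_of_placeComap_eq (w : InfinitePlace K) (σ : K ≃ₐ[ℚ] K)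
    (h : placeComap w σ = w) : σ * σ = 1 := by
  obtain ⟨φ, rfl⟩ : ∃ φ : K →+* ℂ, InfinitePlace.mk φ = w := ⟨w.embedding, mk_embedding w⟩
  unfold placeComap at h
  rw [InfinitePlace.comap_mk, InfinitePlace.mk_eq_iff] at h
  apply AlgEquiv.ext
  intro x
  rw [AlgEquiv.mul_apply, AlgEquiv.one_apply]
  apply φ.injective
  rcases h with h | h
  · have h1 : ∀ y : K, φ (σ y) = φ y := fun y => by
      simpa using congrArg (fun f : K →+* ℂ => f y) h
    rw [h1, h1]
  · have h1 : ∀ y : K, (starRingEnd ℂ) (φ (σ y)) = φ y := fun y => by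
      simpa [ComplexEmbedding.conjugate_coe_eq] using congrArg (fun f : K →+* ℂ => f y) h
    have h2 := h1 (σ x)
    have h3 := h1 x
    rw [← h3, ← h2, Complex.conj_conj]


/-- A real linear functional on `logSpace K` vanishing on the logarithmic embedding of all
units is zero. -/
lemma functional_eq_zero (F : logSpace K →ₗ[ℝ] ℝ)
    (h : ∀ u : (𝓞 K)ˣ, F (logEmbedding K (Additive.ofMul u)) = 0) : F = 0 := by
  have h1 : (unitLattice K : Set (logSpace K)) ⊆ LinearMap.ker F := by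
    rintro x ⟨y, -, rfl⟩
    exact h (Additive.toMul y)
  have h2 := Submodule.span_le.mpr h1
  rw [unitLattice_span_eq_top] at h2
  exact LinearMap.ker_eq_top.mp (top_le_iff.mp h2)

/-- Distinct places different from `w₀` are "independent on units". -/
lemma coeff_eq_zero_of_sum_log {ι : Type} [Fintype ι] (W : ι → InfinitePlace K)
    (hW : Function.Injective W) (hW0 : ∀ i, W i ≠ w₀) (c : ι → ℤ)
    (h : ∀ u : (𝓞 K)ˣ, ∑ j : ι, (c j : ℝ) * Real.log (W j ((u : 𝓞 K) : K)) = 0) : c = 0 := by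
  classical
  let F : logSpace K →ₗ[ℝ] ℝ :=
    ∑ j : ι, ((c j : ℝ) / (mult (W j) : ℝ)) •
      (LinearMap.proj (⟨W j, hW0 j⟩ : {w : InfinitePlace K // w ≠ w₀}) : logSpace K →ₗ[ℝ] ℝ)
  have hF : F = 0 := by
    apply functional_eq_zero
    intro u
    rw [← h u]
    simp only [F, LinearMap.sum_apply, LinearMap.smul_apply, LinearMap.proj_apply,
      logEmbedding_component, smul_eq_mul]
    refine Finset.sum_congr rfl fun j _ => ?_
    have hm : (mult (W j) : ℝ) ≠ 0 := by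
      exact_mod_cast mult_ne_zero
    field_simp
  funext i
  have h1 := congrArg (fun G : logSpace K →ₗ[ℝ] ℝ =>
    G (Pi.single (⟨W i, hW0 i⟩ : {w : InfinitePlace K // w ≠ w₀}) (1 : ℝ))) hF
  simp only [F, LinearMap.sum_apply, LinearMap.smul_apply, LinearMap.proj_apply, smul_eq_mul,
    LinearMap.zero_apply] at h1
  rw [Finset.sum_eq_single i] at h1
  · have hm : (mult (W i) : ℝ) ≠ 0 := by
      exact_mod_cast mult_ne_zero
    rw [Pi.single_eq_same, mul_one, div_eq_zero_iff] at h1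
    rcases h1 with h1 | h1
    · simpa using h1
    · exact absurd h1 hm
  · intro j _ hji
    rw [Pi.single_eq_of_ne, mul_zero]
    intro hEq
    exact hji (hW (congrArg Subtype.val hEq))
  · intro hi
    exact absurd (Finset.mem_univ i) hi

end General

section Cyclo

variable (p : ℕ) [Fact p.Prime] (K : Type) [Field K] [NumberField K]
  [IsCyclotomicExtension {p} ℚ K]

lemma orderOf_gen (g : K ≃ₐ[ℚ] K) (hg : ∀ σ : K ≃ₐ[ℚ] K, σ ∈ Subgroup.zpowers g) :
    orderOf g = p - 1 := by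
  have : NeZero p := ⟨(Fact.out : p.Prime).ne_zero⟩
  have htop : Subgroup.zpowers g = ⊤ := by
    ext σ; simp [hg σ]
  rw [← Nat.card_zpowers, htop, Subgroup.card_top,
    Nat.card_congr (IsCyclotomicExtension.Rat.galEquivZMod p K).toEquiv,
    Nat.card_eq_fintype_card, ZMod.card_units p]

/-- If `w ∘ g^k = w` then `(p-1)/2` divides `k`. -/
lemma dvd_of_placeComap_zpow_eq (hp : 5 ≤ p) (g : K ≃ₐ[ℚ] K)
    (hg : ∀ σ : K ≃ₐ[ℚ] K, σ ∈ Subgroup.zpowers g) (w : InfinitePlace K) (k : ℤ)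
    (h : placeComap w (g ^ k) = w) : (((p - 1) / 2 : ℕ) : ℤ) ∣ k := by
  have hp' : p.Prime := Fact.out
  have hodd : p % 2 = 1 := by
    rcases hp'.eq_two_or_odd with h2 | h2
    · omega
    · exact h2
  have h1 := mul_self_eq_one_of_placeComap_eq w (g ^ k) h
  rw [← zpow_add, ← two_mul, ← orderOf_dvd_iff_zpow_eq_one, orderOf_gen p K g hg] at h1
  have h2 : ((p - 1 : ℕ) : ℤ) = 2 * (((p - 1) / 2 : ℕ) : ℤ) := by
    have : p - 1 = 2 * ((p - 1) / 2) := by omega
    exact_mod_cast this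
  rw [h2] at h1
  exact (mul_dvd_mul_iff_left (by norm_num : (2 : ℤ) ≠ 0)).mp h1

/-- If `w ∘ g^k = w ∘ g^k'` then `(p-1)/2` divides `k - k'`. -/
lemma dvd_of_placeComap_zpow_eq' (hp : 5 ≤ p) (g : K ≃ₐ[ℚ] K)
    (hg : ∀ σ : K ≃ₐ[ℚ] K, σ ∈ Subgroup.zpowers g) (w : InfinitePlace K) (k k' : ℤ)
    (h : placeComap w (g ^ k) = placeComap w (g ^ k')) : (((p - 1) / 2 : ℕ) : ℤ) ∣ k - k' := by
  apply dvd_of_placeComap_zpow_eq p K hp g hg w
  have h1 := congrArg (fun v => placeComap v (g ^ (-k'))) h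
  simp only [placeComap_mul, ← zpow_add] at h1
  rw [add_neg_cancel, zpow_zero, placeComap_one] at h1
  rw [sub_eq_add_neg]
  exact h1

/-- The exponent `j - (m - 1)`, `m = (p-1)/2`. -/
def expo (j : Fin ((p - 1) / 2 - 1)) : ℤ := (j : ℤ) - (((p - 1) / 2 - 1 : ℕ) : ℤ)

/-- The places `w₀ ∘ g^(j-(m-1))`. -/
noncomputable def plc (g : K ≃ₐ[ℚ] K) (j : Fin ((p - 1) / 2 - 1)) : InfinitePlace K :=
  placeComap (w₀ : InfinitePlace K) (g ^ expo p j)

lemma plc_ne_w₀ (hp : 5 ≤ p) (g : K ≃ₐ[ℚ] K)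
    (hg : ∀ σ : K ≃ₐ[ℚ] K, σ ∈ Subgroup.zpowers g) (j : Fin ((p - 1) / 2 - 1)) :
    plc p K g j ≠ w₀ := by
  intro h
  have h1 := dvd_of_placeComap_zpow_eq p K hp g hg w₀ (expo p j) h
  have hj := j.isLt
  have h2 : (((p - 1) / 2 : ℕ) : ℤ) ≤ - expo p j := by
    apply Int.le_of_dvd
    · unfold expo; omega
    · exact (dvd_neg).mpr h1
  unfold expo at h2
  omega

lemma plc_injective (hp : 5 ≤ p) (g : K ≃ₐ[ℚ] K)
    (hg : ∀ σ : K ≃ₐ[ℚ] K, σ ∈ Subgroup.zpowers g) :
    Function.Injective (plc p K g) := by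
  intro j j' h
  have h1 := dvd_of_placeComap_zpow_eq' p K hp g hg w₀ (expo p j) (expo p j') h
  have hj := j.isLt
  have hj' := j'.isLt
  have h2 : expo p j - expo p j' = 0 := by
    apply Int.eq_zero_of_abs_lt_dvd h1
    unfold expo
    rw [abs_lt]
    constructor <;> omega
  unfold expo at h2
  apply Fin.ext
  omega

omit [Fact p.Prime] [IsCyclotomicExtension {p} ℚ K] in
/-- The relation on logarithms. -/
lemma sum_log_eq_zero (g : K ≃ₐ[ℚ] K) (c : Fin ((p - 1) / 2 - 1) → ℤ) (u : (𝓞 K)ˣ)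
    (hc : ∃ n : ℕ, n ≠ 0 ∧
      (∏ j : Fin ((p - 1) / 2 - 1), ((g ^ (j : ℕ)) ((u : 𝓞 K) : K)) ^ (c j)) ^ n = 1) :
    ∑ j : Fin ((p - 1) / 2 - 1), (c j : ℝ) * Real.log (plc p K g j ((u : 𝓞 K) : K)) = 0 := by
  obtain ⟨n, hn, hprod⟩ := hc
  set w' : InfinitePlace K :=
    placeComap (w₀ : InfinitePlace K) (g ^ (-(((p - 1) / 2 - 1 : ℕ) : ℤ))) with hw'
  have hu : ((u : 𝓞 K) : K) ≠ 0 := by
    simp
  have hval : ∀ j : Fin ((p - 1) / 2 - 1),
      w' ((g ^ (j : ℕ)) ((u : 𝓞 K) : K)) = plc p K g j ((u : 𝓞 K) : K) := by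
    intro j
    rw [hw', plc, placeComap_apply, placeComap_apply, ← AlgEquiv.mul_apply, ← zpow_natCast,
      ← zpow_add]
    congr 3
    unfold expo
    ring
  have h1 := congrArg w' hprod
  rw [map_pow, map_prod, map_one] at h1
  have hnonneg : 0 ≤ ∏ j : Fin ((p - 1) / 2 - 1), w' (((g ^ (j : ℕ)) ((u : 𝓞 K) : K)) ^ (c j)) :=
    Finset.prod_nonneg fun j _ => apply_nonneg w' _
  have h2 := (pow_eq_one_iff_of_nonneg hnonneg hn).mp h1
  have h3 := congrArg Real.log h2
  rw [Real.log_one, Real.log_prod] at h3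
  · rw [← h3]
    refine Finset.sum_congr rfl fun j _ => ?_
    rw [map_zpow₀, Real.log_zpow, hval]
  · intro j _
    rw [map_zpow₀, hval]
    apply zpow_ne_zero
    exact (InfinitePlace.pos_iff.mpr hu).ne'

end Cyclo

end UnitsRel

open UnitsRel in
/-- NR : no nontrivial multiplicative relation among `m - 1 = (p-3)/2` consecutive conjugates. -/
theorem units_no_relation {p : ℕ} [Fact p.Prime] (hp : 5 ≤ p) (K : Type) [Field K] [NumberField K]
    [IsCyclotomicExtension {p} ℚ K] (g : K ≃ₐ[ℚ] K)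
    (hg : ∀ σ : K ≃ₐ[ℚ] K, σ ∈ Subgroup.zpowers g)
    (c : Fin ((p - 1) / 2 - 1) → ℤ)
    (hc : ∀ u : (𝓞 K)ˣ, ∃ n : ℕ, n ≠ 0 ∧
      (∏ j : Fin ((p - 1) / 2 - 1), ((g ^ (j : ℕ)) ((u : 𝓞 K) : K)) ^ (c j)) ^ n = 1) : c = 0 :=
  coeff_eq_zero_of_sum_log (plc p K g) (plc_injective p K hp g hg) (plc_ne_w₀ p K hp g hg) c
    (fun u => sum_log_eq_zero p K g c u (hc u))

end Fermat.Agent.S14
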