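import Fermat.Agent.S14.Defs
import Fermat.Agent.S14.MultOne
import Fermat.Agent.S14.UnitsRel

set_option autoImplicit false
set_option maxSynthPendingDepth 3
set_option linter.unusedSectionVars false

open scoped NumberField
open NumberField NumberField.InfinitePlace NumberField.Units

namespace Fermat.Agent.S14

namespace UnitsMult

section General

variable (K : Type) [Field K] [NumberField K]

/-- The coercion `(𝓞 K)ˣ → K` as a monoid hom. -/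
noncomputable def toK : (𝓞 K)ˣ →* K :=
  ((algebraMap (𝓞 K) K : 𝓞 K →+* K) : 𝓞 K →* K).comp (Units.coeHom (𝓞 K))

lemma toK_apply (u : (𝓞 K)ˣ) : toK K u = ((u : 𝓞 K) : K) := rfl

lemma toK_injective : Function.Injective (toK K) := by
  intro u v h
  apply Units.ext
  exact RingOfIntegers.coe_injective h

lemma toK_ne_zero (u : (𝓞 K)ˣ) : toK K u ≠ 0 := by
  rw [toK_apply]
  simp

/-- The action of an automorphism on the unit group. -/
noncomputable def actU (σ : K ≃ₐ[ℚ] K) : (𝓞 K)ˣ →* (𝓞 K)ˣ :=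
  Units.map ((MulSemiringAction.toRingHom (K ≃ₐ[ℚ] K) (𝓞 K) σ : 𝓞 K →+* 𝓞 K) : 𝓞 K →* 𝓞 K)

lemma toK_actU (σ : K ≃ₐ[ℚ] K) (u : (𝓞 K)ˣ) : toK K (actU K σ u) = σ (toK K u) := rfl

lemma coe_actU (σ : K ≃ₐ[ℚ] K) (u : (𝓞 K)ˣ) : ((actU K σ u : (𝓞 K)ˣ) : 𝓞 K) = σ • (u : 𝓞 K) := rfl

lemma actU_mul (σ τ : K ≃ₐ[ℚ] K) (u : (𝓞 K)ˣ) : actU K (σ * τ) u = actU K σ (actU K τ u) := by
  apply toK_injective
  simp [toK_actU, AlgEquiv.mul_apply]

lemma actU_one (u : (𝓞 K)ˣ) : actU K 1 u = u := by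
  apply toK_injective
  simp [toK_actU]

lemma actU_mem_torsion (σ : K ≃ₐ[ℚ] K) {u : (𝓞 K)ˣ} (hu : u ∈ torsion K) :
    actU K σ u ∈ torsion K := by
  unfold torsion at hu ⊢
  rw [CommGroup.mem_torsion] at hu ⊢
  exact (actU K σ).isOfFinOrder hu

/-- The action on units modulo torsion. -/
noncomputable def actQ (σ : K ≃ₐ[ℚ] K) : (𝓞 K)ˣ ⧸ torsion K →* (𝓞 K)ˣ ⧸ torsion K :=
  QuotientGroup.map (torsion K) (torsion K) (actU K σ) (fun _ hu => actU_mem_torsion K σ hu)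

/-- The class of a unit in `M = Additive (E / torsion)`. -/
noncomputable def cls (u : (𝓞 K)ˣ) : Additive ((𝓞 K)ˣ ⧸ torsion K) :=
  Additive.ofMul (QuotientGroup.mk u)

lemma cls_surjective : Function.Surjective (cls K) := by
  intro x
  obtain ⟨u, hu⟩ := QuotientGroup.mk_surjective (Additive.toMul x)
  exact ⟨u, by simp [cls, hu]⟩

lemma cls_mul (u v : (𝓞 K)ˣ) : cls K (u * v) = cls K u + cls K v := rfl

lemma cls_one : cls K 1 = 0 := rfl

lemma cls_inv (u : (𝓞 K)ˣ) : cls K u⁻¹ = - cls K u := rfl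

lemma cls_pow (u : (𝓞 K)ˣ) (n : ℕ) : cls K (u ^ n) = n • cls K u := rfl

lemma cls_zpow (u : (𝓞 K)ˣ) (n : ℤ) : cls K (u ^ n) = n • cls K u := rfl

lemma cls_eq_zero_iff (u : (𝓞 K)ˣ) : cls K u = 0 ↔ u ∈ torsion K := by
  unfold cls
  rw [← ofMul_one, Additive.ofMul.injective.eq_iff, QuotientGroup.eq_one_iff]

lemma cls_prod {ι : Type} (s : Finset ι) (f : ι → (𝓞 K)ˣ) :
    cls K (∏ j ∈ s, f j) = ∑ j ∈ s, cls K (f j) := by
  classical
  induction s using Finset.induction_on with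
  | empty => simp [cls_one]
  | insert a s ha ih => rw [Finset.prod_insert ha, Finset.sum_insert ha, cls_mul, ih]

/-- The action on `M` as a monoid hom into the endomorphism ring. -/
noncomputable def actM : (K ≃ₐ[ℚ] K) →* Module.End ℤ (Additive ((𝓞 K)ˣ ⧸ torsion K)) where
  toFun σ := (MonoidHom.toAdditive (actQ K σ)).toIntLinearMap
  map_one' := by
    apply LinearMap.ext
    intro x
    obtain ⟨u, rfl⟩ := cls_surjective K x
    change cls K (actU K 1 u) = cls K u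
    rw [actU_one]
  map_mul' σ τ := by
    apply LinearMap.ext
    intro x
    obtain ⟨u, rfl⟩ := cls_surjective K x
    change cls K (actU K (σ * τ) u) = cls K (actU K σ (actU K τ u))
    rw [actU_mul]

lemma actM_cls (σ : K ≃ₐ[ℚ] K) (u : (𝓞 K)ˣ) : actM K σ (cls K u) = cls K (actU K σ u) := rfl


lemma toK_inv (u : (𝓞 K)ˣ) : toK K u⁻¹ = (toK K u)⁻¹ := by
  apply eq_inv_of_mul_eq_one_left
  rw [← map_mul, inv_mul_cancel, map_one]

lemma isOfFinOrder_toK {u : (𝓞 K)ˣ} (hu : u ∈ torsion K) : IsOfFinOrder (toK K u) := by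
  unfold torsion at hu
  rw [CommGroup.mem_torsion] at hu
  exact (toK K).isOfFinOrder hu

lemma mult_placeComap (w : InfinitePlace K) (σ : K ≃ₐ[ℚ] K) :
    (UnitsRel.placeComap w σ).mult = w.mult := by
  have h : (UnitsRel.placeComap w σ).IsReal ↔ w.IsReal :=
    InfinitePlace.isReal_comap_iff (σ.toRingEquiv)
  unfold InfinitePlace.mult
  by_cases hw : w.IsReal
  · rw [if_pos hw, if_pos (h.mpr hw)]
  · rw [if_neg hw, if_neg (fun h' => hw (h.mp h'))]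

end General

section Cyclo

variable (p : ℕ) [Fact p.Prime] (K : Type) [Field K] [NumberField K]
  [IsCyclotomicExtension {p} ℚ K]

/-- Every root of unity of `ℚ(ζ_p)` is a `2p`-th root of unity. -/
lemma pow_two_mul_eq_one (hp : 5 ≤ p) {x : K} (hx : IsOfFinOrder x) : x ^ (2 * p) = 1 := by
  have hp' : p.Prime := Fact.out
  have : NeZero p := ⟨hp'.ne_zero⟩
  have hodd : Odd p := hp'.odd_of_ne_two (by omega)
  have hζ := IsCyclotomicExtension.zeta_spec p ℚ K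
  obtain ⟨r, -, h | h⟩ := hζ.exists_pow_or_neg_mul_pow_of_isOfFinOrder hodd hx
  · rw [h, ← pow_mul, show r * (2 * p) = p * (2 * r) by ring, pow_mul, hζ.pow_eq_one, one_pow]
  · rw [h, pow_mul, neg_sq, ← pow_mul, ← pow_mul, show r * (2 * p) = p * (2 * r) by ring, pow_mul,
      hζ.pow_eq_one, one_pow]

/-- A root of unity `τ` with `σ τ = τ⁴ yᵖ` for some `σ` with `χ(σ) = 2` satisfies `τ² = 1`. -/
lemma sq_eq_one_of_type (hp : 5 ≤ p) (σ : K ≃ₐ[ℚ] K) (hσ : chi p K σ = 2) {τ y : K}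
    (hτ : IsOfFinOrder τ) (h : σ τ = τ ^ 4 * y ^ p) : τ ^ 2 = 1 := by
  have hp' : p.Prime := Fact.out
  have : NeZero p := ⟨hp'.ne_zero⟩
  have hτ0 : τ ≠ 0 := by
    rintro rfl
    have := pow_two_mul_eq_one p K hp hτ
    rw [zero_pow (by omega)] at this
    exact zero_ne_one this
  set a : K := τ ^ 2 with ha
  have ha0 : a ≠ 0 := pow_ne_zero _ hτ0
  have hap : a ^ p = 1 := by rw [ha, ← pow_mul]; exact pow_two_mul_eq_one p K hp hτ
  have hσa : σ a = a ^ 2 := by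
    have := IsCyclotomicExtension.Rat.galEquivZMod_apply_of_pow_eq p K σ hap
    rw [this]
    congr 1
  have h1 : a ^ 2 = a ^ 4 * y ^ (2 * p) := by
    rw [← hσa, ha, map_pow, h]
    ring
  have h2 : y ^ (2 * p) * a ^ 2 = 1 := by
    have h3 : a ^ 2 * (y ^ (2 * p) * a ^ 2) = a ^ 2 * 1 := by
      rw [mul_one]; nth_rw 3 [h1]; ring
    exact mul_left_cancel₀ (pow_ne_zero _ ha0) h3
  have hy : IsOfFinOrder y := by
    rw [isOfFinOrder_iff_pow_eq_one]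
    refine ⟨2 * p * p, by positivity, ?_⟩
    have h3 : (y ^ (2 * p) * a ^ 2) ^ p = 1 := by rw [h2, one_pow]
    rw [mul_pow, ← pow_mul, ← pow_mul, mul_comm 2 p, pow_mul a, hap, one_pow, mul_one] at h3
    rw [← h3]
    ring
  have hy2 := pow_two_mul_eq_one p K hp hy
  rw [hy2, one_mul] at h2
  have h4 : a ^ Nat.gcd 2 p = 1 := pow_gcd_eq_one.mpr ⟨h2, hap⟩
  have h5 : Nat.gcd 2 p = 1 := by
    rw [Nat.coprime_comm.mp]
    exact (Nat.coprime_primes hp' Nat.prime_two).mpr (by omega)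
  rwa [h5, pow_one] at h4

include p in
lemma exists_gen : ∃ g : K ≃ₐ[ℚ] K, ∀ σ : K ≃ₐ[ℚ] K, σ ∈ Subgroup.zpowers g := by
  have : NeZero p := ⟨(Fact.out : p.Prime).ne_zero⟩
  have : IsCyclic (K ≃ₐ[ℚ] K) :=
    isCyclic_of_surjective (IsCyclotomicExtension.Rat.galEquivZMod p K).symm
      (IsCyclotomicExtension.Rat.galEquivZMod p K).symm.surjective
  exact IsCyclic.exists_generator

lemma exists_chi_two (hp : 5 ≤ p) : ∃ σ : K ≃ₐ[ℚ] K, chi p K σ = 2 := by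
  have hp' : p.Prime := Fact.out
  have : NeZero p := ⟨hp'.ne_zero⟩
  have h2 : ((2 : ℕ) : ZMod p) ≠ 0 := by
    rw [Ne, ZMod.natCast_eq_zero_iff]
    intro h
    have := Nat.le_of_dvd (by norm_num) h
    omega
  refine ⟨(IsCyclotomicExtension.Rat.galEquivZMod p K).symm (Units.mk0 _ h2), ?_⟩
  unfold chi
  rw [MulEquiv.apply_symm_apply, Units.val_mk0, ZMod.val_natCast, Nat.mod_eq_of_lt (by omega)]

lemma card_infinitePlace (hp : 5 ≤ p) : Fintype.card (InfinitePlace K) = (p - 1) / 2 := by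
  have hp' : p.Prime := Fact.out
  have : NeZero p := ⟨hp'.ne_zero⟩
  rw [card_eq_nrRealPlaces_add_nrComplexPlaces,
    IsCyclotomicExtension.Rat.nrRealPlaces_eq_zero K (by omega : 2 < p),
    IsCyclotomicExtension.Rat.nrComplexPlaces_eq_totient_div_two p K, Nat.totient_prime hp',
    zero_add]


/-- The product of the first `(p-1)/2` conjugates of a unit is a root of unity. -/
lemma prod_actU_mem_torsion (hp : 5 ≤ p) (g : K ≃ₐ[ℚ] K)
    (hg : ∀ σ : K ≃ₐ[ℚ] K, σ ∈ Subgroup.zpowers g) (u : (𝓞 K)ˣ) :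
    ∏ j ∈ Finset.range ((p - 1) / 2), actU K (g ^ j) u ∈ torsion K := by
  rw [mem_torsion]
  intro w
  have hcoe : (algebraMap (𝓞 K) K)
      ((∏ j ∈ Finset.range ((p - 1) / 2), actU K (g ^ j) u : (𝓞 K)ˣ) : 𝓞 K) =
      ∏ j ∈ Finset.range ((p - 1) / 2), (g ^ j) (toK K u) :=
    map_prod (toK K) (fun j => actU K (g ^ j) u) (Finset.range ((p - 1) / 2))
  rw [hcoe, map_prod]
  set x := toK K u with hx
  let f : Fin ((p - 1) / 2) → InfinitePlace K :=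
    fun j => UnitsRel.placeComap w (g ^ ((j : ℕ) : ℤ))
  have hf_inj : Function.Injective f := by
    intro j j' h
    have h1 := UnitsRel.dvd_of_placeComap_zpow_eq' p K hp g hg w _ _ h
    have hj := j.isLt
    have hj' := j'.isLt
    have h2 : ((j : ℕ) : ℤ) - ((j' : ℕ) : ℤ) = 0 := by
      apply Int.eq_zero_of_abs_lt_dvd h1
      rw [abs_lt]
      constructor <;> omega
    apply Fin.ext
    omega
  have hf_bij : Function.Bijective f :=
    (Fintype.bijective_iff_injective_and_card f).mpr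
      ⟨hf_inj, by rw [Fintype.card_fin, card_infinitePlace p K hp]⟩
  have hprod : ∏ w' : InfinitePlace K, w' x ^ w'.mult = 1 := by
    rw [prod_eq_abs_norm, hx, toK_apply, Units.norm]
    simp
  rw [← Fintype.prod_bijective f hf_bij (fun j => f j x ^ (f j).mult)
    (fun w' => w' x ^ w'.mult) (fun _ => rfl)] at hprod
  simp only [f, mult_placeComap] at hprod
  rw [Finset.prod_pow] at hprod
  have hnonneg : 0 ≤ ∏ j : Fin ((p - 1) / 2),
      (UnitsRel.placeComap w (g ^ ((j : ℕ) : ℤ))) x :=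
    Finset.prod_nonneg fun j _ => apply_nonneg _ _
  have h1 := (pow_eq_one_iff_of_nonneg hnonneg mult_ne_zero).mp hprod
  rw [Finset.prod_range]
  rw [← h1]
  refine Finset.prod_congr rfl fun j _ => ?_
  rw [UnitsRel.placeComap_apply, zpow_natCast]

/-- `1 + g + ⋯ + g^(m-1)` kills `M`. -/
lemma sum_actM_pow (hp : 5 ≤ p) (g : K ≃ₐ[ℚ] K)
    (hg : ∀ σ : K ≃ₐ[ℚ] K, σ ∈ Subgroup.zpowers g) :
    ∑ j ∈ Finset.range ((p - 1) / 2), (actM K g) ^ j = 0 := by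
  apply LinearMap.ext
  intro x
  obtain ⟨u, rfl⟩ := cls_surjective K x
  rw [LinearMap.sum_apply, LinearMap.zero_apply]
  have h1 : ∀ j ∈ Finset.range ((p - 1) / 2),
      ((actM K g) ^ j) (cls K u) = cls K (actU K (g ^ j) u) := by
    intro j _
    rw [← map_pow, actM_cls]
  rw [Finset.sum_congr rfl h1, ← cls_prod, cls_eq_zero_iff]
  exact prod_actU_mem_torsion p K hp g hg u

/-- No integer polynomial of degree `≤ m - 2` in `g` kills `M`. -/
lemma actM_no_relation (hp : 5 ≤ p) (g : K ≃ₐ[ℚ] K)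
    (hg : ∀ σ : K ≃ₐ[ℚ] K, σ ∈ Subgroup.zpowers g)
    (c : Fin ((p - 1) / 2 - 1) → ℤ)
    (h : (∑ j : Fin ((p - 1) / 2 - 1), c j • (actM K g) ^ (j : ℕ)) = 0) : c = 0 := by
  apply units_no_relation hp K g hg c
  intro u
  have h1 := congrArg (fun F : Module.End ℤ (Additive ((𝓞 K)ˣ ⧸ torsion K)) => F (cls K u)) h
  simp only [LinearMap.sum_apply, LinearMap.smul_apply, LinearMap.zero_apply] at h1
  have h2 : ∀ j : Fin ((p - 1) / 2 - 1),
      c j • ((actM K g) ^ (j : ℕ)) (cls K u) = cls K ((actU K (g ^ (j : ℕ)) u) ^ (c j)) := by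
    intro j
    rw [← map_pow, actM_cls, cls_zpow]
  rw [Finset.sum_congr rfl (fun j _ => h2 j), ← cls_prod, cls_eq_zero_iff] at h1
  have h3 := isOfFinOrder_toK K h1
  rw [isOfFinOrder_iff_pow_eq_one] at h3
  obtain ⟨n, hn, hpow⟩ := h3
  refine ⟨n, hn.ne', ?_⟩
  rw [← hpow, map_prod]
  congr 1
  refine Finset.prod_congr rfl fun j _ => ?_
  rw [map_zpow]
  rfl

/-- A unit which is a `p`-th power up to a root of unity and has type `ω²` at an automorphism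
`σ` with `χ(σ) = 2` is a `p`-th power. -/
lemma exists_pow_eq_of_type (hp : 5 ≤ p) (σ : K ≃ₐ[ℚ] K) (hσ : chi p K σ = 2) (a w : (𝓞 K)ˣ)
    (hτ : a * (w ^ p)⁻¹ ∈ torsion K) (ha : ∃ v : (𝓞 K)ˣ, actU K σ a = a ^ 4 * v ^ p) :
    ∃ b : (𝓞 K)ˣ, a = b ^ p := by
  obtain ⟨v, hv⟩ := ha
  have hp' : p.Prime := Fact.out
  have hodd : Odd p := hp'.odd_of_ne_two (by omega)
  have hfin := isOfFinOrder_toK K hτ
  have hA := toK_ne_zero K a
  have hW := toK_ne_zero K w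
  have hσW : σ (toK K w) ≠ 0 := by
    rw [← toK_actU]; exact toK_ne_zero K _
  have key : σ (toK K (a * (w ^ p)⁻¹)) =
      (toK K (a * (w ^ p)⁻¹)) ^ 4 * ((toK K w) ^ 4 * toK K v / σ (toK K w)) ^ p := by
    have h1 : σ (toK K a) = (toK K a) ^ 4 * (toK K v) ^ p := by
      rw [← toK_actU, hv, map_mul, map_pow, map_pow]
    rw [map_mul, toK_inv, map_pow, map_mul, map_inv₀, map_pow, h1, div_pow, mul_pow]
    field_simp
    ring
  have hsq : (toK K (a * (w ^ p)⁻¹)) ^ 2 = 1 := sq_eq_one_of_type p K hp σ hσ hfin key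
  have hsq' : (a * (w ^ p)⁻¹) ^ 2 = 1 := by
    apply toK_injective
    rw [map_pow, hsq, map_one]
  obtain ⟨k, hk⟩ := hodd
  have hτp : (a * (w ^ p)⁻¹) ^ p = a * (w ^ p)⁻¹ := by
    nth_rw 2 [hk]
    rw [pow_succ, pow_mul, hsq', one_pow, one_mul]
  refine ⟨a * (w ^ p)⁻¹ * w, ?_⟩
  rw [mul_pow, hτp, inv_mul_cancel_right]

end Cyclo

end UnitsMult

open UnitsMult in
theorem units_mult_one {p : ℕ} [Fact p.Prime] (hp : 5 ≤ p) (K : Type) [Field K] [NumberField K]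
    [IsCyclotomicExtension {p} ℚ K] (u η : 𝓞 K) (hu : IsUnit u) (hη : IsUnit η)
    (hu2 : ∀ σ : K ≃ₐ[ℚ] K, ∃ v : 𝓞 K, IsUnit v ∧ σ • u = u ^ (chi p K σ ^ 2) * v ^ p)
    (hη2 : ∀ σ : K ≃ₐ[ℚ] K, ∃ v : 𝓞 K, IsUnit v ∧ σ • η = η ^ (chi p K σ ^ 2) * v ^ p)
    (hη' : ¬ ∃ v : 𝓞 K, η = v ^ p) :
    ∃ (j : ℕ) (v : 𝓞 K), IsUnit v ∧ u = η ^ j * v ^ p := by
  have hp' : p.Prime := Fact.out
  have hodd : Odd p := hp'.odd_of_ne_two (by omega)
  obtain ⟨u', rfl⟩ := hu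
  obtain ⟨η', rfl⟩ := hη
  -- the types, in the unit group
  have hu3 : ∀ σ : K ≃ₐ[ℚ] K, ∃ v : (𝓞 K)ˣ, actU K σ u' = u' ^ (chi p K σ ^ 2) * v ^ p := by
    intro σ
    obtain ⟨v, ⟨v', rfl⟩, hv⟩ := hu2 σ
    refine ⟨v', Units.ext ?_⟩
    rw [coe_actU, hv, Units.val_mul, Units.val_pow_eq_pow_val, Units.val_pow_eq_pow_val]
  have hη3 : ∀ σ : K ≃ₐ[ℚ] K, ∃ v : (𝓞 K)ˣ, actU K σ η' = η' ^ (chi p K σ ^ 2) * v ^ p := by
    intro σ
    obtain ⟨v, ⟨v', rfl⟩, hv⟩ := hη2 σ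
    refine ⟨v', Units.ext ?_⟩
    rw [coe_actU, hv, Units.val_mul, Units.val_pow_eq_pow_val, Units.val_pow_eq_pow_val]
  have hη'' : ¬ ∃ b : (𝓞 K)ˣ, η' = b ^ p := by
    rintro ⟨b, hb⟩
    exact hη' ⟨(b : 𝓞 K), by rw [hb, Units.val_pow_eq_pow_val]⟩
  obtain ⟨g, hg⟩ := exists_gen p K
  obtain ⟨σ₂, hσ₂⟩ := exists_chi_two p K hp
  have hu4 : ∃ v : (𝓞 K)ˣ, actU K σ₂ u' = u' ^ 4 * v ^ p := by
    obtain ⟨v, hv⟩ := hu3 σ₂
    exact ⟨v, by rw [hv, hσ₂]; norm_num⟩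
  have hη4 : ∃ v : (𝓞 K)ˣ, actU K σ₂ η' = η' ^ 4 * v ^ p := by
    obtain ⟨v, hv⟩ := hη3 σ₂
    exact ⟨v, by rw [hv, hσ₂]; norm_num⟩
  have hm2 : 2 ≤ (p - 1) / 2 := by omega
  have hpm : p % ((p - 1) / 2) = 1 := by
    obtain ⟨k, hk⟩ := hodd
    have hm : (p - 1) / 2 = k := by omega
    rw [hm]
    nth_rw 1 [hk]
    rw [show 2 * k + 1 = 1 + k * 2 by ring, Nat.add_mul_mod_self_left, Nat.mod_eq_of_lt (by omega)]
  have hrank : Module.finrank ℤ (Additive ((𝓞 K)ˣ ⧸ torsion K)) = (p - 1) / 2 - 1 := by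
    rw [NumberField.Units.finrank_modTorsion, NumberField.Units.rank, card_infinitePlace p K hp]
  have htype : ∀ a : (𝓞 K)ˣ, (∃ v : (𝓞 K)ˣ, actU K g a = a ^ (chi p K g ^ 2) * v ^ p) →
      ∃ z : Additive ((𝓞 K)ˣ ⧸ torsion K),
        actM K g (cls K a) - ((chi p K g ^ 2 : ℕ) : ℤ) • cls K a = (p : ℤ) • z := by
    rintro a ⟨v, hv⟩
    refine ⟨cls K v, ?_⟩
    rw [actM_cls, hv, cls_mul, cls_pow, cls_pow, natCast_zsmul, natCast_zsmul, add_sub_cancel_left]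
  have hx0 : ¬ ∃ z : Additive ((𝓞 K)ˣ ⧸ torsion K), cls K η' = (p : ℤ) • z := by
    rintro ⟨z, hz⟩
    obtain ⟨w, rfl⟩ := cls_surjective K z
    apply hη''
    apply exists_pow_eq_of_type p K hp σ₂ hσ₂ η' w _ hη4
    rw [← cls_eq_zero_iff, cls_mul, cls_inv, cls_pow, hz, natCast_zsmul, add_neg_cancel]
  obtain ⟨j, z, hjz⟩ := mult_one (M := Additive ((𝓞 K)ˣ ⧸ torsion K)) (actM K g) ((p - 1) / 2) p
    hm2 hpm hrank (sum_actM_pow p K hp g hg) (actM_no_relation p K hp g hg)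
    ((chi p K g ^ 2 : ℕ) : ℤ) (cls K η') (cls K u') (htype η' (hη3 g)) (htype u' (hu3 g)) hx0
  obtain ⟨w, rfl⟩ := cls_surjective K z
  have hp0 : (p : ℤ) ≠ 0 := by exact_mod_cast hp'.ne_zero
  have hj0 : 0 ≤ j % (p : ℤ) := Int.emod_nonneg j hp0
  obtain ⟨j₀, hj₀⟩ := Int.eq_ofNat_of_zero_le hj0
  have hjdecomp : j = (p : ℤ) * (j / (p : ℤ)) + (j₀ : ℤ) := by
    rw [← hj₀]; exact (Int.mul_ediv_add_emod j p).symm
  have hu5 : ∃ v : (𝓞 K)ˣ, actU K σ₂ (u' * (η' ^ j₀)⁻¹) = (u' * (η' ^ j₀)⁻¹) ^ 4 * v ^ p := by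
    obtain ⟨vu, hvu⟩ := hu4
    obtain ⟨vη, hvη⟩ := hη4
    refine ⟨vu * (vη ^ j₀)⁻¹, ?_⟩
    apply toK_injective
    have h1 := toK_ne_zero K η'
    have h2 := toK_ne_zero K vη
    rw [map_mul, map_inv, map_pow, hvu, hvη]
    simp only [map_mul, map_pow, toK_inv, mul_pow, inv_pow]
    field_simp
    ring
  have htors : u' * (η' ^ j₀)⁻¹ * ((w * η' ^ (j / (p : ℤ))) ^ p)⁻¹ ∈ torsion K := by
    rw [← cls_eq_zero_iff, cls_mul, cls_mul, cls_inv, cls_inv, cls_pow, cls_pow, cls_mul, cls_zpow]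
    have h3 : cls K u' = j • cls K η' + (p : ℤ) • cls K w := by
      rw [← hjz]; abel
    rw [h3, ← natCast_zsmul, ← natCast_zsmul (_ + _)]
    nth_rw 1 [hjdecomp]
    module
  obtain ⟨b, hb⟩ := exists_pow_eq_of_type p K hp σ₂ hσ₂ _ _ htors hu5
  refine ⟨j₀, (b : 𝓞 K), b.isUnit, ?_⟩
  have h4 : u' = η' ^ j₀ * b ^ p := by
    rw [← hb, mul_comm u', mul_inv_cancel_left]
  rw [h4, Units.val_mul, Units.val_pow_eq_pow_val, Units.val_pow_eq_pow_val]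

end Fermat.Agent.S14
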