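import Fermat.Agent.S14.NoPi
import Fermat.Agent.S14.ExistsPi
import Fermat.Agent.S14.Phi2
import Fermat.Agent.S14.UnitsMult

set_option autoImplicit false

open scoped NumberField Pointwise Topology
open IsDedekindDomain Filter

namespace Fermat.Agent.S14

/-- CLS -/
theorem class_trivial {p : ℕ} [Fact p.Prime] (hp : 5 ≤ p) (K : Type) [Field K] [NumberField K]
    [IsCyclotomicExtension {p} ℚ K] (α : 𝓞 K) (hα : α ≠ 0) (hα2 : IsOmegaSq p K (α : K))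
    (𝔞 : Ideal (𝓞 K)) (h𝔞 : Ideal.span {α} = 𝔞 ^ p) : 𝔞.IsPrincipal := by
  by_contra hnp
  obtain ⟨π, hπ, I, hI, hπI⟩ := exists_pi (by omega : 3 ≤ p) K α hα hα2 𝔞 h𝔞 hnp
  exact hπI (no_pi hp K π hπ I hI)

namespace Key

/-- `α = γ ^ p * u` with `u` a unit, from `(α) = 𝔞 ^ p` and `𝔞` principal. -/
lemma exists_unit_mul {p : ℕ} (hp0 : p ≠ 0) (K : Type) [Field K] [NumberField K]
    (α : 𝓞 K) (hα : α ≠ 0) (𝔞 : Ideal (𝓞 K)) (h𝔞 : Ideal.span {α} = 𝔞 ^ p)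
    (hprin : 𝔞.IsPrincipal) :
    ∃ (γ : 𝓞 K) (u : (𝓞 K)ˣ), γ ≠ 0 ∧ α = γ ^ p * (u : 𝓞 K) := by
  obtain ⟨γ, hγ⟩ := hprin.principal
  have h1 : Ideal.span {α} = Ideal.span {γ ^ p} := by
    rw [h𝔞, hγ, ← Ideal.span_singleton_pow]
  obtain ⟨u', hu'⟩ := Ideal.span_singleton_eq_span_singleton.mp h1
  refine ⟨γ, u'⁻¹, ?_, ?_⟩
  · rintro rfl
    rw [zero_pow hp0] at hu'
    rcases mul_eq_zero.mp hu' with h | h
    · exact hα h
    · exact u'.ne_zero h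
  · rw [← hu', mul_assoc, Units.mul_inv, mul_one]

end Key

open Key in
/-- KEY for `p ≥ 5`. -/
theorem key_ge_five {p : ℕ} [Fact p.Prime] (hp : 5 ≤ p) (K : Type) [Field K] [NumberField K]
    [IsCyclotomicExtension {p} ℚ K] (ζ : 𝓞 K) (hζ : IsPrimitiveRoot ζ p)
    (α : 𝓞 K) (hα : α ≠ 0) (hα2 : IsOmegaSq p K (α : K))
    (h𝔞 : ∃ 𝔞 : Ideal (𝓞 K), Ideal.span {α} = 𝔞 ^ p)
    (hloc : ∃ b : ℤ, ¬ (p : ℤ) ∣ b ∧ α - (b : 𝓞 K) ^ p ∈ Ideal.span {(ζ - 1) ^ 3}) :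
    ∃ x : K, (α : K) = x ^ p := by
  classical
  have hpp : p.Prime := Fact.out
  obtain ⟨𝔞, h𝔞⟩ := h𝔞
  obtain ⟨b, hb, hbα⟩ := hloc
  have hprin := class_trivial hp K α hα hα2 𝔞 h𝔞
  obtain ⟨γ, u, hγ0, hαu⟩ := exists_unit_mul hpp.ne_zero K α hα 𝔞 h𝔞 hprin
  have hγK : (γ : K) ≠ 0 := by
    rwa [Ne, map_eq_zero_iff _ NumberField.RingOfIntegers.coe_injective]
  have huK : ((u : 𝓞 K) : K) ≠ 0 := by
    rw [Ne, map_eq_zero_iff _ NumberField.RingOfIntegers.coe_injective]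
    exact u.ne_zero
  -- the type of `u`
  have hu2 : ∀ σ : K ≃ₐ[ℚ] K, ∃ v : 𝓞 K, IsUnit v ∧
      σ • (u : 𝓞 K) = (u : 𝓞 K) ^ (chi p K σ ^ 2) * v ^ p := by
    intro σ
    obtain ⟨c, hc⟩ := hα2 σ
    set e := chi p K σ ^ 2 with he
    have hσγ : σ (γ : K) ≠ 0 := by
      rwa [Ne, map_eq_zero_iff _ σ.injective]
    have hαK : (α : K) = (γ : K) ^ p * ((u : 𝓞 K) : K) := by
      rw [hαu]; simp
    set w : K := (γ : K) ^ e * c / σ (γ : K) with hw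
    have hwp : w ^ p = σ ((u : 𝓞 K) : K) * (((u⁻¹ : (𝓞 K)ˣ) : 𝓞 K) : K) ^ e := by
      have h1 : σ (α : K) = σ (γ : K) ^ p * σ ((u : 𝓞 K) : K) := by
        rw [hαK, map_mul, map_pow]
      rw [h1, hαK] at hc
      have h2 : ((u : 𝓞 K) : K) * (((u⁻¹ : (𝓞 K)ˣ) : 𝓞 K) : K) = 1 := by
        rw [← map_mul, Units.mul_inv, map_one]
      have h3 : (((u⁻¹ : (𝓞 K)ˣ) : 𝓞 K) : K) = ((u : 𝓞 K) : K)⁻¹ :=
        eq_inv_of_mul_eq_one_right h2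
      rw [hw, h3, div_pow, mul_pow, div_eq_iff (pow_ne_zero p hσγ)]
      have h4 : σ ((u : 𝓞 K) : K) * (((u : 𝓞 K) : K)⁻¹) ^ e * σ (γ : K) ^ p =
          (σ (γ : K) ^ p * σ ((u : 𝓞 K) : K)) * (((u : 𝓞 K) : K)⁻¹) ^ e := by ring
      rw [h4, hc, inv_pow, mul_pow, ← pow_mul, ← pow_mul, mul_comm p e]
      field_simp
    have hwint : IsIntegral ℤ w := by
      apply IsIntegral.of_pow hpp.pos
      rw [hwp]
      have h5 : σ ((u : 𝓞 K) : K) * (((u⁻¹ : (𝓞 K)ˣ) : 𝓞 K) : K) ^ e =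
          algebraMap (𝓞 K) K ((σ • (u : 𝓞 K)) * ((u⁻¹ : (𝓞 K)ˣ) : 𝓞 K) ^ e) := by
        rw [map_mul, map_pow]
        rfl
      rw [h5]
      exact NumberField.RingOfIntegers.isIntegral_coe _
    let v : 𝓞 K := ⟨w, hwint⟩
    have hvp : v ^ p = (σ • (u : 𝓞 K)) * ((u⁻¹ : (𝓞 K)ˣ) : 𝓞 K) ^ e := by
      apply NumberField.RingOfIntegers.coe_injective
      show algebraMap (𝓞 K) K (v ^ p) = algebraMap (𝓞 K) K _
      rw [map_pow, map_mul, map_pow]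
      exact hwp
    have hσu : IsUnit (σ • (u : 𝓞 K)) := by
      have : σ • (u : 𝓞 K) = MulSemiringAction.toRingHom (K ≃ₐ[ℚ] K) (𝓞 K) σ (u : 𝓞 K) := rfl
      rw [this]
      exact u.isUnit.map _
    refine ⟨v, ?_, ?_⟩
    · have : IsUnit (v ^ p) := by
        rw [hvp]
        exact hσu.mul ((u⁻¹).isUnit.pow e)
      exact (isUnit_pow_iff hpp.ne_zero).mp this
    · rw [hvp, mul_comm (σ • (u : 𝓞 K)), ← mul_assoc, ← mul_pow, Units.mul_inv, one_pow, one_mul]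
  -- the local condition
  obtain ⟨φ, hφmul, hφcong, hφσ, hφint, hφ1⟩ := exists_phi2 hp K ζ hζ
  have hζK : IsPrimitiveRoot (ζ : K) p :=
    hζ.map_of_injective NumberField.RingOfIntegers.coe_injective
  have hprime : (Ideal.span {ζ - 1}).IsPrime :=
    IsCyclotomicExtension.Rat.isPrime_span_zeta_sub_one' p hζK
  have h1mem : (1 : 𝓞 K) ∉ Ideal.span {ζ - 1} := by
    intro h
    exact hprime.ne_top ((Ideal.eq_top_iff_one _).mpr h)
  have hφone : φ 1 = 0 := by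
    have h := hφmul 1 1 h1mem h1mem
    rw [mul_one] at h
    have h' : φ 1 + 0 = φ 1 + φ 1 := by rw [add_zero]; exact h
    exact (add_left_cancel h').symm
  have hφpow : ∀ x : 𝓞 K, x ∉ Ideal.span {ζ - 1} → ∀ n : ℕ, φ (x ^ n) = (n : ZMod p) * φ x := by
    intro x hx n
    induction n with
    | zero => simp [hφone]
    | succ n ih =>
      have hxn : x ^ n ∉ Ideal.span {ζ - 1} := fun h => hx (hprime.mem_of_pow_mem n h)
      rw [pow_succ, hφmul _ _ hxn hx, ih]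
      push_cast
      ring
  have hp0 : (p : ZMod p) = 0 := ZMod.natCast_self p
  have hbL : (b : 𝓞 K) ∉ Ideal.span {ζ - 1} := by
    rw [Ideal.mem_span_singleton]
    intro h
    exact hb ((IsCyclotomicExtension.Rat.zeta_sub_one_dvd_intCast_iff' p hζK).mp h)
  have hbpL : (b : 𝓞 K) ^ p ∉ Ideal.span {ζ - 1} := fun h => hbL (hprime.mem_of_pow_mem p h)
  have hle : Ideal.span {(ζ - 1) ^ 3} ≤ Ideal.span {ζ - 1} := by
    rw [Ideal.span_singleton_le_iff_mem]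
    exact Ideal.pow_mem_of_mem _ (Ideal.mem_span_singleton_self _) 3 (by norm_num)
  have hαL : α ∉ Ideal.span {ζ - 1} := by
    intro h
    apply hbpL
    have := (Ideal.span {ζ - 1}).sub_mem h (hle hbα)
    simpa using this
  have huL : (u : 𝓞 K) ∉ Ideal.span {ζ - 1} := by
    intro h
    exact hprime.ne_top (Ideal.eq_top_of_isUnit_mem _ h u.isUnit)
  have hγL : γ ∉ Ideal.span {ζ - 1} := by
    intro h
    apply hαL
    rw [hαu]
    exact Ideal.mul_mem_right _ _ (Ideal.pow_mem_of_mem _ h p hpp.pos)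
  have hγpL : γ ^ p ∉ Ideal.span {ζ - 1} := fun h => hγL (hprime.mem_of_pow_mem p h)
  have hφα : φ α = 0 := by
    rw [hφcong α ((b : 𝓞 K) ^ p) hαL hbα, hφpow _ hbL, hp0, zero_mul]
  have hφu : φ (u : 𝓞 K) = 0 := by
    have h := hφα
    rw [hαu, hφmul _ _ hγpL huL, hφpow _ hγL, hp0, zero_mul, zero_add] at h
    exact h
  -- units
  obtain ⟨hηunit, hηtype, hηφ, hηnot⟩ := eta_spec hp K ζ hζ
  have hη' : ¬ ∃ v : 𝓞 K, eta p K ζ = v ^ p := by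
    rintro ⟨v, hv⟩
    exact hηnot ⟨(v : K), by rw [hv]; simp⟩
  obtain ⟨j, v, hv, huj⟩ := units_mult_one hp K (u : 𝓞 K) (eta p K ζ) u.isUnit hηunit hu2 hηtype hη'
  have hηL : eta p K ζ ∉ Ideal.span {ζ - 1} := by
    intro h
    exact hprime.ne_top (Ideal.eq_top_of_isUnit_mem _ h hηunit)
  have hvL : v ∉ Ideal.span {ζ - 1} := by
    intro h
    exact hprime.ne_top (Ideal.eq_top_of_isUnit_mem _ h hv)
  have hηjL : eta p K ζ ^ j ∉ Ideal.span {ζ - 1} := fun h => hηL (hprime.mem_of_pow_mem j h)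
  have hvpL : v ^ p ∉ Ideal.span {ζ - 1} := fun h => hvL (hprime.mem_of_pow_mem p h)
  have hj : (j : ZMod p) = 0 := by
    have h := hφu
    rw [huj, hφmul _ _ hηjL hvpL, hφpow _ hηL, hφpow _ hvL, hp0, zero_mul, add_zero] at h
    rcases mul_eq_zero.mp h with h | h
    · exact h
    · exact absurd h (hηφ φ hφmul hφσ hφ1)
  rw [ZMod.natCast_eq_zero_iff] at hj
  obtain ⟨j', rfl⟩ := hj
  refine ⟨((γ * eta p K ζ ^ j' * v : 𝓞 K) : K), ?_⟩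
  rw [← map_pow]
  congr 1
  rw [hαu, huj, pow_mul]
  ring

open Key in
/-- KEY for `p = 3`. -/
theorem key_three (K : Type) [Field K] [NumberField K] [IsCyclotomicExtension {3} ℚ K]
    (ζ : 𝓞 K) (hζ : IsPrimitiveRoot ζ 3) (α : 𝓞 K) (hα : α ≠ 0)
    (h𝔞 : ∃ 𝔞 : Ideal (𝓞 K), Ideal.span {α} = 𝔞 ^ 3)
    (hloc : ∃ b : ℤ, ¬ (3 : ℤ) ∣ b ∧ α - (b : 𝓞 K) ^ 3 ∈ Ideal.span {(ζ - 1) ^ 3}) :
    ∃ x : K, (α : K) = x ^ 3 := by
  classical
  have : Fact (Nat.Prime 3) := ⟨Nat.prime_three⟩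
  have hpid : IsPrincipalIdealRing (𝓞 K) := IsCyclotomicExtension.Rat.three_pid K
  obtain ⟨𝔞, h𝔞⟩ := h𝔞
  obtain ⟨b, hb, hbα⟩ := hloc
  obtain ⟨γ, u, hγ0, hαu⟩ := exists_unit_mul (by norm_num) K α hα 𝔞 h𝔞 (hpid.principal 𝔞)
  have hζK : IsPrimitiveRoot (ζ : K) 3 :=
    hζ.map_of_injective NumberField.RingOfIntegers.coe_injective
  have hprime : (Ideal.span {ζ - 1}).IsPrime :=
    IsCyclotomicExtension.Rat.isPrime_span_zeta_sub_one' 3 hζK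
  have hbL : (b : 𝓞 K) ∉ Ideal.span {ζ - 1} := by
    rw [Ideal.mem_span_singleton]
    intro h
    exact hb ((IsCyclotomicExtension.Rat.zeta_sub_one_dvd_intCast_iff' 3 hζK).mp h)
  have hbpL : (b : 𝓞 K) ^ 3 ∉ Ideal.span {ζ - 1} := fun h => hbL (hprime.mem_of_pow_mem 3 h)
  have hle : Ideal.span {(ζ - 1) ^ 3} ≤ Ideal.span {ζ - 1} := by
    rw [Ideal.span_singleton_le_iff_mem]
    exact Ideal.pow_mem_of_mem _ (Ideal.mem_span_singleton_self _) 3 (by norm_num)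
  have hαL : α ∉ Ideal.span {ζ - 1} := by
    intro h
    apply hbpL
    have := (Ideal.span {ζ - 1}).sub_mem h (hle hbα)
    simpa using this
  have hγL : ¬ (ζ - 1) ∣ γ := by
    intro h
    apply hαL
    rw [hαu, Ideal.mem_span_singleton]
    exact Dvd.dvd.mul_right (dvd_pow h (by norm_num)) _
  obtain ⟨s, hs⟩ := Ideal.mem_span_singleton.mp hbα
  have hu : u = 1 ∨ u = -1 := by
    apply IsCyclotomicExtension.Rat.Three.eq_one_or_neg_one_of_unit_of_congruent hζK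
    rcases IsCyclotomicExtension.Rat.Three.lambda_pow_four_dvd_cube_sub_one_or_add_one_of_lambda_not_dvd
      hζK hγL with ⟨t, ht⟩ | ⟨t, ht⟩
    · refine ⟨b ^ 3, (ζ - 1) * s - (u : 𝓞 K) * (ζ - 1) ^ 2 * t, ?_⟩
      have ht' : γ ^ 3 - 1 = (ζ - 1) ^ 4 * t := ht
      have h1 : γ ^ 3 = 1 + (ζ - 1) ^ 4 * t := by
        linear_combination ht'
      have h2 : (u : 𝓞 K) = α - (u : 𝓞 K) * (ζ - 1) ^ 4 * t := by
        rw [hαu, h1]; ring
      push_cast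
      show (u : 𝓞 K) - (b : 𝓞 K) ^ 3 = (ζ - 1) ^ 2 * ((ζ - 1) * s - (u : 𝓞 K) * (ζ - 1) ^ 2 * t)
      have h3 : α - (b : 𝓞 K) ^ 3 = (ζ - 1) ^ 3 * s := hs
      linear_combination h2 + h3
    · refine ⟨-(b ^ 3), -((ζ - 1) * s) + (u : 𝓞 K) * (ζ - 1) ^ 2 * t, ?_⟩
      have ht' : γ ^ 3 + 1 = (ζ - 1) ^ 4 * t := ht
      have h1 : γ ^ 3 = -1 + (ζ - 1) ^ 4 * t := by
        linear_combination ht'
      have h2 : (u : 𝓞 K) = -α + (u : 𝓞 K) * (ζ - 1) ^ 4 * t := by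
        rw [hαu, h1]; ring
      push_cast
      show (u : 𝓞 K) - -((b : 𝓞 K) ^ 3) =
        (ζ - 1) ^ 2 * (-((ζ - 1) * s) + (u : 𝓞 K) * (ζ - 1) ^ 2 * t)
      have h3 : α - (b : 𝓞 K) ^ 3 = (ζ - 1) ^ 3 * s := hs
      linear_combination h2 - h3
  rcases hu with rfl | rfl
  · refine ⟨(γ : K), ?_⟩
    rw [hαu]; simp
  · refine ⟨((-γ : 𝓞 K) : K), ?_⟩
    rw [hαu]
    rw [← map_pow]
    congr 1
    simp only [Units.val_neg, Units.val_one]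
    ring

/-- KEY -/
theorem key {p : ℕ} [Fact p.Prime] (hp : 3 ≤ p) (K : Type) [Field K] [NumberField K]
    [IsCyclotomicExtension {p} ℚ K] (ζ : 𝓞 K) (hζ : IsPrimitiveRoot ζ p)
    (α : 𝓞 K) (hα : α ≠ 0) (hα2 : IsOmegaSq p K (α : K))
    (h𝔞 : ∃ 𝔞 : Ideal (𝓞 K), Ideal.span {α} = 𝔞 ^ p)
    (hloc : ∃ b : ℤ, ¬ (p : ℤ) ∣ b ∧ α - (b : 𝓞 K) ^ p ∈ Ideal.span {(ζ - 1) ^ 3}) :
    ∃ x : K, (α : K) = x ^ p := by
  have hpp : p.Prime := Fact.out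
  by_cases h5 : 5 ≤ p
  · exact key_ge_five h5 K ζ hζ α hα hα2 h𝔞 hloc
  · have h3 : p = 3 := by
      have h4 : p ≠ 4 := by
        rintro rfl
        exact absurd hpp (by decide)
      omega
    subst h3
    exact key_three K ζ hζ α hα h𝔞 hloc

end Fermat.Agent.S14
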