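import Fermat.Prelude.Def_ExtCitation_AdmissibleExtension_v2
import Fermat.Prelude.Def_ExtCitation_KummerBridge
import Fermat.Agent.S14.Defs

/-!
# S14, package M0-GT1: the group-theoretic datum of a non-split admissible extension

Pure group theory on `V` (no fields): the kernel `N` of the action, an element `g` of `ker χ`
outside `N`, generation, the conjugation law, and the two local conditions.
-/

set_option autoImplicit false
set_option linter.unusedSectionVars false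
set_option linter.style.haveILetI false

open scoped NumberField

namespace Fermat.Agent.S14

namespace ReductionV

/-- The absolute Galois group of `ℚ`. -/
local notation "GQ" => AlgebraicClosure ℚ ≃ₐ[ℚ] AlgebraicClosure ℚ

/-- The cyclotomic character is nontrivial for `p ≥ 3`. -/
theorem exists_cycloChar_ne_one (p : ℕ) [Fact p.Prime] (h3 : 3 ≤ p) :
    ∃ σ : GQ, ExtCitation.cycloChar p σ ≠ 1 := by
  have : NeZero p := ⟨(Fact.out : p.Prime).ne_zero⟩
  by_contra hcon
  push Not at hcon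
  obtain ⟨ζ, hζ⟩ := HasEnoughRootsOfUnity.exists_primitiveRoot (AlgebraicClosure ℚ) p
  -- every automorphism fixes `ζ`
  have hfix : ∀ σ : GQ, σ ζ = ζ := by
    intro σ
    have hu : hζ.toRootsOfUnity.1 ∈ rootsOfUnity p (AlgebraicClosure ℚ) := hζ.toRootsOfUnity.2
    have hspec := modularCyclotomicCharacter.spec (AlgebraicClosure ℚ)
      (ExtCitation.card_rootsOfUnity_eq_self p) (σ : AlgebraicClosure ℚ ≃+* AlgebraicClosure ℚ) hu
    have h1 : ((ExtCitation.cycloChar p σ : (ZMod p)ˣ) : ZMod p) = 1 := by rw [hcon σ]; rfl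
    have hval : ((modularCyclotomicCharacter (AlgebraicClosure ℚ)
        (ExtCitation.card_rootsOfUnity_eq_self p)
        (σ : AlgebraicClosure ℚ ≃+* AlgebraicClosure ℚ) : (ZMod p)ˣ) : ZMod p).val = 1 := by
      have : ((modularCyclotomicCharacter (AlgebraicClosure ℚ)
          (ExtCitation.card_rootsOfUnity_eq_self p)
          (σ : AlgebraicClosure ℚ ≃+* AlgebraicClosure ℚ) : (ZMod p)ˣ) : ZMod p) = 1 := h1
      rw [this]
      have : Fact (1 < p) := ⟨(Fact.out : p.Prime).one_lt⟩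
      exact ZMod.val_one p
    rw [hval, pow_one] at hspec
    exact hspec
  -- so `ζ` is rational
  have hgal : IsGalois ℚ (AlgebraicClosure ℚ) := by
    have h1 : Algebra.IsAlgebraic ℚ (AlgebraicClosure ℚ) := AlgebraicClosure.isAlgebraic ℚ
    have h2 : IsAlgClosure ℚ (AlgebraicClosure ℚ) := ⟨inferInstance, h1⟩
    exact IsAlgClosure.isGalois ℚ (AlgebraicClosure ℚ)
  have hbot : ζ ∈ (⊥ : IntermediateField ℚ (AlgebraicClosure ℚ)) :=
    (InfiniteGalois.mem_bot_iff_fixed ζ).mpr hfix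
  obtain ⟨q, hq⟩ := IntermediateField.mem_bot.mp hbot
  have hqp : q ^ p = 1 := by
    have h1 : (algebraMap ℚ (AlgebraicClosure ℚ)) (q ^ p) = (algebraMap ℚ (AlgebraicClosure ℚ)) 1 := by
      rw [map_pow, hq, hζ.pow_eq_one, map_one]
    exact (algebraMap ℚ (AlgebraicClosure ℚ)).injective h1
  have hodd : Odd p := (Fact.out : p.Prime).odd_of_ne_two (by omega)
  have hq1 : q = 1 := by
    rcases pow_eq_one_iff_cases.mp hqp with h | h | ⟨-, h⟩
    · exact absurd h (NeZero.ne p)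
    · exact h
    · exact absurd h (Nat.not_even_iff_odd.mpr hodd)
  rw [hq1, map_one] at hq
  exact hζ.ne_one (by omega) hq.symm

section Main

variable {p : ℕ} [Fact p.Prime] {V : Type} [AddCommGroup V] [Module (ZMod p) V]
  [DistribMulAction GQ V] [SMulCommClass GQ (ZMod p) V]

/-- The kernel of the action on `V`. -/
def kerAct (V : Type) [AddCommGroup V] [DistribMulAction GQ V] : Subgroup GQ where
  carrier := {σ | ∀ v : V, σ • v = v}
  mul_mem' := fun {a b} ha hb v => by rw [mul_smul, hb v, ha v]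
  one_mem' := fun v => one_smul _ v
  inv_mem' := fun {a} ha v => by rw [inv_smul_eq_iff, ha v]

omit [Fact p.Prime] [Module (ZMod p) V] [SMulCommClass GQ (ZMod p) V] in
theorem mem_kerAct {σ : GQ} : σ ∈ kerAct V ↔ ∀ v : V, σ • v = v := Iff.rfl

omit [Fact p.Prime] [Module (ZMod p) V] [SMulCommClass GQ (ZMod p) V] in
theorem kerAct_normal : (kerAct V).Normal :=
  ⟨fun n hn g v => by rw [mul_smul, mul_smul, hn, smul_inv_smul]⟩

/-- The eigenspace `{v | s • v = c • v}`. -/
def eigSub (s : GQ) (c : ZMod p) : Submodule (ZMod p) V where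
  carrier := {v | s • v = c • v}
  add_mem' := by
    intro a b ha hb
    show s • (a + b) = c • (a + b)
    rw [smul_add, smul_add, ha, hb]
  zero_mem' := by
    show s • (0 : V) = c • (0 : V)
    rw [smul_zero, smul_zero]
  smul_mem' := by
    intro a v hv
    show s • (a • v) = c • (a • v)
    rw [smul_comm s a v, hv, smul_comm]

variable {C : Submodule (ZMod p) V} (hadm : ExtCitation.IsAdmissibleExtension p V C)
include hadm

theorem smul_sub_mem (σ : GQ) (x : V) :
    σ • x - ((ExtCitation.cycloChar p σ : (ZMod p)ˣ) : ZMod p) • x ∈ C := by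
  rw [ExtCitation.coe_cycloChar]
  exact hadm.cyclo_quot σ x

theorem smul_sub_self_mem {σ : GQ} (hσ : ExtCitation.cycloChar p σ = 1) (x : V) :
    σ • x - x ∈ C := by
  have h := smul_sub_mem hadm σ x
  rw [hσ] at h
  simpa using h

theorem exists_notMem : ∃ x : V, x ∉ C := by
  by_contra hcon
  push Not at hcon
  have hp : p.Prime := Fact.out
  have h1 : Nat.card C = Nat.card V :=
    Nat.card_congr ⟨fun x => x.1, fun v => ⟨v, hcon v⟩, fun _ => rfl, fun _ => rfl⟩
  rw [hadm.card_sub, hadm.card_total] at h1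
  have : p * 1 = p * p := by rw [mul_one, ← sq]; exact h1
  have := Nat.eq_of_mul_eq_mul_left hp.pos this
  exact hp.one_lt.ne this

theorem finite_V : Finite V :=
  Nat.finite_of_card_ne_zero (by
    rw [hadm.card_total]
    exact pow_ne_zero 2 (Fact.out : p.Prime).ne_zero)

/-- `V = 𝔽_p x₀ + C` for `x₀ ∉ C`. -/
theorem exists_decomp {x₀ : V} (hx₀ : x₀ ∉ C) (v : V) :
    ∃ (a : ZMod p) (c : V), c ∈ C ∧ v = a • x₀ + c := by
  haveI := finite_V hadm
  let f : ZMod p × C → V := fun ac => ac.1 • x₀ + (ac.2 : V)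
  have hinj : Function.Injective f := by
    rintro ⟨a, c⟩ ⟨a', c'⟩ h
    have h1 : (a - a') • x₀ = (c' : V) - (c : V) := by
      have h' : a • x₀ + (c : V) = a' • x₀ + (c' : V) := h
      rw [sub_smul, sub_eq_sub_iff_add_eq_add, h', add_comm]
    have ha : a - a' = 0 := by
      by_contra hne
      apply hx₀
      have h2 : x₀ = (a - a')⁻¹ • ((c' : V) - (c : V)) := by
        rw [← h1, smul_smul, inv_mul_cancel₀ hne, one_smul]
      rw [h2]
      exact C.smul_mem _ (C.sub_mem c'.2 c.2)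
    have ha' : a = a' := sub_eq_zero.mp ha
    subst ha'
    have hc : (c : V) = (c' : V) := by
      have h' : a • x₀ + (c : V) = a • x₀ + (c' : V) := h
      exact add_left_cancel h'
    exact Prod.ext rfl (Subtype.ext hc)
  have hcard : Nat.card V ≤ Nat.card (ZMod p × C) := by
    rw [Nat.card_prod, hadm.card_sub, hadm.card_total, Nat.card_zmod, sq]
  obtain ⟨⟨a, c⟩, hac⟩ := (hinj.bijective_of_nat_card_le hcard).2 v
  exact ⟨a, c, c.2, hac.symm⟩

/-- `C = 𝔽_p c₁` for every nonzero `c₁ ∈ C`. -/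
theorem exists_smul_eq {c₁ : V} (hc₁ : c₁ ∈ C) (hne : c₁ ≠ 0) {c : V} (hc : c ∈ C) :
    ∃ a : ZMod p, c = a • c₁ := by
  haveI := finite_V hadm
  let f : ZMod p → C := fun a => ⟨a • c₁, C.smul_mem a hc₁⟩
  have hinj : Function.Injective f := by
    intro a a' h
    have h1 : a • c₁ = a' • c₁ := congrArg Subtype.val h
    have h2 : (a - a') • c₁ = 0 := by rw [sub_smul, h1, sub_self]
    rcases smul_eq_zero.mp h2 with h3 | h3
    · exact sub_eq_zero.mp h3
    · exact absurd h3 hne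
  have hcard : Nat.card C ≤ Nat.card (ZMod p) := by
    rw [hadm.card_sub, Nat.card_zmod]
  obtain ⟨a, ha⟩ := (hinj.bijective_of_nat_card_le hcard).2 ⟨c, hc⟩
  exact ⟨a, (congrArg Subtype.val ha).symm⟩

/-- Elements of the kernel of the action have trivial cyclotomic character. -/
theorem cycloChar_eq_one_of_mem {σ : GQ} (hσ : σ ∈ kerAct V) : ExtCitation.cycloChar p σ = 1 := by
  obtain ⟨x, hx⟩ := exists_notMem hadm
  have h := smul_sub_mem hadm σ x
  rw [hσ x] at h
  by_contra hne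
  have hne' : (1 : ZMod p) - ((ExtCitation.cycloChar p σ : (ZMod p)ˣ) : ZMod p) ≠ 0 := by
    intro h0
    apply hne
    ext
    rw [Units.val_one]
    exact (sub_eq_zero.mp h0).symm
  apply hx
  have h2 : x = (1 - ((ExtCitation.cycloChar p σ : (ZMod p)ˣ) : ZMod p))⁻¹ •
      (x - ((ExtCitation.cycloChar p σ : (ZMod p)ˣ) : ZMod p) • x) := by
    have : x - ((ExtCitation.cycloChar p σ : (ZMod p)ˣ) : ZMod p) • x =
        (1 - ((ExtCitation.cycloChar p σ : (ZMod p)ˣ) : ZMod p)) • x := by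
      rw [sub_smul, one_smul]
    rw [this, smul_smul, inv_mul_cancel₀ hne', one_smul]
  rw [h2]
  exact C.smul_mem _ h

/-- `σ` acts trivially on `V` as soon as it fixes one vector outside `C`. -/
theorem mem_kerAct_iff {x₀ : V} (hx₀ : x₀ ∉ C) {σ : GQ} : σ ∈ kerAct V ↔ σ • x₀ = x₀ := by
  refine ⟨fun h => h x₀, fun h v => ?_⟩
  obtain ⟨a, c, hc, rfl⟩ := exists_decomp hadm hx₀ v
  rw [smul_add, smul_comm σ a x₀, h, hadm.fixed_sub σ c hc]

theorem b_mul (x₀ : V) (σ τ : GQ) (hτ : ExtCitation.cycloChar p τ = 1) :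
    (σ * τ) • x₀ - x₀ = (σ • x₀ - x₀) + (τ • x₀ - x₀) := by
  have h1 : σ • (τ • x₀ - x₀) = τ • x₀ - x₀ :=
    hadm.fixed_sub σ _ (smul_sub_self_mem hadm hτ x₀)
  rw [smul_sub] at h1
  rw [mul_smul, ← h1]
  abel

theorem b_pow (x₀ : V) (g : GQ) (hg : ExtCitation.cycloChar p g = 1) (i : ℕ) :
    (g ^ i) • x₀ - x₀ = i • (g • x₀ - x₀) := by
  induction i with
  | zero => simp
  | succ i ih => rw [pow_succ, b_mul hadm x₀ (g ^ i) g hg, ih, succ_nsmul]

theorem b_inv (x₀ : V) (σ : GQ) (hσ : ExtCitation.cycloChar p σ = 1) :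
    σ⁻¹ • x₀ - x₀ = -(σ • x₀ - x₀) := by
  have h := b_mul hadm x₀ σ⁻¹ σ hσ
  rw [inv_mul_cancel, one_smul, sub_self] at h
  exact eq_neg_of_add_eq_zero_left h.symm

end Main

end ReductionV

open ReductionV in
/-- M0-GT1 : pure group theory on `V` (no fields): the kernel `N` of the action, an element
`g` of `ker χ` outside `N`, generation, conjugation law, and the two local conditions. -/
theorem exists_group_datum {p : ℕ} [Fact p.Prime] (h3 : 3 ≤ p)
    (V : Type) [AddCommGroup V] [Module (ZMod p) V]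
    [DistribMulAction (AlgebraicClosure ℚ ≃ₐ[ℚ] AlgebraicClosure ℚ) V]
    [SMulCommClass (AlgebraicClosure ℚ ≃ₐ[ℚ] AlgebraicClosure ℚ) (ZMod p) V]
    (C : Submodule (ZMod p) V) (hadm : ExtCitation.IsAdmissibleExtensionCts p V C)
    (hns : ¬ ExtCitation.SplitsGlobally C) :
    ∃ (N : Subgroup (AlgebraicClosure ℚ ≃ₐ[ℚ] AlgebraicClosure ℚ))
      (g : AlgebraicClosure ℚ ≃ₐ[ℚ] AlgebraicClosure ℚ),
      N.Normal ∧ IsOpen (N : Set (AlgebraicClosure ℚ ≃ₐ[ℚ] AlgebraicClosure ℚ)) ∧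
      (∀ σ ∈ N, ExtCitation.cycloChar p σ = 1) ∧
      ExtCitation.cycloChar p g = 1 ∧ g ∉ N ∧ g ^ p ∈ N ∧
      (∀ σ, ExtCitation.cycloChar p σ = 1 → ∃ i : ℕ, σ * (g ^ i)⁻¹ ∈ N) ∧
      (∀ τ, τ⁻¹ * g * τ * (g ^ (ExtCitation.cycloExp p τ))⁻¹ ∈ N) ∧
      (∀ ℓ : ℕ, ℓ.Prime → ℓ ≠ p → ∀ A : ValuationSubring (AlgebraicClosure ℚ),
        A.LiesOverPrime ℓ → A.inertiaSubgroupIn ℚ ≤ N) ∧
      (∀ A : ValuationSubring (AlgebraicClosure ℚ), A.LiesOverPrime p →
        ∀ σ ∈ A.decompositionSubgroup ℚ, ExtCitation.cycloChar p σ = 1 → σ ∈ N) := by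
  have hadm' := hadm.toIsAdmissibleExtension
  obtain ⟨x₀, hx₀⟩ := exists_notMem hadm'
  -- (b) an element of `ker χ` outside `N`
  have hg : ∃ g : AlgebraicClosure ℚ ≃ₐ[ℚ] AlgebraicClosure ℚ,
      ExtCitation.cycloChar p g = 1 ∧ g ∉ kerAct V := by
    by_contra hcon
    push Not at hcon
    obtain ⟨s1, hs1⟩ := exists_cycloChar_ne_one p h3
    apply hns
    set c : ZMod p := ((ExtCitation.cycloChar p s1 : (ZMod p)ˣ) : ZMod p) with hc
    have hc1 : (1 : ZMod p) - c ≠ 0 := by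
      intro h0
      apply hs1
      ext
      rw [Units.val_one]
      exact (sub_eq_zero.mp h0).symm
    refine ⟨eigSub s1 c, ?_, ?_⟩
    · intro σ v hv
      have hv' : s1 • v = c • v := hv
      show s1 • σ • v = c • σ • v
      have hk : s1⁻¹ * σ⁻¹ * s1 * σ ∈ kerAct V := hcon _ (by
        simp only [map_mul, map_inv]
        rw [mul_comm ((ExtCitation.cycloChar p s1)⁻¹ * (ExtCitation.cycloChar p σ)⁻¹),
          mul_assoc]
        simp [mul_comm])
      have h3' : (σ * s1) • ((s1⁻¹ * σ⁻¹ * s1 * σ) • v) = (σ * s1) • v := by rw [hk v]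
      rw [← mul_smul] at h3'
      have hgrp : σ * s1 * (s1⁻¹ * σ⁻¹ * s1 * σ) = s1 * σ := by group
      rw [hgrp, mul_smul, mul_smul, hv', smul_comm σ c v] at h3'
      exact h3'
    · refine ⟨Submodule.disjoint_def.mpr fun x hxC hxE => ?_, ?_⟩
      · have hxE' : s1 • x = c • x := hxE
        rw [hadm'.fixed_sub s1 x hxC] at hxE'
        have h0 : (1 - c) • x = 0 := by rw [sub_smul, one_smul, ← hxE', sub_self]
        exact (smul_eq_zero.mp h0).resolve_left hc1
      · rw [codisjoint_iff, eq_top_iff]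
        intro v _
        have hw : s1 • v - c • v ∈ C := smul_sub_mem hadm' s1 v
        set a : V := (1 - c)⁻¹ • (s1 • v - c • v) with ha
        have haC : a ∈ C := C.smul_mem _ hw
        have ha1 : (1 - c) • a = s1 • v - c • v := by
          rw [ha, smul_smul, mul_inv_cancel₀ hc1, one_smul]
        refine Submodule.mem_sup.mpr ⟨a, haC, v - a, ?_, by abel⟩
        show s1 • (v - a) = c • (v - a)
        rw [smul_sub, smul_sub, hadm'.fixed_sub s1 a haC]
        rw [sub_smul, one_smul] at ha1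
        rw [sub_eq_sub_iff_add_eq_add]
        rw [sub_eq_sub_iff_add_eq_add] at ha1
        rw [← ha1, add_comm]
  obtain ⟨g, hgχ, hgN⟩ := hg
  have hbgC : g • x₀ - x₀ ∈ C := smul_sub_self_mem hadm' hgχ x₀
  have hbg : g • x₀ - x₀ ≠ 0 := fun h => hgN ((mem_kerAct_iff hadm' hx₀).mpr (sub_eq_zero.mp h))
  have hpow : ∀ i : ℕ, ExtCitation.cycloChar p (g ^ i) = 1 := fun i => by
    rw [map_pow, hgχ, one_pow]
  have hpowinv : ∀ i : ℕ, ExtCitation.cycloChar p (g ^ i)⁻¹ = 1 := fun i => by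
    rw [map_inv, hpow, inv_one]
  have hnat : ∀ (i : ℕ) (w : V), i • w = (i : ZMod p) • w := fun i w =>
    (Nat.cast_smul_eq_nsmul (ZMod p) i w).symm
  refine ⟨kerAct V, g, kerAct_normal, hadm.open_kernel,
    fun σ hσ => cycloChar_eq_one_of_mem hadm' hσ, hgχ, hgN, ?_, ?_, ?_, ?_, ?_⟩
  · rw [mem_kerAct_iff hadm' hx₀, ← sub_eq_zero, b_pow hadm' x₀ g hgχ p, hnat,
      ZMod.natCast_self, zero_smul]
  · intro σ hσ
    obtain ⟨a, ha⟩ := exists_smul_eq hadm' hbgC hbg (smul_sub_self_mem hadm' hσ x₀)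
    refine ⟨a.val, ?_⟩
    haveI : NeZero p := ⟨(Fact.out : p.Prime).ne_zero⟩
    rw [mem_kerAct_iff hadm' hx₀, ← sub_eq_zero, b_mul hadm' x₀ σ _ (hpowinv a.val),
      b_inv hadm' x₀ _ (hpow a.val), b_pow hadm' x₀ g hgχ, ha, hnat, ZMod.natCast_zmod_val,
      add_neg_cancel]
  · intro τ
    set e := ExtCitation.cycloExp p τ with he
    rw [mem_kerAct_iff hadm' hx₀, ← sub_eq_zero, b_mul hadm' x₀ _ _ (hpowinv e),
      b_inv hadm' x₀ _ (hpow e), b_pow hadm' x₀ g hgχ]
    -- `b(τ⁻¹ g τ) = e • b(g)`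
    have hτ : τ • x₀ - (e : ZMod p) • x₀ ∈ C := hadm'.cyclo_quot τ x₀
    have h1 : g • (τ • x₀ - (e : ZMod p) • x₀) = τ • x₀ - (e : ZMod p) • x₀ :=
      hadm'.fixed_sub g _ hτ
    rw [smul_sub, smul_comm g (e : ZMod p) x₀] at h1
    have h2 : g • τ • x₀ = τ • x₀ + (e : ZMod p) • (g • x₀ - x₀) := by
      rw [smul_sub]
      have : g • τ • x₀ = (g • τ • x₀ - (e : ZMod p) • g • x₀) + (e : ZMod p) • g • x₀ := by abel
      rw [this, h1]
      abel
    have h3' : τ⁻¹ • ((e : ZMod p) • (g • x₀ - x₀)) = (e : ZMod p) • (g • x₀ - x₀) :=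
      hadm'.fixed_sub τ⁻¹ _ (C.smul_mem _ hbgC)
    have h4 : (τ⁻¹ * g * τ) • x₀ = x₀ + (e : ZMod p) • (g • x₀ - x₀) := by
      rw [mul_smul, mul_smul, h2, smul_add, inv_smul_smul, h3']
    rw [h4, hnat]
    abel
  · intro ℓ hℓ hne A hA σ hσ v
    exact hadm'.unramified_outside ℓ hℓ hne A hA σ hσ v
  · intro A hA σ hσ hχ v
    obtain ⟨C', hC', hcompl⟩ := hadm'.locally_split A hA
    have hv : v ∈ C ⊔ C' := by rw [hcompl.sup_eq_top]; trivial
    obtain ⟨c, hc, c', hc', rfl⟩ := Submodule.mem_sup.mp hv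
    rw [smul_add, hadm'.fixed_sub σ c hc]
    congr 1
    have h1 : σ • c' - c' ∈ C := smul_sub_self_mem hadm' hχ c'
    have h2 : σ • c' - c' ∈ C' := C'.sub_mem (hC' σ hσ c' hc') hc'
    exact sub_eq_zero.mp (Submodule.disjoint_def.mp hcompl.disjoint _ h1 h2)

end Fermat.Agent.S14
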