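import Mathlib
import Fermat.Prelude.Def_ExtCitation_AdmissibleExtension_v2
import Fermat.Prelude.Def_ExtCitation_KummerBridge
import Fermat.Agent.S14.Defs
import Fermat.Agent.S14.ReductionV
import Fermat.Agent.S13.Global

set_option autoImplicit false

/-! # S14, M0-GT2: from the group-theoretic datum on `V` to a finite Galois datum -/

open scoped NumberField Pointwise

namespace Fermat.Agent.S14

namespace ReductionGT

open Fermat.Agent.Common

local notation "Qb" => AlgebraicClosure ℚ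
local notation "GQ" => (AlgebraicClosure ℚ ≃ₐ[ℚ] AlgebraicClosure ℚ)

/-- The action on a primitive `p`-th root of unity is raising to the power `cycloExp`. -/
theorem apply_root (p : ℕ) [Fact p.Prime] {z : Qb} (hz : IsPrimitiveRoot z p) (σ : GQ) :
    σ z = z ^ (ExtCitation.cycloExp p σ) := by
  have : NeZero p := ⟨(Fact.out : p.Prime).ne_zero⟩
  have hmem : (hz.isUnit (NeZero.ne p)).unit ∈ rootsOfUnity p Qb :=
    (hz.isUnit_unit (NeZero.ne p)).mem_rootsOfUnity
  have h := modularCyclotomicCharacter.spec Qb (ExtCitation.card_rootsOfUnity_eq_self p)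
    (σ : Qb ≃+* Qb) hmem
  exact h

theorem cycloExp_lt (p : ℕ) [Fact p.Prime] (σ : GQ) : ExtCitation.cycloExp p σ < p := by
  have : NeZero p := ⟨(Fact.out : p.Prime).ne_zero⟩
  rw [← ExtCitation.val_cycloChar]
  exact ZMod.val_lt _

theorem cycloChar_eq_one_iff (p : ℕ) [Fact p.Prime] {z : Qb} (hz : IsPrimitiveRoot z p) (σ : GQ) :
    ExtCitation.cycloChar p σ = 1 ↔ σ z = z := by
  have : NeZero p := ⟨(Fact.out : p.Prime).ne_zero⟩
  have hp1 : 1 < p := (Fact.out : p.Prime).one_lt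
  have : Fact (1 < p) := ⟨hp1⟩
  rw [apply_root p hz σ]
  constructor
  · intro h
    have h1 : ExtCitation.cycloExp p σ = 1 := by
      rw [← ExtCitation.val_cycloChar, h, Units.val_one, ZMod.val_one]
    rw [h1, pow_one]
  · intro h
    have h1 : ExtCitation.cycloExp p σ = 1 := by
      have h2 : z ^ (ExtCitation.cycloExp p σ) = z ^ 1 := by rw [h, pow_one]
      exact hz.pow_inj (cycloExp_lt p σ) hp1 h2
    apply Units.ext
    apply ZMod.val_injective
    rw [ExtCitation.val_cycloChar, h1, Units.val_one, ZMod.val_one]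

/-- A prime ideal containing a nonzero natural number contains a prime number. -/
theorem exists_prime_natCast_mem {R : Type*} [CommRing R] (P : Ideal R) (hP : P.IsPrime) :
    ∀ n : ℕ, n ≠ 0 → (n : R) ∈ P → ∃ ℓ : ℕ, ℓ.Prime ∧ (ℓ : R) ∈ P := by
  intro n
  induction n using Nat.strong_induction_on with
  | _ n ih =>
    intro hn0 hn
    by_cases h1 : n = 1
    · subst h1
      exfalso
      rw [Nat.cast_one] at hn
      exact hP.ne_top ((Ideal.eq_top_iff_one _).mpr hn)
    · have hmf := Nat.minFac_prime h1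
      obtain ⟨m, hm⟩ := Nat.minFac_dvd n
      have hm0 : m ≠ 0 := by
        rintro rfl
        rw [mul_zero] at hm
        exact hn0 hm
      have hlt : m < n := by
        have h2 := hmf.two_le
        have h3 : 0 < m := Nat.pos_of_ne_zero hm0
        calc m = 1 * m := (one_mul m).symm
          _ < n.minFac * m := Nat.mul_lt_mul_of_pos_right (by omega) h3
          _ = n := hm.symm
      have hn' : ((n.minFac : ℕ) : R) * (m : R) ∈ P := by
        rw [← Nat.cast_mul, ← hm]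
        exact hn
      rcases hP.mem_or_mem hn' with h | h
      · exact ⟨_, hmf, h⟩
      · exact ih m hlt hm0 h

/-- The embedding of the ring of integers of a subfield of `Qb`. -/
noncomputable def phi (F : IntermediateField ℚ Qb) : 𝓞 F →+* Qb :=
  (algebraMap F Qb).comp (algebraMap (𝓞 F) F)

theorem phi_isIntegral (F : IntermediateField ℚ Qb) (r : 𝓞 F) : IsIntegral ℤ (phi F r) :=
  (NumberField.RingOfIntegers.isIntegral_coe r).map (IsScalarTower.toAlgHom ℤ F Qb)

theorem phi_injective (F : IntermediateField ℚ Qb) : Function.Injective (phi F) :=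
  (algebraMap F Qb).injective.comp NumberField.RingOfIntegers.coe_injective

/-- Every nonzero prime of the ring of integers of a number field inside `Qb` is cut out by a
valuation subring of `Qb`. -/
theorem exists_valuationSubring (F : IntermediateField ℚ Qb) [NumberField F]
    (P : Ideal (𝓞 F)) (hP : P.IsPrime) (hP0 : P ≠ ⊥) :
    ∃ B : ValuationSubring Qb, pullbackIdeal B (phi F) (phi_isIntegral F) = P := by
  have hmax : P.IsMaximal := hP.isMaximal hP0
  let R : Subring Qb := (phi F).range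
  let I : Ideal R := Ideal.map (phi F).rangeRestrict P
  have hI : I ≠ ⊤ := by
    intro h
    have h1 : (1 : R) ∈ I := by rw [h]; trivial
    rw [Ideal.mem_map_iff_of_surjective _ (phi F).rangeRestrict_surjective] at h1
    obtain ⟨x, hx, hx1⟩ := h1
    have h2 : phi F x = 1 := congrArg Subtype.val hx1
    have h3 : x = 1 := phi_injective F (by rw [h2, map_one])
    rw [h3] at hx
    exact hP.ne_top ((Ideal.eq_top_iff_one _).mpr hx)
  obtain ⟨B, -, hsub⟩ := Ideal.image_subset_nonunits_valuationSubring I hI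
  refine ⟨B, ?_⟩
  symm
  refine hmax.eq_of_le (pullbackIdeal_isPrime B _ _).ne_top ?_
  intro x hx
  rw [mem_pullbackIdeal, ← B.mem_nonunits_iff]
  refine hsub ⟨(phi F).rangeRestrict x, ?_, rfl⟩
  exact Ideal.mem_map_of_mem _ hx

/-- An automorphism stabilising the prime of the ring of algebraic integers cut out by `B`
lies in the decomposition group of `B`. -/
theorem mem_decompositionSubgroup (B : ValuationSubring Qb) (ℓ : ℕ) (hℓ : ℓ.Prime)
    (hB : B.LiesOverPrime ℓ) (σ : GQ) (hσ : σ • primeOf B = primeOf B) :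
    σ ∈ B.decompositionSubgroup ℚ := by
  have hint : ∀ (ρ : GQ) (b : Zb), IsIntegral ℤ (ρ (b : Qb)) := fun ρ b =>
    b.2.map (ρ : Qb →ₐ[ℚ] Qb).toRingHom.toIntAlgHom
  -- both `σ` and `σ⁻¹` preserve "valuation one" on algebraic integers
  have hone : ∀ ρ : GQ, ρ • primeOf B = primeOf B →
      ∀ b : Zb, B.valuation (b : Qb) = 1 → B.valuation (ρ (b : Qb)) = 1 := by
    intro ρ hρ b hb
    refine le_antisymm (valuation_le_one_of_isIntegral B (hint ρ b)) ?_
    by_contra hcon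
    rw [not_le] at hcon
    have h1 : ρ • b ∈ primeOf B := by
      rw [mem_primeOf]
      exact hcon
    have h2 : ρ • b ∈ ρ • primeOf B := by rw [hρ]; exact h1
    rw [Ideal.smul_mem_pointwise_smul_iff, mem_primeOf, hb] at h2
    exact lt_irrefl _ h2
  have hmem : ∀ ρ : GQ, ρ • primeOf B = primeOf B → ∀ x : Qb, x ∈ B → ρ x ∈ B := by
    intro ρ hρ x hx
    obtain ⟨b, s, hs, hxs⟩ := exists_mul_eq B ℓ hℓ hB hx
    have h1 : ρ x * ρ (s : Qb) = ρ (b : Qb) := by rw [← map_mul, hxs]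
    have h2 := congrArg B.valuation h1
    rw [map_mul, hone ρ hρ s hs, mul_one] at h2
    rw [← B.valuation_le_one_iff, h2]
    exact valuation_le_one_of_isIntegral B (hint ρ b)
  have hσinv : σ⁻¹ • primeOf B = primeOf B := by
    ext b
    rw [Ideal.mem_pointwise_smul_iff_inv_smul_mem, inv_inv]
    constructor
    · intro h
      have h2 : σ • b ∈ σ • primeOf B := by rw [hσ]; exact h
      rwa [Ideal.smul_mem_pointwise_smul_iff] at h2
    · intro h
      have h2 : σ • b ∈ σ • primeOf B := Ideal.smul_mem_pointwise_smul _ _ _ h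
      rwa [hσ] at h2
  rw [MulAction.mem_stabilizer_iff]
  ext x
  rw [ValuationSubring.mem_pointwise_smul_iff_inv_smul_mem]
  constructor
  · intro h
    have h1 := hmem σ hσ _ h
    have h2 : σ (σ⁻¹ • x) = x := by
      show σ (σ⁻¹ x) = x
      exact AlgEquiv.apply_symm_apply σ x
    rwa [h2] at h1
  · intro h
    exact hmem σ⁻¹ hσinv x h

/-- If `σ₀` preserves the prime cut out by `B` on the `H`-fixed algebraic integers, then some
`H`-translate of `σ₀` stabilises the prime of `B`. -/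
theorem exists_mul_smul_eq (B : ValuationSubring Qb) (H : Subgroup GQ)
    (hH : IsClosed (H : Set GQ)) (σ₀ : GQ)
    (hσ₀ : ∀ b : Zb, (∀ h ∈ H, h • b = b) →
      (B.valuation (σ₀⁻¹ (b : Qb)) < 1 ↔ B.valuation (b : Qb) < 1)) :
    ∃ h ∈ H, (h * σ₀) • primeOf B = primeOf B := by
  have hGal := isGalois_Qb
  have hInt := isIntegral_Qb
  have hprime := primeOf_isPrime B
  let _ : TopologicalSpace Zb := ⊥
  have : DiscreteTopology Zb := ⟨rfl⟩
  have hcont : ContinuousSMul GQ Zb :=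
    continuousSMul_iff_stabilizer_isOpen.mpr stabilizer_Zb_isOpen
  have : CompactSpace H := isCompact_iff_compactSpace.mp hH.isCompact
  have : TotallyDisconnectedSpace H := Subtype.totallyDisconnectedSpace
  have : ContinuousSMul H Zb := by
    rw [continuousSMul_iff_stabilizer_isOpen]
    intro b
    have h1 := stabilizer_Zb_isOpen b
    have h2 : (MulAction.stabilizer H b : Set H) =
        Subtype.val ⁻¹' (MulAction.stabilizer GQ b : Set GQ) := by
      ext g
      simp only [SetLike.mem_coe, MulAction.mem_stabilizer_iff, Set.mem_preimage]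
      rfl
    rw [h2]
    exact h1.preimage continuous_subtype_val
  have hcomm : SMulCommClass H (FixedPoints.subring Zb H) Zb :=
    instSMulCommClassSubtypeMemSubringSubring Zb H
  have hinv : Algebra.IsInvariant (FixedPoints.subring Zb H) Zb H :=
    ⟨fun b hb => ⟨⟨b, hb⟩, rfl⟩⟩
  have hfix : ∀ a : FixedPoints.subring Zb H, ∀ h ∈ H, h • (a : Zb) = a :=
    fun a h hh => a.2 ⟨h, hh⟩
  have hPQ : (σ₀ • primeOf B).under (FixedPoints.subring Zb H) =
      (primeOf B).under (FixedPoints.subring Zb H) := by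
    ext a
    show (a : Zb) ∈ σ₀ • primeOf B ↔ (a : Zb) ∈ primeOf B
    rw [Ideal.mem_pointwise_smul_iff_inv_smul_mem, mem_primeOf, mem_primeOf]
    exact hσ₀ (a : Zb) (hfix a)
  obtain ⟨h, hh⟩ := Algebra.IsInvariant.exists_smul_of_under_eq_of_profinite
    (A := FixedPoints.subring Zb H) (G := H) (σ₀ • primeOf B) (primeOf B) hPQ
  refine ⟨(h : GQ), h.2, ?_⟩
  rw [mul_smul]
  exact hh.symm

/-- M0-GT2, abstract form: a group-theoretic datum `(N, g₀)` in the absolute Galois group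
produces the finite Galois datum. -/
theorem galois_datum_of_group_datum {p : ℕ} [Fact p.Prime] (N : Subgroup GQ) (g₀ : GQ)
    (hNn : N.Normal) (hNo : IsOpen (N : Set GQ))
    (hNχ : ∀ σ ∈ N, ExtCitation.cycloChar p σ = 1)
    (hgχ : ExtCitation.cycloChar p g₀ = 1) (hgN : g₀ ∉ N) (hgp : g₀ ^ p ∈ N)
    (hgen : ∀ σ, ExtCitation.cycloChar p σ = 1 → ∃ i : ℕ, σ * (g₀ ^ i)⁻¹ ∈ N)
    (hconj : ∀ τ, τ⁻¹ * g₀ * τ * (g₀ ^ (ExtCitation.cycloExp p τ))⁻¹ ∈ N)
    (hunr : ∀ ℓ : ℕ, ℓ.Prime → ℓ ≠ p → ∀ A : ValuationSubring Qb,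
        A.LiesOverPrime ℓ → A.inertiaSubgroupIn ℚ ≤ N)
    (hsplit : ∀ A : ValuationSubring Qb, A.LiesOverPrime p →
        ∀ σ ∈ A.decompositionSubgroup ℚ, ExtCitation.cycloChar p σ = 1 → σ ∈ N) :
    ∃ (L : Type) (_ : Field L) (_ : NumberField L) (_ : IsGalois ℚ L)
      (ζ : L) (g : L ≃ₐ[ℚ] L),
      IsPrimitiveRoot ζ p ∧ g ζ = ζ ∧ g ≠ 1 ∧ g ^ p = 1 ∧
      (∀ τ : L ≃ₐ[ℚ] L, τ ζ = ζ → ∃ i : ℕ, τ = g ^ i) ∧
      (∀ (τ : L ≃ₐ[ℚ] L) (k : ℕ), τ ζ = ζ ^ k → τ⁻¹ * g * τ = g ^ k) ∧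
      (∀ P : Ideal (𝓞 L), P.IsPrime → P ≠ ⊥ → (p : 𝓞 L) ∉ P →
        ∀ τ : L ≃ₐ[ℚ] L, (∀ x : 𝓞 L, τ • x - x ∈ P) → τ = 1) ∧
      (∀ P : Ideal (𝓞 L), P.IsPrime → (p : 𝓞 L) ∈ P →
        ∀ τ : L ≃ₐ[ℚ] L, τ ζ = ζ → (∀ x ∈ P, τ • x ∈ P) → τ = 1) := by
  have hGal := isGalois_Qb
  have hInt := isIntegral_Qb
  have hp : p.Prime := Fact.out
  have hclosed : IsClosed (N : Set GQ) := Subgroup.isClosed_of_isOpen N hNo
  let F : IntermediateField ℚ Qb := IntermediateField.fixedField N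
  have hFN : F.fixingSubgroup = N :=
    InfiniteGalois.fixingSubgroup_fixedField (⟨N, hclosed⟩ : ClosedSubgroup _)
  have hFfin : FiniteDimensional ℚ F := by
    rw [← InfiniteGalois.isOpen_iff_finite F]
    show IsOpen (F.fixingSubgroup : Set GQ)
    rw [hFN]
    exact hNo
  have hFgal' : @IsGalois ℚ _ F _ F.algebra' := by
    rw [← InfiniteGalois.normal_iff_isGalois F, hFN]
    exact hNn
  have hFgal : IsGalois ℚ F := hFgal'
  have hNF : NumberField F := ⟨⟩
  -- the restriction map and its kernel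
  have hcomm : ∀ (σ : GQ) (y : F),
      ((AlgEquiv.restrictNormalHom F σ) y : Qb) = σ (y : Qb) :=
    fun σ y => AlgEquiv.restrictNormal_commutes σ F y
  have hker1 : ∀ σ : GQ, σ ∈ N → AlgEquiv.restrictNormalHom F σ = 1 := by
    intro σ hσ
    have h2 : σ ∈ F.fixingSubgroup := by rw [hFN]; exact hσ
    ext y
    show ((AlgEquiv.restrictNormalHom F σ) y : Qb) = (y : Qb)
    rw [hcomm]
    exact (IntermediateField.mem_fixingSubgroup_iff F σ).mp h2 y y.2
  have hker2 : ∀ σ : GQ, AlgEquiv.restrictNormalHom F σ = 1 → σ ∈ N := by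
    intro σ hσ
    rw [← hFN, IntermediateField.mem_fixingSubgroup_iff]
    intro y hy
    have h1 := hcomm σ ⟨y, hy⟩
    rw [hσ] at h1
    exact h1.symm
  have hsurj : ∀ τ : F ≃ₐ[ℚ] F, ∃ σ : GQ, AlgEquiv.restrictNormalHom F σ = τ :=
    AlgEquiv.restrictNormalHom_surjective (F := ℚ) (K₁ := F) Qb
  -- integers
  have hphi_smul : ∀ (σ : GQ) (x : 𝓞 F),
      phi F ((AlgEquiv.restrictNormalHom F σ) • x) = σ (phi F x) := by
    intro σ x
    show algebraMap F Qb (algebraMap (𝓞 F) F (_ • x)) =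
      σ (algebraMap F Qb (algebraMap (𝓞 F) F x))
    rw [← AlgEquiv.restrictNormal_commutes]
    rfl
  have hlift : ∀ b : Zb, (∀ h ∈ N, h • b = b) → ∃ x : 𝓞 F, phi F x = (b : Qb) := by
    intro b hb
    have hbF : (b : Qb) ∈ F := by
      rw [IntermediateField.mem_fixedField_iff]
      intro f hf
      exact congrArg Subtype.val (hb f hf)
    have hint : IsIntegral ℤ (⟨(b : Qb), hbF⟩ : F) := by
      rw [← isIntegral_algebraMap_iff (algebraMap F Qb).injective]
      exact b.2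
    obtain ⟨x, hx⟩ := (IsIntegralClosure.isIntegral_iff (A := 𝓞 F)).mp hint
    refine ⟨x, ?_⟩
    show algebraMap F Qb (algebraMap (𝓞 F) F x) = _
    rw [hx]
    rfl
  have hlies : ∀ (B : ValuationSubring Qb) (ℓ : ℕ),
      (ℓ : 𝓞 F) ∈ pullbackIdeal B (phi F) (phi_isIntegral F) → B.LiesOverPrime ℓ := by
    intro B ℓ h
    show (ℓ : Qb) ∈ B.nonunits
    rw [B.mem_nonunits_iff]
    rw [mem_pullbackIdeal, map_natCast] at h
    exact h
  -- the root of unity
  have : NeZero p := ⟨hp.ne_zero⟩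
  obtain ⟨z, hz⟩ := HasEnoughRootsOfUnity.exists_primitiveRoot Qb p
  have hzF : z ∈ F := by
    rw [IntermediateField.mem_fixedField_iff]
    intro f hf
    exact (cycloChar_eq_one_iff p hz f).mp (hNχ f hf)
  let ζ : F := ⟨z, hzF⟩
  have hζ : IsPrimitiveRoot ζ p := by
    have h1 : IsPrimitiveRoot (algebraMap F Qb ζ) p := hz
    exact IsPrimitiveRoot.of_map_of_injective (f := algebraMap F Qb) h1
      (algebraMap F Qb).injective
  have hgp' : (AlgEquiv.restrictNormalHom F g₀) ^ p = 1 := by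
    rw [← map_pow]
    exact hker1 _ hgp
  have hζz : ∀ (σ : GQ) (k : ℕ), (AlgEquiv.restrictNormalHom F σ) ζ = ζ ^ k → σ z = z ^ k := by
    intro σ k h
    have h1 := congrArg (Subtype.val : F → Qb) h
    rw [hcomm] at h1
    exact h1
  refine ⟨F, inferInstance, hNF, hFgal, ζ, AlgEquiv.restrictNormalHom F g₀, hζ,
    ?_, ?_, hgp', ?_, ?_, ?_, ?_⟩
  · -- `g ζ = ζ`
    apply Subtype.ext
    rw [hcomm]
    exact (cycloChar_eq_one_iff p hz g₀).mp hgχ
  · -- `g ≠ 1`
    exact fun h => hgN (hker2 g₀ h)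
  · -- generation
    intro τ hτ
    obtain ⟨σ, rfl⟩ := hsurj τ
    have h1 : σ z = z := by
      have := hζz σ 1 (by rw [pow_one]; exact hτ)
      rwa [pow_one] at this
    obtain ⟨i, hi⟩ := hgen σ ((cycloChar_eq_one_iff p hz σ).mpr h1)
    refine ⟨i, ?_⟩
    have h2 := hker1 _ hi
    rw [map_mul, map_inv, map_pow] at h2
    exact mul_inv_eq_one.mp h2
  · -- conjugation law
    intro τ k hτ
    obtain ⟨σ, rfl⟩ := hsurj τ
    have h1 : σ z = z ^ k := hζz σ k hτ
    have hzp : z ^ p = 1 := hz.pow_eq_one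
    have h2 : z ^ (k % p) = z ^ (ExtCitation.cycloExp p σ % p) := by
      rw [← pow_eq_pow_mod k hzp, ← pow_eq_pow_mod _ hzp, ← h1, apply_root p hz σ]
    have h3 : k % p = ExtCitation.cycloExp p σ % p :=
      hz.pow_inj (Nat.mod_lt _ hp.pos) (Nat.mod_lt _ hp.pos) h2
    have h4 : (AlgEquiv.restrictNormalHom F g₀) ^ k =
        (AlgEquiv.restrictNormalHom F g₀) ^ (ExtCitation.cycloExp p σ) := by
      rw [pow_eq_pow_mod k hgp', pow_eq_pow_mod (ExtCitation.cycloExp p σ) hgp', h3]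
    have h5 := hker1 _ (hconj σ)
    rw [map_mul, map_mul, map_mul, map_inv, map_inv, map_pow] at h5
    rw [h4]
    exact mul_inv_eq_one.mp h5
  · -- unramified outside `p`
    intro P hP hP0 hpP τ hτ
    obtain ⟨B, hB⟩ := exists_valuationSubring F P hP hP0
    have hn0 : Ideal.absNorm P ≠ 0 := by
      rw [Ne, Ideal.absNorm_eq_zero_iff]
      exact hP0
    obtain ⟨ℓ, hℓ, hℓP⟩ := exists_prime_natCast_mem P hP (Ideal.absNorm P) hn0
      (Ideal.absNorm_mem P)
    have hℓp : ℓ ≠ p := by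
      rintro rfl
      exact hpP hℓP
    have hBℓ : B.LiesOverPrime ℓ := hlies B ℓ (by rw [hB]; exact hℓP)
    obtain ⟨σ₀, rfl⟩ := hsurj τ
    have hσ₀N : σ₀ ∈ N := by
      apply Fermat.Agent.S13.Global.mem_of_forall_fixed B ℓ hℓ hBℓ N hclosed
        (hunr ℓ hℓ hℓp B hBℓ) σ₀
      intro b hb
      obtain ⟨x, hx⟩ := hlift b hb
      have h1 : (AlgEquiv.restrictNormalHom F σ₀) • x - x ∈
          pullbackIdeal B (phi F) (phi_isIntegral F) := by
        rw [hB]
        exact hτ x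
      rw [mem_pullbackIdeal, map_sub, hphi_smul, hx] at h1
      exact h1
    exact hker1 σ₀ hσ₀N
  · -- totally split above `p`
    intro P hP hpP τ hτζ hτP
    have hP0 : P ≠ ⊥ := by
      intro h
      rw [h, Ideal.mem_bot] at hpP
      exact hp.ne_zero (by exact_mod_cast hpP)
    obtain ⟨B, hB⟩ := exists_valuationSubring F P hP hP0
    have hBp : B.LiesOverPrime p := hlies B p (by rw [hB]; exact hpP)
    have hmax : P.IsMaximal := hP.isMaximal hP0
    have hτiff : ∀ x : 𝓞 F, τ • x ∈ P ↔ x ∈ P := by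
      have hle : P ≤ Ideal.comap (MulSemiringAction.toRingHom (F ≃ₐ[ℚ] F) (𝓞 F) τ) P :=
        fun x hx => hτP x hx
      have heq := hmax.eq_of_le (Ideal.comap_ne_top _ hP.ne_top) hle
      intro x
      constructor
      · intro h
        rw [heq]
        exact h
      · exact hτP x
    obtain ⟨σ₀, rfl⟩ := hsurj τ
    have hσ₀z : σ₀ z = z := by
      have := hζz σ₀ 1 (by rw [pow_one]; exact hτζ)
      rwa [pow_one] at this
    have hχ : ExtCitation.cycloChar p σ₀ = 1 := (cycloChar_eq_one_iff p hz σ₀).mpr hσ₀z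
    obtain ⟨h, hhN, hstab⟩ := exists_mul_smul_eq B N hclosed σ₀ (by
      intro b hb
      obtain ⟨x, hx⟩ := hlift b hb
      have h1 : phi F ((AlgEquiv.restrictNormalHom F σ₀)⁻¹ • x) = σ₀⁻¹ (b : Qb) := by
        rw [← map_inv, hphi_smul, hx]
      rw [← h1, ← hx, ← mem_pullbackIdeal B (phi F) (phi_isIntegral F),
        ← mem_pullbackIdeal B (phi F) (phi_isIntegral F), hB,
        ← hτiff ((AlgEquiv.restrictNormalHom F σ₀)⁻¹ • x), smul_inv_smul])
    have hdec : h * σ₀ ∈ B.decompositionSubgroup ℚ :=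
      mem_decompositionSubgroup B p hp hBp _ hstab
    have hχ2 : ExtCitation.cycloChar p (h * σ₀) = 1 := by
      rw [map_mul, hNχ h hhN, hχ, one_mul]
    have h3 : h * σ₀ ∈ N := hsplit B hBp _ hdec hχ2
    have h4 : σ₀ ∈ N := by
      have := N.mul_mem (N.inv_mem hhN) h3
      simpa using this
    exact hker1 σ₀ h4

end ReductionGT

/-- M0-GT : the Galois-theoretic half of the reduction (everything about `V`, `Qbar`,
valuation subrings).  Output: a finite Galois extension `L/ℚ` (the field cut out by `V`),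
a primitive `p`-th root of unity `ζ ∈ L` and a generator `g` of `Gal(L/ℚ(ζ))` (of order `p`)
with the conjugation law of type `ω⁻¹` and the two local conditions. -/
theorem exists_galois_datum {p : ℕ} [Fact p.Prime] (h3 : 3 ≤ p)
    (V : Type) [AddCommGroup V] [Module (ZMod p) V]
    [DistribMulAction (AlgebraicClosure ℚ ≃ₐ[ℚ] AlgebraicClosure ℚ) V]
    [SMulCommClass (AlgebraicClosure ℚ ≃ₐ[ℚ] AlgebraicClosure ℚ) (ZMod p) V]
    (C : Submodule (ZMod p) V) (hadm : ExtCitation.IsAdmissibleExtensionCts p V C)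
    (hns : ¬ ExtCitation.SplitsGlobally C) :
    ∃ (L : Type) (_ : Field L) (_ : NumberField L) (_ : IsGalois ℚ L)
      (ζ : L) (g : L ≃ₐ[ℚ] L),
      IsPrimitiveRoot ζ p ∧ g ζ = ζ ∧ g ≠ 1 ∧ g ^ p = 1 ∧
      (∀ τ : L ≃ₐ[ℚ] L, τ ζ = ζ → ∃ i : ℕ, τ = g ^ i) ∧
      (∀ (τ : L ≃ₐ[ℚ] L) (k : ℕ), τ ζ = ζ ^ k → τ⁻¹ * g * τ = g ^ k) ∧
      (∀ P : Ideal (𝓞 L), P.IsPrime → P ≠ ⊥ → (p : 𝓞 L) ∉ P →
        ∀ τ : L ≃ₐ[ℚ] L, (∀ x : 𝓞 L, τ • x - x ∈ P) → τ = 1) ∧
      (∀ P : Ideal (𝓞 L), P.IsPrime → (p : 𝓞 L) ∈ P →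
        ∀ τ : L ≃ₐ[ℚ] L, τ ζ = ζ → (∀ x ∈ P, τ • x ∈ P) → τ = 1) := by
  obtain ⟨N, g₀, hNn, hNo, hNχ, hgχ, hgN, hgp, hgen, hconj, hunr, hsplit⟩ :=
    exists_group_datum h3 V C hadm hns
  exact ReductionGT.galois_datum_of_group_datum N g₀ hNn hNo hNχ hgχ hgN hgp hgen hconj
    hunr hsplit

end Fermat.Agent.S14
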