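import Fermat.Agent.S14.Defs

/-!
# S14 / K2 : Thaine's relation (T3)

For a prime `ℓ ≡ 1 mod p` and `K = ℚ(ζ_p)`, let `M = K(ζ_ℓ)`.  The unit `ξ = 1 + ζ_p ζ_ℓ` has
relative norm `1`, so by Hilbert 90 `s γ = ξ' γ` for a generator `s` of `Gal(M/K)`; the norm
`y = N_{M/K} γ` then satisfies `(y) = 𝔟^(ℓ-1) ∏_σ (σ 𝔩)^(r σ)` with `1 + ζ ≡ g^(r σ) mod σ 𝔩`.
-/

set_option autoImplicit false
set_option linter.unusedSectionVars false

open scoped NumberField Pointwise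
open IsDedekindDomain

namespace Fermat.Agent.S14

namespace Thaine

open NumberField Ideal Polynomial

/-! ### Generic lemmas -/

section Gen

theorem liesOver_of_natCast_mem {R : Type*} [CommRing R] [IsDomain R] [Algebra.IsIntegral ℤ R]
    {l : ℕ} (hl : l.Prime) (𝔔 : Ideal R) [𝔔.IsPrime] (h𝔔 : 𝔔 ≠ ⊥) (h : (l : R) ∈ 𝔔) :
    𝔔.LiesOver (span {(l : ℤ)}) := by
  have : NeZero 𝔔 := ⟨h𝔔⟩
  have hqp : (absNorm (under ℤ 𝔔)).Prime := Nat.absNorm_under_prime 𝔔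
  have h2 := Int.cast_mem_ideal_iff (I := 𝔔) (d := (l : ℤ))
  rw [Int.cast_natCast, Int.natCast_dvd_natCast, Nat.prime_dvd_prime_iff_eq hqp hl] at h2
  have h3 := Int.liesOver_span_absNorm 𝔔
  rwa [h2.mp h] at h3

open UniqueFactorizationMonoid in
theorem exists_factorization {A : Type*} [CommRing A] [IsDedekindDomain A] {G : Type*}
    [Fintype G] (f : G → Ideal A) (hf : Function.Injective f) (I : Ideal A) (hI : I ≠ ⊥)
    (n : ℕ) (P : Ideal A → Prop)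
    (hP : ∀ 𝔮 : Ideal A, Prime 𝔮 → 𝔮 ∣ I → P 𝔮 → ∃ σ, f σ = 𝔮)
    (hdiv : ∀ 𝔮 : Ideal A, Prime 𝔮 → ¬ P 𝔮 → n ∣ multiplicity 𝔮 I)
    (hfP : ∀ σ, P (f σ)) (hfprime : ∀ σ, Prime (f σ)) :
    ∃ 𝔟 : Ideal A, I = 𝔟 ^ n * ∏ σ, (f σ) ^ (multiplicity (f σ) I) := by
  classical
  set F := normalizedFactors I with hF
  have hprod : F.prod = I := Ideal.prod_normalizedFactors_eq_self hI
  have hprimeF : ∀ 𝔮 ∈ F, Prime 𝔮 := fun 𝔮 h𝔮 => prime_of_normalized_factor 𝔮 h𝔮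
  have hcount : ∀ 𝔮 : Ideal A, Prime 𝔮 → F.count 𝔮 = multiplicity 𝔮 I := by
    intro 𝔮 h𝔮
    have h1 := emultiplicity_eq_count_normalizedFactors h𝔮.irreducible hI
    rw [normalize_eq, (FiniteMultiplicity.of_prime_left h𝔮 hI).emultiplicity_eq_multiplicity]
      at h1
    exact_mod_cast h1.symm
  have h1 : I = ∏ 𝔮 ∈ F.toFinset, 𝔮 ^ F.count 𝔮 := by
    rw [← hprod]; exact Finset.prod_multiset_count F
  rw [← Finset.prod_filter_mul_prod_filter_not F.toFinset P] at h1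
  have h2 : ∏ 𝔮 ∈ F.toFinset with ¬ P 𝔮, 𝔮 ^ F.count 𝔮 =
      (∏ 𝔮 ∈ F.toFinset with ¬ P 𝔮, 𝔮 ^ (F.count 𝔮 / n)) ^ n := by
    rw [← Finset.prod_pow]
    refine Finset.prod_congr rfl fun 𝔮 h𝔮 => ?_
    rw [Finset.mem_filter, Multiset.mem_toFinset] at h𝔮
    rw [← pow_mul, Nat.div_mul_cancel]
    rw [hcount 𝔮 (hprimeF 𝔮 h𝔮.1)]
    exact hdiv 𝔮 (hprimeF 𝔮 h𝔮.1) h𝔮.2
  have h3 : ∏ 𝔮 ∈ F.toFinset with P 𝔮, 𝔮 ^ F.count 𝔮 = ∏ σ, (f σ) ^ (multiplicity (f σ) I) := by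
    have h4 : ∏ σ, (f σ) ^ (multiplicity (f σ) I) =
        ∏ 𝔮 ∈ Finset.univ.image f, 𝔮 ^ F.count 𝔮 := by
      rw [Finset.prod_image (fun x _ y _ h => hf h)]
      refine Finset.prod_congr rfl fun σ _ => ?_
      rw [hcount (f σ) (hfprime σ)]
    rw [h4]
    refine Finset.prod_subset ?_ ?_
    · intro 𝔮 h𝔮
      rw [Finset.mem_filter, Multiset.mem_toFinset] at h𝔮
      obtain ⟨σ, hσ⟩ := hP 𝔮 (hprimeF 𝔮 h𝔮.1) (dvd_of_mem_normalizedFactors h𝔮.1) h𝔮.2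
      exact Finset.mem_image.mpr ⟨σ, Finset.mem_univ _, hσ⟩
    · intro 𝔮 h𝔮 hn𝔮
      obtain ⟨σ, -, rfl⟩ := Finset.mem_image.mp h𝔮
      rw [Finset.mem_filter, Multiset.mem_toFinset] at hn𝔮
      have : f σ ∉ F := fun h => hn𝔮 ⟨h, hfP σ⟩
      rw [Multiset.count_eq_zero_of_notMem this, pow_zero]
  refine ⟨∏ 𝔮 ∈ F.toFinset with ¬ P 𝔮, 𝔮 ^ (F.count 𝔮 / n), ?_⟩
  rw [← h2, ← h3, mul_comm]
  exact h1

end Gen

/-! ### The local congruence at a totally ramified prime -/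

section Local

variable {B : Type*} [CommRing B] [IsDedekindDomain B]

theorem map_mem_pow (σ : B →+* B) (𝔔 : Ideal B) (π : B) (hπ : π ∈ 𝔔)
    (hσ : ∀ x, σ x - x ∈ span {π}) (n : ℕ) : ∀ x ∈ 𝔔 ^ n, σ x ∈ 𝔔 ^ n := by
  have h1 : ∀ x ∈ 𝔔, σ x ∈ 𝔔 := by
    intro x hx
    have h2 : σ x - x ∈ 𝔔 := (span_singleton_le_iff_mem (I := 𝔔)).mpr hπ (hσ x)
    have := 𝔔.add_mem h2 hx
    simpa using this
  induction n with
  | zero => intro x _; simp
  | succ n ih =>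
    intro x hx
    rw [pow_succ] at hx ⊢
    refine Submodule.mul_induction_on hx ?_ ?_
    · intro m hm k hk
      rw [map_mul]
      exact Ideal.mul_mem_mul (ih m hm) (h1 k hk)
    · intro u v hu hv
      rw [map_add]
      exact Ideal.add_mem _ hu hv

theorem pow_notMem_pow_succ (𝔔 : Ideal B) [h𝔔p : 𝔔.IsPrime] (h𝔔 : 𝔔 ≠ ⊥) (π : B) (hπ : π ∈ 𝔔)
    (hπ2 : π ∉ 𝔔 ^ 2) (r : ℕ) : π ^ r ∉ 𝔔 ^ (r + 1) := by
  have hprime : Prime 𝔔 := Ideal.prime_of_isPrime h𝔔 h𝔔p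
  have h1 : emultiplicity 𝔔 (span {π}) = 1 := by
    have : emultiplicity 𝔔 (span {π}) = ((1 : ℕ) : ℕ∞) := by
      rw [emultiplicity_eq_coe]
      refine ⟨?_, ?_⟩
      · rw [pow_one, Ideal.dvd_span_singleton]; exact hπ
      · rw [Ideal.dvd_span_singleton]; exact hπ2
    simpa using this
  have h2 : emultiplicity 𝔔 (span {π ^ r}) = r := by
    rw [← Ideal.span_singleton_pow, emultiplicity_pow hprime, h1, mul_one]
  intro hmem
  rw [← Ideal.dvd_span_singleton, pow_dvd_iff_le_emultiplicity, h2] at hmem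
  have : (r + 1 : ℕ) ≤ r := by exact_mod_cast hmem
  omega

theorem local_congr (σ : B →+* B) (𝔔 : Ideal B) [h𝔔p : 𝔔.IsPrime] (h𝔔 : 𝔔 ≠ ⊥) (π : B)
    (hπ : π ∈ 𝔔) (hπ2 : π ∉ 𝔔 ^ 2) (hσ : ∀ x, σ x - x ∈ span {π}) (c : B) (hσπ : σ π = π * c)
    (a : B) (hc : c - a ∈ 𝔔) (r : ℕ) (γ u : B) (hγ : γ ∈ 𝔔 ^ r) (hγ' : γ ∉ 𝔔 ^ (r + 1))
    (hσγ : σ γ = u * γ) : u - a ^ r ∈ 𝔔 := by
  have hπr : π ^ r ∈ 𝔔 ^ r := Ideal.pow_mem_pow hπ r
  have hπr' : π ^ r ∉ 𝔔 ^ (r + 1) := pow_notMem_pow_succ 𝔔 h𝔔 π hπ hπ2 r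
  obtain ⟨d, e, he, hde⟩ := Ideal.exists_mul_add_mem_pow_succ h𝔔 (π ^ r) γ hπr hπr' hγ
  have hspan : span {π} ≤ 𝔔 := (span_singleton_le_iff_mem (I := 𝔔)).mpr hπ
  have hσe : σ e ∈ 𝔔 ^ (r + 1) := map_mem_pow σ 𝔔 π hπ hσ (r + 1) e he
  have hcr : c ^ r - a ^ r ∈ 𝔔 := 𝔔.mem_of_dvd (sub_dvd_pow_sub_pow c a r) hc
  have h1 : c ^ r * σ d - a ^ r * d ∈ 𝔔 := by
    have : c ^ r * σ d - a ^ r * d = (c ^ r - a ^ r) * σ d + a ^ r * (σ d - d) := by ring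
    rw [this]
    exact 𝔔.add_mem (𝔔.mul_mem_right _ hcr) (𝔔.mul_mem_left _ (hspan (hσ d)))
  have h2 : σ γ - a ^ r * γ ∈ 𝔔 ^ (r + 1) := by
    have : σ γ - a ^ r * γ = π ^ r * (c ^ r * σ d - a ^ r * d) + (σ e - a ^ r * e) := by
      rw [← hde, map_add, map_mul, map_pow, hσπ]; ring
    rw [this]
    refine Ideal.add_mem _ ?_ (Ideal.sub_mem _ hσe (Ideal.mul_mem_left _ _ he))
    rw [pow_succ]
    exact Ideal.mul_mem_mul hπr h1
  have h3 : γ * (u - a ^ r) ∈ 𝔔 ^ (r + 1) := by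
    have : γ * (u - a ^ r) = σ γ - a ^ r * γ := by rw [hσγ]; ring
    rw [this]; exact h2
  exact Ideal.mem_prime_of_mul_mem_pow h𝔔 hγ' h3

end Local

/-! ### The norm of `1 + c z` -/

section NormXi

variable {l : ℕ} [hl : Fact l.Prime]
  {K M : Type} [Field K] [Field M] [Algebra K M] [CharZero K]
  [hM : IsCyclotomicExtension {l} K M]

/-- For a primitive `l`-th root `z` (irreducible cyclotomic polynomial), and `c ∈ K` with
`c ^ l = c`, `c ≠ -1`, `c ≠ 0` (`l` odd): `N_{M/K}(1 + c z) = 1`. -/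
theorem norm_one_add_mul (hirr : Irreducible (cyclotomic l K)) (hodd : Odd l) {z : M}
    (hz : IsPrimitiveRoot z l) (c : K) (hc : c ^ l = c) (hc0 : c ≠ 0) (hc1 : c ≠ -1) :
    Algebra.norm K (1 + algebraMap K M c * z) = 1 := by
  have := IsCyclotomicExtension.neZero' l K M
  let E := AlgebraicClosure M
  obtain ⟨w, hw⟩ := IsAlgClosed.exists_root _ (degree_cyclotomic_pos l E (NeZero.pos _)).ne.symm
  apply (algebraMap K E).injective
  let := IsCyclotomicExtension.finiteDimensional {l} K M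
  let := IsCyclotomicExtension.isGalois {l} K M
  rw [Algebra.norm_eq_prod_embeddings, map_one]
  have hmap : ∀ σ : M →ₐ[K] E, σ (1 + algebraMap K M c * z) = 1 + algebraMap K E c * σ z := by
    intro σ
    rw [map_add, map_one, map_mul, AlgHom.commutes]
  simp_rw [hmap]
  set c' : E := algebraMap K E c with hc'
  have hc'l : c' ^ l = c' := by rw [hc', ← map_pow, hc]
  have hc'0 : c' ≠ 0 := by rw [hc']; simpa using hc0
  have hc'1 : c' ≠ -1 := by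
    rw [hc']; intro h
    apply hc1
    apply (algebraMap K E).injective
    rw [h, map_neg, map_one]
  have : NeZero (l : E) := NeZero.of_faithfulSMul K _ l
  have Hprod : (Finset.univ.prod fun σ : M →ₐ[K] E => (1 + c' * σ z)) =
      ∏ μ ∈ primitiveRoots l E, (1 + c' * μ) := by
    rw [← Finset.prod_attach (primitiveRoots l E), ← Finset.univ_eq_attach]
    refine Fintype.prod_equiv (hz.embeddingsEquivPrimitiveRoots E hirr) _ _ fun σ => ?_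
    simp
  rw [Hprod]
  -- evaluate the cyclotomic polynomial at `x = -c'⁻¹`
  set x : E := -c'⁻¹ with hx
  have hcyc : eval x (cyclotomic l E) = ∏ μ ∈ primitiveRoots l E, (x - μ) := by
    rw [cyclotomic_eq_prod_X_sub_primitiveRoots (isRoot_cyclotomic_iff.1 hw), eval_prod]
    simp
  have hcard : (primitiveRoots l E).card = l - 1 := by
    rw [(isRoot_cyclotomic_iff.1 hw).card_primitiveRoots, Nat.totient_prime hl.out]
  have heven : Even (l - 1) := by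
    have := hl.out.one_lt
    obtain ⟨k, hk⟩ := hodd
    exact ⟨k, by omega⟩
  have hfac : ∀ μ : E, 1 + c' * μ = (-c') * (x - μ) := by
    intro μ
    have h := mul_inv_cancel₀ hc'0
    rw [hx]; linear_combination (-1 : E) * h
  have hprod2 : ∏ μ ∈ primitiveRoots l E, (1 + c' * μ) = c' ^ (l - 1) * eval x (cyclotomic l E) := by
    rw [hcyc, Finset.prod_congr rfl (fun μ _ => hfac μ), Finset.prod_mul_distrib,
      Finset.prod_const, hcard, heven.neg_pow]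
  have hcl1 : c' ^ (l - 1) = 1 := by
    have h1 : c' ^ (l - 1) * c' = c' := by
      rw [← pow_succ, Nat.sub_add_cancel hl.out.one_lt.le, hc'l]
    exact mul_right_cancel₀ hc'0 (by rw [h1, one_mul])
  have hxl : x ^ l = x := by
    rw [hx, hodd.neg_pow, inv_pow, hc'l]
  have hx1 : x ≠ 1 := by
    rw [hx]; intro h
    apply hc'1
    have : c'⁻¹ = -1 := by rw [← h]; ring
    rw [← inv_inv c', this]; norm_num
  have hev : eval x (cyclotomic l E) = 1 := by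
    have h2 : eval x (cyclotomic l E) * (x - 1) = x - 1 := by
      rw [cyclotomic_prime, eval_geom_sum, geom_sum_mul, hxl]
    exact mul_right_cancel₀ (sub_ne_zero.mpr hx1) (by rw [h2, one_mul])
  rw [hprod2, hcl1, hev, one_mul]

end NormXi

/-! ### The field `M = K(ζ_l)` -/

section Setup

variable {p l : ℕ} [hp : Fact p.Prime] [hl : Fact l.Prime]
  (K : Type) {M : Type} [Field K] [NumberField K] [Field M] [NumberField M] [Algebra K M]
  [hK : IsCyclotomicExtension {p} ℚ K] [hM : IsCyclotomicExtension {l} K M]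

include hK hM in
/-- `M = K(ζ_l)` is the `p*l`-th cyclotomic field over `ℚ`. -/
theorem isCyclotomicExtension_mul (hpl : p ≠ l) : IsCyclotomicExtension {p * l} ℚ M := by
  have h1 : IsCyclotomicExtension ({p} ∪ {l}) ℚ M :=
    IsCyclotomicExtension.trans {p} {l} ℚ K M (algebraMap K M).injective
  have hcop : Nat.Coprime p l := (Nat.coprime_primes hp.out hl.out).mpr hpl
  have hζp : IsPrimitiveRoot (algebraMap K M (IsCyclotomicExtension.zeta p ℚ K)) p :=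
    (IsCyclotomicExtension.zeta_spec p ℚ K).map_of_injective (algebraMap K M).injective
  have hζl : IsPrimitiveRoot (IsCyclotomicExtension.zeta l K M) l :=
    IsCyclotomicExtension.zeta_spec l K M
  have hprim : IsPrimitiveRoot
      (algebraMap K M (IsCyclotomicExtension.zeta p ℚ K) * IsCyclotomicExtension.zeta l K M)
      (p * l) := by
    rw [IsPrimitiveRoot.iff_orderOf, (Commute.all _ _).orderOf_mul_eq_mul_orderOf_of_coprime,
      ← hζp.eq_orderOf, ← hζl.eq_orderOf]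
    rwa [← hζp.eq_orderOf, ← hζl.eq_orderOf]
  have h2 : IsCyclotomicExtension ({p} ∪ {l} ∪ {p * l}) ℚ M :=
    IsCyclotomicExtension.union_of_isPrimitiveRoot _ ℚ M hprim
  have e : ({p} ∪ {l} ∪ {p * l} : Set ℕ) = ({p * l} ∪ {p}) ∪ {l} := by
    ext x; simp; tauto
  rw [e] at h2
  have h3 : IsCyclotomicExtension ({p * l} ∪ {p}) ℚ M :=
    (IsCyclotomicExtension.iff_union_of_dvd ℚ M
      ⟨p * l, by simp, Nat.mul_ne_zero hp.out.ne_zero hl.out.ne_zero, dvd_mul_left l p⟩).mpr h2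
  exact (IsCyclotomicExtension.iff_union_of_dvd ℚ M
      ⟨p * l, by simp, Nat.mul_ne_zero hp.out.ne_zero hl.out.ne_zero, dvd_mul_right p l⟩).mpr h3

include hK hM in
theorem finrank_eq (hpl : p ≠ l) : Module.finrank K M = l - 1 := by
  have hcop : Nat.Coprime p l := (Nat.coprime_primes hp.out hl.out).mpr hpl
  have : IsCyclotomicExtension {p * l} ℚ M := isCyclotomicExtension_mul (p := p) (l := l) K hpl
  have : NeZero (p * l) := ⟨Nat.mul_ne_zero hp.out.ne_zero hl.out.ne_zero⟩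
  have h1 := IsCyclotomicExtension.Rat.finrank (p * l) M
  have h2 := IsCyclotomicExtension.Rat.finrank p K
  have h3 := Module.finrank_mul_finrank ℚ K M
  rw [h1, h2, Nat.totient_mul hcop, Nat.totient_prime hp.out, Nat.totient_prime hl.out] at h3
  exact Nat.eq_of_mul_eq_mul_left (Nat.sub_pos_of_lt hp.out.one_lt) h3

include hK hM in
theorem irreducible_cyclotomic (hpl : p ≠ l) : Irreducible (cyclotomic l K) := by
  have hfin := finrank_eq (p := p) (l := l) (M := M) K hpl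
  have hζ := IsCyclotomicExtension.zeta_spec l K M
  have hdvd : minpoly K (IsCyclotomicExtension.zeta l K M) ∣ cyclotomic l K :=
    minpoly.dvd K _ (by
      rw [aeval_def, eval₂_eq_eval_map, map_cyclotomic]
      exact hζ.isRoot_cyclotomic hl.out.pos)
  have hdeg : (minpoly K (IsCyclotomicExtension.zeta l K M)).natDegree = l - 1 := by
    rw [← hfin, ← hζ.powerBasis_dim K, (hζ.powerBasis K).finrank]
  have hint : IsIntegral K (IsCyclotomicExtension.zeta l K M) :=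
    Algebra.IsIntegral.isIntegral _
  have heq : cyclotomic l K = minpoly K (IsCyclotomicExtension.zeta l K M) := by
    refine Polynomial.eq_of_monic_of_dvd_of_natDegree_le (minpoly.monic hint)
      (cyclotomic.monic l K) hdvd ?_
    rw [natDegree_cyclotomic, Nat.totient_prime hl.out, hdeg]
  rw [heq]
  exact minpoly.irreducible hint

include hK hM in
theorem isCyclic_gal (hpl : p ≠ l) : IsCyclic (M ≃ₐ[K] M) := by
  have hirr := irreducible_cyclotomic (p := p) (l := l) (M := M) K hpl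
  have : NeZero l := ⟨hl.out.ne_zero⟩
  exact (IsCyclotomicExtension.autEquivPow M hirr).isCyclic.mpr inferInstance

/-- the associates-stabiliser of an element, as a subgroup of the Galois group -/
def assocStab (γ : 𝓞 M) : Subgroup (M ≃ₐ[K] M) where
  carrier := {τ | Associated (τ • γ) γ}
  mul_mem' := by
    intro a b ha hb
    simp only [Set.mem_ofPred_eq] at ha hb ⊢
    rw [mul_smul]
    have h1 : Associated (a • b • γ) (a • γ) :=
      hb.map (MulSemiringAction.toRingHom (M ≃ₐ[K] M) (𝓞 M) a)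
    exact h1.trans ha
  one_mem' := by simp
  inv_mem' := by
    intro a ha
    simp only [Set.mem_ofPred_eq] at ha ⊢
    have h1 : Associated (a⁻¹ • a • γ) (a⁻¹ • γ) :=
      ha.map (MulSemiringAction.toRingHom (M ≃ₐ[K] M) (𝓞 M) a⁻¹)
    rw [inv_smul_smul] at h1
    exact h1.symm

theorem smul_algebraMap_int (τ : M ≃ₐ[K] M) (x : 𝓞 K) :
    τ • (algebraMap (𝓞 K) (𝓞 M) x) = algebraMap (𝓞 K) (𝓞 M) x := by
  apply RingOfIntegers.ext
  show τ (algebraMap K M (x : K)) = algebraMap K M (x : K)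
  exact τ.commutes _

include hK hM in
/-- Hilbert 90 applied to `ξ = 1 + ζ z`. -/
theorem exists_thaine_element (hp2 : p ≠ 2) (hlp : l % p = 1) (ζ : 𝓞 K)
    (hζ : IsPrimitiveRoot ζ p) :
    ∃ (s : M ≃ₐ[K] M) (a : ℕ) (z γ : 𝓞 M), IsPrimitiveRoot z l ∧ γ ≠ 0 ∧ s • z = z ^ a ∧
      s • γ = (1 + algebraMap (𝓞 K) (𝓞 M) ζ * z ^ a) * γ ∧
      (∀ τ : M ≃ₐ[K] M, Associated (τ • γ) γ) := by
  have hpl : p ≠ l := by
    rintro rfl
    rw [Nat.mod_self] at hlp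
    exact zero_ne_one hlp
  have hp3 : 3 ≤ p := by
    have := hp.out.two_le
    omega
  have hl2 : l ≠ 2 := by
    rintro rfl
    have : 2 % p = 2 := Nat.mod_eq_of_lt (by omega)
    omega
  have hodd : Odd l := hl.out.odd_of_ne_two hl2
  have hirr := irreducible_cyclotomic (p := p) (l := l) (M := M) K hpl
  have hcyc := isCyclic_gal (p := p) (l := l) (M := M) K hpl
  have hgal : IsGalois K M := IsCyclotomicExtension.isGalois {l} K M
  have hz0 := IsCyclotomicExtension.zeta_spec l K M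
  have : NeZero l := ⟨hl.out.ne_zero⟩
  have : NeZero p := ⟨hp.out.ne_zero⟩
  set z : 𝓞 M := hz0.toInteger with hzdef
  have hz : IsPrimitiveRoot z l := hz0.toInteger_isPrimitiveRoot
  set ξ : 𝓞 M := 1 + algebraMap (𝓞 K) (𝓞 M) ζ * z with hξdef
  have hζK : IsPrimitiveRoot (ζ : K) p := hζ.map_of_injective RingOfIntegers.coe_injective
  have hnorm : Algebra.norm K (algebraMap (𝓞 M) M ξ) = 1 := by
    have e : algebraMap (𝓞 M) M ξ =
        1 + algebraMap K M (ζ : K) * IsCyclotomicExtension.zeta l K M := by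
      rw [hξdef, map_add, map_one, map_mul]
      rfl
    rw [e]
    refine norm_one_add_mul hirr hodd hz0 (ζ : K) ?_ (hζK.ne_zero (NeZero.ne p)) ?_
    · conv_lhs => rw [← Nat.div_add_mod l p, hlp, pow_add, pow_mul, hζK.pow_eq_one, one_pow,
        one_mul, pow_one]
    · intro h
      have h2 : (ζ : K) ^ 2 = 1 := by rw [h]; norm_num
      have := (hζK.pow_eq_one_iff_dvd 2).mp h2
      have := Nat.le_of_dvd (by norm_num) this
      omega
  obtain ⟨t, ht⟩ := hcyc.exists_generator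
  obtain ⟨ε, hε0, hε⟩ := groupCohomology.exists_mul_galRestrict_of_norm_eq_one
    (A := 𝓞 K) (B := 𝓞 M) ht hnorm
  have hg : galRestrict (𝓞 K) K M (𝓞 M) t ε = t • ε := by
    apply RingOfIntegers.ext
    exact algebraMap_galRestrict_apply (𝓞 K) t ε
  have hε' : ξ * t • ε = ε := by
    rw [← hg]; exact hε
  set s := t⁻¹ with hs
  have hsε : s • ε = s • ξ * ε := by
    have := congrArg (fun x => s • x) hε'
    simp only [smul_mul', hs, inv_smul_smul] at this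
    rw [hs]
    exact this.symm
  obtain ⟨a, -, ha⟩ := hz.eq_pow_of_pow_eq_one (ξ := s • z)
    (by rw [← smul_pow', hz.pow_eq_one, smul_one])
  have hsξ : s • ξ = 1 + algebraMap (𝓞 K) (𝓞 M) ζ * z ^ a := by
    rw [hξdef, smul_add, smul_one, smul_mul', smul_algebraMap_int, ha]
  have hξu : IsUnit ξ := by
    rw [← RingOfIntegers.isUnit_norm_of_isGalois K]
    have : RingOfIntegers.norm K ξ = 1 := by
      apply RingOfIntegers.ext
      rw [RingOfIntegers.coe_norm]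
      exact hnorm
    rw [this]
    exact isUnit_one
  have hsξu : IsUnit (s • ξ) := hξu.map (MulSemiringAction.toRingHom (M ≃ₐ[K] M) (𝓞 M) s)
  refine ⟨s, a, z, ε, hz, hε0, ha.symm, by rw [hsε, hsξ], ?_⟩
  have hmem : s ∈ assocStab K ε := by
    show Associated (s • ε) ε
    rw [hsε]
    exact (associated_unit_mul_left ε (s • ξ) hsξu)
  have htop : Subgroup.zpowers s = ⊤ := by
    rw [hs, Subgroup.zpowers_inv]
    exact (Subgroup.eq_top_iff' _).mpr ht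
  intro τ
  have : τ ∈ Subgroup.zpowers s := by rw [htop]; trivial
  exact (Subgroup.zpowers_le.mpr hmem) this

theorem algebraMap_norm_eq_prod [IsGalois K M] (γ : 𝓞 M) :
    algebraMap (𝓞 K) (𝓞 M) (RingOfIntegers.norm K γ) = ∏ τ : M ≃ₐ[K] M, τ • γ := by
  apply RingOfIntegers.ext
  rw [RingOfIntegers.coe_algebraMap_norm, Algebra.norm_eq_prod_automorphisms]
  rw [show ((∏ τ : M ≃ₐ[K] M, τ • γ : 𝓞 M) : M) = algebraMap (𝓞 M) M (∏ τ : M ≃ₐ[K] M, τ • γ)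
    from rfl, map_prod]
  rfl

theorem map_span_norm [IsGalois K M] (γ : 𝓞 M)
    (hγ : ∀ τ : M ≃ₐ[K] M, Associated (τ • γ) γ) :
    Ideal.map (algebraMap (𝓞 K) (𝓞 M)) (span {RingOfIntegers.norm K γ}) =
      span {γ} ^ Module.finrank K M := by
  rw [Ideal.map_span, Set.image_singleton, algebraMap_norm_eq_prod, ← Ideal.prod_span_singleton]
  rw [Finset.prod_congr rfl (fun τ _ => Ideal.span_singleton_eq_span_singleton.mpr (hγ τ)),
    Finset.prod_const, Finset.card_univ, ← Nat.card_eq_fintype_card,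
    IsGalois.card_aut_eq_finrank]

/-- `s` acts trivially modulo `z - 1`. -/
theorem smul_sub_mem (hpl : p ≠ l) (hMc : IsCyclotomicExtension {p * l} ℚ M) (ζ : 𝓞 K)
    (hζ : IsPrimitiveRoot ζ p) (z : 𝓞 M) (hz : IsPrimitiveRoot z l) (s : M ≃ₐ[K] M) (a : ℕ)
    (hs : s • z = z ^ a) (x : 𝓞 M) : s • x - x ∈ span {z - 1} := by
  have hcop : Nat.Coprime p l := (Nat.coprime_primes hp.out hl.out).mpr hpl
  have : NeZero (p * l) := ⟨Nat.mul_ne_zero hp.out.ne_zero hl.out.ne_zero⟩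
  set ω : 𝓞 M := algebraMap (𝓞 K) (𝓞 M) ζ * z with hω
  have hζM : IsPrimitiveRoot (algebraMap (𝓞 K) (𝓞 M) ζ) p :=
    hζ.map_of_injective (FaithfulSMul.algebraMap_injective (𝓞 K) (𝓞 M))
  have hprim : IsPrimitiveRoot ω (p * l) := by
    rw [IsPrimitiveRoot.iff_orderOf, hω,
      (Commute.all _ _).orderOf_mul_eq_mul_orderOf_of_coprime,
      ← hζM.eq_orderOf, ← hz.eq_orderOf]
    rwa [← hζM.eq_orderOf, ← hz.eq_orderOf]
  have hprimM : IsPrimitiveRoot (ω : M) (p * l) :=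
    hprim.map_of_injective RingOfIntegers.coe_injective
  have htop := IsCyclotomicExtension.Rat.adjoin_singleton_eq_top hprimM
  have hωeq : hprimM.toInteger = ω := RingOfIntegers.ext rfl
  rw [hωeq] at htop
  have hx : x ∈ Algebra.adjoin ℤ {ω} := by rw [htop]; trivial
  have hdvd : ∀ n : ℕ, z ^ n - 1 ∈ span {z - 1} := by
    intro n
    rw [Ideal.mem_span_singleton]
    simpa using sub_dvd_pow_sub_pow z 1 n
  induction hx using Algebra.adjoin_induction with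
  | mem y hy =>
    rw [Set.mem_singleton_iff] at hy
    rw [hy, hω, smul_mul', smul_algebraMap_int, hs]
    have : algebraMap (𝓞 K) (𝓞 M) ζ * z ^ a - algebraMap (𝓞 K) (𝓞 M) ζ * z =
        algebraMap (𝓞 K) (𝓞 M) ζ * ((z ^ a - 1) - (z ^ 1 - 1)) := by ring
    rw [this]
    exact Ideal.mul_mem_left _ _ (Ideal.sub_mem _ (hdvd a) (hdvd 1))
  | algebraMap r =>
    have : s • (algebraMap ℤ (𝓞 M) r) = algebraMap ℤ (𝓞 M) r := by
      rw [eq_intCast]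
      exact map_intCast (MulSemiringAction.toRingHom (M ≃ₐ[K] M) (𝓞 M) s) r
    rw [this, sub_self]
    exact Ideal.zero_mem _
  | add u v _ _ hu hv =>
    have : s • (u + v) - (u + v) = (s • u - u) + (s • v - v) := by rw [smul_add]; ring
    rw [this]
    exact Ideal.add_mem _ hu hv
  | mul u v _ _ hu hv =>
    have : s • (u * v) - u * v = s • u * (s • v - v) + (s • u - u) * v := by
      rw [smul_mul']; ring
    rw [this]
    exact Ideal.add_mem _ (Ideal.mul_mem_left _ _ hv) (Ideal.mul_mem_right _ _ hu)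

/-- ramification indices of `M/K`. -/
theorem ramificationIdx_cases (hpl : p ≠ l) (hMc : IsCyclotomicExtension {p * l} ℚ M)
    (𝔔 : Ideal (𝓞 M)) [h𝔔p : 𝔔.IsPrime] (h𝔔 : 𝔔 ≠ ⊥) :
    ((l : 𝓞 M) ∉ 𝔔 → 𝔔.ramificationIdx (𝓞 K) = 1) ∧
    ((l : 𝓞 M) ∈ 𝔔 → 𝔔.ramificationIdx (𝓞 K) = l - 1 ∧ 𝔔.ramificationIdx ℤ = l - 1) := by
  have : NeZero 𝔔 := ⟨h𝔔⟩
  have : NeZero p := ⟨hp.out.ne_zero⟩
  have : NeZero l := ⟨hl.out.ne_zero⟩
  have : NeZero (p * l) := ⟨Nat.mul_ne_zero hp.out.ne_zero hl.out.ne_zero⟩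
  set q := absNorm (under ℤ 𝔔) with hq
  have hqp : q.Prime := Nat.absNorm_under_prime 𝔔
  have hmem : (l : 𝓞 M) ∈ 𝔔 ↔ q = l := by
    have := Int.cast_mem_ideal_iff (I := 𝔔) (d := (l : ℤ))
    rw [Int.cast_natCast] at this
    rw [this, Int.natCast_dvd_natCast, Nat.prime_dvd_prime_iff_eq hqp hl.out]
  set 𝔮 : Ideal (𝓞 K) := 𝔔.under (𝓞 K) with h𝔮
  have h𝔮p : 𝔮.IsPrime := inferInstance
  have hlo : 𝔔.LiesOver (span {(q : ℤ)}) := Int.liesOver_span_absNorm 𝔔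
  have hlo2 : 𝔮.LiesOver (span {(q : ℤ)}) := Ideal.LiesOver.tower_bot 𝔔 𝔮 (span {(q : ℤ)})
  have htower := Ideal.ramificationIdx_tower (R := ℤ) 𝔮 𝔔
  have hnlp : ¬ l ∣ p := fun h => hpl ((Nat.prime_dvd_prime_iff_eq hl.out hp.out).mp h).symm
  have hnpl : ¬ p ∣ l := fun h => hpl ((Nat.prime_dvd_prime_iff_eq hp.out hl.out).mp h)
  constructor
  · intro hnot
    rw [hmem] at hnot
    by_cases hqp' : q = p
    · have hfq : Fact q.Prime := ⟨hqp⟩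
      subst hqp'
      have h1 := IsCyclotomicExtension.Rat.ramificationIdx_eq (q * l) (m := l) (p := q) (k := 0)
        M 𝔔 (by simp) hnpl
      have h2 := IsCyclotomicExtension.Rat.ramificationIdx_eq_of_prime q K 𝔮
      rw [h1, h2] at htower
      simp only [pow_zero, one_mul] at htower
      have hpos : 0 < q - 1 := Nat.sub_pos_of_lt hqp.one_lt
      have h3 : (q - 1) * 𝔔.ramificationIdx (𝓞 K) = (q - 1) * 1 := by
        rw [mul_one]; exact htower.symm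
      exact Nat.eq_of_mul_eq_mul_left hpos h3
    · have hfq : Fact q.Prime := ⟨hqp⟩
      have hndvd : ¬ q ∣ p * l := by
        intro h
        rcases (Nat.Prime.dvd_mul hqp).mp h with h | h
        · exact hqp' ((Nat.prime_dvd_prime_iff_eq hqp hp.out).mp h)
        · exact hnot ((Nat.prime_dvd_prime_iff_eq hqp hl.out).mp h)
      have h1 := IsCyclotomicExtension.Rat.ramificationIdx_eq_of_not_dvd (m := p * l) q M 𝔔 hndvd
      rw [h1] at htower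
      exact Nat.eq_one_of_mul_eq_one_left htower.symm
  · intro hin
    rw [hmem] at hin
    have hfq : Fact q.Prime := ⟨hqp⟩
    have h1 := IsCyclotomicExtension.Rat.ramificationIdx_eq (p * l) (m := p) (p := q) (k := 0)
      M 𝔔 (by rw [hin]; simp [mul_comm]) (by rw [hin]; exact hnlp)
    have h2 := IsCyclotomicExtension.Rat.ramificationIdx_eq_of_not_dvd (m := p) q K 𝔮
      (by rw [hin]; exact hnlp)
    rw [h1, h2] at htower
    simp only [pow_zero, one_mul] at htower h1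
    rw [hin] at htower h1
    exact ⟨htower.symm, h1⟩

theorem multiplicity_relation (𝔮 : Ideal (𝓞 K)) [h𝔮p : 𝔮.IsPrime] (h𝔮 : 𝔮 ≠ ⊥)
    (𝔔 : Ideal (𝓞 M)) [h𝔔p : 𝔔.IsPrime] [𝔔.LiesOver 𝔮] (h𝔔 : 𝔔 ≠ ⊥) (y : 𝓞 K) (hy : y ≠ 0)
    (γ : 𝓞 M) (hγ : γ ≠ 0) (n : ℕ)
    (h : Ideal.map (algebraMap (𝓞 K) (𝓞 M)) (span {y}) = span {γ} ^ n) :
    𝔔.ramificationIdx (𝓞 K) * multiplicity 𝔮 (span {y}) = n * multiplicity 𝔔 (span {γ}) := by
  have hp𝔮 : Prime 𝔮 := Ideal.prime_of_isPrime h𝔮 h𝔮p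
  have hp𝔔 : Prime 𝔔 := Ideal.prime_of_isPrime h𝔔 h𝔔p
  have hy' : span {y} ≠ ⊥ := by simpa using hy
  have hγ' : span {γ} ≠ ⊥ := by simpa using hγ
  have h1 := Ideal.IsDedekindDomain.emultiplicity_map_eq_ramificationIdx'_mul (v := 𝔮) (w := 𝔔)
    hy' hp𝔮.irreducible hp𝔔.irreducible h𝔔
  rw [h, emultiplicity_pow hp𝔔, ramificationIdx'_eq_ramificationIdx 𝔮 𝔔 h𝔮,
    (FiniteMultiplicity.of_prime_left hp𝔔 hγ').emultiplicity_eq_multiplicity,
    (FiniteMultiplicity.of_prime_left hp𝔮 hy').emultiplicity_eq_multiplicity] at h1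
  exact_mod_cast h1.symm

theorem zeta_sub_one_unif (𝔔 : Ideal (𝓞 M)) [h𝔔p : 𝔔.IsPrime] (h𝔔 : 𝔔 ≠ ⊥)
    (hl𝔔 : (l : 𝓞 M) ∈ 𝔔) (he : 𝔔.ramificationIdx ℤ = l - 1) (z : 𝓞 M)
    (hz : IsPrimitiveRoot z l) : z - 1 ∈ 𝔔 ∧ z - 1 ∉ 𝔔 ^ 2 := by
  have hp𝔔 : Prime 𝔔 := Ideal.prime_of_isPrime h𝔔 h𝔔p
  have hzM : IsPrimitiveRoot (z : M) l := hz.map_of_injective RingOfIntegers.coe_injective
  have hassoc := IsCyclotomicExtension.Rat.associated_zeta_sub_one_pow_prime l hzM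
  have hzeq : hzM.toInteger = z := RingOfIntegers.ext rfl
  rw [hzeq] at hassoc
  have hspan : span {(l : 𝓞 M)} = span {z - 1} ^ (l - 1) := by
    rw [Ideal.span_singleton_pow]
    exact (Ideal.span_singleton_eq_span_singleton.mpr hassoc).symm
  have hlo : 𝔔.LiesOver (span {(l : ℤ)}) := liesOver_of_natCast_mem hl.out 𝔔 h𝔔 hl𝔔
  have hmap : Ideal.map (algebraMap ℤ (𝓞 M)) (span {(l : ℤ)}) = span {(l : 𝓞 M)} := by
    rw [Ideal.map_span, Set.image_singleton]; simp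
  have hl0 : span {(l : 𝓞 M)} ≠ ⊥ := by
    simp [hl.out.ne_zero]
  have hmult := Ideal.IsDedekindDomain.ramificationIdx_eq_multiplicity (span {(l : ℤ)}) 𝔔
    (by rw [hmap]; exact hl0)
  rw [hmap, he] at hmult
  have hz1 : span {z - 1} ≠ ⊥ := by
    intro h0
    rw [h0] at hspan
    have hl1 : l - 1 ≠ 0 := Nat.sub_ne_zero_of_lt hl.out.one_lt
    rw [Ideal.bot_pow hl1] at hspan
    exact hl0 hspan
  have hem : emultiplicity 𝔔 (span {(l : 𝓞 M)}) = ((l - 1 : ℕ) : ℕ∞) := by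
    rw [(FiniteMultiplicity.of_prime_left hp𝔔 hl0).emultiplicity_eq_multiplicity, ← hmult]
  rw [hspan, emultiplicity_pow hp𝔔,
    (FiniteMultiplicity.of_prime_left hp𝔔 hz1).emultiplicity_eq_multiplicity] at hem
  have hm1 : multiplicity 𝔔 (span {z - 1}) = 1 := by
    have h3 : (l - 1) * multiplicity 𝔔 (span {z - 1}) = (l - 1) * 1 := by
      rw [mul_one]; exact_mod_cast hem
    exact Nat.eq_of_mul_eq_mul_left (Nat.sub_pos_of_lt hl.out.one_lt) h3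
  have hem1 : emultiplicity 𝔔 (span {z - 1}) = ((1 : ℕ) : ℕ∞) := by
    rw [(FiniteMultiplicity.of_prime_left hp𝔔 hz1).emultiplicity_eq_multiplicity, hm1]
  rw [emultiplicity_eq_coe, pow_one, Ideal.dvd_span_singleton, Ideal.dvd_span_singleton] at hem1
  exact hem1

end Setup

/-! ### The primes of `K` above `l` -/

section PrimesOver

variable {p l : ℕ} [hp : Fact p.Prime] [hl : Fact l.Prime]
  (K : Type) [Field K] [NumberField K]
  [hK : IsCyclotomicExtension {p} ℚ K]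

include hK in
theorem smul_injective_of_split (hlp : l % p = 1) (𝔩 : Ideal (𝓞 K)) [h𝔩p : 𝔩.IsPrime]
    (h𝔩 : (l : 𝓞 K) ∈ 𝔩) : Function.Injective (fun σ : K ≃ₐ[ℚ] K => σ • 𝔩) := by
  have hpl : p ≠ l := by
    rintro rfl
    rw [Nat.mod_self] at hlp
    exact zero_ne_one hlp
  have hnlp : ¬ l ∣ p := fun h => hpl ((Nat.prime_dvd_prime_iff_eq hl.out hp.out).mp h).symm
  have : NeZero p := ⟨hp.out.ne_zero⟩
  have h𝔩0 : 𝔩 ≠ ⊥ := by
    rintro rfl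
    rw [Ideal.mem_bot] at h𝔩
    exact hl.out.ne_zero (by exact_mod_cast h𝔩)
  have hlo : 𝔩.LiesOver (span {(l : ℤ)}) := liesOver_of_natCast_mem hl.out 𝔩 h𝔩0 h𝔩
  have hgal : IsGalois ℚ K := IsCyclotomicExtension.isGalois {p} ℚ K
  have hcard := Ideal.card_stabilizer_eq (G := K ≃ₐ[ℚ] K) (span {(l : ℤ)}) 𝔩
  rw [IsCyclotomicExtension.Rat.ramificationIdxIn_eq_of_not_dvd l K hnlp,
    IsCyclotomicExtension.Rat.inertiaDegIn_eq_of_not_dvd l K hnlp] at hcard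
  have hone : ((l : ℕ) : ZMod p) = 1 := by
    have : ((l : ℕ) : ZMod p) = ((1 : ℕ) : ZMod p) := by
      rw [ZMod.natCast_eq_natCast_iff']
      rw [hlp, Nat.mod_eq_of_lt hp.out.one_lt]
    simpa using this
  rw [hone, orderOf_one, mul_one] at hcard
  have hbot : MulAction.stabilizer (K ≃ₐ[ℚ] K) 𝔩 = ⊥ := Subgroup.card_eq_one.mp hcard
  intro σ τ hστ
  have h1 : (τ⁻¹ * σ) • 𝔩 = 𝔩 := by
    rw [mul_smul, inv_smul_eq_iff]
    exact hστ
  have h2 : τ⁻¹ * σ ∈ MulAction.stabilizer (K ≃ₐ[ℚ] K) 𝔩 := h1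
  rw [hbot, Subgroup.mem_bot] at h2
  exact (inv_mul_eq_one.mp h2).symm

include hK in
theorem exists_smul_eq (𝔩 : Ideal (𝓞 K)) [h𝔩p : 𝔩.IsPrime] (h𝔩 : (l : 𝓞 K) ∈ 𝔩)
    (𝔮 : Ideal (𝓞 K)) [h𝔮p : 𝔮.IsPrime] (h𝔮 : (l : 𝓞 K) ∈ 𝔮) : ∃ σ : K ≃ₐ[ℚ] K, σ • 𝔩 = 𝔮 := by
  have hne : ∀ I : Ideal (𝓞 K), (l : 𝓞 K) ∈ I → I ≠ ⊥ := by
    rintro I hI rfl
    rw [Ideal.mem_bot] at hI
    exact hl.out.ne_zero (by exact_mod_cast hI)
  have hlo : 𝔩.LiesOver (span {(l : ℤ)}) := liesOver_of_natCast_mem hl.out 𝔩 (hne _ h𝔩) h𝔩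
  have hlo' : 𝔮.LiesOver (span {(l : ℤ)}) := liesOver_of_natCast_mem hl.out 𝔮 (hne _ h𝔮) h𝔮
  have hgal : IsGalois ℚ K := IsCyclotomicExtension.isGalois {p} ℚ K
  exact Ideal.exists_smul_eq_of_isGaloisGroup (span {(l : ℤ)}) 𝔩 𝔮 (K ≃ₐ[ℚ] K)

end PrimesOver

end Thaine

open Thaine NumberField Ideal in
/-- T3 : Thaine's relation. -/
theorem thaine_relation {p ℓ : ℕ} [Fact p.Prime] [Fact ℓ.Prime] (hp : 3 ≤ p) (hℓ : ℓ % p = 1)
    (K : Type) [Field K] [NumberField K] [IsCyclotomicExtension {p} ℚ K]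
    (ζ : 𝓞 K) (hζ : IsPrimitiveRoot ζ p)
    (𝔩 : Ideal (𝓞 K)) [𝔩.IsPrime] (h𝔩 : (ℓ : 𝓞 K) ∈ 𝔩) :
    ∃ (g : ℤ) (r : (K ≃ₐ[ℚ] K) → ℕ) (y : 𝓞 K) (𝔟 : Ideal (𝓞 K)), y ≠ 0 ∧
      Ideal.span {y} = 𝔟 ^ (ℓ - 1) * ∏ σ : K ≃ₐ[ℚ] K, (σ • 𝔩) ^ (r σ) ∧
      ∀ σ : K ≃ₐ[ℚ] K, (1 + ζ) - (g : 𝓞 K) ^ (r σ) ∈ σ • 𝔩 := by
  have hpP : p.Prime := Fact.out
  have hℓP : ℓ.Prime := Fact.out
  have hp2 : p ≠ 2 := by omega
  have hpl : p ≠ ℓ := by
    rintro rfl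
    rw [Nat.mod_self] at hℓ
    exact zero_ne_one hℓ
  obtain ⟨s, a, z, γ, hz, hγ0, hsz, hsγ, hassoc⟩ :=
    exists_thaine_element (M := CyclotomicField ℓ K) K hp2 hℓ ζ hζ
  have hMc : IsCyclotomicExtension {p * ℓ} ℚ (CyclotomicField ℓ K) :=
    isCyclotomicExtension_mul K hpl
  have hgal : IsGalois K (CyclotomicField ℓ K) := IsCyclotomicExtension.isGalois {ℓ} K _
  set y := RingOfIntegers.norm K γ with hy
  have hy0 : y ≠ 0 := by
    intro h0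
    apply hγ0
    have h1 : Algebra.norm K (γ : CyclotomicField ℓ K) = 0 := by
      have := congrArg (fun x : 𝓞 K => (x : K)) h0
      simpa [hy] using this
    have h2 := Algebra.norm_eq_zero_iff.mp h1
    exact RingOfIntegers.ext h2
  have hmap : Ideal.map (algebraMap (𝓞 K) (𝓞 (CyclotomicField ℓ K))) (span {y}) =
      span {γ} ^ (ℓ - 1) := by
    rw [← finrank_eq (p := p) (M := CyclotomicField ℓ K) K hpl]
    exact map_span_norm K γ hassoc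
  have hex : ∀ 𝔮 : Ideal (𝓞 K), 𝔮.IsPrime → 𝔮 ≠ ⊥ →
      ∃ 𝔔 : Ideal (𝓞 (CyclotomicField ℓ K)), 𝔔.IsPrime ∧ 𝔔.LiesOver 𝔮 ∧ 𝔔 ≠ ⊥ := by
    intro 𝔮 h𝔮p h𝔮0
    have hmax : 𝔮.IsMaximal := h𝔮p.isMaximal h𝔮0
    obtain ⟨𝔔, h𝔔m, hlo⟩ :=
      Ideal.exists_maximal_ideal_liesOver_of_isIntegral (S := 𝓞 (CyclotomicField ℓ K)) 𝔮
    refine ⟨𝔔, h𝔔m.isPrime, hlo, ?_⟩
    rintro rfl
    apply h𝔮0
    rw [Ideal.over_def (⊥ : Ideal (𝓞 (CyclotomicField ℓ K))) 𝔮, Ideal.under_def]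
    exact Ideal.comap_bot_of_injective _
      (FaithfulSMul.algebraMap_injective (𝓞 K) (𝓞 (CyclotomicField ℓ K)))
  have hmemℓ : ∀ (𝔮 : Ideal (𝓞 K)) (𝔔 : Ideal (𝓞 (CyclotomicField ℓ K))) [𝔔.LiesOver 𝔮],
      ((ℓ : 𝓞 (CyclotomicField ℓ K)) ∈ 𝔔 ↔ (ℓ : 𝓞 K) ∈ 𝔮) := by
    intro 𝔮 𝔔 _
    rw [Ideal.mem_of_liesOver 𝔔 𝔮, map_natCast]
  have key1 : ∀ 𝔮 : Ideal (𝓞 K), Prime 𝔮 → ¬ ((ℓ : 𝓞 K) ∈ 𝔮) →
      (ℓ - 1) ∣ multiplicity 𝔮 (span {y}) := by
    intro 𝔮 hprime hn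
    have h𝔮p : 𝔮.IsPrime := Ideal.isPrime_of_prime hprime
    have h𝔮0 : 𝔮 ≠ ⊥ := hprime.ne_zero
    obtain ⟨𝔔, h𝔔p, hlo, h𝔔0⟩ := hex 𝔮 h𝔮p h𝔮0
    have hnot : (ℓ : 𝓞 (CyclotomicField ℓ K)) ∉ 𝔔 := by rwa [hmemℓ 𝔮 𝔔]
    have he := (ramificationIdx_cases K hpl hMc 𝔔 h𝔔0).1 hnot
    have hrel := multiplicity_relation K 𝔮 h𝔮0 𝔔 h𝔔0 y hy0 γ hγ0 (ℓ - 1) hmap
    rw [he, one_mul] at hrel
    exact ⟨_, hrel⟩
  have key2 : ∀ 𝔮 : Ideal (𝓞 K), 𝔮.IsPrime → (ℓ : 𝓞 K) ∈ 𝔮 →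
      (1 + ζ) - (a : 𝓞 K) ^ (multiplicity 𝔮 (span {y})) ∈ 𝔮 := by
    intro 𝔮 h𝔮p hin
    have h𝔮0 : 𝔮 ≠ ⊥ := by
      rintro rfl
      rw [Ideal.mem_bot] at hin
      exact hℓP.ne_zero (by exact_mod_cast hin)
    obtain ⟨𝔔, h𝔔p, hlo, h𝔔0⟩ := hex 𝔮 h𝔮p h𝔮0
    have hin' : (ℓ : 𝓞 (CyclotomicField ℓ K)) ∈ 𝔔 := by rwa [hmemℓ 𝔮 𝔔]
    obtain ⟨he, heZ⟩ := (ramificationIdx_cases K hpl hMc 𝔔 h𝔔0).2 hin'
    have hrel := multiplicity_relation K 𝔮 h𝔮0 𝔔 h𝔔0 y hy0 γ hγ0 (ℓ - 1) hmap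
    rw [he] at hrel
    have hvw : multiplicity 𝔮 (span {y}) = multiplicity 𝔔 (span {γ}) :=
      Nat.eq_of_mul_eq_mul_left (Nat.sub_pos_of_lt hℓP.one_lt) hrel
    obtain ⟨hπ, hπ2⟩ := zeta_sub_one_unif 𝔔 h𝔔0 hin' heZ z hz
    have hp𝔔 : Prime 𝔔 := Ideal.prime_of_isPrime h𝔔0 h𝔔p
    have hγ' : span {γ} ≠ ⊥ := by simpa using hγ0
    have hfin : FiniteMultiplicity 𝔔 (span {γ}) := FiniteMultiplicity.of_prime_left hp𝔔 hγ'
    have hγw : γ ∈ 𝔔 ^ (multiplicity 𝔔 (span {γ})) := by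
      rw [← Ideal.dvd_span_singleton]; exact pow_multiplicity_dvd 𝔔 (span {γ})
    have hγw' : γ ∉ 𝔔 ^ (multiplicity 𝔔 (span {γ}) + 1) := by
      rw [← Ideal.dvd_span_singleton]
      exact hfin.not_pow_dvd_of_multiplicity_lt (Nat.lt_succ_self _)
    have hdvd : ∀ n : ℕ, z ^ n - 1 ∈ 𝔔 := by
      intro n
      refine 𝔔.mem_of_dvd ?_ hπ
      simpa using sub_dvd_pow_sub_pow z 1 n
    have hcong := local_congr
      (MulSemiringAction.toRingHom (CyclotomicField ℓ K ≃ₐ[K] CyclotomicField ℓ K)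
        (𝓞 (CyclotomicField ℓ K)) s) 𝔔 h𝔔0 (z - 1) hπ hπ2
      (fun x => smul_sub_mem K hpl hMc ζ hζ z hz s a hsz x)
      (∑ i ∈ Finset.range a, z ^ i)
      (by
        show s • (z - 1) = _
        rw [smul_sub, smul_one, hsz, mul_geom_sum])
      (a : 𝓞 (CyclotomicField ℓ K))
      (by
        have : (∑ i ∈ Finset.range a, z ^ i) - (a : 𝓞 (CyclotomicField ℓ K)) =
            ∑ i ∈ Finset.range a, (z ^ i - 1) := by
          rw [Finset.sum_sub_distrib, Finset.sum_const, Finset.card_range, nsmul_eq_mul, mul_one]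
        rw [this]
        exact Ideal.sum_mem _ (fun i _ => hdvd i))
      (multiplicity 𝔔 (span {γ})) γ
      (1 + algebraMap (𝓞 K) (𝓞 (CyclotomicField ℓ K)) ζ * z ^ a) hγw hγw' hsγ
    rw [Ideal.mem_of_liesOver 𝔔 𝔮, hvw, map_sub, map_add, map_one, map_pow, map_natCast]
    have : (1 + algebraMap (𝓞 K) (𝓞 (CyclotomicField ℓ K)) ζ) -
        (a : 𝓞 (CyclotomicField ℓ K)) ^ (multiplicity 𝔔 (span {γ})) =
        ((1 + algebraMap (𝓞 K) (𝓞 (CyclotomicField ℓ K)) ζ * z ^ a) -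
          (a : 𝓞 (CyclotomicField ℓ K)) ^ (multiplicity 𝔔 (span {γ}))) -
        algebraMap (𝓞 K) (𝓞 (CyclotomicField ℓ K)) ζ * (z ^ a - 1) := by ring
    rw [this]
    exact Ideal.sub_mem _ hcong (Ideal.mul_mem_left _ _ (hdvd a))
  have hmemσ : ∀ σ : K ≃ₐ[ℚ] K, (ℓ : 𝓞 K) ∈ σ • 𝔩 := by
    intro σ
    have h1 := Ideal.smul_mem_pointwise_smul σ (ℓ : 𝓞 K) 𝔩 h𝔩
    have h2 : σ • (ℓ : 𝓞 K) = (ℓ : 𝓞 K) :=
      map_natCast (MulSemiringAction.toRingHom (K ≃ₐ[ℚ] K) (𝓞 K) σ) ℓ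
    rwa [h2] at h1
  have hneσ : ∀ σ : K ≃ₐ[ℚ] K, σ • 𝔩 ≠ ⊥ := by
    intro σ h0
    have := hmemσ σ
    rw [h0, Ideal.mem_bot] at this
    exact hℓP.ne_zero (by exact_mod_cast this)
  have hprimeσ : ∀ σ : K ≃ₐ[ℚ] K, (σ • 𝔩).IsPrime := fun σ => inferInstance
  obtain ⟨𝔟, h𝔟⟩ := exists_factorization (fun σ : K ≃ₐ[ℚ] K => σ • 𝔩)
    (smul_injective_of_split K hℓ 𝔩 h𝔩) (span {y}) (by simpa using hy0) (ℓ - 1)
    (fun 𝔮 => (ℓ : 𝓞 K) ∈ 𝔮)
    (fun 𝔮 hprime _ hin => by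
      have h𝔮p : 𝔮.IsPrime := Ideal.isPrime_of_prime hprime
      exact exists_smul_eq (p := p) K 𝔩 h𝔩 𝔮 hin)
    key1 hmemσ (fun σ => Ideal.prime_of_isPrime (hneσ σ) (hprimeσ σ))
  refine ⟨(a : ℤ), fun σ => multiplicity (σ • 𝔩) (span {y}), y, 𝔟, hy0, h𝔟, fun σ => ?_⟩
  have := key2 (σ • 𝔩) (hprimeσ σ) (hmemσ σ)
  simpa using this

end Fermat.Agent.S14
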