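/-
S14 / M0-NT, local half: from `α₀ = β₀ ^ p` (`α₀ ∈ 𝓞 K`, `K = ℚ(ζ_p)`, `β₀ ∈ 𝓞 L`, `L/ℚ` Galois
containing `K`), unramifiedness outside `p` and the splitting condition at `p`, produce the
normalised Kummer generator `α = α₀ / (ζ - 1) ^ (p m)` with `(α) = 𝔞 ^ p` and
`α ≡ b ^ p mod (ζ - 1) ^ 3`.
-/
import Fermat.Agent.S14.Thaine

set_option autoImplicit false
set_option linter.unusedSectionVars false

open scoped NumberField Pointwise

namespace Fermat.Agent.S14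

namespace ReductionLocalDatum

open NumberField Ideal Polynomial Thaine

section Gal

variable (L : Type) [Field L] [NumberField L] [IsGalois ℚ L]

/-- trivial inertia group ⟹ absolute ramification index `1`. -/
theorem ramificationIdx_eq_one_of_inertia (P : Ideal (𝓞 L)) [hPp : P.IsPrime] (hP : P ≠ ⊥)
    (h : ∀ τ : L ≃ₐ[ℚ] L, (∀ x : 𝓞 L, τ • x - x ∈ P) → τ = 1) :
    P.ramificationIdx ℤ = 1 := by
  have : NeZero P := ⟨hP⟩
  have hqp : (absNorm (under ℤ P)).Prime := Nat.absNorm_under_prime P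
  have hfq : Fact (absNorm (under ℤ P)).Prime := ⟨hqp⟩
  have hlo : P.LiesOver (span {((absNorm (under ℤ P) : ℕ) : ℤ)}) := Int.liesOver_span_absNorm P
  have h1 := Ideal.card_inertia_eq_ramificationIdxIn (G := L ≃ₐ[ℚ] L)
    (span {((absNorm (under ℤ P) : ℕ) : ℤ)}) P
  rw [Ideal.ramificationIdxIn_eq_ramificationIdx _ P (L ≃ₐ[ℚ] L)] at h1
  rw [← h1]
  have hbot : P.inertia (L ≃ₐ[ℚ] L) = ⊥ := by
    rw [Subgroup.eq_bot_iff_forall]
    intro τ hτ
    exact h τ hτ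
  rw [hbot]
  exact Subgroup.card_bot

/-- trivial decomposition group inside `Gal(L/ℚ(ζ))` at a prime over `p` ⟹ `e = p - 1`,
`f = 1`. -/
theorem ramification_at_p {p : ℕ} [hp : Fact p.Prime] (ζ : 𝓞 L) (hζ : IsPrimitiveRoot ζ p)
    (P : Ideal (𝓞 L)) [hPp : P.IsPrime] (hpP : (p : 𝓞 L) ∈ P)
    (h : ∀ τ : L ≃ₐ[ℚ] L, τ (ζ : L) = (ζ : L) → (∀ x ∈ P, τ • x ∈ P) → τ = 1) :
    P.ramificationIdx ℤ = p - 1 ∧ P.inertiaDeg ℤ = 1 ∧ ζ - 1 ∈ P := by
  have hP : P ≠ ⊥ := by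
    rintro rfl
    rw [Ideal.mem_bot] at hpP
    exact hp.out.ne_zero (by exact_mod_cast hpP)
  have hp𝔔 : Prime P := Ideal.prime_of_isPrime hP hPp
  have hlo : P.LiesOver (span {(p : ℤ)}) := liesOver_of_natCast_mem hp.out P hP hpP
  have hζL : IsPrimitiveRoot (ζ : L) p := hζ.map_of_injective RingOfIntegers.coe_injective
  -- the stabiliser injects into the primitive roots
  have hcard : Nat.card (MulAction.stabilizer (L ≃ₐ[ℚ] L) P) ≤ p - 1 := by
    have hfin : (primitiveRoots p L).card = p - 1 := by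
      rw [hζL.card_primitiveRoots, Nat.totient_prime hp.out]
    rw [← hfin, ← Nat.card_eq_finsetCard]
    refine Nat.card_le_card_of_injective
      (fun τ : MulAction.stabilizer (L ≃ₐ[ℚ] L) P =>
        (⟨(τ : L ≃ₐ[ℚ] L) (ζ : L), by
          rw [mem_primitiveRoots hp.out.pos]
          exact hζL.map_of_injective (τ : L ≃ₐ[ℚ] L).injective⟩ : primitiveRoots p L)) ?_
    intro τ₁ τ₂ h12
    have h12' : (τ₁ : L ≃ₐ[ℚ] L) (ζ : L) = (τ₂ : L ≃ₐ[ℚ] L) (ζ : L) := congrArg Subtype.val h12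
    have hmem := (τ₂⁻¹ * τ₁).2
    have hfix : ((τ₂⁻¹ * τ₁ : MulAction.stabilizer (L ≃ₐ[ℚ] L) P) : L ≃ₐ[ℚ] L) (ζ : L) =
        (ζ : L) := by
      show (τ₂ : L ≃ₐ[ℚ] L)⁻¹ ((τ₁ : L ≃ₐ[ℚ] L) (ζ : L)) = ζ
      rw [h12']
      exact (τ₂ : L ≃ₐ[ℚ] L).symm_apply_apply _
    have hone := h _ hfix (fun x hx => by
      have := Ideal.smul_mem_pointwise_smul
        ((τ₂⁻¹ * τ₁ : MulAction.stabilizer (L ≃ₐ[ℚ] L) P) : L ≃ₐ[ℚ] L) x P hx
      rwa [MulAction.mem_stabilizer_iff.mp hmem] at this)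
    have : τ₂⁻¹ * τ₁ = 1 := Subtype.ext hone
    exact (inv_mul_eq_one.mp this).symm
  have hcard2 := Ideal.card_stabilizer_eq (G := L ≃ₐ[ℚ] L) (span {(p : ℤ)}) P
  rw [Ideal.ramificationIdxIn_eq_ramificationIdx _ P (L ≃ₐ[ℚ] L),
    Ideal.inertiaDegIn_eq_inertiaDeg _ P (L ≃ₐ[ℚ] L)] at hcard2
  rw [hcard2] at hcard
  -- lower bound for `e`
  have hassoc := IsCyclotomicExtension.Rat.associated_zeta_sub_one_pow_prime p hζL
  have hzeq : hζL.toInteger = ζ := RingOfIntegers.ext rfl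
  rw [hzeq] at hassoc
  have hspan : span {(p : 𝓞 L)} = span {ζ - 1} ^ (p - 1) := by
    rw [Ideal.span_singleton_pow]
    exact (Ideal.span_singleton_eq_span_singleton.mpr hassoc).symm
  have hζP : ζ - 1 ∈ P := by
    have h1 : (ζ - 1) ^ (p - 1) ∈ P := by
      have : span {(ζ - 1) ^ (p - 1)} = span {(p : 𝓞 L)} :=
        Ideal.span_singleton_eq_span_singleton.mpr hassoc
      have h2 : (ζ - 1) ^ (p - 1) ∈ span {(p : 𝓞 L)} := by
        rw [← this]; exact Ideal.mem_span_singleton_self _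
      exact (Ideal.span_singleton_le_iff_mem (I := P)).mpr hpP h2
    exact hPp.mem_of_pow_mem _ h1
  have hmap : Ideal.map (algebraMap ℤ (𝓞 L)) (span {(p : ℤ)}) = span {(p : 𝓞 L)} := by
    rw [Ideal.map_span, Set.image_singleton]; simp
  have hp0 : span {(p : 𝓞 L)} ≠ ⊥ := by
    simp [hp.out.ne_zero]
  have hmult := Ideal.IsDedekindDomain.ramificationIdx_eq_multiplicity (span {(p : ℤ)}) P
    (by rw [hmap]; exact hp0)
  rw [hmap] at hmult
  have hz1 : span {ζ - 1} ≠ ⊥ := by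
    intro h0
    rw [h0] at hspan
    have hl1 : p - 1 ≠ 0 := Nat.sub_ne_zero_of_lt hp.out.one_lt
    rw [Ideal.bot_pow hl1] at hspan
    exact hp0 hspan
  have hem : emultiplicity P (span {(p : 𝓞 L)}) = ((P.ramificationIdx ℤ : ℕ) : ℕ∞) := by
    rw [(FiniteMultiplicity.of_prime_left hp𝔔 hp0).emultiplicity_eq_multiplicity, ← hmult]
  rw [hspan, emultiplicity_pow hp𝔔,
    (FiniteMultiplicity.of_prime_left hp𝔔 hz1).emultiplicity_eq_multiplicity] at hem
  have hem' : (p - 1) * multiplicity P (span {ζ - 1}) = P.ramificationIdx ℤ := by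
    exact_mod_cast hem
  have hm1 : 1 ≤ multiplicity P (span {ζ - 1}) := by
    have hdvd : P ^ 1 ∣ span {ζ - 1} := by
      rw [pow_one, Ideal.dvd_span_singleton]; exact hζP
    have := (FiniteMultiplicity.of_prime_left hp𝔔 hz1).le_multiplicity_of_pow_dvd hdvd
    exact this
  have hfpos : 0 < P.inertiaDeg ℤ := Ideal.inertiaDeg_pos P ℤ
  have hp1 : 0 < p - 1 := Nat.sub_pos_of_lt hp.out.one_lt
  -- arithmetic
  have hge : p - 1 ≤ P.ramificationIdx ℤ := by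
    rw [← hem']
    exact Nat.le_mul_of_pos_right _ hm1
  have hle : P.ramificationIdx ℤ * P.inertiaDeg ℤ ≤ p - 1 := hcard
  have he : P.ramificationIdx ℤ = p - 1 := by
    have h1 : P.ramificationIdx ℤ ≤ P.ramificationIdx ℤ * P.inertiaDeg ℤ :=
      Nat.le_mul_of_pos_right _ hfpos
    omega
  refine ⟨he, ?_, hζP⟩
  rw [he] at hle
  have h2 : (p - 1) * P.inertiaDeg ℤ ≤ (p - 1) * 1 := by rw [mul_one]; exact hle
  have := Nat.le_of_mul_le_mul_left h2 hp1
  omega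

/-- residue field `𝔽_p`: every integer of `L` is congruent to a rational integer mod `P`. -/
theorem exists_int_congr {p : ℕ} [hp : Fact p.Prime] (P : Ideal (𝓞 L)) [hPp : P.IsPrime]
    (hpP : (p : 𝓞 L) ∈ P) (hf : P.inertiaDeg ℤ = 1) (x : 𝓞 L) :
    ∃ i : ℕ, i < p ∧ x - (i : 𝓞 L) ∈ P := by
  have hP : P ≠ ⊥ := by
    rintro rfl
    rw [Ideal.mem_bot] at hpP
    exact hp.out.ne_zero (by exact_mod_cast hpP)
  have : NeZero P := ⟨hP⟩
  have hlo : P.LiesOver (span {(p : ℤ)}) := liesOver_of_natCast_mem hp.out P hP hpP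
  have hcard : Nat.card (𝓞 L ⧸ P) = p := by
    have h1 := Ideal.pow_inertiaDeg p P
    rw [hf, pow_one] at h1
    rw [← Submodule.cardQuot_apply, ← Ideal.absNorm_apply, ← h1]
  have hfin : Finite (𝓞 L ⧸ P) := Ring.HasFiniteQuotients.finiteQuotient hP
  have hqp : (absNorm (under ℤ P)).Prime := Nat.absNorm_under_prime P
  have hmemiff : ∀ d : ℤ, (d : 𝓞 L) ∈ P ↔ (p : ℤ) ∣ d := by
    intro d
    have h2 := Int.cast_mem_ideal_iff (I := P) (d := (p : ℤ))
    rw [Int.cast_natCast, Int.natCast_dvd_natCast, Nat.prime_dvd_prime_iff_eq hqp hp.out] at h2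
    rw [Int.cast_mem_ideal_iff, h2.mp hpP]
  let f : Fin p → 𝓞 L ⧸ P := fun i => Ideal.Quotient.mk P ((i : ℕ) : 𝓞 L)
  have hinj : Function.Injective f := by
    intro i j hij
    have h1 : (((i : ℕ) : 𝓞 L) - ((j : ℕ) : 𝓞 L)) ∈ P := Ideal.Quotient.eq.mp hij
    have h2 : ((((i : ℕ) : ℤ) - ((j : ℕ) : ℤ) : ℤ) : 𝓞 L) ∈ P := by
      push_cast; exact h1
    rw [hmemiff] at h2
    have h3 : ((i : ℕ) : ℤ) - ((j : ℕ) : ℤ) = 0 := by
      apply Int.eq_zero_of_abs_lt_dvd h2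
      have hi := i.2
      have hj := j.2
      rw [abs_lt]
      constructor <;> omega
    apply Fin.ext
    omega
  have hbij : Function.Bijective f :=
    hinj.bijective_of_nat_card_le (by rw [hcard, Nat.card_eq_fintype_card, Fintype.card_fin])
  obtain ⟨i, hi⟩ := hbij.2 (Ideal.Quotient.mk P x)
  refine ⟨i, i.2, ?_⟩
  exact Ideal.Quotient.eq.mp hi.symm

end Gal

end ReductionLocalDatum

open ReductionLocalDatum Thaine NumberField Ideal in
/-- The local half of the Kummer reduction: normalisation at `ζ - 1`, `p`-divisibility of all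
valuations, and the congruence modulo `(ζ - 1) ^ 3`. -/
theorem local_datum {p : ℕ} [Fact p.Prime] (h3 : 3 ≤ p)
    (K L : Type) [Field K] [NumberField K] [IsCyclotomicExtension {p} ℚ K]
    [Field L] [NumberField L] [Algebra K L] [IsGalois ℚ L]
    (ζ : 𝓞 K) (hζ : IsPrimitiveRoot ζ p)
    (hunr : ∀ P : Ideal (𝓞 L), P.IsPrime → P ≠ ⊥ → (p : 𝓞 L) ∉ P →
        ∀ τ : L ≃ₐ[ℚ] L, (∀ x : 𝓞 L, τ • x - x ∈ P) → τ = 1)
    (hsplit : ∀ P : Ideal (𝓞 L), P.IsPrime → (p : 𝓞 L) ∈ P →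
        ∀ τ : L ≃ₐ[ℚ] L, τ (algebraMap K L (ζ : K)) = algebraMap K L (ζ : K) →
          (∀ x ∈ P, τ • x ∈ P) → τ = 1)
    (α₀ : 𝓞 K) (hα₀ : α₀ ≠ 0) (β₀ : 𝓞 L) (hαβ : algebraMap (𝓞 K) (𝓞 L) α₀ = β₀ ^ p) :
    ∃ (α : 𝓞 K) (m : ℕ), α₀ = (ζ - 1) ^ (p * m) * α ∧
      (∃ 𝔞 : Ideal (𝓞 K), Ideal.span {α} = 𝔞 ^ p) ∧
      (∃ b : ℤ, ¬ (p : ℤ) ∣ b ∧ α - (b : 𝓞 K) ^ p ∈ Ideal.span {(ζ - 1) ^ 3}) := by
  have hpP : p.Prime := Fact.out
  have hinj : Function.Injective (algebraMap (𝓞 K) (𝓞 L)) :=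
    FaithfulSMul.algebraMap_injective _ _
  have hβ₀ : β₀ ≠ 0 := by
    rintro rfl
    rw [zero_pow hpP.ne_zero] at hαβ
    exact hα₀ (hinj (by rw [hαβ, map_zero]))
  set ζL : 𝓞 L := algebraMap (𝓞 K) (𝓞 L) ζ with hζL_def
  have hζL : IsPrimitiveRoot ζL p := hζ.map_of_injective hinj
  have hζK : IsPrimitiveRoot (ζ : K) p := hζ.map_of_injective RingOfIntegers.coe_injective
  have hzeq : hζK.toInteger = ζ := RingOfIntegers.ext rfl
  have hprime : Prime (ζ - 1) := by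
    have := hζK.zeta_sub_one_prime'
    rwa [hzeq] at this
  have hmap : Ideal.map (algebraMap (𝓞 K) (𝓞 L)) (span {α₀}) = span {β₀} ^ p := by
    rw [Ideal.map_span, Set.image_singleton, hαβ, Ideal.span_singleton_pow]
  have hex : ∀ 𝔮 : Ideal (𝓞 K), 𝔮.IsPrime → 𝔮 ≠ ⊥ →
      ∃ P : Ideal (𝓞 L), P.IsPrime ∧ P.LiesOver 𝔮 ∧ P ≠ ⊥ := by
    intro 𝔮 h𝔮p h𝔮0
    have hmax : 𝔮.IsMaximal := h𝔮p.isMaximal h𝔮0
    obtain ⟨P, hPm, hlo⟩ :=
      Ideal.exists_maximal_ideal_liesOver_of_isIntegral (S := 𝓞 L) 𝔮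
    refine ⟨P, hPm.isPrime, hlo, ?_⟩
    rintro rfl
    apply h𝔮0
    rw [Ideal.over_def (⊥ : Ideal (𝓞 L)) 𝔮, Ideal.under_def]
    exact Ideal.comap_bot_of_injective _ hinj
  have hmemp : ∀ (𝔮 : Ideal (𝓞 K)) (P : Ideal (𝓞 L)) [P.LiesOver 𝔮],
      ((p : 𝓞 L) ∈ P ↔ (p : 𝓞 K) ∈ 𝔮) := by
    intro 𝔮 P _
    rw [Ideal.mem_of_liesOver P 𝔮, map_natCast]
  -- Step A : primes away from `p`
  have keyA : ∀ 𝔮 : Ideal (𝓞 K), Prime 𝔮 → (p : 𝓞 K) ∉ 𝔮 →
      p ∣ multiplicity 𝔮 (span {α₀}) := by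
    intro 𝔮 hprime𝔮 hn
    have h𝔮p : 𝔮.IsPrime := Ideal.isPrime_of_prime hprime𝔮
    have h𝔮0 : 𝔮 ≠ ⊥ := hprime𝔮.ne_zero
    obtain ⟨P, hPp, hlo, hP0⟩ := hex 𝔮 h𝔮p h𝔮0
    have hnot : (p : 𝓞 L) ∉ P := by rwa [hmemp 𝔮 P]
    have he : P.ramificationIdx ℤ = 1 :=
      ramificationIdx_eq_one_of_inertia L P hP0 (hunr P hPp hP0 hnot)
    have htower := Ideal.ramificationIdx_tower (R := ℤ) 𝔮 P
    rw [he] at htower
    have he' : P.ramificationIdx (𝓞 K) = 1 := Nat.eq_one_of_mul_eq_one_left htower.symm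
    have hrel := multiplicity_relation K 𝔮 h𝔮0 P hP0 α₀ hα₀ β₀ hβ₀ p hmap
    rw [he', one_mul] at hrel
    exact ⟨_, hrel⟩
  -- Step B : the prime `(ζ - 1)`
  set lam : Ideal (𝓞 K) := span {ζ - 1} with hlam
  have hlamp : lam.IsPrime := (Ideal.span_singleton_prime hprime.ne_zero).mpr hprime
  have hlam0 : lam ≠ ⊥ := by
    rw [hlam, Ne, Ideal.span_singleton_eq_bot]
    exact hprime.ne_zero
  have hlamprime : Prime lam := Ideal.prime_of_isPrime hlam0 hlamp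
  have hplam : (p : 𝓞 K) ∈ lam := by
    rw [hlam, Ideal.mem_span_singleton]
    exact hζ.sub_one_dvd_natCast hpP.one_lt
  obtain ⟨P, hPp, hlo, hP0⟩ := hex lam hlamp hlam0
  have hpP' : (p : 𝓞 L) ∈ P := by rwa [hmemp lam P]
  obtain ⟨heP, hfP, hζP⟩ := ramification_at_p L ζL hζL P hpP'
    (fun τ hτ => hsplit P hPp hpP' τ hτ)
  have hlolam : lam.LiesOver (span {(p : ℤ)}) := liesOver_of_natCast_mem hpP lam hlam0 hplam
  have helam : lam.ramificationIdx ℤ = p - 1 :=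
    IsCyclotomicExtension.Rat.ramificationIdx_eq_of_prime p K lam
  have htower := Ideal.ramificationIdx_tower (R := ℤ) lam P
  rw [heP, helam] at htower
  have he' : P.ramificationIdx (𝓞 K) = 1 := by
    have hpos : 0 < p - 1 := Nat.sub_pos_of_lt hpP.one_lt
    have : (p - 1) * P.ramificationIdx (𝓞 K) = (p - 1) * 1 := by rw [mul_one]; exact htower.symm
    exact Nat.eq_of_mul_eq_mul_left hpos this
  have hrel := multiplicity_relation K lam hlam0 P hP0 α₀ hα₀ β₀ hβ₀ p hmap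
  rw [he', one_mul] at hrel
  set m := multiplicity P (span {β₀}) with hm
  -- Step C : normalisation
  have hdvd : (ζ - 1) ^ (p * m) ∣ α₀ := by
    have h1 : lam ^ (p * m) ∣ span {α₀} := by
      rw [← hrel]; exact pow_multiplicity_dvd lam (span {α₀})
    rw [hlam, Ideal.span_singleton_pow, Ideal.dvd_span_singleton,
      Ideal.mem_span_singleton] at h1
    exact h1
  obtain ⟨α, hα⟩ := hdvd
  have hα0 : α ≠ 0 := by
    rintro rfl
    rw [mul_zero] at hα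
    exact hα₀ hα
  have hspanα₀ : span {α₀} = lam ^ (p * m) * span {α} := by
    rw [hα, hlam, Ideal.span_singleton_pow, Ideal.span_singleton_mul_span_singleton]
  have hα' : span {α} ≠ ⊥ := by simpa using hα0
  have hα₀' : span {α₀} ≠ ⊥ := by simpa using hα₀
  have hmult0 : multiplicity lam (span {α}) = 0 := by
    have h1 : emultiplicity lam (span {α₀}) =
        emultiplicity lam (lam ^ (p * m)) + emultiplicity lam (span {α}) := by
      rw [hspanα₀]; exact emultiplicity_mul hlamprime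
    rw [(FiniteMultiplicity.of_prime_left hlamprime hα₀').emultiplicity_eq_multiplicity,
      (FiniteMultiplicity.of_prime_left hlamprime hα').emultiplicity_eq_multiplicity, hrel,
      emultiplicity_pow_self hlamprime.ne_zero hlamprime.not_isUnit] at h1
    have h2 : p * m = p * m + multiplicity lam (span {α}) := by exact_mod_cast h1
    omega
  have keyC : ∀ 𝔮 : Ideal (𝓞 K), Prime 𝔮 → p ∣ multiplicity 𝔮 (span {α}) := by
    intro 𝔮 hprime𝔮
    have h𝔮p : 𝔮.IsPrime := Ideal.isPrime_of_prime hprime𝔮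
    have h𝔮0 : 𝔮 ≠ ⊥ := hprime𝔮.ne_zero
    by_cases hin : (p : 𝓞 K) ∈ 𝔮
    · have hlo𝔮 : 𝔮.LiesOver (span {(p : ℤ)}) := liesOver_of_natCast_mem hpP 𝔮 h𝔮0 hin
      have h𝔮eq : 𝔮 = lam := by
        have := IsCyclotomicExtension.Rat.eq_span_zeta_sub_one_of_liesOver' p K hζK 𝔮
        rw [hzeq] at this
        exact this
      rw [h𝔮eq, hmult0]
      exact dvd_zero p
    · have hnd : ¬ 𝔮 ∣ lam := fun hd => hin (Ideal.le_of_dvd hd hplam)
      have h1 : emultiplicity 𝔮 (span {α₀}) =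
          emultiplicity 𝔮 (lam ^ (p * m)) + emultiplicity 𝔮 (span {α}) := by
        rw [hspanα₀]; exact emultiplicity_mul hprime𝔮
      have h2 : emultiplicity 𝔮 (lam ^ (p * m)) = 0 := by
        rw [emultiplicity_pow hprime𝔮, emultiplicity_eq_zero.mpr hnd, mul_zero]
      rw [h2, zero_add,
        (FiniteMultiplicity.of_prime_left hprime𝔮 hα₀').emultiplicity_eq_multiplicity,
        (FiniteMultiplicity.of_prime_left hprime𝔮 hα').emultiplicity_eq_multiplicity] at h1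
      have h3 : multiplicity 𝔮 (span {α₀}) = multiplicity 𝔮 (span {α}) := by exact_mod_cast h1
      rw [← h3]
      exact keyA 𝔮 hprime𝔮 hin
  obtain ⟨𝔟, h𝔟⟩ := exists_factorization (G := Empty) (fun σ => σ.elim) (fun σ => σ.elim)
    (span {α}) hα' p (fun _ => False)
    (fun _ _ _ h => h.elim) (fun 𝔮 h𝔮 _ => keyC 𝔮 h𝔮) (fun σ => σ.elim) (fun σ => σ.elim)
  have h𝔟' : span {α} = 𝔟 ^ p := by simpa using h𝔟
  -- Step D : the normalised `p`-th root
  have hζL1 : ((ζL : 𝓞 L) : L) - 1 ≠ 0 := by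
    intro h
    have h1 : ζL = 1 := by
      apply RingOfIntegers.ext
      rw [sub_eq_zero] at h
      rw [h]; rfl
    exact hζL.ne_one hpP.one_lt h1
  set βL : L := (β₀ : L) / (((ζL : 𝓞 L) : L) - 1) ^ m with hβL
  have hβLp : βL ^ p = ((algebraMap (𝓞 K) (𝓞 L) α : 𝓞 L) : L) := by
    rw [hβL, div_pow, div_eq_iff (pow_ne_zero _ (pow_ne_zero _ hζL1))]
    have h1 : ((β₀ ^ p : 𝓞 L) : L) = ((algebraMap (𝓞 K) (𝓞 L) α₀ : 𝓞 L) : L) := by rw [hαβ]
    rw [hα, map_mul, map_pow, map_sub, map_one] at h1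
    push_cast at h1
    rw [h1]; ring
  have hβLint : IsIntegral ℤ βL := by
    apply IsIntegral.of_pow hpP.pos
    rw [hβLp]
    exact RingOfIntegers.isIntegral_coe _
  set β : 𝓞 L := ⟨βL, hβLint⟩ with hβ
  have hβcoe : (β : L) = βL := rfl
  have hβp : β ^ p = algebraMap (𝓞 K) (𝓞 L) α := by
    apply RingOfIntegers.ext
    push_cast
    exact hβLp
  have hβ₀eq : β₀ = (ζL - 1) ^ m * β := by
    apply RingOfIntegers.ext
    push_cast
    change (β₀ : L) = (((ζL : 𝓞 L) : L) - 1) ^ m * βL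
    rw [hβL]
    field_simp
  have hPprime : Prime P := Ideal.prime_of_isPrime hP0 hPp
  have hβ₀' : span {β₀} ≠ ⊥ := by simpa using hβ₀
  have hβP : β ∉ P := by
    intro hmem
    have h1 : β₀ ∈ P ^ (m + 1) := by
      rw [hβ₀eq, pow_succ]
      exact Ideal.mul_mem_mul (Ideal.pow_mem_pow hζP m) hmem
    have h2 : P ^ (m + 1) ∣ span {β₀} := by rw [Ideal.dvd_span_singleton]; exact h1
    exact (FiniteMultiplicity.of_prime_left hPprime hβ₀').not_pow_dvd_of_multiplicity_lt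
      (Nat.lt_succ_self _) h2
  -- Step E : the residue class of `β`
  obtain ⟨i, hip, hi⟩ := exists_int_congr L P hpP' hfP β
  have hi0 : i ≠ 0 := by
    rintro rfl
    apply hβP
    simpa using hi
  refine ⟨α, m, hα, ⟨𝔟, h𝔟'⟩, (i : ℤ), ?_, ?_⟩
  · intro hd
    have := Int.natCast_dvd_natCast.mp hd
    exact absurd (Nat.le_of_dvd (Nat.pos_of_ne_zero hi0) this) (not_le.mpr hip)
  · -- Step F : the congruence
    set x : 𝓞 K := α - ((i : ℤ) : 𝓞 K) ^ p with hx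
    have hxmap : algebraMap (𝓞 K) (𝓞 L) x = β ^ p - (i : 𝓞 L) ^ p := by
      rw [hx, map_sub, map_pow, map_intCast, Int.cast_natCast, hβp]
    have hprod := hζL.pow_sub_pow_eq_prod_sub_mul β (i : 𝓞 L) hpP.pos
    have hxP : algebraMap (𝓞 K) (𝓞 L) x ∈ P ^ p := by
      rw [hxmap, hprod]
      have hcard : (Polynomial.nthRootsFinset p (1 : 𝓞 L)).card = p := hζL.card_nthRootsFinset
      have h1 : ∏ μ ∈ Polynomial.nthRootsFinset p (1 : 𝓞 L), (β - μ * (i : 𝓞 L)) ∈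
          ∏ μ ∈ Polynomial.nthRootsFinset p (1 : 𝓞 L), P := by
        apply Ideal.prod_mem_prod
        intro μ hμ
        rw [Polynomial.mem_nthRootsFinset hpP.pos] at hμ
        obtain ⟨j, -, rfl⟩ := hζL.eq_pow_of_pow_eq_one hμ
        have h2 : ζL ^ j - 1 ∈ P :=
          P.mem_of_dvd (by simpa using sub_dvd_pow_sub_pow ζL 1 j) hζP
        have h3 : β - ζL ^ j * (i : 𝓞 L) = (β - (i : 𝓞 L)) - (ζL ^ j - 1) * (i : 𝓞 L) := by ring
        rw [h3]
        exact Ideal.sub_mem _ hi (Ideal.mul_mem_right _ _ h2)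
      rwa [Finset.prod_const, hcard] at h1
    by_cases hx0 : x = 0
    · rw [hx0]; exact Ideal.zero_mem _
    · have hmapx : Ideal.map (algebraMap (𝓞 K) (𝓞 L)) (span {x}) =
          span {algebraMap (𝓞 K) (𝓞 L) x} ^ 1 := by
        rw [Ideal.map_span, Set.image_singleton, pow_one]
      have hx0L : algebraMap (𝓞 K) (𝓞 L) x ≠ 0 := fun h => hx0 (hinj (by rw [h, map_zero]))
      have hrelx := multiplicity_relation K lam hlam0 P hP0 x hx0 _ hx0L 1 hmapx
      rw [he', one_mul, one_mul] at hrelx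
      have hge : p ≤ multiplicity P (span {algebraMap (𝓞 K) (𝓞 L) x}) := by
        apply (FiniteMultiplicity.of_prime_left hPprime
          (by simpa using hx0L)).le_multiplicity_of_pow_dvd
        rw [Ideal.dvd_span_singleton]; exact hxP
      rw [← hrelx] at hge
      have h1 : lam ^ 3 ∣ span {x} :=
        (pow_dvd_pow lam (by omega : 3 ≤ multiplicity lam (span {x}))).trans
          (pow_multiplicity_dvd lam (span {x}))
      rw [hlam, Ideal.span_singleton_pow, Ideal.dvd_span_singleton] at h1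
      exact h1

end Fermat.Agent.S14
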