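import Mathlib
import Fermat.Agent.S14.Defs
import Fermat.Agent.S14.ReductionLocalDatum

set_option autoImplicit false

open scoped NumberField
open IsDedekindDomain

namespace Fermat.Agent.S14
namespace ReductionNT

variable {p : ℕ} [Fact p.Prime] (L : Type) [Field L] [NumberField L]

theorem pow_apply_eq_of_fixed (x : L) (g : L ≃ₐ[ℚ] L) (hgx : g x = x) (i : ℕ) :
    (g ^ i) x = x := by
  induction i with
  | zero => simp
  | succ n ih => rw [pow_succ, AlgEquiv.mul_apply, hgx, ih]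

/-- Lagrange resolvent: a nonzero algebraic integer `β` with `g β = ζ β`. -/
theorem exists_resolvent (ζ : L) (g : L ≃ₐ[ℚ] L) (hζ : IsPrimitiveRoot ζ p) (hgζ : g ζ = ζ)
    (hg1 : g ≠ 1) (hgp : g ^ p = 1) :
    ∃ β : 𝓞 L, β ≠ 0 ∧ g (β : L) = ζ * (β : L) := by
  have hp : p.Prime := Fact.out
  have hord : orderOf g = p := orderOf_eq_prime hgp hg1
  have hζ0 : ζ ≠ 0 := hζ.ne_zero hp.ne_zero
  -- the resolvent map
  let R : L → L := fun θ => ∑ i ∈ Finset.range p, (ζ⁻¹) ^ i * (g ^ i) θ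
  have hR : ∀ θ, g (R θ) = ζ * R θ := by
    intro θ
    have h1 : g (R θ) = ∑ i ∈ Finset.range p, (ζ⁻¹) ^ i * (g ^ (i + 1)) θ := by
      simp only [R, map_sum, map_mul, map_pow, map_inv₀, hgζ]
      refine Finset.sum_congr rfl fun i _ => ?_
      rw [pow_succ', AlgEquiv.mul_apply]
    have h2 : ζ * R θ = ∑ i ∈ Finset.range p, ζ * ((ζ⁻¹) ^ i * (g ^ i) θ) := by
      simp only [R, Finset.mul_sum]
    have h3 : ∑ i ∈ Finset.range p, (ζ⁻¹) ^ i * (g ^ (i + 1)) θ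
        = ∑ i ∈ Finset.range p, ζ * ((ζ⁻¹) ^ (i + 1) * (g ^ (i + 1)) θ) := by
      refine Finset.sum_congr rfl fun i _ => ?_
      have h : ζ * ζ⁻¹ ^ (i + 1) = ζ⁻¹ ^ i := by
        rw [pow_succ (ζ⁻¹), ← mul_assoc, mul_comm ζ, mul_assoc, mul_inv_cancel₀ hζ0, mul_one]
      rw [← mul_assoc, h]
    rw [h1, h2, h3]
    have h4 := Finset.sum_range_succ (fun i => ζ * ((ζ⁻¹) ^ i * (g ^ i) θ)) p
    have h5 := Finset.sum_range_succ' (fun i => ζ * ((ζ⁻¹) ^ i * (g ^ i) θ)) p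
    rw [h5] at h4
    have h6 : ζ * ((ζ⁻¹) ^ p * (g ^ p) θ) = ζ * ((ζ⁻¹) ^ 0 * (g ^ 0) θ) := by
      rw [hgp, inv_pow, hζ.pow_eq_one]
      simp
    rw [h6] at h4
    exact add_right_cancel h4
  -- non-vanishing by independence of characters
  have hne : ∃ θ : L, R θ ≠ 0 := by
    by_contra hcon
    push Not at hcon
    have hli := linearIndependent_monoidHom L L
    let f : Fin p → (L →* L) := fun i => ((g ^ (i : ℕ) : L ≃ₐ[ℚ] L) : L →* L)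
    have hf : Function.Injective f := by
      intro i j hij
      have h1 : (g ^ (i : ℕ) : L ≃ₐ[ℚ] L) = g ^ (j : ℕ) := by
        ext x
        exact DFunLike.congr_fun hij x
      have h2 := pow_injOn_Iio_orderOf (x := g) (by rw [hord]; exact i.2) (by rw [hord]; exact j.2) h1
      exact Fin.ext h2
    have hli2 := hli.comp f hf
    rw [Fintype.linearIndependent_iff] at hli2
    have h0 := hli2 (fun i => (ζ⁻¹) ^ (i : ℕ)) (by
      ext θ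
      have := hcon θ
      simp only [R] at this
      rw [← Fin.sum_univ_eq_sum_range (fun i => (ζ⁻¹) ^ i * (g ^ i) θ)] at this
      simpa [f] using this) ⟨0, hp.pos⟩
    simp at h0
  obtain ⟨θ, hθ⟩ := hne
  have halg : IsAlgebraic ℤ θ :=
    (IsFractionRing.isAlgebraic_iff ℤ ℚ L).mpr (Algebra.IsAlgebraic.isAlgebraic θ)
  obtain ⟨d, hd, hdθ'⟩ := halg.exists_integral_multiple
  have hdθ : IsIntegral ℤ ((d : L) * θ) := by
    rwa [zsmul_eq_mul] at hdθ'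
  have hRd : R ((d : L) * θ) = (d : L) * R θ := by
    simp only [R, map_mul, map_intCast, Finset.mul_sum]
    refine Finset.sum_congr rfl fun i _ => by ring
  have hint : IsIntegral ℤ (R ((d : L) * θ)) := by
    refine IsIntegral.sum _ fun i _ => ?_
    refine IsIntegral.mul ?_ ?_
    · have hζint : IsIntegral ℤ ζ := hζ.isIntegral hp.pos
      have : ζ⁻¹ = ζ ^ (p - 1) := by
        rw [eq_comm, ← mul_right_inj' hζ0, mul_inv_cancel₀ hζ0, ← pow_succ', Nat.sub_add_cancel hp.one_le,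
          hζ.pow_eq_one]
      rw [this]
      exact (hζint.pow _).pow _
    · exact map_isIntegral_int ((g ^ i : L ≃ₐ[ℚ] L) : L →+* L) hdθ
  refine ⟨⟨_, hint⟩, ?_, hR _⟩
  intro h
  have h1 : R ((d : L) * θ) = 0 := by
    have := congrArg (algebraMap (𝓞 L) L) h
    rw [map_zero] at this
    exact this
  rw [hRd] at h1
  rcases mul_eq_zero.mp h1 with h2 | h2
  · exact hd (by exact_mod_cast h2)
  · exact hθ h2

variable [IsGalois ℚ L]

/-- Elements fixed by `g` lie in `ℚ(ζ)`. -/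
theorem mem_adjoin_of_fixed (ζ : L) (g : L ≃ₐ[ℚ] L)
    (hgen : ∀ τ : L ≃ₐ[ℚ] L, τ ζ = ζ → ∃ i : ℕ, τ = g ^ i) (x : L) (hx : g x = x) :
    x ∈ IntermediateField.adjoin ℚ {ζ} := by
  rw [← IsGalois.fixedField_fixingSubgroup (IntermediateField.adjoin ℚ {ζ}),
    IntermediateField.mem_fixedField_iff]
  intro τ hτ
  have h1 : τ ζ = ζ := (IntermediateField.mem_fixingSubgroup_iff _ τ).mp hτ ζ
    (IntermediateField.mem_adjoin_simple_self ℚ ζ)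
  obtain ⟨i, rfl⟩ := hgen τ h1
  exact pow_apply_eq_of_fixed L x g hx i

omit [IsGalois ℚ L] in
/-- An automorphism fixing `ζ` fixes `ℚ(ζ)`. -/
theorem apply_eq_of_mem_adjoin (ζ : L) (τ : L ≃ₐ[ℚ] L) (hτ : τ ζ = ζ) (x : L)
    (hx : x ∈ IntermediateField.adjoin ℚ {ζ}) : τ x = x := by
  have h1 : IntermediateField.adjoin ℚ {ζ} ≤ IntermediateField.fixedField (Subgroup.zpowers τ) := by
    rw [IntermediateField.adjoin_le_iff, Set.singleton_subset_iff]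
    show ζ ∈ IntermediateField.fixedField (Subgroup.zpowers τ)
    rw [IntermediateField.mem_fixedField_iff]
    intro f hf
    obtain ⟨n, rfl⟩ := Subgroup.mem_zpowers_iff.mp hf
    have h2 : ∀ n : ℕ, (τ ^ n) ζ = ζ := fun n => pow_apply_eq_of_fixed L ζ τ hτ n
    have h3 : ∀ n : ℕ, (τ ^ n)⁻¹ ζ = ζ := by
      intro n
      have h : (τ ^ n)⁻¹ ζ = (τ ^ n)⁻¹ ((τ ^ n) ζ) := by rw [h2 n]
      rw [h]
      exact (τ ^ n).symm_apply_apply ζ
    cases n with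
    | ofNat n => simpa using h2 n
    | negSucc n => simpa using h3 (n + 1)
  have h4 := h1 hx
  rw [IntermediateField.mem_fixedField_iff] at h4
  exact h4 τ (Subgroup.mem_zpowers τ)

omit [IsGalois ℚ L] in
/-- `g` acts on `β` through `ζ`, hence `g ^ k` through `ζ ^ k`. -/
theorem pow_apply_beta (ζ β : L) (g : L ≃ₐ[ℚ] L) (hgζ : g ζ = ζ) (hgβ : g β = ζ * β) (k : ℕ) :
    (g ^ k) β = ζ ^ k * β := by
  induction k with
  | zero => simp
  | succ n ih =>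
    rw [pow_succ, AlgEquiv.mul_apply, hgβ, map_mul, ih, pow_apply_eq_of_fixed L ζ g hgζ n]
    ring

omit [IsGalois ℚ L] in
/-- Type `ω²` (in `L`): for `τ ζ = ζ ^ k`, `τ β / β ^ (k ^ 2)` is fixed by `g`. -/
theorem exists_type (K' : IntermediateField ℚ L) (ζ : L) (g : L ≃ₐ[ℚ] L) (hgζ : g ζ = ζ)
    (hmem : ∀ x : L, g x = x → x ∈ K')
    (hconj : ∀ (τ : L ≃ₐ[ℚ] L) (k : ℕ), τ ζ = ζ ^ k → τ⁻¹ * g * τ = g ^ k)
    (β : L) (hβ0 : β ≠ 0) (hgβ : g β = ζ * β) (τ : L ≃ₐ[ℚ] L) (k : ℕ) (hτ : τ ζ = ζ ^ k) :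
    ∃ c ∈ K', τ β = β ^ (k ^ 2) * c := by
  have h1 : g (τ β) = ζ ^ (k ^ 2) * τ β := by
    have h2 : g (τ β) = τ ((τ⁻¹ * g * τ) β) := by
      simp only [AlgEquiv.mul_apply]
      show g (τ β) = τ (τ.symm (g (τ β)))
      rw [AlgEquiv.apply_symm_apply]
    rw [h2, hconj τ k hτ, pow_apply_beta L ζ β g hgζ hgβ k, map_mul, map_pow, hτ]
    ring
  have h3 : g (β ^ (k ^ 2)) = ζ ^ (k ^ 2) * β ^ (k ^ 2) := by
    rw [map_pow, hgβ, mul_pow]
  have hβk : β ^ (k ^ 2) ≠ 0 := pow_ne_zero _ hβ0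
  refine ⟨τ β * (β ^ (k ^ 2))⁻¹, ?_, ?_⟩
  · apply hmem
    rw [map_mul, map_inv₀, h1, h3]
    have hζk : ζ ^ (k ^ 2) ≠ 0 := by
      intro h
      rw [h, zero_mul] at h3
      exact hβk ((map_eq_zero_iff g g.injective).mp h3)
    field_simp
  · field_simp

omit [IsGalois ℚ L] in
theorem coe_algebraMap (K' : IntermediateField ℚ L) (a : 𝓞 K') :
    ((algebraMap (𝓞 K') (𝓞 L) a : 𝓞 L) : L) = ((a : K') : L) :=
  rfl

/-- Type `ω²` for `α = β ^ p`. -/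
theorem isOmegaSq_of_pair (K' : IntermediateField ℚ L) [IsCyclotomicExtension {p} ℚ K']
    (ζ : L) (hζ : IsPrimitiveRoot ζ p) (hζK : ζ ∈ K') (g : L ≃ₐ[ℚ] L) (hgζ : g ζ = ζ)
    (hmem : ∀ x : L, g x = x → x ∈ K')
    (hconj : ∀ (τ : L ≃ₐ[ℚ] L) (k : ℕ), τ ζ = ζ ^ k → τ⁻¹ * g * τ = g ^ k)
    (β : L) (hβ0 : β ≠ 0) (hgβ : g β = ζ * β) (α : K') (hα : (α : L) = β ^ p) :
    IsOmegaSq p K' α := by
  intro σ
  have hgal : IsGalois ℚ K' := IsCyclotomicExtension.isGalois {p} ℚ K'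
  have : Normal ℚ K' := hgal.to_normal
  obtain ⟨τ, hτσ⟩ := AlgEquiv.restrictNormalHom_surjective (F := ℚ) (K₁ := K') L σ
  have hcomm : ∀ x : K', ((σ x : K') : L) = τ (x : L) := by
    intro x
    rw [← hτσ]
    exact AlgEquiv.restrictNormal_commutes τ K' x
  have hk : τ ζ = ζ ^ (chi p K' σ) := by
    have h1 := IsCyclotomicExtension.Rat.galEquivZMod_apply_of_pow_eq p K' σ
      (x := (⟨ζ, hζK⟩ : K')) (Subtype.ext (by simpa using hζ.pow_eq_one))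
    have h2 := congrArg (fun x : K' => (x : L)) h1
    simp only [hcomm] at h2
    simpa [chi] using h2
  obtain ⟨c, hcK, hc⟩ := exists_type L K' ζ g hgζ hmem hconj β hβ0 hgβ τ (chi p K' σ) hk
  refine ⟨⟨c, hcK⟩, Subtype.ext ?_⟩
  rw [hcomm]
  push_cast
  rw [hα, map_pow, hc]
  ring

omit [IsGalois ℚ L] in
/-- `α = β ^ p` is not a `p`-th power in `ℚ(ζ)`. -/
theorem not_pow_of_pair (K' : IntermediateField ℚ L)
    (ζ : L) (hζ : IsPrimitiveRoot ζ p) (g : L ≃ₐ[ℚ] L) (hgζ : g ζ = ζ)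
    (hfix : ∀ x ∈ K', g x = x)
    (β : L) (hβ0 : β ≠ 0) (hgβ : g β = ζ * β) (α : K') (hα : (α : L) = β ^ p) :
    ¬ ∃ x : K', α = x ^ p := by
  have hp : p.Prime := Fact.out
  rintro ⟨x, hx⟩
  have h1 : β ^ p = (x : L) ^ p := by
    rw [← hα, hx]
    push_cast
    rfl
  have hx0 : (x : L) ≠ 0 := by
    intro h
    rw [h, zero_pow hp.ne_zero] at h1
    exact hβ0 (pow_eq_zero_iff hp.ne_zero |>.mp h1)
  have h2 : (β / (x : L)) ^ p = 1 := by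
    rw [div_pow, h1, div_self (pow_ne_zero _ hx0)]
  obtain ⟨i, -, hi⟩ := hζ.eq_pow_of_pow_eq_one h2
  have h3 : β = ζ ^ i * (x : L) := by
    rw [hi]
    field_simp
  have h4 : g β = β := by
    rw [h3, map_mul, map_pow, hgζ, hfix _ x.2]
  rw [hgβ] at h4
  have h5 : (ζ - 1) * β = 0 := by rw [sub_mul, h4, one_mul, sub_self]
  rcases mul_eq_zero.mp h5 with h6 | h6
  · exact hζ.ne_one hp.one_lt (sub_eq_zero.mp h6)
  · exact hβ0 h6

omit [IsGalois ℚ L] [NumberField L] in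
/-- Type `ω²` is stable under multiplication by `p`-th powers. -/
theorem isOmegaSq_mul_pow (K : Type) [Field K] [NumberField K] [IsCyclotomicExtension {p} ℚ K]
    (x d : K) (hd : d ≠ 0) (hx : IsOmegaSq p K x) : IsOmegaSq p K (x * d ^ p) := by
  intro σ
  obtain ⟨c, hc⟩ := hx σ
  refine ⟨c * σ d / d ^ (chi p K σ ^ 2), ?_⟩
  have hdk : d ^ (chi p K σ ^ 2) ≠ 0 := pow_ne_zero _ hd
  rw [map_mul, map_pow, hc]
  have h : (x * d ^ p) ^ (chi p K σ ^ 2) * (c * σ d / d ^ (chi p K σ ^ 2)) ^ p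
      = x ^ (chi p K σ ^ 2) * c ^ p * σ d ^ p
        * ((d ^ (chi p K σ ^ 2)) ^ p / (d ^ (chi p K σ ^ 2)) ^ p) := by
    rw [mul_pow, div_pow, mul_pow, ← pow_mul d p, mul_comm p, pow_mul d]
    ring
  rw [h, div_self (pow_ne_zero _ hdk), mul_one]

end ReductionNT

open ReductionNT in
/-- M0-NT : the number-theoretic half (pure Mathlib algebraic number theory in `L ⊇ ℚ(ζ)`):
Kummer generator by a Lagrange resolvent, type `ω²`, unramified ⇒ `p ∣ v_𝔮(α)`,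
totally split at `λ` ⇒ congruence modulo `λ^p`. -/
theorem kummer_datum_of_galois_datum {p : ℕ} [Fact p.Prime] (h3 : 3 ≤ p)
    (L : Type) [Field L] [NumberField L] [IsGalois ℚ L]
    (ζ : L) (g : L ≃ₐ[ℚ] L)
    (hζ : IsPrimitiveRoot ζ p) (hgζ : g ζ = ζ) (hg1 : g ≠ 1) (hgp : g ^ p = 1)
    (hgen : ∀ τ : L ≃ₐ[ℚ] L, τ ζ = ζ → ∃ i : ℕ, τ = g ^ i)
    (hconj : ∀ (τ : L ≃ₐ[ℚ] L) (k : ℕ), τ ζ = ζ ^ k → τ⁻¹ * g * τ = g ^ k)
    (hunr : ∀ P : Ideal (𝓞 L), P.IsPrime → P ≠ ⊥ → (p : 𝓞 L) ∉ P →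
        ∀ τ : L ≃ₐ[ℚ] L, (∀ x : 𝓞 L, τ • x - x ∈ P) → τ = 1)
    (hsplit : ∀ P : Ideal (𝓞 L), P.IsPrime → (p : 𝓞 L) ∈ P →
        ∀ τ : L ≃ₐ[ℚ] L, τ ζ = ζ → (∀ x ∈ P, τ • x ∈ P) → τ = 1) :
    ∃ (K : Type) (_ : Field K) (_ : NumberField K) (_ : IsCyclotomicExtension {p} ℚ K)
      (ζ : 𝓞 K) (α : 𝓞 K), IsPrimitiveRoot ζ p ∧ α ≠ 0 ∧ IsOmegaSq p K (α : K) ∧
      (∃ 𝔞 : Ideal (𝓞 K), Ideal.span {α} = 𝔞 ^ p) ∧
      (∃ b : ℤ, ¬ (p : ℤ) ∣ b ∧ α - (b : 𝓞 K) ^ p ∈ Ideal.span {(ζ - 1) ^ 3}) ∧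
      ¬ ∃ x : K, (α : K) = x ^ p := by
  have hp : p.Prime := Fact.out
  let K' : IntermediateField ℚ L := IntermediateField.adjoin ℚ {ζ}
  have hζK : ζ ∈ K' := IntermediateField.mem_adjoin_simple_self ℚ ζ
  have hcyc : IsCyclotomicExtension {p} ℚ K' :=
    hζ.intermediateField_adjoin_isCyclotomicExtension ℚ
  have hζK' : IsPrimitiveRoot (⟨ζ, hζK⟩ : K') p :=
    (IsPrimitiveRoot.coe_submonoidClass_iff (ζ := (⟨ζ, hζK⟩ : K'))).mp hζ
  obtain ⟨β₀, hβ0, hgβ⟩ := exists_resolvent L ζ g hζ hgζ hg1 hgp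
  have hβL : (β₀ : L) ≠ 0 := by
    intro h
    exact hβ0 (NumberField.RingOfIntegers.ext (by rw [h]; rfl))
  have hmem : ∀ x : L, g x = x → x ∈ K' := mem_adjoin_of_fixed L ζ g hgen
  have hfix : ∀ x ∈ K', g x = x := fun x hx => apply_eq_of_mem_adjoin L ζ g hgζ x hx
  have hα0mem : (β₀ : L) ^ p ∈ K' :=
    hmem _ (by rw [map_pow, hgβ, mul_pow, hζ.pow_eq_one, one_mul])
  have hα0int : IsIntegral ℤ (⟨(β₀ : L) ^ p, hα0mem⟩ : K') := by
    rw [← isIntegral_algebraMap_iff (B := L) (algebraMap K' L).injective]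
    exact (NumberField.RingOfIntegers.isIntegral_coe β₀).pow p
  let α₀ : 𝓞 K' := ⟨⟨(β₀ : L) ^ p, hα0mem⟩, hα0int⟩
  have hα₀L : (((α₀ : 𝓞 K') : K') : L) = (β₀ : L) ^ p := rfl
  have hα₀ : α₀ ≠ 0 := by
    intro h
    have h1 : (((α₀ : 𝓞 K') : K') : L) = 0 := by rw [h]; rfl
    rw [hα₀L] at h1
    exact hβL (pow_eq_zero_iff hp.ne_zero |>.mp h1)
  let ζ' : 𝓞 K' := hζK'.toInteger
  have hζ' : IsPrimitiveRoot ζ' p := hζK'.toInteger_isPrimitiveRoot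
  have hαβ : algebraMap (𝓞 K') (𝓞 L) α₀ = β₀ ^ p := by
    apply NumberField.RingOfIntegers.ext
    rw [coe_algebraMap, hα₀L]
    push_cast
    rfl
  obtain ⟨α, m, hα, hideal, hcong⟩ := local_datum h3 K' L ζ' hζ' hunr
    (fun P hP hpP τ hτ hst => hsplit P hP hpP τ hτ hst) α₀ hα₀ β₀ hαβ
  have hπ0 : ((ζ' - 1 : 𝓞 K') : K') ≠ 0 := by
    intro h
    have h1 : ζ' - 1 = 0 := NumberField.RingOfIntegers.ext (by rw [h]; rfl)
    exact hζ'.ne_one hp.one_lt (sub_eq_zero.mp h1)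
  have hαK : ((α₀ : 𝓞 K') : K') = ((ζ' - 1 : 𝓞 K') : K') ^ (p * m) * ((α : 𝓞 K') : K') := by
    rw [hα]
    push_cast
    rfl
  have hom0 : IsOmegaSq p K' ((α₀ : 𝓞 K') : K') :=
    isOmegaSq_of_pair L K' ζ hζ hζK g hgζ hmem hconj β₀ hβL hgβ _ hα₀L
  refine ⟨K', inferInstance, inferInstance, hcyc, ζ', α, hζ', ?_, ?_, hideal, hcong, ?_⟩
  · intro h
    rw [h, mul_zero] at hα
    exact hα₀ hα
  · have h1 : ((α : 𝓞 K') : K') = ((α₀ : 𝓞 K') : K') * ((((ζ' - 1 : 𝓞 K') : K') ^ m)⁻¹) ^ p := by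
      rw [hαK, inv_pow, ← pow_mul, mul_comm m p]
      field_simp
    rw [h1]
    exact isOmegaSq_mul_pow K' _ _ (inv_ne_zero (pow_ne_zero _ hπ0)) hom0
  · rintro ⟨x, hx⟩
    refine not_pow_of_pair L K' ζ hζ g hgζ hfix β₀ hβL hgβ _ hα₀L
      ⟨((ζ' - 1 : 𝓞 K') : K') ^ m * x, ?_⟩
    rw [mul_pow, ← hx, ← pow_mul, mul_comm m p]
    exact hαK

end Fermat.Agent.S14
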