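import Fermat.Prelude.Def_ExtCitation_AdmissibleExtension_v2
import Fermat.Agent.S14.Defs
import Fermat.Agent.S14.ReductionGT
import Fermat.Agent.S14.ReductionNT

set_option autoImplicit false

/-! # S14, M0 : the Galois / Kummer / local reduction (wiring of GT and NT) -/

open scoped NumberField

namespace Fermat.Agent.S14

/-- M0 : the Galois / Kummer / local reduction. -/
theorem exists_kummer_datum {p : ℕ} [Fact p.Prime] (h3 : 3 ≤ p)
    (V : Type) [AddCommGroup V] [Module (ZMod p) V]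
    [DistribMulAction (AlgebraicClosure ℚ ≃ₐ[ℚ] AlgebraicClosure ℚ) V]
    [SMulCommClass (AlgebraicClosure ℚ ≃ₐ[ℚ] AlgebraicClosure ℚ) (ZMod p) V]
    (C : Submodule (ZMod p) V) (hadm : ExtCitation.IsAdmissibleExtensionCts p V C)
    (hns : ¬ ExtCitation.SplitsGlobally C) :
    ∃ (K : Type) (_ : Field K) (_ : NumberField K) (_ : IsCyclotomicExtension {p} ℚ K)
      (ζ : 𝓞 K) (α : 𝓞 K), IsPrimitiveRoot ζ p ∧ α ≠ 0 ∧ IsOmegaSq p K (α : K) ∧
      (∃ 𝔞 : Ideal (𝓞 K), Ideal.span {α} = 𝔞 ^ p) ∧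
      (∃ b : ℤ, ¬ (p : ℤ) ∣ b ∧ α - (b : 𝓞 K) ^ p ∈ Ideal.span {(ζ - 1) ^ 3}) ∧
      ¬ ∃ x : K, (α : K) = x ^ p := by
  obtain ⟨L, _, _, _, ζ, g, hζ, hgζ, hg1, hgp, hgen, hconj, hunr, hsplit⟩ :=
    exists_galois_datum h3 V C hadm hns
  exact kummer_datum_of_galois_datum h3 L ζ g hζ hgζ hg1 hgp hgen hconj hunr hsplit

end Fermat.Agent.S14
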