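import Fermat.Agent.S14.Defs

set_option autoImplicit false

open scoped NumberField
open NumberField

namespace Fermat.Agent.S14

namespace LatticeSum

variable (K : Type) [Field K] [NumberField K]

open scoped Classical in
/-- The "house" `max_w |x|_w` is the sup norm of the image in the mixed space. -/
theorem iSup_place_eq_norm (x : K) :
    (⨆ w : InfinitePlace K, w x) = ‖mixedEmbedding K x‖ := by
  rw [mixedEmbedding.norm_eq_sup'_normAtPlace, Finset.sup'_univ_eq_ciSup]
  simp

theorem place_le_iSup (x : K) (w : InfinitePlace K) :
    w x ≤ ⨆ w : InfinitePlace K, w x :=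
  le_ciSup (f := fun w : InfinitePlace K => w x) (Set.finite_range _).bddAbove w

theorem iSup_place_nonneg (x : K) : 0 ≤ ⨆ w : InfinitePlace K, w x := by
  classical
  rw [iSup_place_eq_norm]; exact norm_nonneg _

open scoped Classical in
theorem finrank_integerLattice :
    Module.finrank ℤ (mixedEmbedding.integerLattice K) = Module.finrank ℚ K := by
  rw [ZLattice.rank ℝ, mixedEmbedding.finrank]

/-- General exponent version of `summable_house_rpow`. -/
theorem summable_house_rpow_gen {r : ℝ} (hr : r < -(Module.finrank ℚ K : ℝ)) :
    Summable fun x : 𝓞 K => (⨆ w : InfinitePlace K, w (x : K)) ^ r := by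
  classical
  have h := ZLattice.summable_norm_rpow (mixedEmbedding.integerLattice K) r
    (by rw [finrank_integerLattice]; exact hr)
  let i : 𝓞 K → mixedEmbedding.integerLattice K := fun x =>
    ⟨mixedEmbedding K (x : K), ⟨x, rfl⟩⟩
  have hi : Function.Injective i := by
    intro x y hxy
    have h1 : mixedEmbedding K (x : K) = mixedEmbedding K (y : K) := congrArg Subtype.val hxy
    exact RingOfIntegers.coe_injective (mixedEmbedding_injective K h1)
  have h2 := h.comp_injective hi
  refine h2.congr ?_
  intro x
  simp only [Function.comp_apply, i, iSup_place_eq_norm]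
  rfl

end LatticeSum

/-- AN2a : the lattice sum `∑_{x ∈ 𝓞 K} ‖x‖^(-(n+1))` converges (`‖x‖ = max_w |x|_w`; the term at
`x = 0` is `0 ^ (-(n+1)) = 0`). -/
theorem summable_house_rpow (K : Type) [Field K] [NumberField K] :
    Summable fun x : 𝓞 K =>
      (⨆ w : NumberField.InfinitePlace K, w (x : K)) ^ (-(Module.finrank ℚ K + 1 : ℝ)) := by
  apply LatticeSum.summable_house_rpow_gen
  linarith

end Fermat.Agent.S14
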