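import Fermat.Agent.S14.UnitPartition
import Fermat.Agent.S14.LatticeSum

set_option autoImplicit false

open scoped NumberField
open NumberField NumberField.InfinitePlace

namespace Fermat.Agent.S14

namespace ShiftBound

variable (K : Type) [Field K] [NumberField K]

/-- The house `max_w |x|_w`. -/
noncomputable def house (x : K) : ℝ := ⨆ w : InfinitePlace K, w x

theorem place_le_house (x : K) (w : InfinitePlace K) : w x ≤ house K x :=
  LatticeSum.place_le_iSup K x w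

theorem house_nonneg (x : K) : 0 ≤ house K x := LatticeSum.iSup_place_nonneg K x

theorem house_le {x : K} {r : ℝ} (h : ∀ w : InfinitePlace K, w x ≤ r) : house K x ≤ r :=
  ciSup_le h

/-- The absolute norm as a real number. -/
noncomputable def absN (x : K) : ℝ := |((Algebra.norm ℚ x : ℚ) : ℝ)|

theorem absN_eq_prod (x : K) : absN K x = ∏ w : InfinitePlace K, w x ^ mult w := by
  rw [InfinitePlace.prod_eq_abs_norm, absN, Rat.cast_abs]

theorem absN_nonneg (x : K) : 0 ≤ absN K x := abs_nonneg _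

theorem pow_le_absN {x : K} {m : ℝ} (hm : 0 ≤ m) (h : ∀ w : InfinitePlace K, m ≤ w x) :
    m ^ Module.finrank ℚ K ≤ absN K x := by
  rw [absN_eq_prod, ← InfinitePlace.sum_mult_eq, ← Finset.prod_pow_eq_pow_sum]
  exact Finset.prod_le_prod (fun w _ => pow_nonneg hm _) (fun w _ => pow_le_pow_left₀ hm (h w) _)

theorem log_absN {x : K} (hx : x ≠ 0) :
    Real.log (absN K x) = ∑ w : InfinitePlace K, (mult w : ℝ) * Real.log (w x) := by
  rw [absN, ← Rat.cast_abs]
  exact UnitPartition.log_abs_norm K hx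

theorem Hfun_eq (Ψ : K → ℝ) (s : ℝ) (x : K) : Hfun K Ψ s x = Ψ x * absN K x ^ (-s) := rfl

theorem Hfun_int_mem (Ψ : K → ℝ) (h01 : ∀ x, 0 ≤ Ψ x ∧ Ψ x ≤ 1) (s : ℝ) (hs : 0 < s) (z : 𝓞 K) :
    0 ≤ Hfun K Ψ s (z : K) ∧ Hfun K Ψ s (z : K) ≤ 1 := by
  rw [Hfun_eq]
  by_cases hz : z = 0
  · subst hz
    simp [absN, Real.zero_rpow (neg_ne_zero.mpr hs.ne')]
  · have h1 : 1 ≤ absN K (z : K) := by
      unfold absN
      rw [← Algebra.coe_norm_int]
      have h2 : Algebra.norm ℤ z ≠ 0 := Algebra.norm_ne_zero_iff.mpr hz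
      have h3 : (1 : ℤ) ≤ |Algebra.norm ℤ z| := Int.one_le_abs h2
      have h4 : ((1 : ℤ) : ℝ) ≤ ((|Algebra.norm ℤ z| : ℤ) : ℝ) := Int.cast_le.mpr h3
      simpa using h4
    have h2 : absN K (z : K) ^ (-s) ≤ 1 :=
      Real.rpow_le_one_of_one_le_of_nonpos h1 (by linarith)
    have h3 : 0 ≤ absN K (z : K) ^ (-s) := Real.rpow_nonneg (absN_nonneg K _) _
    exact ⟨mul_nonneg (h01 _).1 h3, mul_le_one₀ (h01 _).2 h3 h2⟩

theorem finite_house_lt (R : ℝ) : {x : 𝓞 K | house K (x : K) < R}.Finite := by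
  have hS := Embeddings.finite_of_norm_le K ℂ R
  have h2 := hS.preimage (Set.injOn_of_injective (RingOfIntegers.coe_injective (K := K)))
  refine h2.subset ?_
  intro x hx
  refine ⟨x.2, fun φ => ?_⟩
  have h3 : ‖φ (x : K)‖ = (InfinitePlace.mk φ) (x : K) := (InfinitePlace.apply φ (x : K)).symm
  rw [h3]
  exact (place_le_house K (x : K) _).trans (le_of_lt hx)

theorem finrank_one_le : (1 : ℝ) ≤ (Module.finrank ℚ K : ℝ) := by
  exact_mod_cast (Module.finrank_pos : 0 < Module.finrank ℚ K)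

theorem cone_house (Ψ : K → ℝ) (c : ℝ) (hc : 0 < c)
    (hcone : ∀ x : K, Ψ x ≠ 0 → ∀ w w' : InfinitePlace K, c * w' x ≤ w x)
    (x : K) (hx : Ψ x ≠ 0) (w : InfinitePlace K) : c * house K x ≤ w x := by
  have h1 : house K x ≤ w x / c := house_le K (fun w' => by
    rw [le_div_iff₀ hc]
    linarith [hcone x hx w w'])
  rw [le_div_iff₀ hc] at h1
  linarith

/-- The pointwise shift estimate. -/
theorem shift_pointwise (Ψ : K → ℝ) (c L : ℝ) (hc : 0 < c) (hc1 : c ≤ 1) (hL : 0 < L)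
    (h01 : ∀ x, 0 ≤ Ψ x ∧ Ψ x ≤ 1)
    (hcone : ∀ x : K, Ψ x ≠ 0 → ∀ w w' : InfinitePlace K, c * w' x ≤ w x)
    (hlip : ∀ x y : K, x ≠ 0 → y ≠ 0 →
        (∀ w : InfinitePlace K, |w y - w x| ≤ w x / 2) →
        ∀ δ : ℝ, (∀ w : InfinitePlace K, |w y - w x| ≤ δ * w x) → |Ψ y - Ψ x| ≤ L * δ)
    (D : ℝ) (hD : 0 < D) (s : ℝ) (hs : s ∈ Set.Icc (1 : ℝ) 2) (x y : K)
    (hxy : ∀ w : InfinitePlace K, |w y - w x| ≤ D)
    (hR : 16 * (Module.finrank ℚ K : ℝ) * D / c ≤ house K x) (hR1 : 1 ≤ house K x) :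
    |Hfun K Ψ s y - Hfun K Ψ s x| ≤
      ((L + 8 * (Module.finrank ℚ K : ℝ)) * (4 * D / c)
          * ((c / 4) ^ Module.finrank ℚ K) ^ (-(2 : ℝ)))
        * house K x ^ (-(Module.finrank ℚ K + 1 : ℝ)) := by
  obtain ⟨hs1, hs2⟩ := hs
  set h := house K x with hh
  set n := Module.finrank ℚ K with hn
  have hn1 : (1 : ℝ) ≤ (n : ℝ) := finrank_one_le K
  have hh0 : 0 < h := by linarith
  have hDh : 16 * (n : ℝ) * D ≤ c * h := by
    rw [div_le_iff₀ hc] at hR
    linarith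
  have hDh' : 16 * D ≤ c * h := by nlinarith
  by_cases hΨ : Ψ x = 0 ∧ Ψ y = 0
  · rw [Hfun_eq, Hfun_eq, hΨ.1, hΨ.2]
    simp only [zero_mul, sub_self, abs_zero]
    have h1 : (0 : ℝ) ≤ (c / 4) ^ n := by positivity
    have h2 : (0 : ℝ) ≤ ((c / 4) ^ n) ^ (-(2 : ℝ)) := Real.rpow_nonneg h1 _
    have h3 : (0 : ℝ) ≤ h ^ (-((n : ℝ) + 1)) := Real.rpow_nonneg hh0.le _
    positivity
  set m := c / 4 * h with hm
  have hm0 : 0 < m := by positivity
  have hDm : D ≤ m / 2 := by rw [hm]; linarith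
  have hplaces : ∀ w : InfinitePlace K, m ≤ w x ∧ m ≤ w y := by
    rw [not_and_or] at hΨ
    rcases hΨ with hx | hy
    · intro w
      have h1 := cone_house K Ψ c hc hcone x hx w
      have h2 := abs_le.mp (hxy w)
      rw [← hh] at h1
      constructor
      · rw [hm]; nlinarith
      · rw [hm]; nlinarith
    · have h0 : h ≤ house K y + D := house_le K (fun w => by
        have h2 := abs_le.mp (hxy w)
        linarith [place_le_house K y w])
      intro w
      have h1 := cone_house K Ψ c hc hcone y hy w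
      have h2 := abs_le.mp (hxy w)
      have h3 : c * h ≤ c * house K y + D := by nlinarith
      constructor
      · rw [hm]; nlinarith
      · rw [hm]; nlinarith
  obtain ⟨w1⟩ := (inferInstance : Nonempty (InfinitePlace K))
  have hx0 : x ≠ 0 := by
    intro h0
    have h1 := (hplaces w1).1
    rw [h0, map_zero] at h1
    linarith
  have hy0 : y ≠ 0 := by
    intro h0
    have h1 := (hplaces w1).2
    rw [h0, map_zero] at h1
    linarith
  set δ := D / m with hδ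
  have hδ0 : 0 < δ := by positivity
  have hδm : δ * m = D := by rw [hδ]; field_simp
  have hδw : ∀ w : InfinitePlace K, |w y - w x| ≤ δ * w x := fun w =>
    (hxy w).trans (by nlinarith [(hplaces w).1])
  have h2w : ∀ w : InfinitePlace K, |w y - w x| ≤ w x / 2 := fun w =>
    (hxy w).trans (by linarith [(hplaces w).1])
  have hΨd : |Ψ y - Ψ x| ≤ L * δ := hlip x y hx0 hy0 h2w δ hδw
  have hlog : ∀ w : InfinitePlace K, |Real.log (w y) - Real.log (w x)| ≤ 2 * δ := fun w =>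
    UnitPartition.abs_log_sub_log_le (InfinitePlace.pos_iff.mpr hx0) (h2w w) (hδw w)
  have hNlog : |Real.log (absN K y) - Real.log (absN K x)| ≤ (n : ℝ) * (2 * δ) := by
    rw [log_absN K hx0, log_absN K hy0, ← Finset.sum_sub_distrib]
    refine (Finset.abs_sum_le_sum_abs _ _).trans ?_
    rw [hn, ← UnitPartition.sum_mult_cast, Finset.sum_mul]
    refine Finset.sum_le_sum fun w _ => ?_
    have hmw : (0 : ℝ) ≤ (mult w : ℝ) := Nat.cast_nonneg _
    rw [← mul_sub, abs_mul, abs_of_nonneg hmw]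
    exact mul_le_mul_of_nonneg_left (hlog w) hmw
  have hNx : m ^ n ≤ absN K x := pow_le_absN K hm0.le (fun w => (hplaces w).1)
  have hNy : m ^ n ≤ absN K y := pow_le_absN K hm0.le (fun w => (hplaces w).2)
  have hmn : 0 < m ^ n := pow_pos hm0 n
  have hNx0 : 0 < absN K x := lt_of_lt_of_le hmn hNx
  have hNy0 : 0 < absN K y := lt_of_lt_of_le hmn hNy
  set t := (Real.log (absN K y) - Real.log (absN K x)) * (-s) with ht
  have ht1 : |t| ≤ 4 * (n : ℝ) * δ := by
    rw [ht, abs_mul, abs_neg, abs_of_pos (by linarith : (0 : ℝ) < s)]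
    have h3 := abs_nonneg (Real.log (absN K y) - Real.log (absN K x))
    nlinarith
  have hδn : 4 * (n : ℝ) * δ ≤ 1 := by
    have h3 : 4 * (n : ℝ) * δ * m ≤ 1 * m := by
      rw [mul_assoc, hδm, hm]; linarith
    exact le_of_mul_le_mul_right h3 hm0
  have hexp : absN K y ^ (-s) = absN K x ^ (-s) * Real.exp t := by
    rw [Real.rpow_def_of_pos hNy0, Real.rpow_def_of_pos hNx0, ← Real.exp_add]
    congr 1
    rw [ht]; ring
  have hNxs0 : 0 ≤ absN K x ^ (-s) := Real.rpow_nonneg hNx0.le _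
  have hdiffN : |absN K y ^ (-s) - absN K x ^ (-s)| ≤ absN K x ^ (-s) * (8 * (n : ℝ) * δ) := by
    rw [hexp, ← mul_sub_one, abs_mul, abs_of_nonneg hNxs0]
    refine mul_le_mul_of_nonneg_left ?_ hNxs0
    calc |Real.exp t - 1| ≤ 2 * |t| := Real.abs_exp_sub_one_le (ht1.trans hδn)
      _ ≤ 8 * (n : ℝ) * δ := by linarith
  have hNxs : absN K x ^ (-s) ≤ (m ^ n) ^ (-s) :=
    Real.rpow_le_rpow_of_nonpos hmn hNx (by linarith)
  have hc4 : (0 : ℝ) < (c / 4) ^ n := by positivity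
  have hc4' : (c / 4) ^ n ≤ 1 := pow_le_one₀ (by positivity) (by linarith)
  have hhn : (1 : ℝ) ≤ h ^ n := one_le_pow₀ hR1
  have hms : (m ^ n) ^ (-s) ≤ ((c / 4) ^ n) ^ (-(2 : ℝ)) * (h ^ n)⁻¹ := by
    rw [hm, mul_pow, Real.mul_rpow hc4.le (by positivity)]
    refine mul_le_mul ?_ ?_ (Real.rpow_nonneg (by positivity) _) (Real.rpow_nonneg hc4.le _)
    · exact Real.rpow_le_rpow_of_exponent_ge hc4 hc4' (by linarith)
    · rw [← Real.rpow_neg_one]
      exact Real.rpow_le_rpow_of_exponent_le hhn (by linarith)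
  have e : Hfun K Ψ s y - Hfun K Ψ s x
      = (Ψ y - Ψ x) * absN K x ^ (-s) + Ψ y * (absN K y ^ (-s) - absN K x ^ (-s)) := by
    simp only [Hfun_eq]; ring
  have hLn : 0 ≤ L + 8 * (n : ℝ) := by positivity
  have hpow : h ^ (-((n : ℝ) + 1)) = h⁻¹ * (h ^ n)⁻¹ := by
    rw [Real.rpow_neg hh0.le, ← Nat.cast_add_one, Real.rpow_natCast, pow_succ, mul_inv, mul_comm]
  have hδeq : δ = 4 * D / c * h⁻¹ := by
    rw [hδ, hm]; field_simp
  rw [e]
  calc |(Ψ y - Ψ x) * absN K x ^ (-s) + Ψ y * (absN K y ^ (-s) - absN K x ^ (-s))|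
      ≤ |Ψ y - Ψ x| * absN K x ^ (-s) + Ψ y * |absN K y ^ (-s) - absN K x ^ (-s)| := by
        refine (abs_add_le _ _).trans ?_
        rw [abs_mul, abs_mul, abs_of_nonneg hNxs0, abs_of_nonneg (h01 y).1]
    _ ≤ L * δ * absN K x ^ (-s) + 1 * (absN K x ^ (-s) * (8 * (n : ℝ) * δ)) := by
        refine add_le_add (mul_le_mul_of_nonneg_right hΨd hNxs0) ?_
        exact mul_le_mul (h01 y).2 hdiffN (abs_nonneg _) zero_le_one
    _ = (L + 8 * (n : ℝ)) * δ * absN K x ^ (-s) := by ring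
    _ ≤ (L + 8 * (n : ℝ)) * δ * (((c / 4) ^ n) ^ (-(2 : ℝ)) * (h ^ n)⁻¹) :=
        mul_le_mul_of_nonneg_left (hNxs.trans hms) (mul_nonneg hLn hδ0.le)
    _ = (L + 8 * (n : ℝ)) * (4 * D / c) * ((c / 4) ^ n) ^ (-(2 : ℝ)) * h ^ (-((n : ℝ) + 1)) := by
        rw [hpow, hδeq]; ring

end ShiftBound

/-- AN2b : the shift bound for `Hfun K Ψ s x = Ψ x * |N x|^(-s)`. -/
theorem exists_shift_bound (K : Type) [Field K] [NumberField K] (Ψ : K → ℝ) (c L : ℝ)
    (hc : 0 < c) (hL : 0 < L) (h01 : ∀ x, 0 ≤ Ψ x ∧ Ψ x ≤ 1)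
    (hcone : ∀ x : K, Ψ x ≠ 0 → ∀ w w' : NumberField.InfinitePlace K, c * w' x ≤ w x)
    (hlip : ∀ x y : K, x ≠ 0 → y ≠ 0 →
        (∀ w : NumberField.InfinitePlace K, |w y - w x| ≤ w x / 2) →
        ∀ δ : ℝ, (∀ w : NumberField.InfinitePlace K, |w y - w x| ≤ δ * w x) → |Ψ y - Ψ x| ≤ L * δ)
    (a : 𝓞 K) :
    ∃ B : ℝ, ∀ s ∈ Set.Icc (1 : ℝ) 2,
      Summable (fun x : 𝓞 K => |Hfun K Ψ s ((x + a : 𝓞 K) : K) - Hfun K Ψ s (x : K)|) ∧
      ∑' x : 𝓞 K, |Hfun K Ψ s ((x + a : 𝓞 K) : K) - Hfun K Ψ s (x : K)| ≤ B := by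
  classical
  set c' := min c 1 with hc'def
  have hc' : 0 < c' := lt_min hc one_pos
  have hc'1 : c' ≤ 1 := min_le_right _ _
  have hcone' : ∀ x : K, Ψ x ≠ 0 → ∀ w w' : NumberField.InfinitePlace K, c' * w' x ≤ w x :=
    fun x hx w w' =>
      (mul_le_mul_of_nonneg_right (min_le_left _ _) (apply_nonneg _ _)).trans (hcone x hx w w')
  set D := ShiftBound.house K (a : K) + 1 with hDdef
  have hD : 0 < D := by linarith [ShiftBound.house_nonneg K (a : K)]
  set R := max 1 (16 * (Module.finrank ℚ K : ℝ) * D / c') with hRdef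
  set C := (L + 8 * (Module.finrank ℚ K : ℝ)) * (4 * D / c')
      * ((c' / 4) ^ Module.finrank ℚ K) ^ (-(2 : ℝ)) with hCdef
  have hC : 0 ≤ C := by
    have h1 : (0 : ℝ) ≤ ((c' / 4) ^ Module.finrank ℚ K) ^ (-(2 : ℝ)) :=
      Real.rpow_nonneg (by positivity) _
    positivity
  set F : Set (𝓞 K) := {x | ShiftBound.house K (x : K) < R} with hFdef
  have hF : F.Finite := ShiftBound.finite_house_lt K R
  let G : 𝓞 K → ℝ := fun x =>
    C * ShiftBound.house K (x : K) ^ (-(Module.finrank ℚ K + 1 : ℝ))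
      + F.indicator (fun _ => (1 : ℝ)) x
  have hG1 : Summable fun x : 𝓞 K =>
      C * ShiftBound.house K (x : K) ^ (-(Module.finrank ℚ K + 1 : ℝ)) :=
    (summable_house_rpow K).mul_left C
  have hG2 : Summable (F.indicator (fun _ => (1 : ℝ))) :=
    summable_of_hasFiniteSupport (hF.subset Set.support_indicator_subset)
  have hG : Summable G := hG1.add hG2
  refine ⟨∑' x, G x, fun s hs => ?_⟩
  have hs0 : (0 : ℝ) < s := by linarith [hs.1]
  have hle : ∀ x : 𝓞 K, |Hfun K Ψ s ((x + a : 𝓞 K) : K) - Hfun K Ψ s (x : K)| ≤ G x := by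
    intro x
    have h4 : 0 ≤ C * ShiftBound.house K (x : K) ^ (-(Module.finrank ℚ K + 1 : ℝ)) :=
      mul_nonneg hC (Real.rpow_nonneg (ShiftBound.house_nonneg K _) _)
    by_cases hx : x ∈ F
    · have h1 := ShiftBound.Hfun_int_mem K Ψ h01 s hs0 (x + a)
      have h2 := ShiftBound.Hfun_int_mem K Ψ h01 s hs0 x
      have h3 : |Hfun K Ψ s ((x + a : 𝓞 K) : K) - Hfun K Ψ s (x : K)| ≤ 1 := by
        rw [abs_le]; constructor <;> linarith [h1.1, h1.2, h2.1, h2.2]
      simp only [G, Set.indicator_of_mem hx]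
      linarith
    · have hRx : R ≤ ShiftBound.house K (x : K) := not_lt.mp hx
      have hxy : ∀ w : NumberField.InfinitePlace K,
          |w ((x + a : 𝓞 K) : K) - w (x : K)| ≤ D := by
        intro w
        have h1 : |w ((x + a : 𝓞 K) : K) - w (x : K)| ≤ w (((x + a : 𝓞 K) : K) - (x : K)) :=
          AbsoluteValue.abs_abv_sub_le_abv_sub w.1 (((x + a : 𝓞 K) : K)) (x : K)
        have h2 : (((x + a : 𝓞 K) : K)) - (x : K) = (a : K) := by push_cast; ring
        rw [h2] at h1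
        have h3 := ShiftBound.place_le_house K (a : K) w
        exact h1.trans (by rw [hDdef]; linarith [h3])
      have := ShiftBound.shift_pointwise K Ψ c' L hc' hc'1 hL h01 hcone' hlip D hD s hs (x : K)
        ((x + a : 𝓞 K) : K) hxy ((le_max_right _ _).trans hRx) ((le_max_left _ _).trans hRx)
      simp only [G, Set.indicator_of_notMem hx, add_zero]
      exact this
  have hsum : Summable (fun x : 𝓞 K => |Hfun K Ψ s ((x + a : 𝓞 K) : K) - Hfun K Ψ s (x : K)|) :=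
    Summable.of_nonneg_of_le (fun _ => abs_nonneg _) hle hG
  exact ⟨hsum, hsum.tsum_le_tsum hle hG⟩

end Fermat.Agent.S14
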