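import Fermat.Agent.S14.Defs

/-!
# S14, package ZB: the Dedekind zeta function as a real sum over ideals
-/

set_option autoImplicit false

open scoped NumberField Pointwise Topology
open IsDedekindDomain Filter

namespace Fermat.Agent.S14

namespace ZetaBasic

open NumberField Ideal

variable (K : Type) [Field K] [NumberField K]

/-- The number of ideals of norm `n`, as a real number. -/
noncomputable def coeff (n : ℕ) : ℝ := (Nat.card {I : Ideal (𝓞 K) // absNorm I = n} : ℝ)

theorem coeff_nonneg (n : ℕ) : 0 ≤ coeff K n := Nat.cast_nonneg _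

theorem tendsto_coeff :
    Tendsto (fun n : ℕ => (∑ k ∈ Finset.Icc 1 n, coeff K k) / n) atTop
      (𝓝 (dedekindZeta_residue K)) := by
  refine ((Ideal.tendsto_norm_le_div_atTop₀ K).comp tendsto_natCast_atTop_atTop).congr fun n ↦ ?_
  simp only [Function.comp_apply, Nat.cast_le, ← Nat.cast_sum, coeff]
  congr
  rw [← add_left_inj 1, ← card_norm_le_eq_card_norm_le_add_one,
    show Finset.Icc 1 n = Finset.Ioc 0 n from Finset.Icc_succ_left_eq_Ioc _ _,
    show 1 = Nat.card {I : Ideal (𝓞 K) // absNorm I = 0} by simp [Ideal.absNorm_eq_zero_iff],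
    Finset.sum_Ioc_add_eq_sum_Icc (n.zero_le),
    ← Finset.card_preimage_eq_sum_card_image_eq (fun k _ ↦ finite_setOfPred_absNorm_eq k)]
  simp [Set.coe_eq_subtype]

theorem lseriesSummable {s : ℝ} (hs : 1 < s) :
    LSeriesSummable (fun n => (coeff K n : ℂ)) (s : ℂ) := by
  refine LSeriesSummable_of_sum_norm_bigO_and_nonneg (r := 1) ?_ (coeff_nonneg K) zero_le_one
    (by simpa using hs)
  have h := tendsto_coeff K
  have h2 : (fun n : ℕ => ∑ k ∈ Finset.Icc 1 n, coeff K k) =O[atTop] fun n : ℕ => (n : ℝ) := by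
    refine Asymptotics.isBigO_of_div_tendsto_nhds ?_ _ h
    filter_upwards [eventually_gt_atTop 0] with n hn h0
    exact absurd h0 (Nat.cast_ne_zero.mpr hn.ne')
  simpa using h2

theorem term_eq {s : ℝ} (hs : 1 < s) (n : ℕ) :
    LSeries.term (fun n => (coeff K n : ℂ)) (s : ℂ) n = ((coeff K n * (n : ℝ) ^ (-s) : ℝ) : ℂ) := by
  rcases Nat.eq_zero_or_pos n with rfl | hn
  · have : (-s) ≠ 0 := by linarith
    simp [Real.zero_rpow this]
  · rw [LSeries.term_of_ne_zero hn.ne']
    push_cast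
    rw [Complex.ofReal_cpow (Nat.cast_nonneg n)]
    push_cast
    rw [Complex.cpow_neg, div_eq_mul_inv]

theorem summable_coeff {s : ℝ} (hs : 1 < s) :
    Summable fun n : ℕ => coeff K n * (n : ℝ) ^ (-s) := by
  have h := lseriesSummable K hs
  unfold LSeriesSummable at h
  have h2 : Summable fun n : ℕ => ((coeff K n * (n : ℝ) ^ (-s) : ℝ) : ℂ) :=
    h.congr (term_eq K hs)
  exact Complex.summable_ofReal.mp h2

theorem fiber_finite (n : ℕ) : Finite {I : Ideal (𝓞 K) // absNorm I = n} :=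
  (finite_setOfPred_absNorm_eq n).to_subtype

theorem tsum_fiber (s : ℝ) (n : ℕ) :
    ∑' y : {I : Ideal (𝓞 K) // absNorm I = n}, (absNorm (y : Ideal (𝓞 K)) : ℝ) ^ (-s)
      = coeff K n * (n : ℝ) ^ (-s) := by
  have : ∀ y : {I : Ideal (𝓞 K) // absNorm I = n},
      (absNorm (y : Ideal (𝓞 K)) : ℝ) ^ (-s) = (n : ℝ) ^ (-s) := fun y => by rw [y.2]
  rw [tsum_congr this, tsum_const, nsmul_eq_mul]
  rfl

/-- Summability over all ideals (the zero ideal contributes `0 ^ (-s) = 0`). -/
theorem summable_all {s : ℝ} (hs : 1 < s) :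
    Summable fun I : Ideal (𝓞 K) => (absNorm I : ℝ) ^ (-s) := by
  rw [← (Equiv.sigmaFiberEquiv (fun I : Ideal (𝓞 K) => absNorm I)).summable_iff]
  have hnn : ∀ x : (y : ℕ) × {x : Ideal (𝓞 K) // absNorm x = y},
      0 ≤ ((fun I : Ideal (𝓞 K) => (absNorm I : ℝ) ^ (-s)) ∘
        ⇑(Equiv.sigmaFiberEquiv fun I : Ideal (𝓞 K) => absNorm I)) x :=
    fun x => Real.rpow_nonneg (Nat.cast_nonneg _) _
  rw [summable_sigma_of_nonneg hnn]
  refine ⟨fun n => ?_, ?_⟩
  · have := fiber_finite K n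
    exact Summable.of_finite
  · refine (summable_coeff K hs).congr fun n => ?_
    exact (tsum_fiber K s n).symm

theorem tsum_all_eq {s : ℝ} (hs : 1 < s) :
    ∑' I : Ideal (𝓞 K), (absNorm I : ℝ) ^ (-s) = ∑' n : ℕ, coeff K n * (n : ℝ) ^ (-s) := by
  rw [← (Equiv.sigmaFiberEquiv (fun I : Ideal (𝓞 K) => absNorm I)).tsum_eq]
  rw [Summable.tsum_sigma']
  · exact tsum_congr fun n => tsum_fiber K s n
  · intro n
    have := fiber_finite K n
    exact Summable.of_finite
  · exact ((Equiv.sigmaFiberEquiv (fun I : Ideal (𝓞 K) => absNorm I)).summable_iff).mpr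
      (summable_all K hs)

theorem zetaR_eq_tsum_all {s : ℝ} (hs : 1 < s) :
    zetaR K s = ∑' I : Ideal (𝓞 K), (absNorm I : ℝ) ^ (-s) := by
  unfold zetaR
  refine tsum_subtype_eq_of_support_subset
    (f := fun I : Ideal (𝓞 K) => (absNorm I : ℝ) ^ (-s))
    (s := (nonZeroDivisors (Ideal (𝓞 K)) : Set (Ideal (𝓞 K)))) ?_
  intro I hI
  rw [Function.mem_support] at hI
  rw [SetLike.mem_coe, mem_nonZeroDivisors_iff_ne_zero]
  rintro rfl
  apply hI
  have : (-s) ≠ 0 := by linarith
  simp [Real.zero_rpow this]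

theorem lseries_eq_zetaR {s : ℝ} (hs : 1 < s) :
    LSeries (fun n => (coeff K n : ℂ)) (s : ℂ) = ((zetaR K s : ℝ) : ℂ) := by
  rw [zetaR_eq_tsum_all K hs, tsum_all_eq K hs, Complex.ofReal_tsum]
  unfold LSeries
  exact tsum_congr (term_eq K hs)

end ZetaBasic

open ZetaBasic in
/-- ZB1 -/
theorem summable_ideal_rpow (K : Type) [Field K] [NumberField K] {s : ℝ} (hs : 1 < s) :
    Summable fun I : nonZeroDivisors (Ideal (𝓞 K)) =>
      (Ideal.absNorm (I : Ideal (𝓞 K)) : ℝ) ^ (-s) :=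
  (summable_all K hs).subtype _

open ZetaBasic in
/-- ZB2 : Mathlib's residue theorem, for `zetaR`. -/
theorem tendsto_sub_one_mul_zetaR (K : Type) [Field K] [NumberField K] :
    Tendsto (fun s : ℝ => (s - 1) * zetaR K s) (𝓝[>] 1) (𝓝 (NumberField.dedekindZeta_residue K)) := by
  have h := LSeries_tendsto_sub_mul_nhds_one_of_tendsto_sum_div_and_nonneg (coeff K)
    (tendsto_coeff K) (coeff_nonneg K)
  have h2 := (Complex.continuous_re.tendsto _).comp h
  simp only [Complex.ofReal_re] at h2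
  refine h2.congr' ?_
  filter_upwards [self_mem_nhdsWithin] with s hs
  have hs1 : (1 : ℝ) < s := hs
  simp only [Function.comp_apply]
  rw [lseries_eq_zetaR K hs1]
  have : ((s : ℂ) - 1) * ((zetaR K s : ℝ) : ℂ) = (((s - 1) * zetaR K s : ℝ) : ℂ) := by
    push_cast; ring
  rw [this, Complex.ofReal_re]

/-- ZB3 -/
theorem zetaR_bounds (K : Type) [Field K] [NumberField K] :
    ∃ c C : ℝ, 0 < c ∧ 0 < C ∧ ∀ᶠ s in 𝓝[>] (1 : ℝ), c / (s - 1) ≤ zetaR K s ∧ zetaR K s ≤ C / (s - 1) := by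
  have hres := NumberField.dedekindZeta_residue_pos K
  set r := NumberField.dedekindZeta_residue K with hr
  refine ⟨r / 2, 2 * r, by positivity, by positivity, ?_⟩
  have h := tendsto_sub_one_mul_zetaR K
  have hmem : Set.Ioo (r / 2) (2 * r) ∈ 𝓝 r := Ioo_mem_nhds (by linarith) (by linarith)
  filter_upwards [h.eventually hmem, self_mem_nhdsWithin] with s hs hs1
  have hs1' : (0 : ℝ) < s - 1 := by
    have : (1 : ℝ) < s := hs1
    linarith
  constructor
  · rw [div_le_iff₀ hs1']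
    have := hs.1
    linarith [mul_comm (zetaR K s) (s - 1)]
  · rw [le_div_iff₀ hs1']
    have := hs.2
    linarith [mul_comm (zetaR K s) (s - 1)]

open ZetaBasic in
/-- ZB4 -/
theorem summable_prime_rpow (K : Type) [Field K] [NumberField K] {s : ℝ} (hs : 1 < s) :
    Summable fun v : HeightOneSpectrum (𝓞 K) => (Ideal.absNorm v.asIdeal : ℝ) ^ (-s) := by
  have hinj : Function.Injective fun v : HeightOneSpectrum (𝓞 K) => v.asIdeal :=
    fun v w h => HeightOneSpectrum.ext h
  exact (summable_all K hs).comp_injective hinj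

end Fermat.Agent.S14
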