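import Fermat.Agent.S14.Defs
import Fermat.Agent.S14.ZetaBasic

set_option autoImplicit false

open scoped NumberField
open NumberField

namespace Fermat.Agent.S14

namespace ZetaLattice

variable (K : Type) [Field K] [NumberField K]

/-- The index set: ideals in the class inverse to that of `J`. -/
abbrev classSet (J : nonZeroDivisors (Ideal (𝓞 K))) : Type :=
  {I : nonZeroDivisors (Ideal (𝓞 K)) // ClassGroup.mk0 I = (ClassGroup.mk0 J)⁻¹}

theorem isPrincipal_mul (J : nonZeroDivisors (Ideal (𝓞 K))) (I : classSet K J) :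
    ((J : Ideal (𝓞 K)) * ((I : nonZeroDivisors (Ideal (𝓞 K))) : Ideal (𝓞 K))).IsPrincipal := by
  have h1 : ClassGroup.mk0 (J * (I : nonZeroDivisors (Ideal (𝓞 K)))) = 1 := by
    rw [map_mul, I.2, mul_inv_cancel]
  exact (ClassGroup.mk0_eq_one_iff (J * (I : nonZeroDivisors (Ideal (𝓞 K)))).2).mp h1

/-- A generator of `J * I`. -/
noncomputable def gen (J : nonZeroDivisors (Ideal (𝓞 K))) (I : classSet K J) : 𝓞 K :=
  (isPrincipal_mul K J I).principal.choose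

theorem span_gen (J : nonZeroDivisors (Ideal (𝓞 K))) (I : classSet K J) :
    Ideal.span {gen K J I}
      = (J : Ideal (𝓞 K)) * ((I : nonZeroDivisors (Ideal (𝓞 K))) : Ideal (𝓞 K)) := by
  have h := (isPrincipal_mul K J I).principal.choose_spec
  rw [h]
  rfl

theorem gen_ne_zero (J : nonZeroDivisors (Ideal (𝓞 K))) (I : classSet K J) : gen K J I ≠ 0 := by
  intro h0
  have h := span_gen K J I
  rw [h0, Ideal.span_singleton_zero] at h
  have h1 : (J : Ideal (𝓞 K)) ≠ 0 := nonZeroDivisors.coe_ne_zero J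
  have h2 : ((I : nonZeroDivisors (Ideal (𝓞 K))) : Ideal (𝓞 K)) ≠ 0 := nonZeroDivisors.coe_ne_zero _
  exact mul_ne_zero h1 h2 h.symm

theorem unit_mul_gen_mem (J : nonZeroDivisors (Ideal (𝓞 K))) (I : classSet K J) (u : (𝓞 K)ˣ) :
    (u : 𝓞 K) * gen K J I ∈ (J : Ideal (𝓞 K)) := by
  have h1 : gen K J I ∈ Ideal.span {gen K J I} := Ideal.mem_span_singleton_self _
  rw [span_gen] at h1
  have h2 : gen K J I ∈ (J : Ideal (𝓞 K)) := Ideal.mul_le_left h1
  exact Ideal.mul_mem_left _ _ h2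

/-- The parametrisation of the nonzero elements of `J`. -/
noncomputable def param (J : nonZeroDivisors (Ideal (𝓞 K))) :
    classSet K J × (𝓞 K)ˣ → (J : Ideal (𝓞 K)) :=
  fun p => ⟨(p.2 : 𝓞 K) * gen K J p.1, unit_mul_gen_mem K J p.1 p.2⟩

theorem param_injective (J : nonZeroDivisors (Ideal (𝓞 K))) : Function.Injective (param K J) := by
  rintro ⟨I, u⟩ ⟨I', u'⟩ h
  have h1 : (u : 𝓞 K) * gen K J I = (u' : 𝓞 K) * gen K J I' := congrArg Subtype.val h
  have h2 : Ideal.span {gen K J I} = Ideal.span {gen K J I'} := by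
    rw [← Ideal.span_singleton_mul_left_unit u.isUnit, ← Ideal.span_singleton_mul_left_unit u'.isUnit
      (gen K J I'), h1]
  rw [span_gen, span_gen] at h2
  have hJ : (J : Ideal (𝓞 K)) ≠ 0 := nonZeroDivisors.coe_ne_zero J
  have h3 : ((I : nonZeroDivisors (Ideal (𝓞 K))) : Ideal (𝓞 K))
      = ((I' : nonZeroDivisors (Ideal (𝓞 K))) : Ideal (𝓞 K)) := mul_left_cancel₀ hJ h2
  have h4 : I = I' := Subtype.ext (Subtype.ext h3)
  subst h4
  have h5 : (u : 𝓞 K) = (u' : 𝓞 K) := mul_right_cancel₀ (gen_ne_zero K J I) h1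
  have h6 : u = u' := Units.ext h5
  rw [h6]

theorem mk0_eq_inv_of_span (J I₁ : nonZeroDivisors (Ideal (𝓞 K))) (y : 𝓞 K)
    (h : Ideal.span {y} = (J : Ideal (𝓞 K)) * (I₁ : Ideal (𝓞 K))) :
    ClassGroup.mk0 I₁ = (ClassGroup.mk0 J)⁻¹ := by
  apply eq_inv_of_mul_eq_one_right
  rw [← map_mul]
  have h2 : ((J * I₁ : nonZeroDivisors (Ideal (𝓞 K))) : Ideal (𝓞 K)).IsPrincipal := by
    rw [Submonoid.coe_mul, ← h]
    exact ⟨⟨y, rfl⟩⟩
  exact (ClassGroup.mk0_eq_one_iff (J * I₁).2).mpr h2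

theorem mem_range_param (J : nonZeroDivisors (Ideal (𝓞 K))) (y : (J : Ideal (𝓞 K)))
    (hy : (y : 𝓞 K) ≠ 0) : y ∈ Set.range (param K J) := by
  have hle : Ideal.span {(y : 𝓞 K)} ≤ (J : Ideal (𝓞 K)) :=
    (Ideal.span_singleton_le_iff_mem _).mpr y.2
  obtain ⟨I₀, hI₀⟩ := Ideal.dvd_iff_le.mpr hle
  have hI₀ne : I₀ ≠ 0 := by
    rintro rfl
    rw [mul_zero] at hI₀
    exact hy (Ideal.span_singleton_eq_bot.mp hI₀)
  have hI₀mem : I₀ ∈ nonZeroDivisors (Ideal (𝓞 K)) := mem_nonZeroDivisors_iff_ne_zero.mpr hI₀ne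
  obtain ⟨I₁, hI₁⟩ : ∃ I₁ : nonZeroDivisors (Ideal (𝓞 K)), (I₁ : Ideal (𝓞 K)) = I₀ :=
    ⟨⟨I₀, hI₀mem⟩, rfl⟩
  subst hI₁
  let I : classSet K J := ⟨I₁, mk0_eq_inv_of_span K J I₁ (y : 𝓞 K) hI₀⟩
  have hspan : Ideal.span {gen K J I} = Ideal.span {(y : 𝓞 K)} := by
    rw [span_gen, hI₀]
  obtain ⟨u, hu⟩ := Ideal.span_singleton_eq_span_singleton.mp hspan
  refine ⟨(I, u), Subtype.ext ?_⟩
  simp only [param]
  rw [mul_comm]
  exact hu

theorem absNorm_gen (J : nonZeroDivisors (Ideal (𝓞 K))) (I : classSet K J) (u : (𝓞 K)ˣ) :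
    |((Algebra.norm ℚ ((((u : 𝓞 K) * gen K J I : 𝓞 K)) : K) : ℚ) : ℝ)|
      = (Ideal.absNorm (J : Ideal (𝓞 K)) : ℝ)
        * (Ideal.absNorm ((I : nonZeroDivisors (Ideal (𝓞 K))) : Ideal (𝓞 K)) : ℝ) := by
  have h1 : Ideal.absNorm (Ideal.span {(u : 𝓞 K) * gen K J I})
      = Ideal.absNorm (J : Ideal (𝓞 K))
        * Ideal.absNorm ((I : nonZeroDivisors (Ideal (𝓞 K))) : Ideal (𝓞 K)) := by
    rw [Ideal.span_singleton_mul_left_unit u.isUnit, span_gen, map_mul]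
  rw [Ideal.absNorm_span_singleton] at h1
  rw [← Nat.cast_mul, ← h1, Nat.cast_natAbs, ← Algebra.coe_norm_int]
  push_cast
  rfl

end ZetaLattice

/-- AN3a : the partial zeta function as a lattice sum. -/
theorem zetaClass_eq_lattice_sum (K : Type) [Field K] [NumberField K] (Ψ : K → ℝ)
    (h01 : ∀ x, 0 ≤ Ψ x ∧ Ψ x ≤ 1)
    (hpart : ∀ x : K, x ≠ 0 → (Function.support fun u : (𝓞 K)ˣ => Ψ (((u : 𝓞 K) : K) * x)).Finite ∧
        ∑ᶠ u : (𝓞 K)ˣ, Ψ (((u : 𝓞 K) : K) * x) = 1)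
    (J : nonZeroDivisors (Ideal (𝓞 K))) {s : ℝ} (hs : 1 < s) :
    Summable (fun y : (J : Ideal (𝓞 K)) => Hfun K Ψ s ((y : 𝓞 K) : K)) ∧
    ∑' y : (J : Ideal (𝓞 K)), Hfun K Ψ s ((y : 𝓞 K) : K)
      = (Ideal.absNorm (J : Ideal (𝓞 K)) : ℝ) ^ (-s) * zetaClass K (ClassGroup.mk0 J)⁻¹ s := by
  classical
  set NJ : ℝ := (Ideal.absNorm (J : Ideal (𝓞 K)) : ℝ) with hNJ
  have hNJ0 : 0 ≤ NJ := Nat.cast_nonneg _
  -- the function on `J`
  set f : ↥(J : Ideal (𝓞 K)) → ℝ := fun y => Hfun K Ψ s ((y : 𝓞 K) : K) with hf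
  -- its pull-back along the parametrisation
  have hcomp : ∀ p : ZetaLattice.classSet K J × (𝓞 K)ˣ,
      f (ZetaLattice.param K J p)
        = Ψ (((p.2 : 𝓞 K) : K) * ((ZetaLattice.gen K J p.1 : 𝓞 K) : K))
          * (NJ ^ (-s) * (Ideal.absNorm
              ((p.1 : nonZeroDivisors (Ideal (𝓞 K))) : Ideal (𝓞 K)) : ℝ) ^ (-s)) := by
    rintro ⟨I, u⟩
    simp only [hf, ZetaLattice.param, Hfun]
    rw [ZetaLattice.absNorm_gen K J I u, Real.mul_rpow hNJ0 (Nat.cast_nonneg _)]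
    congr 2
  -- inner sums
  have hinner : ∀ I : ZetaLattice.classSet K J,
      HasSum (fun u : (𝓞 K)ˣ => f (ZetaLattice.param K J (I, u)))
        (NJ ^ (-s) * (Ideal.absNorm
              ((I : nonZeroDivisors (Ideal (𝓞 K))) : Ideal (𝓞 K)) : ℝ) ^ (-s)) := by
    intro I
    have hg : ((ZetaLattice.gen K J I : 𝓞 K) : K) ≠ 0 := by
      intro h0
      exact ZetaLattice.gen_ne_zero K J I (RingOfIntegers.coe_eq_zero_iff.mp h0)
    obtain ⟨hfin, hsum⟩ := hpart _ hg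
    have h1 : HasSum (fun u : (𝓞 K)ˣ =>
        Ψ (((u : 𝓞 K) : K) * ((ZetaLattice.gen K J I : 𝓞 K) : K))) 1 := by
      have hsm : Summable (fun u : (𝓞 K)ˣ =>
          Ψ (((u : 𝓞 K) : K) * ((ZetaLattice.gen K J I : 𝓞 K) : K))) :=
        summable_of_hasFiniteSupport hfin
      have := hsm.hasSum
      rwa [tsum_eq_finsum hfin, hsum] at this
    have h2 := h1.mul_right (NJ ^ (-s) * (Ideal.absNorm
              ((I : nonZeroDivisors (Ideal (𝓞 K))) : Ideal (𝓞 K)) : ℝ) ^ (-s))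
    rw [one_mul] at h2
    have e : (fun u : (𝓞 K)ˣ => f (ZetaLattice.param K J (I, u)))
        = fun u : (𝓞 K)ˣ => Ψ (((u : 𝓞 K) : K) * ((ZetaLattice.gen K J I : 𝓞 K) : K))
          * (NJ ^ (-s) * (Ideal.absNorm
              ((I : nonZeroDivisors (Ideal (𝓞 K))) : Ideal (𝓞 K)) : ℝ) ^ (-s)) :=
      funext fun u => hcomp (I, u)
    rw [e]
    exact h2
  set F : ZetaLattice.classSet K J × (𝓞 K)ˣ → ℝ := fun p => f (ZetaLattice.param K J p) with hF
  have hFnonneg : 0 ≤ F := fun p => by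
    simp only [hF]
    rw [hcomp]
    exact mul_nonneg (h01 _).1
      (mul_nonneg (Real.rpow_nonneg hNJ0 _) (Real.rpow_nonneg (Nat.cast_nonneg _) _))
  have houter : Summable fun I : ZetaLattice.classSet K J =>
      NJ ^ (-s) * (Ideal.absNorm
        ((I : nonZeroDivisors (Ideal (𝓞 K))) : Ideal (𝓞 K)) : ℝ) ^ (-s) :=
    ((summable_ideal_rpow K hs).subtype _).mul_left _
  have htsumI : ∀ I : ZetaLattice.classSet K J, ∑' u : (𝓞 K)ˣ, F (I, u)
      = NJ ^ (-s) * (Ideal.absNorm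
        ((I : nonZeroDivisors (Ideal (𝓞 K))) : Ideal (𝓞 K)) : ℝ) ^ (-s) :=
    fun I => (hinner I).tsum_eq
  have hFsum : Summable F := by
    rw [summable_prod_of_nonneg hFnonneg]
    refine ⟨fun I => (hinner I).summable, ?_⟩
    rw [funext htsumI]
    exact houter
  have hFtsum : ∑' p, F p = NJ ^ (-s) * zetaClass K (ClassGroup.mk0 J)⁻¹ s := by
    rw [hFsum.tsum_prod, tsum_congr htsumI, tsum_mul_left]
    rfl
  have hFhas : HasSum (f ∘ ZetaLattice.param K J)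
      (NJ ^ (-s) * zetaClass K (ClassGroup.mk0 J)⁻¹ s) := by
    rw [← hFtsum]
    exact hFsum.hasSum
  have hzero : ∀ y ∉ Set.range (ZetaLattice.param K J), f y = 0 := by
    intro y hy
    have hy0 : (y : 𝓞 K) = 0 := by
      by_contra h
      exact hy (ZetaLattice.mem_range_param K J y h)
    have hs0 : -s ≠ 0 := by linarith
    simp only [hf, Hfun, hy0]
    simp [Real.zero_rpow hs0]
  have hfinal := ((ZetaLattice.param_injective K J).hasSum_iff hzero).mp hFhas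
  exact ⟨hfinal.summable, hfinal.tsum_eq⟩

end Fermat.Agent.S14
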