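import Fermat.Agent.S14.UnitPartition
import Fermat.Agent.S14.ShiftBound
import Fermat.Agent.S14.ZetaLattice
import Fermat.Agent.S14.ZetaBasic

set_option autoImplicit false

open scoped NumberField Topology
open NumberField Filter

namespace Fermat.Agent.S14

namespace ClassL

variable (K : Type) [Field K] [NumberField K]

theorem one_le_absNorm (I : nonZeroDivisors (Ideal (𝓞 K))) :
    (1 : ℝ) ≤ (Ideal.absNorm (I : Ideal (𝓞 K)) : ℝ) := by
  have h : Ideal.absNorm (I : Ideal (𝓞 K)) ≠ 0 := by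
    rw [Ne, Ideal.absNorm_eq_zero_iff]
    exact nonZeroDivisors.coe_ne_zero I
  exact_mod_cast Nat.one_le_iff_ne_zero.mpr h

theorem zetaClass_nonneg (C : ClassGroup (𝓞 K)) (s : ℝ) : 0 ≤ zetaClass K C s :=
  tsum_nonneg fun _ => Real.rpow_nonneg (Nat.cast_nonneg _) _

theorem zetaClass_le_zetaR (C : ClassGroup (𝓞 K)) {s : ℝ} (hs : 1 < s) :
    zetaClass K C s ≤ zetaR K s :=
  Summable.tsum_subtype_le
    (fun I : nonZeroDivisors (Ideal (𝓞 K)) => (Ideal.absNorm (I : Ideal (𝓞 K)) : ℝ) ^ (-s))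
    {I | ClassGroup.mk0 I = C} (fun _ => Real.rpow_nonneg (Nat.cast_nonneg _) _)
    (summable_ideal_rpow K hs)

theorem zetaR_antitone {s s' : ℝ} (hs : 1 < s) (h : s ≤ s') : zetaR K s' ≤ zetaR K s := by
  refine (summable_ideal_rpow K (lt_of_lt_of_le hs h)).tsum_le_tsum (fun I => ?_)
    (summable_ideal_rpow K hs)
  exact Real.rpow_le_rpow_of_exponent_le (one_le_absNorm K I) (by linarith)

theorem zetaR_nonneg (s : ℝ) : 0 ≤ zetaR K s :=
  tsum_nonneg fun _ => Real.rpow_nonneg (Nat.cast_nonneg _) _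

/-- `(s - 1) ζ_K(s)` is bounded on `(1, 2]`. -/
theorem exists_zetaR_bound : ∃ M : ℝ, 0 ≤ M ∧ ∀ s ∈ Set.Ioc (1 : ℝ) 2, (s - 1) * zetaR K s ≤ M := by
  obtain ⟨c, C, -, hC, hev⟩ := zetaR_bounds K
  obtain ⟨u, hu, hsub⟩ := mem_nhdsGT_iff_exists_Ioo_subset.mp hev
  have hu1 : (1 : ℝ) < u := hu
  set s₀ := (1 + u) / 2 with hs₀
  have hs₀1 : 1 < s₀ := by rw [hs₀]; linarith
  have hs₀u : s₀ < u := by rw [hs₀]; linarith
  refine ⟨max C (C / (s₀ - 1)), le_max_of_le_left hC.le, fun s hs => ?_⟩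
  obtain ⟨hs1, hs2⟩ := hs
  by_cases hle : s ≤ s₀
  · have h1 : zetaR K s ≤ C / (s - 1) := (hsub ⟨hs1, lt_of_le_of_lt hle hs₀u⟩).2
    rw [le_div_iff₀ (by linarith)] at h1
    exact le_max_of_le_left (by linarith)
  · have hlt : s₀ < s := not_le.mp hle
    have h1 : zetaR K s₀ ≤ C / (s₀ - 1) := (hsub ⟨hs₀1, hs₀u⟩).2
    have h2 : zetaR K s ≤ zetaR K s₀ := zetaR_antitone K hs₀1 hlt.le
    have h3 := zetaR_nonneg K s
    refine le_max_of_le_right ?_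
    calc (s - 1) * zetaR K s ≤ 1 * zetaR K s := by
          apply mul_le_mul_of_nonneg_right _ h3; linarith
      _ = zetaR K s := one_mul _
      _ ≤ C / (s₀ - 1) := h2.trans h1

theorem exists_zetaClass_bound :
    ∃ M : ℝ, 0 ≤ M ∧ ∀ (C : ClassGroup (𝓞 K)), ∀ s ∈ Set.Ioc (1 : ℝ) 2,
      (s - 1) * zetaClass K C s ≤ M := by
  obtain ⟨M, hM, h⟩ := exists_zetaR_bound K
  refine ⟨M, hM, fun C s hs => ?_⟩
  refine le_trans ?_ (h s hs)
  exact mul_le_mul_of_nonneg_left (zetaClass_le_zetaR K C hs.1) (by linarith [hs.1])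

/-- Coset decomposition of `𝓞 K` modulo an ideal. -/
noncomputable def cosetEquiv (J : Ideal (𝓞 K)) : (𝓞 K ⧸ J) × J ≃ 𝓞 K where
  toFun p := Quotient.out p.1 + (p.2 : 𝓞 K)
  invFun x := (Ideal.Quotient.mk J x, ⟨x - Quotient.out (Ideal.Quotient.mk J x), by
    rw [← Ideal.Quotient.eq, Ideal.Quotient.mk_out]⟩)
  left_inv := by
    rintro ⟨q, y⟩
    have h1 : Ideal.Quotient.mk J (Quotient.out q + (y : 𝓞 K)) = q := by
      rw [map_add, Ideal.Quotient.mk_out, Ideal.Quotient.eq_zero_iff_mem.mpr y.2, add_zero]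
    refine Prod.ext h1 (Subtype.ext ?_)
    simp only [h1]
    ring
  right_inv := fun x => by simp

omit [NumberField K] in
theorem cosetEquiv_apply (J : Ideal (𝓞 K)) (p : (𝓞 K ⧸ J) × J) :
    cosetEquiv K J p = Quotient.out p.1 + (p.2 : 𝓞 K) := rfl

omit [NumberField K] in
/-- Comparing the sum over `𝓞 K` with `N(J)` times the sum over `J`, given shift bounds. -/
theorem coset_sum (F : 𝓞 K → ℝ) (hF : Summable F) (J : Ideal (𝓞 K)) [Fintype (𝓞 K ⧸ J)]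
    (B : 𝓞 K → ℝ)
    (hB : ∀ a : 𝓞 K, Summable (fun x : 𝓞 K => |F (x + a) - F x|) ∧
      ∑' x : 𝓞 K, |F (x + a) - F x| ≤ B a) :
    |∑' x, F x - (Fintype.card (𝓞 K ⧸ J) : ℝ) * ∑' y : J, F (y : 𝓞 K)|
      ≤ ∑ q : 𝓞 K ⧸ J, B (Quotient.out q) := by
  have hFe : Summable (F ∘ cosetEquiv K J) := (Equiv.summable_iff (cosetEquiv K J)).mpr hF
  have hFJ : Summable fun y : J => F (y : 𝓞 K) := hF.subtype _
  have h1 : ∑' x, F x = ∑ q : 𝓞 K ⧸ J, ∑' y : J, F (Quotient.out q + (y : 𝓞 K)) := by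
    rw [← (cosetEquiv K J).tsum_eq F]
    have h0 := Summable.tsum_prod hFe
    simp only [Function.comp_apply] at h0
    rw [h0, tsum_fintype]
    rfl
  have h2 : (Fintype.card (𝓞 K ⧸ J) : ℝ) * ∑' y : J, F (y : 𝓞 K)
      = ∑ q : 𝓞 K ⧸ J, ∑' y : J, F (y : 𝓞 K) := by
    rw [Finset.sum_const, Finset.card_univ, nsmul_eq_mul]
  rw [h1, h2, ← Finset.sum_sub_distrib]
  refine (Finset.abs_sum_le_sum_abs _ _).trans (Finset.sum_le_sum fun q _ => ?_)
  have hq : Summable fun y : J => F (Quotient.out q + (y : 𝓞 K)) := hFe.prod_factor q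
  rw [← hq.tsum_sub hFJ]
  obtain ⟨hBs, hBle⟩ := hB (Quotient.out q)
  have hsub : Summable fun y : J => |F ((y : 𝓞 K) + Quotient.out q) - F (y : 𝓞 K)| :=
    hBs.subtype _
  have e : (fun y : J => F (Quotient.out q + (y : 𝓞 K)) - F (y : 𝓞 K))
      = fun y : J => F ((y : 𝓞 K) + Quotient.out q) - F (y : 𝓞 K) := by
    funext y; rw [add_comm]
  rw [e]
  have h3 : |∑' y : J, (F ((y : 𝓞 K) + Quotient.out q) - F (y : 𝓞 K))|
      ≤ ∑' y : J, |F ((y : 𝓞 K) + Quotient.out q) - F (y : 𝓞 K)| := by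
    have := norm_tsum_le_tsum_norm (f := fun y : J => F ((y : 𝓞 K) + Quotient.out q) - F (y : 𝓞 K))
      (by simpa only [Real.norm_eq_abs] using hsub)
    simpa only [Real.norm_eq_abs] using this
  refine h3.trans (le_trans ?_ hBle)
  exact Summable.tsum_subtype_le (fun x : 𝓞 K => |F (x + Quotient.out q) - F x|)
    (J : Set (𝓞 K)) (fun _ => abs_nonneg _) hBs

theorem rpow_bounds {N s : ℝ} (hN : 1 ≤ N) (hs : 1 ≤ s) :
    N * N ^ (-s) ≤ 1 ∧ 1 - N * N ^ (-s) ≤ (s - 1) * Real.log N := by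
  have hN0 : 0 < N := by linarith
  have e : N * N ^ (-s) = Real.exp ((1 - s) * Real.log N) := by
    rw [Real.rpow_def_of_pos hN0]
    nth_rewrite 1 [← Real.exp_log hN0]
    rw [← Real.exp_add]
    congr 1; ring
  have hlog : 0 ≤ Real.log N := Real.log_nonneg hN
  rw [e]
  constructor
  · rw [Real.exp_le_one_iff]
    exact mul_nonpos_of_nonpos_of_nonneg (by linarith) hlog
  · have := Real.add_one_le_exp ((1 - s) * Real.log N)
    linarith

omit [NumberField K] in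
theorem summable_top_iff (F : 𝓞 K → ℝ) (J : Ideal (𝓞 K)) (hJ : ∀ x : 𝓞 K, x ∈ J) :
    (Summable fun y : J => F (y : 𝓞 K)) ↔ Summable F :=
  (Equiv.subtypeUnivEquiv hJ).summable_iff (f := F)

omit [NumberField K] in
theorem tsum_top_eq (F : 𝓞 K → ℝ) (J : Ideal (𝓞 K)) (hJ : ∀ x : 𝓞 K, x ∈ J) :
    ∑' y : J, F (y : 𝓞 K) = ∑' x, F x :=
  (Equiv.subtypeUnivEquiv hJ).tsum_eq F

end ClassL

/-- AN3 : partial zeta functions of two classes differ by `O(1)`. -/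
theorem zetaClass_sub_bounded (K : Type) [Field K] [NumberField K] (C : ClassGroup (𝓞 K)) :
    ∃ B : ℝ, ∀ s ∈ Set.Ioc (1 : ℝ) 2, |zetaClass K C s - zetaClass K 1 s| ≤ B := by
  classical
  obtain ⟨Ψ, c, L, hc, hL, h01, hpart, hcone, hlip⟩ := exists_unit_partition K
  obtain ⟨J, hJ⟩ := ClassGroup.mk0_surjective C⁻¹
  have hJC : (ClassGroup.mk0 J)⁻¹ = C := by rw [hJ, inv_inv]
  choose B hB using fun a : 𝓞 K => exists_shift_bound K Ψ c L hc hL h01 hcone hlip a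
  obtain ⟨M, hM, hMb⟩ := ClassL.exists_zetaClass_bound K
  have hJne : (J : Ideal (𝓞 K)) ≠ ⊥ := nonZeroDivisors.coe_ne_zero J
  have : Finite (𝓞 K ⧸ (J : Ideal (𝓞 K))) := Ideal.finiteQuotientOfFreeOfNeBot _ hJne
  have : Fintype (𝓞 K ⧸ (J : Ideal (𝓞 K))) := Fintype.ofFinite _
  set N : ℝ := (Ideal.absNorm (J : Ideal (𝓞 K)) : ℝ) with hN
  have hN1 : 1 ≤ N := ClassL.one_le_absNorm K J
  have hcard : (Fintype.card (𝓞 K ⧸ (J : Ideal (𝓞 K))) : ℝ) = N := by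
    rw [hN, Ideal.absNorm_apply, Submodule.cardQuot_apply, Nat.card_eq_fintype_card]
  refine ⟨M * Real.log N + ∑ q : 𝓞 K ⧸ (J : Ideal (𝓞 K)), B (Quotient.out q), fun s hs => ?_⟩
  obtain ⟨hs1, hs2⟩ := hs
  have hsI : s ∈ Set.Icc (1 : ℝ) 2 := ⟨hs1.le, hs2⟩
  obtain ⟨hsumJ, htsumJ⟩ := zetaClass_eq_lattice_sum K Ψ h01 hpart J hs1
  obtain ⟨hsum1, htsum1⟩ := zetaClass_eq_lattice_sum K Ψ h01 hpart 1 hs1
  rw [hJC] at htsumJ
  set F : 𝓞 K → ℝ := fun x => Hfun K Ψ s (x : K) with hFdef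
  have htop : ∀ x : 𝓞 K, x ∈ ((1 : nonZeroDivisors (Ideal (𝓞 K))) : Ideal (𝓞 K)) := by
    intro x
    rw [Submonoid.coe_one, Ideal.one_eq_top]
    exact Submodule.mem_top
  have hF : Summable F := (ClassL.summable_top_iff K F _ htop).mp hsum1
  have hF1 : ∑' x, F x = zetaClass K 1 s := by
    rw [← ClassL.tsum_top_eq K F _ htop, htsum1]
    simp
  have key := ClassL.coset_sum K F hF (J : Ideal (𝓞 K)) B (fun a => hB a s hsI)
  rw [hF1, hcard, htsumJ, ← mul_assoc] at key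
  obtain ⟨hρ1, hρ2⟩ := ClassL.rpow_bounds hN1 hs1.le
  have hZC := ClassL.zetaClass_nonneg K C s
  have hMC := hMb C s ⟨hs1, hs2⟩
  have hlog : 0 ≤ Real.log N := Real.log_nonneg hN1
  have h1 : |zetaClass K C s - N * N ^ (-s) * zetaClass K C s| ≤ M * Real.log N := by
    have e : zetaClass K C s - N * N ^ (-s) * zetaClass K C s
        = (1 - N * N ^ (-s)) * zetaClass K C s := by ring
    rw [e, abs_of_nonneg (mul_nonneg (by linarith) hZC)]
    calc (1 - N * N ^ (-s)) * zetaClass K C s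
        ≤ ((s - 1) * Real.log N) * zetaClass K C s := mul_le_mul_of_nonneg_right hρ2 hZC
      _ = ((s - 1) * zetaClass K C s) * Real.log N := by ring
      _ ≤ M * Real.log N := mul_le_mul_of_nonneg_right hMC hlog
  have e2 : zetaClass K C s - zetaClass K 1 s
      = (zetaClass K C s - N * N ^ (-s) * zetaClass K C s)
        - (zetaClass K 1 s - N * N ^ (-s) * zetaClass K C s) := by ring
  rw [e2]
  exact (abs_sub _ _).trans (add_le_add h1 key)

/-- AN : `L(s, χ)` is bounded on `(1, 2]` for a nontrivial class-group character. -/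
theorem classL_bounded (K : Type) [Field K] [NumberField K] (χ : ClassGroup (𝓞 K) →* ℂˣ)
    (hχ : χ ≠ 1) :
    ∃ B : ℝ, ∀ s ∈ Set.Ioc (1 : ℝ) 2,
      ‖∑' I : nonZeroDivisors (Ideal (𝓞 K)),
        ((χ (ClassGroup.mk0 I) : ℂˣ) : ℂ) * (((Ideal.absNorm (I : Ideal (𝓞 K)) : ℝ) ^ (-s) : ℝ) : ℂ)‖ ≤ B := by
  classical
  choose B hB using fun C : ClassGroup (𝓞 K) => zetaClass_sub_bounded K C
  refine ⟨∑ C : ClassGroup (𝓞 K), ‖((χ C : ℂˣ) : ℂ)‖ * B C, fun s hs => ?_⟩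
  have hs1 := hs.1
  set f : nonZeroDivisors (Ideal (𝓞 K)) → ℂ := fun I =>
    ((χ (ClassGroup.mk0 I) : ℂˣ) : ℂ) * (((Ideal.absNorm (I : Ideal (𝓞 K)) : ℝ) ^ (-s) : ℝ) : ℂ)
    with hf
  set Mχ : ℝ := ∑ C : ClassGroup (𝓞 K), ‖((χ C : ℂˣ) : ℂ)‖ with hMχ
  have hsum : Summable f := by
    refine Summable.of_norm_bounded
      (g := fun I : nonZeroDivisors (Ideal (𝓞 K)) =>
        Mχ * (Ideal.absNorm (I : Ideal (𝓞 K)) : ℝ) ^ (-s))
      ((summable_ideal_rpow K hs1).mul_left Mχ) (fun I => ?_)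
    have h0 : (0 : ℝ) ≤ (Ideal.absNorm (I : Ideal (𝓞 K)) : ℝ) ^ (-s) :=
      Real.rpow_nonneg (Nat.cast_nonneg _) _
    rw [hf]
    simp only [norm_mul, Complex.norm_real, Real.norm_eq_abs, abs_of_nonneg h0]
    refine mul_le_mul_of_nonneg_right ?_ h0
    exact Finset.single_le_sum (f := fun C : ClassGroup (𝓞 K) => ‖((χ C : ℂˣ) : ℂ)‖)
      (fun _ _ => norm_nonneg _) (Finset.mem_univ _)
  have h1 : ∑' I, f I
      = ∑ C : ClassGroup (𝓞 K), ((χ C : ℂˣ) : ℂ) * ((zetaClass K C s : ℝ) : ℂ) := by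
    rw [← (Equiv.sigmaFiberEquiv
      (fun I : nonZeroDivisors (Ideal (𝓞 K)) => ClassGroup.mk0 I)).tsum_eq f]
    have h0 := Summable.tsum_sigma ((Equiv.summable_iff (Equiv.sigmaFiberEquiv
      (fun I : nonZeroDivisors (Ideal (𝓞 K)) => ClassGroup.mk0 I))).mpr hsum)
    simp only [Function.comp_apply] at h0
    rw [h0, tsum_fintype]
    refine Finset.sum_congr rfl fun C _ => ?_
    have hc : ∀ c : {I : nonZeroDivisors (Ideal (𝓞 K)) // ClassGroup.mk0 I = C},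
        f (Equiv.sigmaFiberEquiv (fun I : nonZeroDivisors (Ideal (𝓞 K)) => ClassGroup.mk0 I) ⟨C, c⟩)
          = ((χ C : ℂˣ) : ℂ) *
            (((Ideal.absNorm ((c : nonZeroDivisors (Ideal (𝓞 K))) : Ideal (𝓞 K)) : ℝ) ^ (-s) : ℝ) : ℂ) := by
      intro c
      simp only [hf, Equiv.sigmaFiberEquiv_apply, c.2]
    rw [tsum_congr hc, tsum_mul_left, zetaClass, Complex.ofReal_tsum]
  have h2 : ∑ C : ClassGroup (𝓞 K), ((χ C : ℂˣ) : ℂ) = 0 := by
    have h := sum_hom_units_eq_zero ((Units.coeHom ℂ).comp χ) (by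
      intro h
      apply hχ
      ext C
      have h' := DFunLike.congr_fun h C
      simpa using h')
    simpa using h
  rw [h1]
  have h3 : ∑ C : ClassGroup (𝓞 K), ((χ C : ℂˣ) : ℂ) * ((zetaClass K C s : ℝ) : ℂ)
      = ∑ C : ClassGroup (𝓞 K),
        ((χ C : ℂˣ) : ℂ) * ((zetaClass K C s - zetaClass K 1 s : ℝ) : ℂ) := by
    have h4 : ∑ C : ClassGroup (𝓞 K), ((χ C : ℂˣ) : ℂ) * ((zetaClass K 1 s : ℝ) : ℂ) = 0 := by
      rw [← Finset.sum_mul, h2, zero_mul]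
    rw [← sub_zero (∑ C : ClassGroup (𝓞 K), ((χ C : ℂˣ) : ℂ) * ((zetaClass K C s : ℝ) : ℂ)),
      ← h4, ← Finset.sum_sub_distrib]
    refine Finset.sum_congr rfl fun C _ => ?_
    push_cast; ring
  rw [h3]
  refine (norm_sum_le _ _).trans (Finset.sum_le_sum fun C _ => ?_)
  rw [norm_mul, Complex.norm_real, Real.norm_eq_abs]
  exact mul_le_mul_of_nonneg_left (hB C s hs) (norm_nonneg _)

end Fermat.Agent.S14
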