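import Fermat.Agent.S14.MassUniv
import Fermat.Agent.S14.ZetaBasic

set_option autoImplicit false

open scoped NumberField Pointwise Topology
open IsDedekindDomain Filter

namespace Fermat.Agent.S14

namespace Density

lemma mass_eq_tsum_indicator (K : Type) [Field K] [NumberField K]
    (S : Set (HeightOneSpectrum (𝓞 K))) (s : ℝ) :
    mass K S s = ∑' v : HeightOneSpectrum (𝓞 K),
      S.indicator (fun v => (Ideal.absNorm v.asIdeal : ℝ) ^ (-s)) v := by
  rw [mass, NumberField.Set.primeIdealZetaSum_def]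
  exact tsum_subtype S (fun v : HeightOneSpectrum (𝓞 K) => (Ideal.absNorm v.asIdeal : ℝ) ^ (-s))

lemma tendsto_log_inv_sub_one :
    Tendsto (fun s : ℝ => Real.log (1 / (s - 1))) (𝓝[>] (1 : ℝ)) atTop := by
  have h1 : Tendsto (fun s : ℝ => s - 1) (𝓝[>] (1 : ℝ)) (𝓝[>] (0 : ℝ)) := by
    rw [tendsto_nhdsWithin_iff]
    constructor
    · have : Tendsto (fun s : ℝ => s - 1) (𝓝 (1 : ℝ)) (𝓝 (1 - 1)) :=
        (continuous_id.sub continuous_const).tendsto 1
      rw [sub_self] at this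
      exact this.mono_left nhdsWithin_le_nhds
    · filter_upwards [self_mem_nhdsWithin] with s hs
      simpa using hs
  have h2 : Tendsto (fun s : ℝ => 1 / (s - 1)) (𝓝[>] (1 : ℝ)) atTop := by
    simp only [one_div]
    exact tendsto_inv_nhdsGT_zero.comp h1
  exact Real.tendsto_log_atTop.comp h2

end Density

open Density in
/-- DENS : the density contradiction. -/
theorem density_contradiction {p : ℕ} (hp : 3 ≤ p) (K : Type) [Field K] [NumberField K]
    (S₁ S₂ S₃ : Set (HeightOneSpectrum (𝓞 K)))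
    (h₁ : ∃ C : ℝ, ∀ᶠ s in 𝓝[>] (1 : ℝ), mass K S₁ s ≤ (1 / (p : ℝ)) * Real.log (1 / (s - 1)) + C)
    (h₂ : ∃ C : ℝ, ∀ᶠ s in 𝓝[>] (1 : ℝ), mass K S₂ s ≤ (1 / (p : ℝ)) * Real.log (1 / (s - 1)) + C)
    (h₃ : ∃ C : ℝ, ∀ s : ℝ, 1 < s → mass K S₃ s ≤ C)
    (F : Set (HeightOneSpectrum (𝓞 K))) (hF : F.Finite)
    (hcover : ∀ v : HeightOneSpectrum (𝓞 K), v ∈ S₁ ∨ v ∈ S₂ ∨ v ∈ S₃ ∨ v ∈ F) : False := by
  classical
  obtain ⟨C₁, h₁⟩ := h₁
  obtain ⟨C₂, h₂⟩ := h₂
  obtain ⟨C₃, h₃⟩ := h₃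
  obtain ⟨C₀, h₀⟩ := mass_univ_bounds K
  have hgt : ∀ᶠ s in 𝓝[>] (1 : ℝ), 1 < s := by
    filter_upwards [self_mem_nhdsWithin] with s hs using hs
  have hbig : ∀ᶠ s in 𝓝[>] (1 : ℝ),
      3 * (C₀ + C₁ + C₂ + C₃ + F.ncard) + 1 ≤ Real.log (1 / (s - 1)) :=
    tendsto_log_inv_sub_one.eventually_ge_atTop _
  obtain ⟨s, hs1, hs2, hs0, hsgt, hsbig⟩ := (h₁.and (h₂.and (h₀.and (hgt.and hbig)))).exists
  -- subadditivity of the mass
  set f : HeightOneSpectrum (𝓞 K) → ℝ := fun v => (Ideal.absNorm v.asIdeal : ℝ) ^ (-s) with hf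
  have hfs : Summable f := summable_prime_rpow K hsgt
  have hf0 : ∀ v, 0 ≤ f v := fun v => by positivity
  have hle : mass K Set.univ s ≤ mass K S₁ s + mass K S₂ s + mass K S₃ s + mass K F s := by
    rw [mass_eq_tsum_indicator, mass_eq_tsum_indicator, mass_eq_tsum_indicator,
      mass_eq_tsum_indicator, mass_eq_tsum_indicator]
    rw [← (hfs.indicator S₁).tsum_add (hfs.indicator S₂),
      ← ((hfs.indicator S₁).add (hfs.indicator S₂)).tsum_add (hfs.indicator S₃),
      ← (((hfs.indicator S₁).add (hfs.indicator S₂)).add (hfs.indicator S₃)).tsum_add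
        (hfs.indicator F)]
    refine (hfs.indicator Set.univ).tsum_le_tsum (fun v => ?_)
      ((((hfs.indicator S₁).add (hfs.indicator S₂)).add (hfs.indicator S₃)).add (hfs.indicator F))
    have i1 := Set.indicator_nonneg (s := S₁) (f := f) (fun v _ => hf0 v) v
    have i2 := Set.indicator_nonneg (s := S₂) (f := f) (fun v _ => hf0 v) v
    have i3 := Set.indicator_nonneg (s := S₃) (f := f) (fun v _ => hf0 v) v
    have i4 := Set.indicator_nonneg (s := F) (f := f) (fun v _ => hf0 v) v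
    rw [Set.indicator_of_mem (Set.mem_univ v)]
    rcases hcover v with h | h | h | h
    · rw [Set.indicator_of_mem h] at i1 ⊢; linarith
    · rw [Set.indicator_of_mem h] at i2 ⊢; linarith
    · rw [Set.indicator_of_mem h] at i3 ⊢; linarith
    · rw [Set.indicator_of_mem h] at i4 ⊢; linarith
  have hFle : mass K F s ≤ F.ncard :=
    NumberField.Set.primeIdealZetaSum_le_card_of_finite hF (by linarith)
  have h3 := h₃ s hsgt
  have hp3 : (3 : ℝ) ≤ p := by exact_mod_cast hp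
  have hlogpos : 0 ≤ Real.log (1 / (s - 1)) := by
    have hF0 : (0 : ℝ) ≤ F.ncard := Nat.cast_nonneg _
    by_contra hneg
    rw [not_le] at hneg
    -- then everything is bounded anyway
    have hm0 : 0 ≤ mass K Set.univ s := NumberField.Set.primeIdealZetaSum_nonneg _ s
    have hm1 : 0 ≤ mass K S₁ s := NumberField.Set.primeIdealZetaSum_nonneg _ s
    have hm2 : 0 ≤ mass K S₂ s := NumberField.Set.primeIdealZetaSum_nonneg _ s
    have hm3 : 0 ≤ mass K S₃ s := NumberField.Set.primeIdealZetaSum_nonneg _ s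
    have hpinv : 0 ≤ 1 / (p : ℝ) := by positivity
    have hpinv1 : 1 / (p : ℝ) ≤ 1 := by
      rw [div_le_one (by linarith)]; linarith
    nlinarith [mul_nonneg hpinv hm0]
  have hpinv : 1 / (p : ℝ) ≤ 1 / 3 := by
    apply one_div_le_one_div_of_le (by norm_num) hp3
  have hmul : (1 / (p : ℝ)) * Real.log (1 / (s - 1)) ≤ (1 / 3) * Real.log (1 / (s - 1)) :=
    mul_le_mul_of_nonneg_right hpinv hlogpos
  linarith [hs0.1]

end Fermat.Agent.S14
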