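import Fermat.Agent.S14.Phi2

set_option autoImplicit false

open scoped NumberField

namespace Fermat.Agent.S14

namespace Eta

section

variable {p : ℕ} [Fact p.Prime] (K : Type) [Field K] [NumberField K]
  [IsCyclotomicExtension {p} ℚ K]

omit [NumberField K] [IsCyclotomicExtension {p} ℚ K] in
theorem isUnit_one_add (hp : 3 ≤ p) (ζ : 𝓞 K) (hζ : IsPrimitiveRoot ζ p) : IsUnit (1 + ζ) := by
  have hcop : Nat.Coprime 2 p :=
    (Nat.coprime_primes Nat.prime_two (Fact.out : p.Prime)).mpr (by omega)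
  obtain ⟨u, hu⟩ := hζ.associated_sub_one_pow_sub_one_of_coprime hcop
  have hne : ζ - 1 ≠ 0 := sub_ne_zero.mpr (hζ.ne_one (by omega))
  have h : (ζ - 1) * (u : 𝓞 K) = (ζ - 1) * (1 + ζ) := by rw [hu]; ring
  have h' := mul_left_cancel₀ hne h
  rw [← h']
  exact u.isUnit

theorem unit_notMem (ζ : 𝓞 K) (hζ : IsPrimitiveRoot ζ p) (u : 𝓞 K) (hu : IsUnit u) :
    u ∉ Ideal.span {ζ - 1} := fun h =>
  (Phi2.isMaximal_span K ζ hζ).ne_top (Ideal.eq_top_of_isUnit_mem _ h hu)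

/-- A function which is additive on products of `λ`-units, restricted to the unit group. -/
noncomputable def unitHom (ζ : 𝓞 K) (hζ : IsPrimitiveRoot ζ p) (φ : 𝓞 K → ZMod p)
    (hmul : ∀ x y : 𝓞 K, x ∉ Ideal.span {ζ - 1} → y ∉ Ideal.span {ζ - 1} →
      φ (x * y) = φ x + φ y) : (𝓞 K)ˣ →* Multiplicative (ZMod p) where
  toFun u := Multiplicative.ofAdd (φ (u : 𝓞 K))
  map_one' := by
    have h1 := hmul 1 1 (unit_notMem K ζ hζ 1 isUnit_one) (unit_notMem K ζ hζ 1 isUnit_one)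
    rw [mul_one] at h1
    have h2 : φ 1 = 0 := by
      have := sub_eq_zero.mpr h1
      simpa using this
    simp [h2]
  map_mul' u v := by
    have h1 := hmul u v (unit_notMem K ζ hζ u u.isUnit) (unit_notMem K ζ hζ v v.isUnit)
    rw [Units.val_mul, h1]
    rfl

theorem unitHom_apply (ζ : 𝓞 K) (hζ : IsPrimitiveRoot ζ p) (φ : 𝓞 K → ZMod p)
    (hmul : ∀ x y : 𝓞 K, x ∉ Ideal.span {ζ - 1} → y ∉ Ideal.span {ζ - 1} →
      φ (x * y) = φ x + φ y) (u : (𝓞 K)ˣ) :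
    Multiplicative.toAdd (unitHom K ζ hζ φ hmul u) = φ (u : 𝓞 K) := rfl

theorem chi_cast (σ : K ≃ₐ[ℚ] K) :
    ((chi p K σ : ℕ) : ZMod p) =
      ((IsCyclotomicExtension.Rat.galEquivZMod p K σ : (ZMod p)ˣ) : ZMod p) := by
  unfold chi
  rw [ZMod.natCast_zmod_val]

theorem chi_mul_cast (σ τ : K ≃ₐ[ℚ] K) :
    ((chi p K (σ * τ) : ℕ) : ZMod p) = (chi p K σ : ZMod p) * (chi p K τ : ZMod p) := by
  rw [chi_cast, chi_cast, chi_cast, map_mul, Units.val_mul]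

theorem chi_inv_cast (σ : K ≃ₐ[ℚ] K) :
    (chi p K σ : ZMod p) * (chi p K σ⁻¹ : ZMod p) = 1 := by
  rw [← chi_mul_cast, mul_inv_cancel, chi_cast, map_one, Units.val_one]

theorem exists_exponent (σ τ : K ≃ₐ[ℚ] K) :
    ∃ m : ℤ, ((chi p K (τ * σ) ^ 2 : ℕ) : ℤ) =
      ((chi p K τ ^ 2 : ℕ) : ℤ) * ((chi p K σ ^ 2 : ℕ) : ℤ) + (p : ℤ) * m := by
  have h : (((chi p K (τ * σ) ^ 2 : ℕ) : ℤ) : ZMod p) =
      ((((chi p K τ ^ 2 : ℕ) : ℤ) * ((chi p K σ ^ 2 : ℕ) : ℤ) : ℤ) : ZMod p) := by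
    push_cast
    rw [chi_mul_cast]
    ring
  rw [ZMod.intCast_eq_intCast_iff_dvd_sub] at h
  obtain ⟨m, hm⟩ := h
  exact ⟨-m, by linarith⟩

theorem card_gal : Fintype.card (K ≃ₐ[ℚ] K) = p - 1 := by
  rw [← Nat.card_eq_fintype_card,
    Nat.card_congr (IsCyclotomicExtension.Rat.galEquivZMod p K).toEquiv,
    Nat.card_eq_fintype_card, ZMod.card_units]

/-- The conjugates of `1 + ζ` as units. -/
noncomputable def conjUnit (hp : 3 ≤ p) (ζ : 𝓞 K) (hζ : IsPrimitiveRoot ζ p) (τ : K ≃ₐ[ℚ] K) :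
    (𝓞 K)ˣ :=
  Units.map (MulDistribMulAction.toMonoidHom (𝓞 K) τ⁻¹) (isUnit_one_add K hp ζ hζ).unit

omit [IsCyclotomicExtension {p} ℚ K] in
theorem conjUnit_val (hp : 3 ≤ p) (ζ : 𝓞 K) (hζ : IsPrimitiveRoot ζ p) (τ : K ≃ₐ[ℚ] K) :
    (conjUnit K hp ζ hζ τ : 𝓞 K) = τ⁻¹ • (1 + ζ) := by
  simp [conjUnit]

/-- `η` as a unit. -/
noncomputable def etaUnit (hp : 3 ≤ p) (ζ : 𝓞 K) (hζ : IsPrimitiveRoot ζ p) : (𝓞 K)ˣ :=
  ∏ τ : K ≃ₐ[ℚ] K, conjUnit K hp ζ hζ τ ^ (chi p K τ ^ 2)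

theorem etaUnit_val (hp : 3 ≤ p) (ζ : 𝓞 K) (hζ : IsPrimitiveRoot ζ p) :
    (etaUnit K hp ζ hζ : 𝓞 K) = eta p K ζ := by
  unfold etaUnit eta
  rw [Units.coe_prod]
  refine Finset.prod_congr rfl fun τ _ => ?_
  rw [Units.val_pow_eq_pow_val, conjUnit_val]

theorem smul_eta (hp : 3 ≤ p) (ζ : 𝓞 K) (hζ : IsPrimitiveRoot ζ p) (σ : K ≃ₐ[ℚ] K) :
    σ • eta p K ζ = ∏ τ : K ≃ₐ[ℚ] K, (conjUnit K hp ζ hζ τ : 𝓞 K) ^ (chi p K (τ * σ) ^ 2) := by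
  unfold eta
  rw [Finset.smul_prod']
  rw [← Fintype.prod_equiv (Equiv.mulRight σ)
    (fun τ => (conjUnit K hp ζ hζ τ : 𝓞 K) ^ (chi p K (τ * σ) ^ 2))
    (fun τ => σ • (τ⁻¹ • (1 + ζ)) ^ (chi p K τ ^ 2))]
  intro τ
  rw [Equiv.coe_mulRight, smul_pow', smul_smul, conjUnit_val]
  congr 2
  group

theorem smul_eta_eq (hp : 3 ≤ p) (ζ : 𝓞 K) (hζ : IsPrimitiveRoot ζ p) (σ : K ≃ₐ[ℚ] K) :
    ∃ v : (𝓞 K)ˣ, σ • eta p K ζ = eta p K ζ ^ (chi p K σ ^ 2) * (v : 𝓞 K) ^ p := by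
  choose m hm using fun τ => exists_exponent (p := p) K σ τ
  refine ⟨∏ τ : K ≃ₐ[ℚ] K, conjUnit K hp ζ hζ τ ^ (m τ), ?_⟩
  have key : (∏ τ : K ≃ₐ[ℚ] K, conjUnit K hp ζ hζ τ ^ (chi p K (τ * σ) ^ 2)) =
      etaUnit K hp ζ hζ ^ (chi p K σ ^ 2) *
        (∏ τ : K ≃ₐ[ℚ] K, conjUnit K hp ζ hζ τ ^ (m τ)) ^ p := by
    unfold etaUnit
    rw [← Finset.prod_pow, ← Finset.prod_pow, ← Finset.prod_mul_distrib]
    refine Finset.prod_congr rfl fun τ _ => ?_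
    have e1 : conjUnit K hp ζ hζ τ ^ (chi p K (τ * σ) ^ 2) = conjUnit K hp ζ hζ τ ^
        (((chi p K τ ^ 2 : ℕ) : ℤ) * ((chi p K σ ^ 2 : ℕ) : ℤ) + (p : ℤ) * m τ) := by
      rw [← hm τ, zpow_natCast]
    rw [e1, zpow_add, zpow_mul, zpow_natCast, zpow_natCast, mul_comm (p : ℤ) (m τ), zpow_mul,
      zpow_natCast]
  have key' := congrArg (fun u : (𝓞 K)ˣ => (u : 𝓞 K)) key
  simp only [Units.coe_prod, Units.val_mul, Units.val_pow_eq_pow_val] at key'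
  rw [smul_eta K hp ζ hζ σ, key', ← etaUnit_val K hp ζ hζ]
  simp only [Units.coe_prod]

theorem four_ne_zero (hp : 5 ≤ p) : (4 : ZMod p) ≠ 0 := by
  intro h
  have h' : ((4 : ℕ) : ZMod p) = 0 := by exact_mod_cast h
  rw [ZMod.natCast_eq_zero_iff] at h'
  have := Nat.le_of_dvd (by norm_num) h'
  omega

theorem phi_eta (hp : 5 ≤ p) (ζ : 𝓞 K) (hζ : IsPrimitiveRoot ζ p) (φ : 𝓞 K → ZMod p)
    (hmul : ∀ x y : 𝓞 K, x ∉ Ideal.span {ζ - 1} → y ∉ Ideal.span {ζ - 1} →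
      φ (x * y) = φ x + φ y)
    (hgal : ∀ (σ : K ≃ₐ[ℚ] K) (x : 𝓞 K), x ∉ Ideal.span {ζ - 1} →
      φ (σ • x) = (chi p K σ : ZMod p) ^ 2 * φ x)
    (h4 : φ (1 + ζ) = (4 : ZMod p)⁻¹) : φ (eta p K ζ) = -(4 : ZMod p)⁻¹ := by
  have hp3 : 3 ≤ p := by omega
  have h1 : Multiplicative.toAdd (unitHom K ζ hζ φ hmul (etaUnit K hp3 ζ hζ)) =
      φ (eta p K ζ) := by
    rw [unitHom_apply, etaUnit_val]
  rw [← h1]
  unfold etaUnit
  rw [map_prod, toAdd_prod]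
  have h2 : ∀ τ : K ≃ₐ[ℚ] K,
      Multiplicative.toAdd (unitHom K ζ hζ φ hmul (conjUnit K hp3 ζ hζ τ ^ (chi p K τ ^ 2))) =
        (4 : ZMod p)⁻¹ := by
    intro τ
    rw [map_pow, toAdd_pow, unitHom_apply, conjUnit_val,
      hgal τ⁻¹ (1 + ζ) (unit_notMem K ζ hζ _ (isUnit_one_add K hp3 ζ hζ)), h4, nsmul_eq_mul]
    push_cast
    rw [← mul_assoc, ← mul_pow, chi_inv_cast, one_pow, one_mul]
  rw [Finset.sum_congr rfl fun τ _ => h2 τ, Finset.sum_const, Finset.card_univ, card_gal (p := p) K,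
    nsmul_eq_mul, Nat.cast_sub (Fact.out : p.Prime).one_le, ZMod.natCast_self]
  simp

end

end Eta

/-- ETA : the cyclotomic unit `η` is a unit of type `ω²` and is not a `p`-th power. -/
theorem eta_spec {p : ℕ} [Fact p.Prime] (hp : 5 ≤ p) (K : Type) [Field K] [NumberField K]
    [IsCyclotomicExtension {p} ℚ K] (ζ : 𝓞 K) (hζ : IsPrimitiveRoot ζ p) :
    IsUnit (eta p K ζ) ∧
    (∀ σ : K ≃ₐ[ℚ] K, ∃ v : 𝓞 K, IsUnit v ∧ σ • eta p K ζ = eta p K ζ ^ (chi p K σ ^ 2) * v ^ p) ∧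
    (∀ φ : 𝓞 K → ZMod p,
      (∀ x y : 𝓞 K, x ∉ Ideal.span {ζ - 1} → y ∉ Ideal.span {ζ - 1} → φ (x * y) = φ x + φ y) →
      (∀ (σ : K ≃ₐ[ℚ] K) (x : 𝓞 K), x ∉ Ideal.span {ζ - 1} →
        φ (σ • x) = (chi p K σ : ZMod p) ^ 2 * φ x) →
      φ (1 + ζ) = (4 : ZMod p)⁻¹ → φ (eta p K ζ) ≠ 0) ∧
    ¬ ∃ x : K, (eta p K ζ : K) = x ^ p := by
  have hp3 : 3 ≤ p := by omega
  have h4 : (4 : ZMod p)⁻¹ ≠ 0 := inv_ne_zero (Eta.four_ne_zero hp)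
  have hE3 : ∀ φ : 𝓞 K → ZMod p,
      (∀ x y : 𝓞 K, x ∉ Ideal.span {ζ - 1} → y ∉ Ideal.span {ζ - 1} → φ (x * y) = φ x + φ y) →
      (∀ (σ : K ≃ₐ[ℚ] K) (x : 𝓞 K), x ∉ Ideal.span {ζ - 1} →
        φ (σ • x) = (chi p K σ : ZMod p) ^ 2 * φ x) →
      φ (1 + ζ) = (4 : ZMod p)⁻¹ → φ (eta p K ζ) ≠ 0 := by
    intro φ hmul hgal h
    rw [Eta.phi_eta K hp ζ hζ φ hmul hgal h]
    exact neg_ne_zero.mpr h4
  refine ⟨?_, ?_, hE3, ?_⟩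
  · rw [← Eta.etaUnit_val K hp3 ζ hζ]
    exact Units.isUnit _
  · intro σ
    obtain ⟨v, hv⟩ := Eta.smul_eta_eq K hp3 ζ hζ σ
    exact ⟨v, v.isUnit, hv⟩
  · rintro ⟨x, hx⟩
    have hxint : IsIntegral ℤ x := by
      apply IsIntegral.of_pow (Fact.out : p.Prime).pos
      rw [← hx]
      exact NumberField.RingOfIntegers.isIntegral_coe _
    let y : 𝓞 K := ⟨x, hxint⟩
    have hy : y ^ p = eta p K ζ := by
      apply NumberField.RingOfIntegers.coe_injective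
      have h6 : (algebraMap (𝓞 K) K) (y ^ p) = x ^ p := by
        rw [map_pow]
        rfl
      exact h6.trans hx.symm
    have hyu : IsUnit y := by
      have : IsUnit (y ^ p) := by
        rw [hy, ← Eta.etaUnit_val K hp3 ζ hζ]
        exact Units.isUnit _
      exact (isUnit_pow_iff (Fact.out : p.Prime).ne_zero).mp this
    obtain ⟨φ, hmul, -, hgal, -, h1⟩ := exists_phi2 hp K ζ hζ
    apply hE3 φ hmul hgal h1
    have h5 : Multiplicative.toAdd (Eta.unitHom K ζ hζ φ hmul (hyu.unit ^ p)) =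
        φ (eta p K ζ) := by
      rw [Eta.unitHom_apply, Units.val_pow_eq_pow_val, IsUnit.unit_spec, hy]
    rw [← h5, map_pow, toAdd_pow, nsmul_eq_mul, ZMod.natCast_self, zero_mul]

end Fermat.Agent.S14
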