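import Mathlib

/-!
# Euler products over the ideals of a Dedekind domain (S14, package EP)

Transport of Mathlib's `ℕ`-indexed Euler products along the multiplicative embedding
(nonzero ideals) → `ℕ` that sends the height one primes injectively to prime numbers.
-/

set_option autoImplicit false

open IsDedekindDomain

namespace Fermat.Agent.S14

namespace EulerIdeal

/-! ## The `ℕ` side -/

section NatSide

variable {F : Type*} [CommMonoidWithZero F]

/-- The completely multiplicative function on `ℕ` with prescribed values at the primes. -/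
noncomputable def extend (g : ℕ → F) : ℕ →*₀ F where
  toFun n := if n = 0 then 0 else n.factorization.prod fun p k => g p ^ k
  map_zero' := by simp
  map_one' := by simp
  map_mul' m n := by
    by_cases hm : m = 0
    · simp [hm]
    by_cases hn : n = 0
    · simp [hn]
    simp only [hm, hn, mul_eq_zero, or_self, if_false]
    rw [Nat.factorization_mul hm hn, Finsupp.prod_add_index']
    · intro a; simp
    · intro a b c; exact pow_add _ _ _

theorem extend_apply_of_ne_zero (g : ℕ → F) {n : ℕ} (hn : n ≠ 0) :
    extend g n = n.factorization.prod fun p k => g p ^ k := by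
  show (if n = 0 then 0 else n.factorization.prod fun p k => g p ^ k) = _
  rw [if_neg hn]

theorem extend_prime (g : ℕ → F) {p : ℕ} (hp : p.Prime) : extend g p = g p := by
  rw [extend_apply_of_ne_zero g hp.ne_zero, hp.factorization, Finsupp.prod_single_index] <;> simp

variable {ι : Type*} (e : ι → ℕ)

/-- The natural number attached to a finitely supported family of exponents. -/
noncomputable def natOf (a : ι →₀ ℕ) : ℕ := a.prod fun i k => e i ^ k

variable {e}

theorem extend_natOf (hp : ∀ i, (e i).Prime) (g : ℕ → F) (a : ι →₀ ℕ) :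
    extend g (natOf e a) = a.prod fun i k => g (e i) ^ k := by
  unfold natOf
  rw [map_finsuppProd]
  refine Finsupp.prod_congr ?_
  intro i _
  rw [map_pow, extend_prime g (hp i)]

theorem natOf_eq_prod_mapDomain (he : Function.Injective e) (a : ι →₀ ℕ) :
    natOf e a = (Finsupp.mapDomain e a).prod fun p k => p ^ k := by
  unfold natOf
  rw [Finsupp.prod_mapDomain_index_inj he]

theorem factorization_natOf (he : Function.Injective e) (hp : ∀ i, (e i).Prime) (a : ι →₀ ℕ) :
    (natOf e a).factorization = Finsupp.mapDomain e a := by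
  rw [natOf_eq_prod_mapDomain he]
  apply Nat.prod_pow_factorization_eq_self
  intro p hp'
  have := Finsupp.mapDomain_support hp'
  rw [Finset.mem_image] at this
  obtain ⟨i, -, rfl⟩ := this
  exact hp i

theorem natOf_injective (he : Function.Injective e) (hp : ∀ i, (e i).Prime) :
    Function.Injective (natOf e) := by
  intro a b hab
  have h := congrArg Nat.factorization hab
  rw [factorization_natOf he hp, factorization_natOf he hp] at h
  exact Finsupp.mapDomain_injective he h

theorem natOf_ne_zero (hp : ∀ i, (e i).Prime) (a : ι →₀ ℕ) : natOf e a ≠ 0 := by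
  unfold natOf
  rw [Finsupp.prod_ne_zero_iff]
  intro i _
  exact pow_ne_zero _ (hp i).ne_zero

/-- Outside the range of `natOf` the extension vanishes, provided `g` vanishes outside the
range of `e`. -/
theorem extend_eq_zero_of_notMem_range (he : Function.Injective e) (g : ℕ → F)
    (hg : ∀ p, p ∉ Set.range e → g p = 0) {n : ℕ} (hn : n ∉ Set.range (natOf e)) :
    extend g n = 0 := by
  by_cases hn0 : n = 0
  · simp [hn0]
  rw [extend_apply_of_ne_zero g hn0]
  by_cases hsupp : ∀ p ∈ n.factorization.support, p ∈ Set.range e
  · exfalso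
    apply hn
    refine ⟨Finsupp.comapDomain e n.factorization he.injOn, ?_⟩
    rw [natOf_eq_prod_mapDomain he, Finsupp.mapDomain_comapDomain e he]
    · exact Nat.prod_factorization_pow_eq_self hn0
    · intro p hp'
      exact hsupp p hp'
  · push Not at hsupp
    obtain ⟨p, hp1, hp2⟩ := hsupp
    rw [Finsupp.prod]
    apply Finset.prod_eq_zero hp1
    rw [hg p hp2]
    exact zero_pow (Finsupp.mem_support_iff.mp hp1)

end NatSide

/-! ## The ideal side -/

section IdealSide

variable {R : Type*} [CommRing R] [IsDedekindDomain R]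

/-- The ideal attached to a finitely supported family of exponents. -/
noncomputable def idealOf (a : HeightOneSpectrum R →₀ ℕ) : Ideal R :=
  a.prod fun v k => v.asIdeal ^ k

theorem idealOf_ne_bot (a : HeightOneSpectrum R →₀ ℕ) : idealOf a ≠ ⊥ := by
  unfold idealOf
  rw [← Ideal.zero_eq_bot, Finsupp.prod_ne_zero_iff]
  intro v _
  exact pow_ne_zero _ v.ne_bot

theorem idealOf_add (a b : HeightOneSpectrum R →₀ ℕ) :
    idealOf (a + b) = idealOf a * idealOf b := by
  unfold idealOf
  rw [Finsupp.prod_add_index']
  · intro v; simp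
  · intro v k l; exact pow_add _ _ _

theorem idealOf_single (v : HeightOneSpectrum R) (k : ℕ) :
    idealOf (Finsupp.single v k) = v.asIdeal ^ k := by
  unfold idealOf
  rw [Finsupp.prod_single_index]
  simp

theorem multiplicity_pow_asIdeal_self (v : HeightOneSpectrum R) (k : ℕ) :
    multiplicity v.asIdeal (v.asIdeal ^ k) = k :=
  multiplicity_pow_self v.ne_bot v.irreducible.not_isUnit k

theorem multiplicity_pow_asIdeal_of_ne {v w : HeightOneSpectrum R} (h : w ≠ v) (k : ℕ) :
    multiplicity v.asIdeal (w.asIdeal ^ k) = 0 := by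
  rw [multiplicity_eq_zero]
  intro hdvd
  have h1 : v.asIdeal ∣ w.asIdeal := v.prime.dvd_of_dvd_pow hdvd
  have h2 : w.asIdeal ≤ v.asIdeal := Ideal.le_of_dvd h1
  have h3 : w.asIdeal = v.asIdeal := w.isMaximal.eq_of_le v.isPrime.ne_top h2
  exact h (HeightOneSpectrum.ext h3)

theorem multiplicity_idealOf (v : HeightOneSpectrum R) (a : HeightOneSpectrum R →₀ ℕ) :
    multiplicity v.asIdeal (idealOf a) = a v := by
  induction a using Finsupp.induction with
  | zero =>
    have : idealOf (0 : HeightOneSpectrum R →₀ ℕ) = 1 := by simp [idealOf]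
    rw [this, Finsupp.zero_apply, multiplicity_eq_zero, Ideal.one_eq_top]
    intro h
    exact v.isPrime.ne_top (top_le_iff.mp (Ideal.le_of_dvd h))
  | single_add w k a _ _ ih =>
    rw [idealOf_add, idealOf_single]
    have hfin : FiniteMultiplicity v.asIdeal (w.asIdeal ^ k * idealOf a) := by
      apply FiniteMultiplicity.of_prime_left v.prime
      exact mul_ne_zero (pow_ne_zero _ w.ne_bot) (idealOf_ne_bot a)
    rw [multiplicity_mul v.prime hfin, ih, Finsupp.add_apply]
    congr 1
    by_cases h : w = v
    · subst h
      rw [multiplicity_pow_asIdeal_self, Finsupp.single_eq_same]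
    · rw [multiplicity_pow_asIdeal_of_ne h, Finsupp.single_eq_of_ne (Ne.symm h)]

theorem idealOf_injective : Function.Injective (idealOf (R := R)) := by
  intro a b hab
  ext v
  rw [← multiplicity_idealOf v a, ← multiplicity_idealOf v b, hab]

theorem exists_idealOf_eq {I : Ideal R} (hI : I ≠ ⊥) : ∃ a, idealOf a = I := by
  have hfin : (Function.support fun v : HeightOneSpectrum R => multiplicity v.asIdeal I).Finite := by
    refine (Ideal.finite_factors hI).subset ?_
    intro v hv
    by_contra hndvd
    exact hv (multiplicity_eq_zero.mpr hndvd)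
  refine ⟨Finsupp.ofSupportFinite _ hfin, ?_⟩
  have h := Ideal.finprod_heightOneSpectrum_pow_multiplicity hI
  refine Eq.trans ?_ h
  unfold idealOf
  rw [Finsupp.prod, finprod_eq_prod_of_mulSupport_subset]
  · rfl
  · intro v hv
    simp only [Function.mem_mulSupport, ne_eq] at hv
    simp only [Finset.mem_coe, Finsupp.mem_support_iff, Finsupp.ofSupportFinite_coe]
    intro h0
    apply hv
    rw [h0, pow_zero]

theorem idealOf_mem (a : HeightOneSpectrum R →₀ ℕ) : idealOf a ∈ nonZeroDivisors (Ideal R) :=
  mem_nonZeroDivisors_iff_ne_zero.mpr (idealOf_ne_bot a)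

/-- The bijection between exponent families and nonzero ideals. -/
noncomputable def idealEquiv : (HeightOneSpectrum R →₀ ℕ) ≃ nonZeroDivisors (Ideal R) :=
  Equiv.ofBijective (fun a => ⟨idealOf a, idealOf_mem a⟩)
    ⟨fun a b hab => idealOf_injective (congrArg Subtype.val hab),
     fun I => by
      obtain ⟨a, ha⟩ := exists_idealOf_eq (mem_nonZeroDivisors_iff_ne_zero.mp I.2)
      exact ⟨a, Subtype.ext ha⟩⟩

theorem idealEquiv_apply (a : HeightOneSpectrum R →₀ ℕ) :
    ((idealEquiv a : nonZeroDivisors (Ideal R)) : Ideal R) = idealOf a := rfl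

theorem map_idealOf {F : Type*} [CommMonoidWithZero F] (f : Ideal R →*₀ F)
    (a : HeightOneSpectrum R →₀ ℕ) :
    f (idealOf a) = a.prod fun v k => f v.asIdeal ^ k := by
  unfold idealOf
  rw [map_finsuppProd]
  simp

end IdealSide

/-! ## The transfer -/

section Transfer

variable {R : Type*} [CommRing R] [IsDedekindDomain R] [Countable (HeightOneSpectrum R)]

/-- An injective enumeration of the height one primes by prime numbers. -/
noncomputable def primeIdx (v : HeightOneSpectrum R) : ℕ :=
  Nat.nth Nat.Prime ((Countable.exists_injective_nat (HeightOneSpectrum R)).choose v)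

theorem primeIdx_prime (v : HeightOneSpectrum R) : (primeIdx v).Prime := Nat.prime_nth_prime _

theorem primeIdx_injective : Function.Injective (primeIdx (R := R)) := fun _ _ h =>
  (Countable.exists_injective_nat (HeightOneSpectrum R)).choose_spec
    (Nat.nth_injective Nat.infinite_setOfPred_prime h)

variable {F : Type*} [NormedField F]

open scoped Classical in
/-- The values at the primes of the transported function. -/
noncomputable def gOf (f : Ideal R →*₀ F) (p : ℕ) : F :=
  if h : ∃ v : HeightOneSpectrum R, primeIdx v = p then f h.choose.asIdeal else 0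

theorem gOf_primeIdx (f : Ideal R →*₀ F) (v : HeightOneSpectrum R) :
    gOf f (primeIdx v) = f v.asIdeal := by
  have h : ∃ w : HeightOneSpectrum R, primeIdx w = primeIdx v := ⟨v, rfl⟩
  unfold gOf
  rw [dif_pos h, primeIdx_injective h.choose_spec]

theorem gOf_eq_zero (f : Ideal R →*₀ F) {p : ℕ} (hp : p ∉ Set.range (primeIdx (R := R))) :
    gOf f p = 0 := by
  unfold gOf
  rw [dif_neg]
  rintro ⟨v, hv⟩
  exact hp ⟨v, hv⟩

theorem extend_natOf_eq (f : Ideal R →*₀ F) (a : HeightOneSpectrum R →₀ ℕ) :
    extend (gOf f) (natOf primeIdx a) = f (idealOf a) := by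
  rw [extend_natOf primeIdx_prime, map_idealOf]
  refine Finsupp.prod_congr ?_
  intro v _
  rw [gOf_primeIdx]

theorem extend_eq_zero (f : Ideal R →*₀ F) {n : ℕ}
    (hn : n ∉ Set.range (natOf (primeIdx (R := R)))) : extend (gOf f) n = 0 :=
  extend_eq_zero_of_notMem_range primeIdx_injective _ (fun _ hp => gOf_eq_zero f hp) hn

theorem tsum_extend (f : Ideal R →*₀ F) :
    ∑' n : ℕ, extend (gOf f) n = ∑' I : nonZeroDivisors (Ideal R), f (I : Ideal R) := by
  have h1 : ∑' a : HeightOneSpectrum R →₀ ℕ, extend (gOf f) (natOf primeIdx a)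
      = ∑' n : ℕ, extend (gOf f) n := by
    apply (natOf_injective primeIdx_injective primeIdx_prime).tsum_eq
    intro n hn
    by_contra hcon
    exact hn (extend_eq_zero f hcon)
  rw [← h1, ← (idealEquiv (R := R)).tsum_eq]
  exact tsum_congr fun a => extend_natOf_eq f a

theorem summable_norm_extend (f : Ideal R →*₀ F)
    (hsum : Summable fun I : nonZeroDivisors (Ideal R) => ‖f (I : Ideal R)‖) :
    Summable fun n : ℕ => ‖extend (gOf f) n‖ := by
  have h1 : Summable fun a : HeightOneSpectrum R →₀ ℕ => ‖extend (gOf f) (natOf primeIdx a)‖ := by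
    have := (idealEquiv (R := R)).summable_iff.mpr hsum
    refine this.congr fun a => ?_
    simp only [Function.comp_apply, idealEquiv_apply]
    rw [extend_natOf_eq]
  refine ((natOf_injective primeIdx_injective primeIdx_prime).summable_iff ?_).mp h1
  intro n hn
  rw [extend_eq_zero f hn, norm_zero]

/-- **Euler product** over the height one primes of a Dedekind domain with countably many
primes, for a completely multiplicative function on ideals. -/
theorem hasProd [CompleteSpace F] (f : Ideal R →*₀ F)
    (hsum : Summable fun I : nonZeroDivisors (Ideal R) => ‖f (I : Ideal R)‖) :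
    HasProd (fun v : HeightOneSpectrum R => (1 - f v.asIdeal)⁻¹)
      (∑' I : nonZeroDivisors (Ideal R), f (I : Ideal R)) := by
  have h := EulerProduct.eulerProduct_completely_multiplicative_hasProd
    (summable_norm_extend f hsum)
  rw [tsum_extend f] at h
  let ε : HeightOneSpectrum R → Nat.Primes := fun v => ⟨primeIdx v, primeIdx_prime v⟩
  have hε : Function.Injective ε := fun v w hvw =>
    primeIdx_injective (congrArg Subtype.val hvw)
  have h1 : ∀ x : Nat.Primes, x ∉ Set.range ε → (1 - extend (gOf f) (x : ℕ))⁻¹ = 1 := by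
    intro x hx
    have : (x : ℕ) ∉ Set.range (primeIdx (R := R)) := by
      rintro ⟨v, hv⟩
      exact hx ⟨v, Subtype.ext hv⟩
    rw [extend_prime _ x.2, gOf_eq_zero f this, sub_zero, inv_one]
  have h2 := (hε.hasProd_iff h1).mpr h
  have h3 : ((fun x : Nat.Primes => (1 - extend (gOf f) (x : ℕ))⁻¹) ∘ ε)
      = fun v : HeightOneSpectrum R => (1 - f v.asIdeal)⁻¹ := by
    funext v
    show (1 - extend (gOf f) (primeIdx v))⁻¹ = (1 - f v.asIdeal)⁻¹
    rw [extend_prime _ (primeIdx_prime v), gOf_primeIdx]
  rw [h3] at h2
  exact h2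

end Transfer

end EulerIdeal

end Fermat.Agent.S14
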