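import Fermat.Agent.S14.Defs
import Fermat.Agent.S14.EulerIdeal
import Fermat.Agent.S14.ZetaBasic

/-!
# S14, package EP: Euler products over the prime ideals of a number field
-/

set_option autoImplicit false

open scoped NumberField Pointwise Topology
open IsDedekindDomain Filter

namespace Fermat.Agent.S14

namespace EulerProduct

open NumberField Ideal

variable (K : Type) [Field K] [NumberField K]

theorem countable_ideal : Countable (Ideal (𝓞 K)) := by
  rw [← Set.countable_univ_iff]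
  have h : (Set.univ : Set (Ideal (𝓞 K))) = ⋃ n : ℕ, {I : Ideal (𝓞 K) | absNorm I = n} := by
    ext I
    simp
  rw [h]
  exact Set.countable_iUnion fun n => (finite_setOfPred_absNorm_eq n).countable

instance countable_heightOneSpectrum : Countable (HeightOneSpectrum (𝓞 K)) := by
  have := countable_ideal K
  have hinj : Function.Injective fun v : HeightOneSpectrum (𝓞 K) => v.asIdeal :=
    fun v w h => HeightOneSpectrum.ext h
  exact hinj.countable

variable {K}

open scoped Classical in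
/-- Turn a function on ideals that is multiplicative on nonzero ideals into a
monoid-with-zero hom. -/
noncomputable def toHom (f : Ideal (𝓞 K) → ℂ) (hf1 : f ⊤ = 1)
    (hmul : ∀ I J : Ideal (𝓞 K), I ≠ ⊥ → J ≠ ⊥ → f (I * J) = f I * f J) :
    Ideal (𝓞 K) →*₀ ℂ where
  toFun I := if I = ⊥ then 0 else f I
  map_zero' := by simp
  map_one' := by
    rw [if_neg (by simp), Ideal.one_eq_top, hf1]
  map_mul' I J := by
    by_cases hI : I = ⊥
    · simp [hI]
    by_cases hJ : J = ⊥
    · simp [hJ]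
    have hIJ : I * J ≠ ⊥ := by
      rw [← Ideal.zero_eq_bot]
      exact mul_ne_zero hI hJ
    rw [if_neg hI, if_neg hJ, if_neg hIJ, hmul I J hI hJ]

omit [NumberField K] in
theorem toHom_apply_of_ne (f : Ideal (𝓞 K) → ℂ) (hf1 : f ⊤ = 1)
    (hmul : ∀ I J : Ideal (𝓞 K), I ≠ ⊥ → J ≠ ⊥ → f (I * J) = f I * f J)
    {I : Ideal (𝓞 K)} (hI : I ≠ ⊥) : toHom f hf1 hmul I = f I := by
  show (if I = ⊥ then 0 else f I) = f I
  rw [if_neg hI]

/-- The real completely multiplicative function `I ↦ N(I)^(-s)`. -/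
noncomputable def normHom (K : Type) [Field K] [NumberField K] (s : ℝ) (hs : s ≠ 0) :
    Ideal (𝓞 K) →*₀ ℝ where
  toFun I := (absNorm I : ℝ) ^ (-s)
  map_zero' := by
    have : (-s) ≠ 0 := neg_ne_zero.mpr hs
    simp [Real.zero_rpow this]
  map_one' := by simp
  map_mul' I J := by
    rw [map_mul, Nat.cast_mul, Real.mul_rpow (Nat.cast_nonneg _) (Nat.cast_nonneg _)]

end EulerProduct

open Fermat.Agent.S14.EulerProduct in
/-- EP -/
theorem euler_product (K : Type) [Field K] [NumberField K] (f : Ideal (𝓞 K) → ℂ)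
    (hf1 : f ⊤ = 1) (hmul : ∀ I J : Ideal (𝓞 K), I ≠ ⊥ → J ≠ ⊥ → f (I * J) = f I * f J)
    (hsum : Summable fun I : nonZeroDivisors (Ideal (𝓞 K)) => ‖f (I : Ideal (𝓞 K))‖)
    (hlt : ∀ v : HeightOneSpectrum (𝓞 K), ‖f v.asIdeal‖ < 1) :
    HasProd (fun v : HeightOneSpectrum (𝓞 K) => (1 - f v.asIdeal)⁻¹)
      (∑' I : nonZeroDivisors (Ideal (𝓞 K)), f (I : Ideal (𝓞 K))) := by
  have _ := hlt
  have hne : ∀ I : nonZeroDivisors (Ideal (𝓞 K)), (I : Ideal (𝓞 K)) ≠ ⊥ :=
    fun I => mem_nonZeroDivisors_iff_ne_zero.mp I.2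
  have hsum' : Summable fun I : nonZeroDivisors (Ideal (𝓞 K)) =>
      ‖toHom f hf1 hmul (I : Ideal (𝓞 K))‖ :=
    hsum.congr fun I => by rw [toHom_apply_of_ne f hf1 hmul (hne I)]
  have h := EulerIdeal.hasProd (toHom f hf1 hmul) hsum'
  have h1 : (fun v : HeightOneSpectrum (𝓞 K) => (1 - toHom f hf1 hmul v.asIdeal)⁻¹)
      = fun v : HeightOneSpectrum (𝓞 K) => (1 - f v.asIdeal)⁻¹ := by
    funext v
    rw [toHom_apply_of_ne f hf1 hmul v.ne_bot]
  have h2 : ∑' I : nonZeroDivisors (Ideal (𝓞 K)), toHom f hf1 hmul (I : Ideal (𝓞 K))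
      = ∑' I : nonZeroDivisors (Ideal (𝓞 K)), f (I : Ideal (𝓞 K)) :=
    tsum_congr fun I => toHom_apply_of_ne f hf1 hmul (hne I)
  rw [h1, h2] at h
  exact h

open Fermat.Agent.S14.EulerProduct in
/-- EP (real form for the zeta function). -/
theorem zetaR_hasProd (K : Type) [Field K] [NumberField K] {s : ℝ} (hs : 1 < s) :
    HasProd (fun v : HeightOneSpectrum (𝓞 K) => (1 - (Ideal.absNorm v.asIdeal : ℝ) ^ (-s))⁻¹)
      (zetaR K s) := by
  have hs0 : s ≠ 0 := by linarith
  have hsum : Summable fun I : nonZeroDivisors (Ideal (𝓞 K)) =>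
      ‖normHom K s hs0 (I : Ideal (𝓞 K))‖ := by
    refine (summable_ideal_rpow K hs).congr fun I => ?_
    show _ = ‖(Ideal.absNorm (I : Ideal (𝓞 K)) : ℝ) ^ (-s)‖
    rw [Real.norm_of_nonneg (Real.rpow_nonneg (Nat.cast_nonneg _) _)]
  exact EulerIdeal.hasProd (normHom K s hs0) hsum

end Fermat.Agent.S14
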