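import Fermat.Agent.S14.Defs

/-!
# S14, package SPL: complete splitting in the Kummer extension `K(η^(1/p))`

For a number field `K` containing a primitive `p`-th root of unity and `η ∈ 𝓞 K` which is not a
`p`-th power in `K`, the field `K' = K[X]/(X^p - η)` is a number field of degree `p` over `K`, and
every prime `v ∤ p η` of `K` modulo which `η` is a `p`-th power has `p` distinct primes of `K'`
above it, all of the same absolute norm as `v`.
-/

set_option autoImplicit false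

open scoped NumberField Pointwise Topology
open IsDedekindDomain Filter Polynomial

namespace Fermat.Agent.S14

namespace KummerSplit

/-- If `ζ` is a primitive `p`-th root of unity in a domain and `ζ ^ k - ζ ^ j` lies in a prime ideal
`v` for some `j ≠ k` below `p`, then `p ∈ v`. -/
theorem prime_mem_of_pow_sub_pow_mem {R : Type*} [CommRing R] [IsDomain R] {p : ℕ} (hp : p.Prime)
    {ζ : R} (hζ : IsPrimitiveRoot ζ p) (v : Ideal R) [v.IsPrime] {j k : ℕ} (hj : j < p) (hk : k < p)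
    (hjk : j ≠ k) (h : ζ ^ k - ζ ^ j ∈ v) : (p : R) ∈ v := by
  wlog hlt : j < k generalizing j k
  · refine this hk hj (Ne.symm hjk) ?_ (lt_of_le_of_ne (not_lt.mp hlt) (Ne.symm hjk))
    have := v.neg_mem h
    simpa using this
  set z : R ⧸ v := Ideal.Quotient.mk v ζ with hz
  have hzp : z ^ p = 1 := by rw [hz, ← map_pow, hζ.pow_eq_one, map_one]
  have hzkj : z ^ k = z ^ j := by
    rw [hz, ← map_pow, ← map_pow]
    exact Ideal.Quotient.eq.mpr h
  have hzunit : IsUnit z := IsUnit.of_pow_eq_one hzp hp.ne_zero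
  have hd : z ^ (k - j) = 1 := by
    have : z ^ j * z ^ (k - j) = z ^ j * 1 := by
      rw [← pow_add, Nat.add_sub_cancel' hlt.le, mul_one, hzkj]
    exact (hzunit.pow j).mul_left_cancel this
  have hz1 : z = 1 := by
    have hg : z ^ (Nat.gcd (k - j) p) = 1 := pow_gcd_eq_one.mpr ⟨hd, hzp⟩
    have hcop : Nat.gcd (k - j) p = 1 := by
      rw [Nat.gcd_comm]
      exact (Nat.Prime.coprime_iff_not_dvd hp).mpr
        (Nat.not_dvd_of_pos_of_lt (Nat.sub_pos_of_lt hlt) (by omega))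
    rwa [hcop, pow_one] at hg
  have hsum : (∑ i ∈ Finset.range p, ζ ^ i) = 0 := hζ.geom_sum_eq_zero hp.one_lt
  have h1 : (Ideal.Quotient.mk v) (∑ i ∈ Finset.range p, ζ ^ i) = (p : R ⧸ v) := by
    rw [map_sum]
    simp [← hz, hz1]
  rw [hsum, map_zero] at h1
  have h2 : (Ideal.Quotient.mk v) (p : R) = 0 := by
    rw [map_natCast]
    exact h1.symm
  exact Ideal.Quotient.eq_zero_iff_mem.mp h2

/-- The core of SPL, for an abstract extension `L / K` of degree `p` generated by a `p`-th root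
`β` of `η` with `K`-endomorphisms `β ↦ ζ ^ j β`. -/
theorem split_of_data {p : ℕ} [hp : Fact p.Prime] (K L : Type) [Field K] [NumberField K]
    [Field L] [NumberField L] [Algebra K L] (hdeg : Module.finrank K L = p)
    (ζ : 𝓞 K) (hζ : IsPrimitiveRoot ζ p) (η : 𝓞 K) (β : 𝓞 L)
    (hβ : β ^ p = algebraMap (𝓞 K) (𝓞 L) η)
    (τ : ℕ → (𝓞 L →ₐ[𝓞 K] 𝓞 L))
    (hτ : ∀ j, τ j β = algebraMap (𝓞 K) (𝓞 L) (ζ ^ j) * β)
    (v : HeightOneSpectrum (𝓞 K)) (hv : (p : 𝓞 K) * η ∉ v.asIdeal) (m : 𝓞 K)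
    (hm : η - m ^ p ∈ v.asIdeal) :
    ∃ T : Finset (HeightOneSpectrum (𝓞 L)), T.card = p ∧
      ∀ w ∈ T, w.under (𝓞 K) = v ∧ Ideal.absNorm w.asIdeal = Ideal.absNorm v.asIdeal := by
  classical
  have hpP := hp.out
  have : v.asIdeal.IsMaximal := v.isMaximal
  have : v.asIdeal.IsPrime := v.isPrime
  obtain ⟨Q, hQmax, hQover⟩ :=
    Ideal.exists_maximal_ideal_liesOver_of_isIntegral (S := 𝓞 L) v.asIdeal
  have := hQmax.isPrime
  set a : 𝓞 K →+* 𝓞 L := algebraMap (𝓞 K) (𝓞 L) with ha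
  have ha_inj : Function.Injective a := FaithfulSMul.algebraMap_injective _ _
  have hζL : IsPrimitiveRoot (a ζ) p := hζ.map_of_injective ha_inj
  have hQmem : ∀ x : 𝓞 K, a x ∈ Q ↔ x ∈ v.asIdeal := by
    intro x
    rw [hQover.over]
    rfl
  -- `β^p - (a m)^p ∈ Q`
  have h1 : β ^ p - (a m) ^ p ∈ Q := by
    have : β ^ p - (a m) ^ p = a (η - m ^ p) := by rw [hβ]; simp [ha]
    rw [this]
    exact (hQmem _).mpr hm
  rw [hζL.pow_sub_pow_eq_prod_sub_mul β (a m) hpP.pos] at h1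
  obtain ⟨μ, hμ, hμQ⟩ := (Ideal.IsPrime.prod_mem_iff.mp h1)
  have hμ1 : μ ^ p = 1 := ((Polynomial.mem_nthRootsFinset hpP.pos 1).mp hμ)
  have : NeZero p := ⟨hpP.ne_zero⟩
  obtain ⟨i, hi, rfl⟩ := hζL.eq_pow_of_pow_eq_one hμ1
  set c : 𝓞 K := ζ ^ i * m with hc
  have hβc : β - a c ∈ Q := by simpa [hc, map_mul, map_pow] using hμQ
  -- the conjugate primes
  let Qj : ℕ → Ideal (𝓞 L) := fun j => Ideal.comap (τ j) Q
  have hQj_prime : ∀ j, (Qj j).IsPrime := fun j => Ideal.comap_isPrime _ _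
  have hQj_mem : ∀ j (x : 𝓞 K), a x ∈ Qj j ↔ x ∈ v.asIdeal := by
    intro j x
    show τ j (a x) ∈ Q ↔ _
    rw [ha, AlgHom.commutes]
    exact hQmem x
  have hQj_over : ∀ j, (Qj j).LiesOver v.asIdeal := by
    intro j
    refine ⟨?_⟩
    ext x
    exact (hQj_mem j x).symm
  have hmem : ∀ j, β - a (ζ ^ j * c) ∈ Qj j := by
    intro j
    show τ j (β - a (ζ ^ j * c)) ∈ Q
    have : τ j (β - a (ζ ^ j * c)) = a (ζ ^ j) * (β - a c) := by
      rw [map_sub, hτ j, ha, AlgHom.commutes, map_mul]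
      ring
    rw [this]
    exact Q.mul_mem_left _ hβc
  have hm_notin : m ∉ v.asIdeal := by
    intro hmv
    apply hv
    have : η = (η - m ^ p) + m ^ p := by ring
    rw [this]
    exact v.asIdeal.mul_mem_left _ (v.asIdeal.add_mem hm (v.asIdeal.pow_mem_of_mem hmv p hpP.pos))
  have hζunit : IsUnit ζ := IsUnit.of_pow_eq_one hζ.pow_eq_one hpP.ne_zero
  have hc_notin : c ∉ v.asIdeal := by
    intro hcv
    rcases v.isPrime.mem_or_mem hcv with h | h
    · exact v.isPrime.ne_top (Ideal.eq_top_of_isUnit_mem _ h (hζunit.pow i))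
    · exact hm_notin h
  have hinj : ∀ j k, j < p → k < p → Qj j = Qj k → j = k := by
    intro j k hj hk hjk
    by_contra hne
    have h2 : a ((ζ ^ k - ζ ^ j) * c) ∈ Qj j := by
      have e : a ((ζ ^ k - ζ ^ j) * c) = (β - a (ζ ^ j * c)) - (β - a (ζ ^ k * c)) := by
        simp only [map_sub, map_mul]
        ring
      rw [e]
      exact (Qj j).sub_mem (hmem j) (hjk ▸ hmem k)
    have h3 : (ζ ^ k - ζ ^ j) * c ∈ v.asIdeal := (hQj_mem j _).mp h2
    rcases v.isPrime.mem_or_mem h3 with h4 | h4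
    · exact hv (v.asIdeal.mul_mem_right _
        (prime_mem_of_pow_sub_pow_mem hpP hζ v.asIdeal hj hk hne h4))
    · exact hc_notin h4
  have hQj_ne : ∀ j, Qj j ≠ ⊥ := by
    intro j hbot
    obtain ⟨x, hxv, hx0⟩ := Submodule.exists_mem_ne_zero_of_ne_bot v.ne_bot
    have : a x ∈ Qj j := (hQj_mem j x).mpr hxv
    rw [hbot, Ideal.mem_bot] at this
    exact hx0 (ha_inj (by rw [this, map_zero]))
  -- inertia degrees
  let hFT : Fintype (v.asIdeal.primesOver (𝓞 L)) :=
    (IsDedekindDomain.primesOver_finite v.asIdeal (𝓞 L)).fintype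
  have hsum := Ideal.sum_ramification_inertia_eq_finrank v.asIdeal (𝓞 L)
  rw [← IsFractionRing.finrank_eq (𝓞 K) K (𝓞 L) L, hdeg] at hsum
  let P : Fin p → v.asIdeal.primesOver (𝓞 L) := fun j => ⟨Qj j, hQj_prime j, hQj_over j⟩
  have hP_inj : Function.Injective P := by
    intro j k hjk
    have : Qj j = Qj k := congrArg Subtype.val hjk
    exact Fin.ext (hinj j k j.2 k.2 this)
  let g : v.asIdeal.primesOver (𝓞 L) → ℕ :=
    fun q => q.1.ramificationIdx (𝓞 K) * q.1.inertiaDeg (𝓞 K)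
  have hg1 : ∀ q : v.asIdeal.primesOver (𝓞 L), 1 ≤ g q := by
    intro q
    have : q.1.IsPrime := q.2.1
    exact Nat.one_le_iff_ne_zero.mpr
      (Nat.mul_ne_zero (q.1.ramificationIdx_pos (𝓞 K)).ne' (q.1.inertiaDeg_pos (𝓞 K)).ne')
  have hle : ∑ j : Fin p, g (P j) ≤ p := by
    calc ∑ j : Fin p, g (P j) = ∑ q ∈ Finset.univ.image P, g q := by
          rw [Finset.sum_image (fun x _ y _ h => hP_inj h)]
      _ ≤ ∑ q, g q := Finset.sum_le_sum_of_subset (Finset.subset_univ _)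
      _ = p := hsum
  have hg_eq : ∀ j : Fin p, g (P j) = 1 := by
    intro j
    by_contra hne
    have hlt : 1 < g (P j) := lt_of_le_of_ne (hg1 _) (Ne.symm hne)
    have : ∑ _j : Fin p, 1 < ∑ j : Fin p, g (P j) :=
      Finset.sum_lt_sum (fun i _ => hg1 (P i)) ⟨j, Finset.mem_univ _, hlt⟩
    simp at this
    omega
  have hf1 : ∀ j : Fin p, (Qj j).inertiaDeg (𝓞 K) = 1 := fun j =>
    Nat.eq_one_of_mul_eq_one_left (hg_eq j)
  let W : Fin p → HeightOneSpectrum (𝓞 L) := fun j => ⟨Qj j, hQj_prime j, hQj_ne j⟩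
  have hW_inj : Function.Injective W := by
    intro j k hjk
    have : Qj j = Qj k := congrArg HeightOneSpectrum.asIdeal hjk
    exact Fin.ext (hinj j k j.2 k.2 this)
  refine ⟨Finset.univ.image W, ?_, ?_⟩
  · rw [Finset.card_image_of_injective _ hW_inj, Finset.card_univ, Fintype.card_fin]
  · intro w hw
    obtain ⟨j, -, rfl⟩ := Finset.mem_image.mp hw
    constructor
    · apply HeightOneSpectrum.ext
      show (Qj j).under (𝓞 K) = v.asIdeal
      exact ((hQj_over j).over).symm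
    · show Ideal.absNorm (Qj j) = _
      have := hQj_prime j
      have := hQj_over j
      rw [← Ideal.absNorm_pow_inertiaDeg v.asIdeal (Qj j), hf1 j, pow_one]

/-- The Kummer field `K[X]/(X^p - η)`. -/
theorem kummerPoly_irreducible {p : ℕ} [hp : Fact p.Prime] (K : Type) [Field K] (η : K)
    (hη : ¬ ∃ x : K, η = x ^ p) : Irreducible (X ^ p - C η : K[X]) :=
  X_pow_sub_C_irreducible_of_prime hp.out (fun b hb => hη ⟨b, hb.symm⟩)

end KummerSplit

/-- SPL : complete splitting in `K(η^(1/p))`. -/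
theorem exists_kummer_splitting {p : ℕ} [Fact p.Prime] (K : Type) [Field K] [NumberField K]
    (ζ : K) (hζ : IsPrimitiveRoot ζ p) (η : 𝓞 K) (hη : ¬ ∃ x : K, (η : K) = x ^ p) :
    ∃ (K' : Type) (_ : Field K') (_ : NumberField K')
      (f : HeightOneSpectrum (𝓞 K') → HeightOneSpectrum (𝓞 K)),
      ∀ v : HeightOneSpectrum (𝓞 K), (p : 𝓞 K) * η ∉ v.asIdeal → (∃ m : 𝓞 K, η - m ^ p ∈ v.asIdeal) →
        ∃ T : Finset (HeightOneSpectrum (𝓞 K')), T.card = p ∧
          ∀ w ∈ T, f w = v ∧ Ideal.absNorm w.asIdeal = Ideal.absNorm v.asIdeal := by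
  have hpP : p.Prime := Fact.out
  have : NeZero p := ⟨hpP.ne_zero⟩
  have hirr : Irreducible (X ^ p - C (η : K) : K[X]) := KummerSplit.kummerPoly_irreducible K _ hη
  have : Fact (Irreducible (X ^ p - C (η : K) : K[X])) := ⟨hirr⟩
  let K' := AdjoinRoot (X ^ p - C (η : K) : K[X])
  have hfin : Module.Finite K K' := (AdjoinRoot.powerBasis hirr.ne_zero).finite
  have hNF : NumberField K' := NumberField.of_module_finite K K'
  have hdeg : Module.finrank K K' = p := by
    rw [(AdjoinRoot.powerBasis hirr.ne_zero).finrank, AdjoinRoot.powerBasis_dim,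
      natDegree_X_pow_sub_C]
  refine ⟨K', inferInstance, inferInstance, fun w => w.under (𝓞 K), ?_⟩
  rintro v hv ⟨m, hm⟩
  -- the root of unity as an integer
  let ζ' : 𝓞 K := hζ.toInteger
  have hζ' : IsPrimitiveRoot ζ' p := hζ.toInteger_isPrimitiveRoot
  -- the root
  let r : K' := AdjoinRoot.root (X ^ p - C (η : K) : K[X])
  have hr : r ^ p = algebraMap K K' (η : K) := by
    have h := AdjoinRoot.eval₂_root (X ^ p - C (η : K) : K[X])
    simp only [eval₂_sub, eval₂_pow, eval₂_X, eval₂_C] at h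
    exact sub_eq_zero.mp h
  have hr_int : IsIntegral ℤ r := by
    refine IsIntegral.of_pow hpP.pos ?_
    rw [hr]
    exact (η.2 : IsIntegral ℤ (η : K)).algebraMap
  let β : 𝓞 K' := ⟨r, hr_int⟩
  have hβ : β ^ p = algebraMap (𝓞 K) (𝓞 K') η := by
    apply NumberField.RingOfIntegers.ext
    show r ^ p = algebraMap K K' (η : K)
    exact hr
  -- the endomorphisms
  have hτ0 : ∀ j : ℕ, eval₂ (Algebra.ofId K K' : K →+* K') (algebraMap K K' (ζ ^ j) * r)
      (X ^ p - C (η : K) : K[X]) = 0 := by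
    intro j
    simp only [eval₂_sub, eval₂_pow, eval₂_X, eval₂_C]
    rw [mul_pow, ← map_pow, ← pow_mul, mul_comm j p, pow_mul, hζ.pow_eq_one, one_pow, map_one,
      one_mul, hr]
    exact sub_self _
  let τ0 : ℕ → (K' →ₐ[K] K') := fun j =>
    AdjoinRoot.liftAlgHom (X ^ p - C (η : K) : K[X]) (Algebra.ofId K K')
      (algebraMap K K' (ζ ^ j) * r) (hτ0 j)
  let τ : ℕ → (𝓞 K' →ₐ[𝓞 K] 𝓞 K') := fun j => NumberField.RingOfIntegers.mapAlgHom (τ0 j)
  have hτ : ∀ j, τ j β = algebraMap (𝓞 K) (𝓞 K') (ζ' ^ j) * β := by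
    intro j
    apply NumberField.RingOfIntegers.ext
    show τ0 j r = algebraMap K K' (((ζ' ^ j : 𝓞 K) : K)) * r
    rw [AdjoinRoot.liftAlgHom_root]
    have hcoe : ((ζ' ^ j : 𝓞 K) : K) = ζ ^ j := by
      rw [NumberField.RingOfIntegers.coe_eq_algebraMap, map_pow]
      rfl
    rw [hcoe]
  exact KummerSplit.split_of_data K K' hdeg ζ' hζ' η β hβ τ hτ v hv m hm

end Fermat.Agent.S14
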