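import Fermat.Agent.S14.Defs
import Fermat.Agent.S14.ZetaBasic
import Fermat.Agent.S14.EulerProduct

/-!
# S14, package DA: the mass of all primes is `log (1/(s-1)) + O(1)`; primes of degree `≥ 2`
have bounded mass
-/

set_option autoImplicit false

open scoped NumberField Pointwise Topology
open IsDedekindDomain Filter

namespace Fermat.Agent.S14

namespace MassUniv

open NumberField Ideal

variable (K : Type) [Field K] [NumberField K]

theorem two_le_absNorm (v : HeightOneSpectrum (𝓞 K)) : 2 ≤ absNorm v.asIdeal := by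
  have h0 : absNorm v.asIdeal ≠ 0 := by
    rw [Ne, Ideal.absNorm_eq_zero_iff]
    exact v.ne_bot
  have h1 : absNorm v.asIdeal ≠ 1 := by
    rw [Ne, Ideal.absNorm_eq_one_iff]
    exact v.isPrime.ne_top
  omega

theorem term_pos (v : HeightOneSpectrum (𝓞 K)) (s : ℝ) :
    0 < (absNorm v.asIdeal : ℝ) ^ (-s) := by
  have h := two_le_absNorm K v
  have : (0 : ℝ) < (absNorm v.asIdeal : ℝ) := by exact_mod_cast (by omega : 0 < absNorm v.asIdeal)
  exact Real.rpow_pos_of_pos this _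

theorem term_le_half (v : HeightOneSpectrum (𝓞 K)) {s : ℝ} (hs : 1 ≤ s) :
    (absNorm v.asIdeal : ℝ) ^ (-s) ≤ 1 / 2 := by
  have h := two_le_absNorm K v
  have h2 : (2 : ℝ) ≤ (absNorm v.asIdeal : ℝ) := by exact_mod_cast h
  calc (absNorm v.asIdeal : ℝ) ^ (-s) ≤ (2 : ℝ) ^ (-s) :=
        Real.rpow_le_rpow_of_nonpos (by norm_num) h2 (by linarith)
    _ ≤ (2 : ℝ) ^ (-1 : ℝ) := Real.rpow_le_rpow_of_exponent_le (by norm_num) (by linarith)
    _ = 1 / 2 := by rw [Real.rpow_neg_one]; norm_num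

theorem term_le_of_le (v : HeightOneSpectrum (𝓞 K)) {s t : ℝ} (hst : s ≤ t) :
    (absNorm v.asIdeal : ℝ) ^ (-t) ≤ (absNorm v.asIdeal : ℝ) ^ (-s) := by
  have h := two_le_absNorm K v
  have h2 : (1 : ℝ) ≤ (absNorm v.asIdeal : ℝ) := by exact_mod_cast (by omega : 1 ≤ absNorm v.asIdeal)
  exact Real.rpow_le_rpow_of_exponent_le h2 (by linarith)

theorem le_neg_log_one_sub {x : ℝ} (hx : x < 1) : x ≤ -Real.log (1 - x) := by
  have := Real.log_le_sub_one_of_pos (by linarith : (0 : ℝ) < 1 - x)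
  linarith

theorem neg_log_one_sub_le {x : ℝ} (hx0 : 0 ≤ x) (hx : x ≤ 1 / 2) :
    -Real.log (1 - x) ≤ x + 2 * x ^ 2 := by
  have hpos : (0 : ℝ) < 1 - x := by linarith
  have h := Real.one_sub_inv_le_log_of_pos hpos
  have h2 : (1 - x)⁻¹ ≤ 1 + x + 2 * x ^ 2 := by
    rw [inv_le_iff_one_le_mul₀ hpos]
    nlinarith [mul_nonneg hx0 hx0, mul_nonneg (mul_nonneg hx0 hx0) (by linarith : (0 : ℝ) ≤ 1 / 2 - x)]
  linarith

/-- The logarithm of the Euler product. -/
theorem hasSum_log_zetaR {s : ℝ} (hs : 1 < s) :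
    HasSum (fun v : HeightOneSpectrum (𝓞 K) => -Real.log (1 - (absNorm v.asIdeal : ℝ) ^ (-s)))
      (Real.log (zetaR K s)) := by
  have hsumx := summable_prime_rpow K hs
  have hsummable : Summable fun v : HeightOneSpectrum (𝓞 K) =>
      -Real.log (1 - (absNorm v.asIdeal : ℝ) ^ (-s)) := by
    refine Summable.of_nonneg_of_le (fun v => ?_) (fun v => ?_) (hsumx.mul_left 2)
    · have h1 := term_pos K v s
      have h2 := term_le_half K v hs.le
      have := le_neg_log_one_sub (by linarith : (absNorm v.asIdeal : ℝ) ^ (-s) < 1)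
      linarith
    · have h1 := term_pos K v s
      have h2 := term_le_half K v hs.le
      have := neg_log_one_sub_le h1.le h2
      nlinarith
  have hpos : ∀ v : HeightOneSpectrum (𝓞 K), 0 < (1 - (absNorm v.asIdeal : ℝ) ^ (-s))⁻¹ := by
    intro v
    have h2 := term_le_half K v hs.le
    exact inv_pos.mpr (by linarith)
  have hlog : (fun v : HeightOneSpectrum (𝓞 K) =>
      Real.log ((1 - (absNorm v.asIdeal : ℝ) ^ (-s))⁻¹))
      = fun v : HeightOneSpectrum (𝓞 K) => -Real.log (1 - (absNorm v.asIdeal : ℝ) ^ (-s)) := by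
    funext v
    rw [Real.log_inv]
  have hsum2 : HasSum (fun v : HeightOneSpectrum (𝓞 K) =>
      Real.log ((1 - (absNorm v.asIdeal : ℝ) ^ (-s))⁻¹))
      (∑' v : HeightOneSpectrum (𝓞 K), -Real.log (1 - (absNorm v.asIdeal : ℝ) ^ (-s))) := by
    rw [hlog]
    exact hsummable.hasSum
  have hprod := Real.hasProd_of_hasSum_log hpos hsum2
  have heq := (zetaR_hasProd K hs).unique hprod
  rw [heq, Real.log_exp]
  exact hsummable.hasSum

/-- The mass of all primes as a plain `tsum`. -/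
theorem mass_univ_eq (s : ℝ) :
    mass K Set.univ s = ∑' v : HeightOneSpectrum (𝓞 K), (absNorm v.asIdeal : ℝ) ^ (-s) := by
  show ∑' 𝔭 : (Set.univ : Set (HeightOneSpectrum (𝓞 K))), (absNorm 𝔭.1.asIdeal : ℝ) ^ (-s) = _
  exact tsum_univ fun 𝔭 : HeightOneSpectrum (𝓞 K) => (absNorm 𝔭.asIdeal : ℝ) ^ (-s)

/-- `∑_v N(v)^(-s) ≤ log ζ_K(s)`. -/
theorem mass_univ_le_log {s : ℝ} (hs : 1 < s) :
    mass K Set.univ s ≤ Real.log (zetaR K s) := by
  rw [mass_univ_eq, ← (hasSum_log_zetaR K hs).tsum_eq]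
  refine (summable_prime_rpow K hs).tsum_le_tsum (fun v => ?_) (hasSum_log_zetaR K hs).summable
  have h2 := term_le_half K v hs.le
  exact le_neg_log_one_sub (by linarith)

/-- `log ζ_K(s) ≤ ∑_v N(v)^(-s) + 2 ∑_v N(v)^(-2)`. -/
theorem log_le_mass_univ_add {s : ℝ} (hs : 1 < s) :
    Real.log (zetaR K s) ≤ mass K Set.univ s
      + 2 * ∑' v : HeightOneSpectrum (𝓞 K), (absNorm v.asIdeal : ℝ) ^ (-(2 : ℝ)) := by
  have h2sum := summable_prime_rpow K (by norm_num : (1 : ℝ) < 2)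
  rw [mass_univ_eq, ← (hasSum_log_zetaR K hs).tsum_eq, ← tsum_mul_left,
    ← ((summable_prime_rpow K hs).tsum_add (h2sum.mul_left 2))]
  refine (hasSum_log_zetaR K hs).summable.tsum_le_tsum (fun v => ?_)
    ((summable_prime_rpow K hs).add (h2sum.mul_left 2))
  have h1 := term_pos K v s
  have h2 := term_le_half K v hs.le
  have h3 := neg_log_one_sub_le h1.le h2
  have h4 : ((absNorm v.asIdeal : ℝ) ^ (-s)) ^ 2 ≤ (absNorm v.asIdeal : ℝ) ^ (-(2 : ℝ)) := by
    have hN : (0 : ℝ) ≤ (absNorm v.asIdeal : ℝ) := Nat.cast_nonneg _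
    rw [← Real.rpow_natCast, ← Real.rpow_mul hN]
    have := term_le_of_le K v (by push_cast; linarith : (2 : ℝ) ≤ s * ((2 : ℕ) : ℝ))
    have e : -s * ((2 : ℕ) : ℝ) = -(s * ((2 : ℕ) : ℝ)) := by ring
    rw [e]
    exact this
  linarith

/-- A prime ideal contains a rational prime. -/
theorem exists_prime_mem (v : HeightOneSpectrum (𝓞 K)) :
    ∃ q : ℕ, q.Prime ∧ ((q : ℕ) : 𝓞 K) ∈ v.asIdeal := by
  have key : ∀ m : ℕ, 2 ≤ m → ((m : ℕ) : 𝓞 K) ∈ v.asIdeal →
      ∃ q : ℕ, q.Prime ∧ ((q : ℕ) : 𝓞 K) ∈ v.asIdeal := by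
    intro m
    induction m using Nat.strong_induction_on with
    | _ m ih =>
      intro hm hmem
      by_cases hp : m.Prime
      · exact ⟨m, hp, hmem⟩
      · obtain ⟨a, ha, ha2, ham⟩ := Nat.exists_dvd_of_not_prime2 hm hp
        obtain ⟨b, rfl⟩ := ha
        have hb2 : 2 ≤ b := by
          by_contra hb
          have hb' : b = 0 ∨ b = 1 := by omega
          rcases hb' with rfl | rfl
          · simp at hm
          · simp at ham
        have hbm : b < a * b := by nlinarith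
        rw [Nat.cast_mul] at hmem
        rcases v.isPrime.mem_or_mem hmem with h | h
        · exact ih a ham ha2 h
        · exact ih b hbm hb2 h
  exact key _ (two_le_absNorm K v) (Ideal.absNorm_mem _)

theorem absNorm_dvd_pow (v : HeightOneSpectrum (𝓞 K)) {q : ℕ}
    (hmem : ((q : ℕ) : 𝓞 K) ∈ v.asIdeal) :
    absNorm v.asIdeal ∣ q ^ Module.finrank ℤ (𝓞 K) := by
  have hle : Ideal.span {((q : ℕ) : 𝓞 K)} ≤ v.asIdeal :=
    (Ideal.span_singleton_le_iff_mem _).mpr hmem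
  have h := Ideal.absNorm_dvd_absNorm_of_le hle
  rwa [Ideal.absNorm_span_natCast] at h

theorem absNorm_eq_pow (v : HeightOneSpectrum (𝓞 K)) {q : ℕ} (hq : q.Prime)
    (hmem : ((q : ℕ) : 𝓞 K) ∈ v.asIdeal) :
    ∃ j : ℕ, 1 ≤ j ∧ absNorm v.asIdeal = q ^ j := by
  obtain ⟨j, -, hj⟩ := (Nat.dvd_prime_pow hq).mp (absNorm_dvd_pow K v hmem)
  refine ⟨j, ?_, hj⟩
  by_contra h0
  have : j = 0 := by omega
  rw [this, pow_zero] at hj
  have := two_le_absNorm K v
  omega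

/-- At most `[K : ℚ]` primes contain a given rational prime. -/
theorem card_le_finrank (T : Finset (HeightOneSpectrum (𝓞 K))) {q : ℕ} (hq : q.Prime)
    (h : ∀ v ∈ T, ((q : ℕ) : 𝓞 K) ∈ v.asIdeal) :
    T.card ≤ Module.finrank ℤ (𝓞 K) := by
  classical
  have hinj : Function.Injective fun v : HeightOneSpectrum (𝓞 K) => v.asIdeal :=
    fun v w h => HeightOneSpectrum.ext h
  have hdvd : ∏ v ∈ T, v.asIdeal ∣ Ideal.span {((q : ℕ) : 𝓞 K)} := by
    have h1 : ∏ I ∈ T.image (fun v : HeightOneSpectrum (𝓞 K) => v.asIdeal), I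
        ∣ Ideal.span {((q : ℕ) : 𝓞 K)} := by
      refine Finset.prod_primes_dvd _ (fun I hI => ?_) (fun I hI => ?_)
      · obtain ⟨v, -, rfl⟩ := Finset.mem_image.mp hI
        exact v.prime
      · obtain ⟨v, hv, rfl⟩ := Finset.mem_image.mp hI
        rw [Ideal.dvd_iff_le]
        exact (Ideal.span_singleton_le_iff_mem _).mpr (h v hv)
    rwa [Finset.prod_image (fun v _ w _ hvw => hinj hvw)] at h1
  have h2 : absNorm (∏ v ∈ T, v.asIdeal) ∣ q ^ Module.finrank ℤ (𝓞 K) := by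
    have := Ideal.absNorm_dvd_absNorm_of_le (Ideal.le_of_dvd hdvd)
    rwa [Ideal.absNorm_span_natCast] at this
  rw [map_prod] at h2
  have h3 : q ^ T.card ∣ ∏ v ∈ T, absNorm v.asIdeal := by
    rw [← Finset.prod_const]
    refine Finset.prod_dvd_prod_of_dvd _ _ (fun v hv => ?_)
    obtain ⟨j, hj1, hj⟩ := absNorm_eq_pow K v hq (h v hv)
    rw [hj]
    exact dvd_pow_self q (by omega)
  exact (Nat.pow_dvd_pow_iff_le_right hq.one_lt).mp (h3.trans h2)

/-- The rational prime below `v`. -/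
noncomputable def below (v : HeightOneSpectrum (𝓞 K)) : ℕ := Nat.minFac (absNorm v.asIdeal)

theorem below_spec (v : HeightOneSpectrum (𝓞 K)) :
    (below K v).Prime ∧ ((below K v : ℕ) : 𝓞 K) ∈ v.asIdeal ∧
      ∃ j : ℕ, 1 ≤ j ∧ absNorm v.asIdeal = below K v ^ j := by
  obtain ⟨q, hq, hmem⟩ := exists_prime_mem K v
  obtain ⟨j, hj1, hj⟩ := absNorm_eq_pow K v hq hmem
  have hb : below K v = q := by
    unfold below
    rw [hj]
    exact hq.pow_minFac (by omega)
  rw [hb]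
  exact ⟨hq, hmem, j, hj1, hj⟩

theorem below_sq_le (v : HeightOneSpectrum (𝓞 K)) (hv : ¬ (absNorm v.asIdeal).Prime) :
    below K v ^ 2 ≤ absNorm v.asIdeal := by
  obtain ⟨hq, -, j, hj1, hj⟩ := below_spec K v
  have hj2 : 2 ≤ j := by
    by_contra hlt
    have : j = 1 := by omega
    rw [this, pow_one] at hj
    exact hv (hj ▸ hq)
  rw [hj]
  exact Nat.pow_le_pow_right hq.pos hj2

end MassUniv

open MassUniv in
/-- DA -/
theorem mass_univ_bounds (K : Type) [Field K] [NumberField K] :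
    ∃ C : ℝ, ∀ᶠ s in 𝓝[>] (1 : ℝ),
      Real.log (1 / (s - 1)) - C ≤ mass K Set.univ s ∧
      mass K Set.univ s ≤ Real.log (1 / (s - 1)) + C := by
  obtain ⟨c, C, hc, hC, hev⟩ := zetaR_bounds K
  set A : ℝ := ∑' v : HeightOneSpectrum (𝓞 K), (Ideal.absNorm v.asIdeal : ℝ) ^ (-(2 : ℝ)) with hA
  refine ⟨|Real.log C| + |Real.log c| + 2 * |A|, ?_⟩
  filter_upwards [hev, self_mem_nhdsWithin] with s hs hs1
  have hs1' : (1 : ℝ) < s := hs1
  have hpos : (0 : ℝ) < s - 1 := by linarith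
  have hlow := log_le_mass_univ_add K hs1'
  have hup := mass_univ_le_log K hs1'
  have hz1 : Real.log (c / (s - 1)) ≤ Real.log (zetaR K s) :=
    Real.log_le_log (div_pos hc hpos) hs.1
  have hzpos : 0 < zetaR K s := lt_of_lt_of_le (div_pos hc hpos) hs.1
  have hz2 : Real.log (zetaR K s) ≤ Real.log (C / (s - 1)) := Real.log_le_log hzpos hs.2
  have e1 : Real.log (c / (s - 1)) = Real.log c + Real.log (1 / (s - 1)) := by
    rw [Real.log_div hc.ne' hpos.ne', Real.log_div one_ne_zero hpos.ne', Real.log_one]; ring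
  have e2 : Real.log (C / (s - 1)) = Real.log C + Real.log (1 / (s - 1)) := by
    rw [Real.log_div hC.ne' hpos.ne', Real.log_div one_ne_zero hpos.ne', Real.log_one]; ring
  have a1 := neg_abs_le (Real.log c)
  have a2 := le_abs_self (Real.log C)
  have a3 := le_abs_self A
  have a4 := abs_nonneg (Real.log C)
  have a5 := abs_nonneg (Real.log c)
  have a6 := abs_nonneg A
  constructor
  · linarith
  · linarith

open MassUniv in
/-- DA': primes whose norm is not a rational prime have bounded mass. -/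
theorem mass_not_prime_norm_bounded (K : Type) [Field K] [NumberField K] :
    ∃ C : ℝ, ∀ s : ℝ, 1 < s →
      mass K {v | ¬ (Ideal.absNorm v.asIdeal).Prime} s ≤ C := by
  classical
  have hsum2 : Summable fun m : ℕ => 1 / (m : ℝ) ^ 2 :=
    Real.summable_one_div_nat_pow.mpr (by norm_num)
  refine ⟨(Module.finrank ℤ (𝓞 K) : ℝ) * ∑' m : ℕ, 1 / (m : ℝ) ^ 2, fun s hs => ?_⟩
  show ∑' 𝔭 : {v : HeightOneSpectrum (𝓞 K) | ¬ (Ideal.absNorm v.asIdeal).Prime},
      (Ideal.absNorm 𝔭.1.asIdeal : ℝ) ^ (-s) ≤ _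
  refine Real.tsum_le_of_sum_le (fun 𝔭 => (term_pos K 𝔭.1 s).le) (fun T => ?_)
  -- termwise bound
  have hterm : ∀ 𝔭 ∈ T, (Ideal.absNorm 𝔭.1.asIdeal : ℝ) ^ (-s)
      ≤ (fun m : ℕ => 1 / (m : ℝ) ^ 2) (below K 𝔭.1) := by
    intro 𝔭 _
    have h1 := term_le_of_le K 𝔭.1 hs.le
    have h2 := below_sq_le K 𝔭.1 𝔭.2
    have hbpos : 0 < below K 𝔭.1 := (below_spec K 𝔭.1).1.pos
    have h3 : ((below K 𝔭.1 : ℕ) : ℝ) ^ 2 ≤ (Ideal.absNorm 𝔭.1.asIdeal : ℝ) := by
      exact_mod_cast h2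
    have hb2 : (0 : ℝ) < ((below K 𝔭.1 : ℕ) : ℝ) ^ 2 := by positivity
    calc (Ideal.absNorm 𝔭.1.asIdeal : ℝ) ^ (-s)
        ≤ (Ideal.absNorm 𝔭.1.asIdeal : ℝ) ^ (-(1 : ℝ)) := h1
      _ = 1 / (Ideal.absNorm 𝔭.1.asIdeal : ℝ) := by rw [Real.rpow_neg_one, one_div]
      _ ≤ 1 / ((below K 𝔭.1 : ℕ) : ℝ) ^ 2 := one_div_le_one_div_of_le hb2 h3
  refine (Finset.sum_le_sum hterm).trans ?_
  rw [Finset.sum_comp (fun m : ℕ => 1 / (m : ℝ) ^ 2) (fun 𝔭 :
    {v : HeightOneSpectrum (𝓞 K) | ¬ (Ideal.absNorm v.asIdeal).Prime} => below K 𝔭.1)]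
  have hcount : ∀ b ∈ T.image (fun 𝔭 :
      {v : HeightOneSpectrum (𝓞 K) | ¬ (Ideal.absNorm v.asIdeal).Prime} => below K 𝔭.1),
      (T.filter (fun 𝔭 => below K 𝔭.1 = b)).card • (1 / (b : ℝ) ^ 2)
        ≤ (Module.finrank ℤ (𝓞 K) : ℝ) * (1 / (b : ℝ) ^ 2) := by
    intro b hb
    obtain ⟨𝔭₀, -, rfl⟩ := Finset.mem_image.mp hb
    have hq := (below_spec K 𝔭₀.1).1
    have hcard : (T.filter (fun 𝔭 => below K 𝔭.1 = below K 𝔭₀.1)).card
        ≤ Module.finrank ℤ (𝓞 K) := by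
      rw [← Finset.card_image_of_injective _ Subtype.val_injective]
      refine card_le_finrank K _ hq (fun v hv => ?_)
      obtain ⟨𝔭, h𝔭, rfl⟩ := Finset.mem_image.mp hv
      have := (Finset.mem_filter.mp h𝔭).2
      rw [← this]
      exact (below_spec K 𝔭.1).2.1
    rw [nsmul_eq_mul]
    have hnn : (0 : ℝ) ≤ 1 / ((below K 𝔭₀.1 : ℕ) : ℝ) ^ 2 := by positivity
    exact mul_le_mul_of_nonneg_right (by exact_mod_cast hcard) hnn
  refine (Finset.sum_le_sum hcount).trans ?_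
  rw [← Finset.mul_sum]
  refine mul_le_mul_of_nonneg_left ?_ (Nat.cast_nonneg _)
  exact hsum2.sum_le_tsum _ (fun m _ => by positivity)

end Fermat.Agent.S14
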