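import Fermat.Agent.S14.Defs
import Fermat.Agent.S14.ZetaBasic
import Fermat.Agent.S14.EulerProduct
import Fermat.Agent.S14.MassUniv

/-!
# S14, package DC (core): primes in the kernel of a nonzero class functional have mass at most
`(1/p) log (1/(s-1)) + O(1)`, given boundedness of the class-character `L`-series
-/

set_option autoImplicit false

open scoped NumberField Pointwise Topology
open IsDedekindDomain Filter

namespace Fermat.Agent.S14

namespace MassKernelCore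

open NumberField Ideal Polynomial

section Char

variable {p : ℕ} [Fact p.Prime]

/-- The standard additive character of `ZMod p`. -/
noncomputable def psi : AddChar (ZMod p) ℂ := ZMod.stdAddChar

theorem norm_psi (a : ZMod p) : ‖(psi a : ℂ)‖ = 1 := by
  show ‖((ZMod.toCircle a : Circle) : ℂ)‖ = 1
  exact Circle.norm_coe _

theorem psi_injective : Function.Injective (psi : ZMod p → ℂ) :=
  ZMod.injective_stdAddChar

theorem psi_ne_one {a : ZMod p} (ha : a ≠ 0) : (psi a : ℂ) ≠ 1 := by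
  intro h
  rw [← AddChar.map_zero_eq_one (psi : AddChar (ZMod p) ℂ)] at h
  exact ha (psi_injective h)

theorem psi_pow (a : ZMod p) : (psi a : ℂ) ^ p = 1 := by
  rw [← AddChar.map_nsmul_eq_pow, nsmul_eq_mul, ZMod.natCast_self, zero_mul,
    AddChar.map_zero_eq_one]

theorem prod_one_sub_psi_mul (x : ℂ) : ∏ j : ZMod p, (1 - (psi j : ℂ) * x) = 1 - x ^ p := by
  classical
  have hp : 0 < p := (Fact.out : p.Prime).pos
  have hprim := Complex.isPrimitiveRoot_exp p hp.ne'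
  have h := hprim.pow_sub_pow_eq_prod_sub_mul (1 : ℂ) x hp
  rw [one_pow] at h
  rw [h]
  have himg : Finset.univ.image (psi : ZMod p → ℂ) = nthRootsFinset p (1 : ℂ) := by
    refine Finset.eq_of_subset_of_card_le (fun z hz => ?_) ?_
    · obtain ⟨j, -, rfl⟩ := Finset.mem_image.mp hz
      rw [mem_nthRootsFinset hp]
      exact psi_pow j
    · rw [hprim.card_nthRootsFinset, Finset.card_image_of_injective _ psi_injective,
        Finset.card_univ, ZMod.card]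
  rw [← himg, Finset.prod_image (fun a _ b _ hab => psi_injective hab)]

theorem prod_one_sub_psi_mul' {a : ZMod p} (ha : a ≠ 0) (x : ℂ) :
    ∏ j : ZMod p, (1 - (psi (j * a) : ℂ) * x) = 1 - x ^ p := by
  rw [← prod_one_sub_psi_mul (p := p) x]
  exact Equiv.prod_comp (Equiv.mulRight₀ a ha) (fun j : ZMod p => 1 - (psi j : ℂ) * x)

end Char

section Lift

variable {p : ℕ} [Fact p.Prime] (K : Type) [Field K] [NumberField K]
  (π : Ideal (𝓞 K) → ZMod p)

theorem pi_top (hprin : ∀ x : 𝓞 K, x ≠ 0 → π (Ideal.span {x}) = 0) : π ⊤ = 0 := by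
  have := hprin 1 one_ne_zero
  rwa [Ideal.span_singleton_one] at this

omit [NumberField K] in
theorem ne_bot_of_mem (I : nonZeroDivisors (Ideal (𝓞 K))) : (I : Ideal (𝓞 K)) ≠ ⊥ :=
  mem_nonZeroDivisors_iff_ne_zero.mp I.2

theorem pi_eq_of_mk0_eq
    (hmul : ∀ I J : Ideal (𝓞 K), I ≠ ⊥ → J ≠ ⊥ → π (I * J) = π I + π J)
    (hprin : ∀ x : 𝓞 K, x ≠ 0 → π (Ideal.span {x}) = 0)
    {I J : nonZeroDivisors (Ideal (𝓞 K))} (h : ClassGroup.mk0 I = ClassGroup.mk0 J) :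
    π (I : Ideal (𝓞 K)) = π (J : Ideal (𝓞 K)) := by
  obtain ⟨x, y, hx, hy, hxy⟩ := ClassGroup.mk0_eq_mk0_iff.mp h
  have hx' : Ideal.span {x} ≠ (⊥ : Ideal (𝓞 K)) := by
    rwa [Ne, Ideal.span_singleton_eq_bot]
  have hy' : Ideal.span {y} ≠ (⊥ : Ideal (𝓞 K)) := by
    rwa [Ne, Ideal.span_singleton_eq_bot]
  have h1 := hmul _ _ hx' (ne_bot_of_mem K I)
  have h2 := hmul _ _ hy' (ne_bot_of_mem K J)
  rw [hprin x hx, zero_add] at h1
  rw [hprin y hy, zero_add] at h2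
  rw [← h1, ← h2, hxy]

/-- `π` factors through the class group. -/
theorem exists_piBar
    (hmul : ∀ I J : Ideal (𝓞 K), I ≠ ⊥ → J ≠ ⊥ → π (I * J) = π I + π J)
    (hprin : ∀ x : 𝓞 K, x ≠ 0 → π (Ideal.span {x}) = 0) :
    ∃ πb : ClassGroup (𝓞 K) →* Multiplicative (ZMod p),
      ∀ I : nonZeroDivisors (Ideal (𝓞 K)),
        πb (ClassGroup.mk0 I) = Multiplicative.ofAdd (π (I : Ideal (𝓞 K))) := by
  classical
  set r : ClassGroup (𝓞 K) → nonZeroDivisors (Ideal (𝓞 K)) :=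
    Function.surjInv ClassGroup.mk0_surjective with hr
  have hr' : ∀ c, ClassGroup.mk0 (r c) = c := Function.surjInv_eq ClassGroup.mk0_surjective
  have key : ∀ I : nonZeroDivisors (Ideal (𝓞 K)),
      π ((r (ClassGroup.mk0 I) : nonZeroDivisors (Ideal (𝓞 K))) : Ideal (𝓞 K))
        = π (I : Ideal (𝓞 K)) :=
    fun I => pi_eq_of_mk0_eq K π hmul hprin (hr' _)
  refine ⟨MonoidHom.mk' (fun c => Multiplicative.ofAdd
    (π ((r c : nonZeroDivisors (Ideal (𝓞 K))) : Ideal (𝓞 K)))) (fun c d => ?_), fun I => ?_⟩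
  · rw [← ofAdd_add]
    congr 1
    have h1 : c * d = ClassGroup.mk0 (r c * r d) := by
      rw [map_mul, hr', hr']
    rw [h1, key, Submonoid.coe_mul]
    exact hmul _ _ (ne_bot_of_mem K _) (ne_bot_of_mem K _)
  · show Multiplicative.ofAdd _ = _
    rw [key]

/-- The characters `χ_j = ψ(j · π̄)` of the class group. -/
noncomputable def chiJ (πb : ClassGroup (𝓞 K) →* Multiplicative (ZMod p)) (j : ZMod p) :
    ClassGroup (𝓞 K) →* ℂˣ :=
  (((psi (p := p)).mulShift j).toMonoidHom.comp πb).toHomUnits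

omit [NumberField K] in
theorem chiJ_apply (πb : ClassGroup (𝓞 K) →* Multiplicative (ZMod p)) (j : ZMod p)
    (c : ClassGroup (𝓞 K)) :
    ((chiJ K πb j c : ℂˣ) : ℂ) = psi (j * Multiplicative.toAdd (πb c)) := rfl

theorem chiJ_ne_one (πb : ClassGroup (𝓞 K) →* Multiplicative (ZMod p))
    (hπb : ∀ I : nonZeroDivisors (Ideal (𝓞 K)),
        πb (ClassGroup.mk0 I) = Multiplicative.ofAdd (π (I : Ideal (𝓞 K))))
    (hne : ∃ I : Ideal (𝓞 K), I ≠ ⊥ ∧ π I ≠ 0) {j : ZMod p} (hj : j ≠ 0) :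
    chiJ K πb j ≠ 1 := by
  obtain ⟨I₀, hI₀, hπ⟩ := hne
  intro h
  have h1 := chiJ_apply K πb j (ClassGroup.mk0 ⟨I₀, mem_nonZeroDivisors_iff_ne_zero.mpr hI₀⟩)
  rw [h, hπb] at h1
  simp only [MonoidHom.one_apply, Units.val_one, toAdd_ofAdd] at h1
  exact psi_ne_one (mul_ne_zero hj hπ) h1.symm

end Lift

section Main

variable {p : ℕ} [Fact p.Prime] (K : Type) [Field K] [NumberField K]
  (π : Ideal (𝓞 K) → ZMod p)

/-- The twisted completely multiplicative function `I ↦ ψ(j π(I)) N(I)^(-s)`. -/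
noncomputable def fJ (s : ℝ) (j : ZMod p) (I : Ideal (𝓞 K)) : ℂ :=
  (psi (j * π I) : ℂ) * (((absNorm I : ℝ) ^ (-s) : ℝ) : ℂ)

theorem norm_fJ (s : ℝ) (j : ZMod p) (I : Ideal (𝓞 K)) :
    ‖fJ K π s j I‖ = (absNorm I : ℝ) ^ (-s) := by
  unfold fJ
  rw [norm_mul, norm_psi, one_mul, Complex.norm_real,
    Real.norm_of_nonneg (Real.rpow_nonneg (Nat.cast_nonneg _) _)]

theorem hasProd_fJ
    (hmul : ∀ I J : Ideal (𝓞 K), I ≠ ⊥ → J ≠ ⊥ → π (I * J) = π I + π J)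
    (hprin : ∀ x : 𝓞 K, x ≠ 0 → π (Ideal.span {x}) = 0)
    {s : ℝ} (hs : 1 < s) (j : ZMod p) :
    HasProd (fun v : HeightOneSpectrum (𝓞 K) => (1 - fJ K π s j v.asIdeal)⁻¹)
      (∑' I : nonZeroDivisors (Ideal (𝓞 K)), fJ K π s j (I : Ideal (𝓞 K))) := by
  refine euler_product K (fJ K π s j) ?_ ?_ ?_ ?_
  · unfold fJ
    rw [pi_top K π hprin, mul_zero, AddChar.map_zero_eq_one, Ideal.absNorm_top, Nat.cast_one,
      Real.one_rpow, Complex.ofReal_one, one_mul]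
  · intro I J hI hJ
    unfold fJ
    rw [hmul I J hI hJ, mul_add, AddChar.map_add_eq_mul, map_mul Ideal.absNorm I J, Nat.cast_mul,
      Real.mul_rpow (Nat.cast_nonneg _) (Nat.cast_nonneg _), Complex.ofReal_mul]
    ring
  · simp_rw [norm_fJ]
    exact summable_ideal_rpow K hs
  · intro v
    rw [norm_fJ]
    have := MassUniv.term_le_half K v hs.le
    linarith

theorem prod_local_of_eq (s : ℝ) (v : HeightOneSpectrum (𝓞 K)) (h : π v.asIdeal = 0) :
    ∏ j : ZMod p, (1 - fJ K π s j v.asIdeal)⁻¹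
      = (((1 - (absNorm v.asIdeal : ℝ) ^ (-s))⁻¹ ^ p : ℝ) : ℂ) := by
  unfold fJ
  simp only [h, mul_zero, AddChar.map_zero_eq_one, one_mul]
  rw [Finset.prod_const, Finset.card_univ, ZMod.card]
  push_cast
  rfl

theorem prod_local_of_ne (s : ℝ) (v : HeightOneSpectrum (𝓞 K)) (h : π v.asIdeal ≠ 0) :
    ∏ j : ZMod p, (1 - fJ K π s j v.asIdeal)⁻¹
      = (((1 - ((absNorm v.asIdeal : ℝ) ^ (-s)) ^ p)⁻¹ : ℝ) : ℂ) := by
  rw [Finset.prod_inv_distrib]
  unfold fJ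
  rw [prod_one_sub_psi_mul' h]
  push_cast
  rfl

theorem one_le_norm_local {s : ℝ} (hs : 1 ≤ s) (v : HeightOneSpectrum (𝓞 K)) :
    1 ≤ ‖∏ j : ZMod p, (1 - fJ K π s j v.asIdeal)⁻¹‖ := by
  have hx0 := MassUniv.term_pos K v s
  have hx1 := MassUniv.term_le_half K v hs
  have hp : p ≠ 0 := (Fact.out : p.Prime).ne_zero
  by_cases h : π v.asIdeal = 0
  · rw [prod_local_of_eq K π s v h, Complex.norm_real, Real.norm_eq_abs]
    have h1 : 1 ≤ (1 - (absNorm v.asIdeal : ℝ) ^ (-s))⁻¹ :=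
      (one_le_inv₀ (by linarith)).mpr (by linarith)
    have h2 := one_le_pow₀ (n := p) h1
    rwa [abs_of_nonneg (by linarith)]
  · rw [prod_local_of_ne K π s v h, Complex.norm_real, Real.norm_eq_abs]
    have hlt : ((absNorm v.asIdeal : ℝ) ^ (-s)) ^ p < 1 := pow_lt_one₀ hx0.le (by linarith) hp
    have hpos : 0 < ((absNorm v.asIdeal : ℝ) ^ (-s)) ^ p := pow_pos hx0 p
    have h1 : 1 ≤ (1 - ((absNorm v.asIdeal : ℝ) ^ (-s)) ^ p)⁻¹ :=
      (one_le_inv₀ (by linarith)).mpr (by linarith)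
    rwa [abs_of_nonneg (by linarith)]

theorem exp_le_norm_local {s : ℝ} (hs : 1 ≤ s) (v : HeightOneSpectrum (𝓞 K))
    (h : π v.asIdeal = 0) :
    Real.exp ((p : ℝ) * (absNorm v.asIdeal : ℝ) ^ (-s))
      ≤ ‖∏ j : ZMod p, (1 - fJ K π s j v.asIdeal)⁻¹‖ := by
  have hx0 := MassUniv.term_pos K v s
  have hx1 := MassUniv.term_le_half K v hs
  rw [prod_local_of_eq K π s v h, Complex.norm_real, Real.norm_eq_abs]
  have h1 : Real.exp ((absNorm v.asIdeal : ℝ) ^ (-s)) ≤ (1 - (absNorm v.asIdeal : ℝ) ^ (-s))⁻¹ := by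
    have hle := MassUniv.le_neg_log_one_sub (by linarith : (absNorm v.asIdeal : ℝ) ^ (-s) < 1)
    rw [← Real.log_inv] at hle
    have hpos : 0 < (1 - (absNorm v.asIdeal : ℝ) ^ (-s))⁻¹ := inv_pos.mpr (by linarith)
    calc Real.exp ((absNorm v.asIdeal : ℝ) ^ (-s))
        ≤ Real.exp (Real.log ((1 - (absNorm v.asIdeal : ℝ) ^ (-s))⁻¹)) := Real.exp_le_exp.mpr hle
      _ = _ := Real.exp_log hpos
  have h2 : Real.exp ((p : ℝ) * (absNorm v.asIdeal : ℝ) ^ (-s))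
      = Real.exp ((absNorm v.asIdeal : ℝ) ^ (-s)) ^ p := by
    rw [← Real.exp_nat_mul]
  rw [h2]
  have h3 := pow_le_pow_left₀ (Real.exp_pos _).le h1 p
  exact h3.trans (le_abs_self _)

/-- Partial products of a real product with factors `≥ 1` are bounded by the product. -/
theorem prod_le_of_hasProd {ι : Type*} {G : ι → ℝ} {Q : ℝ} (h : HasProd G Q)
    (h1 : ∀ i, 1 ≤ G i) (T : Finset ι) : ∏ i ∈ T, G i ≤ Q := by
  refine ge_of_tendsto h (Filter.eventually_atTop.2 ⟨T, fun S hTS => ?_⟩)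
  exact Finset.prod_le_prod_of_subset_of_one_le hTS (fun i _ => le_trans zero_le_one (h1 i))
    (fun i _ _ => h1 i)

/-- The key inequality: for every finite set `T` of primes in the kernel of `π`,
`exp (p ∑_{v ∈ T} N(v)^(-s)) ≤ ∏_j ‖L(s, χ_j)‖`. -/
theorem exp_sum_le
    (hmul : ∀ I J : Ideal (𝓞 K), I ≠ ⊥ → J ≠ ⊥ → π (I * J) = π I + π J)
    (hprin : ∀ x : 𝓞 K, x ≠ 0 → π (Ideal.span {x}) = 0)
    {s : ℝ} (hs : 1 < s) (T : Finset (HeightOneSpectrum (𝓞 K)))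
    (hT : ∀ v ∈ T, π v.asIdeal = 0) :
    Real.exp ((p : ℝ) * ∑ v ∈ T, (absNorm v.asIdeal : ℝ) ^ (-s))
      ≤ ∏ j : ZMod p, ‖∑' I : nonZeroDivisors (Ideal (𝓞 K)), fJ K π s j (I : Ideal (𝓞 K))‖ := by
  have hprod := hasProd_prod (s := Finset.univ)
    (fun (j : ZMod p) _ => hasProd_fJ K π hmul hprin hs j)
  have hn := hprod.map (normHom : ℂ →*₀ ℝ) continuous_norm
  have hle := prod_le_of_hasProd hn (fun v => one_le_norm_local K π hs.le v) T
  have e1 : (normHom : ℂ →*₀ ℝ)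
      (∏ j : ZMod p, ∑' I : nonZeroDivisors (Ideal (𝓞 K)), fJ K π s j (I : Ideal (𝓞 K)))
      = ∏ j : ZMod p, ‖∑' I : nonZeroDivisors (Ideal (𝓞 K)), fJ K π s j (I : Ideal (𝓞 K))‖ :=
    map_prod (normHom : ℂ →*₀ ℝ) _ _
  rw [e1] at hle
  refine le_trans ?_ hle
  rw [Finset.mul_sum, Real.exp_sum]
  refine Finset.prod_le_prod (fun v _ => (Real.exp_pos _).le) (fun v hv => ?_)
  exact exp_le_norm_local K π hs.le v (hT v hv)

theorem tsum_fJ_zero (s : ℝ) :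
    ∑' I : nonZeroDivisors (Ideal (𝓞 K)), fJ K π s (0 : ZMod p) (I : Ideal (𝓞 K))
      = ((zetaR K s : ℝ) : ℂ) := by
  unfold fJ zetaR
  rw [Complex.ofReal_tsum]
  refine tsum_congr fun I => ?_
  rw [zero_mul, AddChar.map_zero_eq_one, one_mul]

end Main

end MassKernelCore

open MassKernelCore in
/-- DC, conditional on the boundedness of the class-character `L`-series on `(1, 2]`. -/
theorem mass_kernel_le_of_classL {p : ℕ} [Fact p.Prime] (K : Type) [Field K] [NumberField K]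
    (hL : ∀ χ : ClassGroup (𝓞 K) →* ℂˣ, χ ≠ 1 → ∃ B : ℝ, ∀ s ∈ Set.Ioc (1 : ℝ) 2,
      ‖∑' I : nonZeroDivisors (Ideal (𝓞 K)),
        ((χ (ClassGroup.mk0 I) : ℂˣ) : ℂ) *
          (((Ideal.absNorm (I : Ideal (𝓞 K)) : ℝ) ^ (-s) : ℝ) : ℂ)‖ ≤ B)
    (π : Ideal (𝓞 K) → ZMod p)
    (hmul : ∀ I J : Ideal (𝓞 K), I ≠ ⊥ → J ≠ ⊥ → π (I * J) = π I + π J)
    (hprin : ∀ x : 𝓞 K, x ≠ 0 → π (Ideal.span {x}) = 0)
    (hne : ∃ I : Ideal (𝓞 K), I ≠ ⊥ ∧ π I ≠ 0) :
    ∃ C : ℝ, ∀ᶠ s in 𝓝[>] (1 : ℝ),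
      mass K {v | π v.asIdeal = 0} s ≤ (1 / (p : ℝ)) * Real.log (1 / (s - 1)) + C := by
  classical
  obtain ⟨πb, hπb⟩ := exists_piBar K π hmul hprin
  have hB : ∀ j : ZMod p, ∃ B : ℝ, j ≠ 0 → ∀ s ∈ Set.Ioc (1 : ℝ) 2,
      ‖∑' I : nonZeroDivisors (Ideal (𝓞 K)), fJ K π s j (I : Ideal (𝓞 K))‖ ≤ B := by
    intro j
    by_cases hj : j = 0
    · exact ⟨0, fun h => absurd hj h⟩
    obtain ⟨B, hB⟩ := hL (chiJ K πb j) (chiJ_ne_one K π πb hπb hne hj)
    refine ⟨B, fun _ s hs => ?_⟩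
    have h1 := hB s hs
    have h2 : ∑' I : nonZeroDivisors (Ideal (𝓞 K)), fJ K π s j (I : Ideal (𝓞 K))
        = ∑' I : nonZeroDivisors (Ideal (𝓞 K)),
          ((chiJ K πb j (ClassGroup.mk0 I) : ℂˣ) : ℂ) *
            (((Ideal.absNorm (I : Ideal (𝓞 K)) : ℝ) ^ (-s) : ℝ) : ℂ) := by
      refine tsum_congr fun I => ?_
      unfold fJ
      rw [chiJ_apply, hπb, toAdd_ofAdd]
    rw [h2]
    exact h1
  choose B hB using hB
  obtain ⟨c, C, hc, hC, hev⟩ := zetaR_bounds K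
  set B' : ℝ := ∏ j ∈ Finset.univ.erase (0 : ZMod p), B j with hB'
  have hp0 : (0 : ℝ) < p := Nat.cast_pos.mpr (Fact.out : p.Prime).pos
  refine ⟨(Real.log C + Real.log B') / p, ?_⟩
  filter_upwards [hev, Ioc_mem_nhdsGT one_lt_two] with s hs hs12
  have hs1 : 1 < s := hs12.1
  have hpos : 0 < s - 1 := by linarith
  set Q : ℝ := ∏ j : ZMod p,
    ‖∑' I : nonZeroDivisors (Ideal (𝓞 K)), fJ K π s j (I : Ideal (𝓞 K))‖ with hQ
  have hQ1 : 1 ≤ Q := by
    have := exp_sum_le K π hmul hprin hs1 ∅ (by simp)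
    simpa using this
  have hzpos : 0 < zetaR K s := lt_of_lt_of_le (div_pos hc hpos) hs.1
  have hQle : Q ≤ zetaR K s * B' := by
    rw [hQ, ← Finset.mul_prod_erase Finset.univ _ (Finset.mem_univ (0 : ZMod p)), tsum_fJ_zero,
      Complex.norm_real, Real.norm_of_nonneg hzpos.le]
    refine mul_le_mul_of_nonneg_left ?_ hzpos.le
    exact Finset.prod_le_prod (fun j _ => norm_nonneg _)
      (fun j hj => hB j (Finset.ne_of_mem_erase hj) s hs12)
  have hB'pos : 0 < B' := by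
    by_contra hneg
    have hneg' : B' ≤ 0 := not_lt.mp hneg
    have : zetaR K s * B' ≤ 0 := mul_nonpos_of_nonneg_of_nonpos hzpos.le hneg'
    linarith
  show ∑' 𝔭 : {v : HeightOneSpectrum (𝓞 K) | π v.asIdeal = 0},
      (Ideal.absNorm 𝔭.1.asIdeal : ℝ) ^ (-s) ≤ _
  refine Real.tsum_le_of_sum_le (fun 𝔭 => (MassUniv.term_pos K 𝔭.1 s).le) (fun T => ?_)
  have hsum : ∑ 𝔭 ∈ T, (Ideal.absNorm 𝔭.1.asIdeal : ℝ) ^ (-s)
      = ∑ v ∈ T.map (Function.Embedding.subtype _), (Ideal.absNorm v.asIdeal : ℝ) ^ (-s) := by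
    rw [Finset.sum_map]
    rfl
  rw [hsum]
  have hexp := exp_sum_le K π hmul hprin hs1 (T.map (Function.Embedding.subtype _)) (by
    intro v hv
    obtain ⟨𝔭, -, rfl⟩ := Finset.mem_map.mp hv
    exact 𝔭.2)
  have h1 : (p : ℝ) * ∑ v ∈ T.map (Function.Embedding.subtype _),
      (Ideal.absNorm v.asIdeal : ℝ) ^ (-s) ≤ Real.log Q := by
    rw [← Real.log_exp ((p : ℝ) * _)]
    exact Real.log_le_log (Real.exp_pos _) hexp
  have h2 : Real.log Q ≤ Real.log (zetaR K s) + Real.log B' := by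
    rw [← Real.log_mul hzpos.ne' hB'pos.ne']
    exact Real.log_le_log (by linarith) hQle
  have h3 : Real.log (zetaR K s) ≤ Real.log C + Real.log (1 / (s - 1)) := by
    have h := Real.log_le_log hzpos hs.2
    have e : Real.log (C / (s - 1)) = Real.log C + Real.log (1 / (s - 1)) := by
      rw [Real.log_div hC.ne' hpos.ne', Real.log_div one_ne_zero hpos.ne', Real.log_one]
      ring
    rwa [e] at h
  have h4 : (1 / (p : ℝ)) * Real.log (1 / (s - 1)) + (Real.log C + Real.log B') / p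
      = (Real.log (1 / (s - 1)) + Real.log C + Real.log B') / p := by
    field_simp
    ring
  rw [h4, le_div_iff₀ hp0]
  linarith [mul_comm (p : ℝ) (∑ v ∈ T.map (Function.Embedding.subtype _),
      (Ideal.absNorm v.asIdeal : ℝ) ^ (-s))]

end Fermat.Agent.S14
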