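import Fermat.Agent.S14.Defs
import Fermat.Agent.S14.MassKernelCore
import Fermat.Agent.S14.ClassL

/-!
# S14, package DC: primes in the kernel of a nonzero class functional
-/

set_option autoImplicit false

open scoped NumberField Pointwise Topology
open IsDedekindDomain Filter

namespace Fermat.Agent.S14

/-- DC -/
theorem mass_kernel_le {p : ℕ} [Fact p.Prime] (K : Type) [Field K] [NumberField K]
    (π : Ideal (𝓞 K) → ZMod p)
    (hmul : ∀ I J : Ideal (𝓞 K), I ≠ ⊥ → J ≠ ⊥ → π (I * J) = π I + π J)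
    (hprin : ∀ x : 𝓞 K, x ≠ 0 → π (Ideal.span {x}) = 0)
    (hne : ∃ I : Ideal (𝓞 K), I ≠ ⊥ ∧ π I ≠ 0) :
    ∃ C : ℝ, ∀ᶠ s in 𝓝[>] (1 : ℝ),
      mass K {v | π v.asIdeal = 0} s ≤ (1 / (p : ℝ)) * Real.log (1 / (s - 1)) + C :=
  mass_kernel_le_of_classL K (classL_bounded K) π hmul hprin hne

end Fermat.Agent.S14
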