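import Fermat.Agent.S14.KummerSplit
import Fermat.Agent.S14.ZetaBasic
import Fermat.Agent.S14.MassUniv

/-!
# S14, package DB: the primes modulo which `η` is a `p`-th power have mass `≤ (1/p) log (1/(s-1))`

Each such prime `v ∤ p η` has `p` primes of `K' = K(η^(1/p))` of the same norm above it
(`exists_kummer_splitting`), so `p * mass_K(S) ≤ mass_{K'}(univ) + O(1)`.
-/

set_option autoImplicit false

open scoped NumberField Pointwise Topology
open IsDedekindDomain Filter

namespace Fermat.Agent.S14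

namespace MassResidue

variable (K : Type) [Field K] [NumberField K]

/-- Only finitely many primes contain a given nonzero element. -/
theorem finite_primes_of_mem (x : 𝓞 K) (hx : x ≠ 0) :
    {v : HeightOneSpectrum (𝓞 K) | x ∈ v.asIdeal}.Finite := by
  have h := Ideal.finite_factors (I := Ideal.span {x}) (by simpa using hx)
  refine h.subset ?_
  intro v hv
  exact Ideal.dvd_span_singleton.mpr hv

/-- The counting estimate: if every prime of `S` outside the finite set `E` has `p` primes of `K'`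
of the same norm above it, then `p * mass_K(S) ≤ mass_{K'}(univ) + p * |E|`. -/
theorem mul_mass_le_of_splitting {p : ℕ} (K' : Type) [Field K'] [NumberField K']
    (f : HeightOneSpectrum (𝓞 K') → HeightOneSpectrum (𝓞 K))
    (E : Set (HeightOneSpectrum (𝓞 K))) (hE : E.Finite)
    (S : Set (HeightOneSpectrum (𝓞 K)))
    (hS : ∀ v ∈ S, v ∉ E → ∃ T : Finset (HeightOneSpectrum (𝓞 K')), T.card = p ∧
      ∀ w ∈ T, f w = v ∧ Ideal.absNorm w.asIdeal = Ideal.absNorm v.asIdeal)
    {s : ℝ} (hs : 1 < s) :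
    (p : ℝ) * mass K S s ≤ mass K' Set.univ s + p * E.ncard := by
  classical
  set g : HeightOneSpectrum (𝓞 K) → ℝ := fun v => (Ideal.absNorm v.asIdeal : ℝ) ^ (-s) with hg
  set g' : HeightOneSpectrum (𝓞 K') → ℝ := fun w => (Ideal.absNorm w.asIdeal : ℝ) ^ (-s) with hg'
  have hg'sum : Summable g' := summable_prime_rpow K' hs
  have hg'0 : ∀ w, 0 ≤ g' w := fun w => (MassUniv.term_pos K' w s).le
  have hg0 : ∀ v, 0 ≤ g v := fun v => (MassUniv.term_pos K v s).le
  have hg1 : ∀ v, g v ≤ 1 := fun v =>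
    (MassUniv.term_le_half K v hs.le).trans (by norm_num)
  have hM : mass K' Set.univ s = ∑' w, g' w := MassUniv.mass_univ_eq K' s
  -- the chosen sets of primes above
  let T : HeightOneSpectrum (𝓞 K) → Finset (HeightOneSpectrum (𝓞 K')) := fun v =>
    if h : v ∈ S ∧ v ∉ E then (hS v h.1 h.2).choose else ∅
  have hT : ∀ v, v ∈ S → v ∉ E → (T v).card = p ∧
      ∀ w ∈ T v, f w = v ∧ Ideal.absNorm w.asIdeal = Ideal.absNorm v.asIdeal := by
    intro v hv hvE
    have h : v ∈ S ∧ v ∉ E := ⟨hv, hvE⟩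
    simp only [T, dif_pos h]
    exact (hS v hv hvE).choose_spec
  have hmass : (p : ℝ) * mass K S s = ∑' v : S, (p : ℝ) * g v := by
    show (p : ℝ) * ∑' v : S, g v = _
    rw [tsum_mul_left]
  rw [hmass]
  refine Real.tsum_le_of_sum_le (fun v => mul_nonneg (Nat.cast_nonneg p) (hg0 v)) ?_
  intro u
  rw [← Finset.sum_filter_add_sum_filter_not u (fun v : S => (v : HeightOneSpectrum (𝓞 K)) ∉ E)]
  refine add_le_add ?_ ?_
  · -- the primes outside `E`
    set u' := u.filter (fun v : S => (v : HeightOneSpectrum (𝓞 K)) ∉ E) with hu'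
    have h1 : ∀ v ∈ u', (p : ℝ) * g v = ∑ w ∈ T v, g' w := by
      intro v hv
      have hvE : (v : HeightOneSpectrum (𝓞 K)) ∉ E := (Finset.mem_filter.mp hv).2
      obtain ⟨hcard, hw⟩ := hT v v.2 hvE
      have : ∀ w ∈ T v, g' w = g v := by
        intro w hwT
        simp only [hg, hg']
        rw [(hw w hwT).2]
      rw [Finset.sum_congr rfl this, Finset.sum_const, hcard, nsmul_eq_mul]
    rw [Finset.sum_congr rfl h1]
    have hdisj : (u' : Set S).PairwiseDisjoint (fun v : S => T v) := by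
      intro v hv v' hv' hne
      rw [Function.onFun, Finset.disjoint_left]
      intro w hw hw'
      have hvE : (v : HeightOneSpectrum (𝓞 K)) ∉ E := (Finset.mem_filter.mp hv).2
      have hv'E : (v' : HeightOneSpectrum (𝓞 K)) ∉ E := (Finset.mem_filter.mp hv').2
      have e1 := ((hT v v.2 hvE).2 w hw).1
      have e2 := ((hT v' v'.2 hv'E).2 w hw').1
      exact hne (Subtype.ext (e1.symm.trans e2))
    rw [← Finset.sum_biUnion hdisj, hM]
    exact hg'sum.sum_le_tsum _ (fun w _ => hg'0 w)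
  · -- the primes in `E`
    set u'' := u.filter (fun v : S => ¬ (v : HeightOneSpectrum (𝓞 K)) ∉ E) with hu''
    have hcard : u''.card ≤ E.ncard := by
      rw [Set.ncard_eq_toFinset_card E hE]
      refine Finset.card_le_card_of_injOn (fun v : S => (v : HeightOneSpectrum (𝓞 K))) ?_ ?_
      · intro v hv
        have : ¬ (v : HeightOneSpectrum (𝓞 K)) ∉ E := (Finset.mem_filter.mp hv).2
        exact (Set.Finite.mem_toFinset hE).mpr (not_not.mp this)
      · intro v _ v' _ h
        exact Subtype.ext h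
    calc ∑ v ∈ u'', (p : ℝ) * g v ≤ ∑ _v ∈ u'', (p : ℝ) :=
          Finset.sum_le_sum fun v _ => by
            have := hg1 v
            have hp0 : (0 : ℝ) ≤ p := Nat.cast_nonneg p
            nlinarith
      _ = (u''.card : ℝ) * p := by rw [Finset.sum_const, nsmul_eq_mul]
      _ ≤ p * E.ncard := by
          have : (u''.card : ℝ) ≤ E.ncard := by exact_mod_cast hcard
          have hp0 : (0 : ℝ) ≤ p := Nat.cast_nonneg p
          nlinarith

end MassResidue

/-- DB -/
theorem mass_power_residue_le {p : ℕ} [Fact p.Prime] (K : Type) [Field K] [NumberField K]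
    (ζ : K) (hζ : IsPrimitiveRoot ζ p) (η : 𝓞 K) (hη : ¬ ∃ x : K, (η : K) = x ^ p) :
    ∃ C : ℝ, ∀ᶠ s in 𝓝[>] (1 : ℝ),
      mass K {v | ∃ m : 𝓞 K, η - m ^ p ∈ v.asIdeal} s ≤ (1 / (p : ℝ)) * Real.log (1 / (s - 1)) + C := by
  have hpP : p.Prime := Fact.out
  have hp0 : (0 : ℝ) < p := by exact_mod_cast hpP.pos
  obtain ⟨K', _, _, f, hf⟩ := exists_kummer_splitting K ζ hζ η hη
  obtain ⟨C', hC'⟩ := mass_univ_bounds K'
  have hη0 : η ≠ 0 := by
    rintro rfl
    exact hη ⟨0, by simp [hpP.ne_zero]⟩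
  have hpη : (p : 𝓞 K) * η ≠ 0 :=
    mul_ne_zero (Nat.cast_ne_zero.mpr hpP.ne_zero) hη0
  set E : Set (HeightOneSpectrum (𝓞 K)) := {v | (p : 𝓞 K) * η ∈ v.asIdeal} with hEdef
  have hE : E.Finite := MassResidue.finite_primes_of_mem K _ hpη
  refine ⟨C' / p + E.ncard, ?_⟩
  filter_upwards [hC', self_mem_nhdsWithin] with s hs hs1
  have h1 := MassResidue.mul_mass_le_of_splitting K K' f E hE
    {v | ∃ m : 𝓞 K, η - m ^ p ∈ v.asIdeal} (fun v hv hvE => hf v hvE hv) (s := s) hs1
  have h2 := hs.2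
  have h3 : (p : ℝ) * mass K {v | ∃ m : 𝓞 K, η - m ^ p ∈ v.asIdeal} s
      ≤ Real.log (1 / (s - 1)) + C' + p * E.ncard := by linarith
  have h4 : mass K {v | ∃ m : 𝓞 K, η - m ^ p ∈ v.asIdeal} s
      ≤ (Real.log (1 / (s - 1)) + C' + p * E.ncard) / p := by
    rw [le_div_iff₀ hp0]
    linarith
  calc mass K {v | ∃ m : 𝓞 K, η - m ^ p ∈ v.asIdeal} s
      ≤ (Real.log (1 / (s - 1)) + C' + p * E.ncard) / p := h4
    _ = (1 / (p : ℝ)) * Real.log (1 / (s - 1)) + (C' / p + E.ncard) := by
        field_simp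
        ring

end Fermat.Agent.S14
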