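import Fermat.Agent.S14.Thaine

set_option autoImplicit false

open scoped NumberField Pointwise

namespace Fermat.Agent.S14

namespace ThaineCons

section
variable {p : ℕ} [NeZero p] {K : Type} [Field K] [NumberField K] [IsCyclotomicExtension {p} ℚ K]
variable {π : Ideal (𝓞 K) → ZMod p}

lemma pi_top (hπ : IsPi p K π) : π ⊤ = 0 := by
  have h := hπ.mul ⊤ ⊤ top_ne_bot top_ne_bot
  rw [Ideal.top_mul] at h
  have : π ⊤ + π ⊤ = π ⊤ + 0 := by rw [add_zero]; exact h.symm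
  exact add_left_cancel this

lemma pi_pow (hπ : IsPi p K π) (I : Ideal (𝓞 K)) (hI : I ≠ ⊥) (n : ℕ) :
    π (I ^ n) = (n : ZMod p) * π I := by
  induction n with
  | zero => simp [Ideal.one_eq_top, pi_top hπ]
  | succ n ih =>
    rw [pow_succ, hπ.mul _ _ (pow_ne_zero n hI) hI, ih]
    push_cast
    ring

lemma pi_prod (hπ : IsPi p K π) {ι : Type} (s : Finset ι) (f : ι → Ideal (𝓞 K))
    (hf : ∀ i ∈ s, f i ≠ ⊥) : π (∏ i ∈ s, f i) = ∑ i ∈ s, π (f i) := by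
  classical
  induction s using Finset.induction_on with
  | empty => simp [Ideal.one_eq_top, pi_top hπ]
  | insert a s ha ih =>
    rw [Finset.prod_insert ha, Finset.sum_insert ha]
    have h1 : f a ≠ ⊥ := hf a (Finset.mem_insert_self a s)
    have h2 : ∀ i ∈ s, f i ≠ ⊥ := fun i hi => hf i (Finset.mem_insert_of_mem hi)
    have h3 : ∏ i ∈ s, f i ≠ ⊥ := by
      rw [← Ideal.zero_eq_bot]
      exact Finset.prod_ne_zero_iff.mpr h2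
    rw [hπ.mul _ _ h1 h3, ih h2]

end

end ThaineCons

open ThaineCons in
/-- TC : Thaine's consequence. -/
theorem thaine_consequence {p ℓ : ℕ} [Fact p.Prime] [Fact ℓ.Prime] (hp : 3 ≤ p) (hℓ : ℓ % p = 1)
    (K : Type) [Field K] [NumberField K] [IsCyclotomicExtension {p} ℚ K]
    (ζ : 𝓞 K) (hζ : IsPrimitiveRoot ζ p) (π : Ideal (𝓞 K) → ZMod p) (hπ : IsPi p K π)
    (𝔩 : Ideal (𝓞 K)) [𝔩.IsPrime] (h𝔩 : (ℓ : 𝓞 K) ∈ 𝔩) (hπ𝔩 : π 𝔩 ≠ 0) :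
    ∃ m : 𝓞 K, eta p K ζ - m ^ p ∈ 𝔩 := by
  classical
  obtain ⟨g, r, y, 𝔟, hy, hspan, hcong⟩ := thaine_relation hp hℓ K ζ hζ 𝔩 h𝔩
  have hℓ0 : (ℓ : 𝓞 K) ≠ 0 := Nat.cast_ne_zero.mpr (Fact.out : ℓ.Prime).ne_zero
  have h𝔩0 : 𝔩 ≠ ⊥ := by
    rintro rfl
    exact hℓ0 (by simpa using h𝔩)
  have hσ𝔩 : ∀ σ : K ≃ₐ[ℚ] K, σ • 𝔩 ≠ ⊥ := by
    intro σ h
    apply h𝔩0
    have : σ⁻¹ • (σ • 𝔩) = σ⁻¹ • (⊥ : Ideal (𝓞 K)) := by rw [h]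
    rw [inv_smul_smul] at this
    rw [this]
    exact Ideal.smul_bot _
  have hℓ1 : 1 ≤ ℓ := (Fact.out : ℓ.Prime).one_lt.le
  have h𝔟 : 𝔟 ≠ ⊥ := by
    rintro rfl
    apply hy
    have h1 : (⊥ : Ideal (𝓞 K)) ^ (ℓ - 1) = ⊥ := by
      rw [← Ideal.zero_eq_bot]
      exact zero_pow (by have := (Fact.out : ℓ.Prime).two_le; omega)
    rw [h1, Ideal.bot_mul] at hspan
    simpa using hspan
  -- apply π
  have hprod0 : ∏ σ : K ≃ₐ[ℚ] K, (σ • 𝔩) ^ (r σ) ≠ ⊥ := by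
    rw [← Ideal.zero_eq_bot]
    exact Finset.prod_ne_zero_iff.mpr fun σ _ => pow_ne_zero _ (hσ𝔩 σ)
  have h1 := hπ.principal y hy
  rw [hspan, hπ.mul _ _ (pow_ne_zero _ h𝔟) hprod0, pi_pow hπ 𝔟 h𝔟,
    pi_prod hπ Finset.univ _ (fun σ _ => pow_ne_zero _ (hσ𝔩 σ))] at h1
  have hℓp : ((ℓ - 1 : ℕ) : ZMod p) = 0 := by
    rw [ZMod.natCast_eq_zero_iff]
    exact ⟨ℓ / p, by have := Nat.div_add_mod ℓ p; omega⟩
  rw [hℓp, zero_mul, zero_add] at h1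
  have h2 : ∑ σ : K ≃ₐ[ℚ] K, π ((σ • 𝔩) ^ (r σ)) =
      ((∑ σ : K ≃ₐ[ℚ] K, r σ * chi p K σ ^ 2 : ℕ) : ZMod p) * π 𝔩 := by
    push_cast
    rw [Finset.sum_mul]
    refine Finset.sum_congr rfl fun σ _ => ?_
    rw [pi_pow hπ _ (hσ𝔩 σ), hπ.equivariant σ 𝔩 h𝔩0]
    ring
  rw [h2] at h1
  have h3 : ((∑ σ : K ≃ₐ[ℚ] K, r σ * chi p K σ ^ 2 : ℕ) : ZMod p) = 0 := by
    rcases mul_eq_zero.mp h1 with h | h
    · exact h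
    · exact absurd h hπ𝔩
  rw [ZMod.natCast_eq_zero_iff] at h3
  obtain ⟨R, hR⟩ := h3
  refine ⟨(g : 𝓞 K) ^ R, ?_⟩
  -- congruences modulo 𝔩
  have hc : ∀ σ : K ≃ₐ[ℚ] K, Ideal.Quotient.mk 𝔩 (σ⁻¹ • (1 + ζ)) =
      Ideal.Quotient.mk 𝔩 ((g : 𝓞 K) ^ (r σ)) := by
    intro σ
    rw [Ideal.Quotient.eq]
    have h := hcong σ
    rw [Ideal.mem_pointwise_smul_iff_inv_smul_mem] at h
    have h4 : σ⁻¹ • ((g : 𝓞 K) ^ (r σ)) = (g : 𝓞 K) ^ (r σ) := by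
      rw [smul_pow']
      congr 1
      exact map_intCast (MulSemiringAction.toRingHom (K ≃ₐ[ℚ] K) (𝓞 K) σ⁻¹) g
    rwa [smul_sub, h4] at h
  rw [← Ideal.Quotient.eq, eta, map_prod]
  have h5 : ∀ σ : K ≃ₐ[ℚ] K, Ideal.Quotient.mk 𝔩 ((σ⁻¹ • (1 + ζ)) ^ (chi p K σ ^ 2)) =
      Ideal.Quotient.mk 𝔩 (g : 𝓞 K) ^ (r σ * chi p K σ ^ 2) := by
    intro σ
    rw [map_pow, hc σ, map_pow, ← pow_mul]
  rw [Finset.prod_congr rfl fun σ _ => h5 σ, Finset.prod_pow_eq_pow_sum, hR, map_pow, map_pow,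
    ← pow_mul, mul_comm]

end Fermat.Agent.S14
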