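import Fermat.Agent.S14.Density
import Fermat.Agent.S14.ThaineCons
import Fermat.Agent.S14.Eta
import Fermat.Agent.S14.MassResidue
import Fermat.Agent.S14.MassKernel

set_option autoImplicit false

open scoped NumberField Pointwise Topology
open IsDedekindDomain Filter

namespace Fermat.Agent.S14

namespace NoPi

/-- A prime of `ℚ(ζ_p)` of prime norm `ℓ` not containing `p` has `ℓ ≡ 1 mod p`. -/
lemma norm_mod_eq_one {p : ℕ} [Fact p.Prime] (K : Type) [Field K] [NumberField K]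
    [IsCyclotomicExtension {p} ℚ K] (ζ : 𝓞 K) (hζ : IsPrimitiveRoot ζ p)
    (v : HeightOneSpectrum (𝓞 K)) (hv : (p : 𝓞 K) ∉ v.asIdeal) :
    Ideal.absNorm v.asIdeal % p = 1 := by
  classical
  have hp : p.Prime := Fact.out
  have hmax : v.asIdeal.IsMaximal := v.isMaximal
  let _ : Field (𝓞 K ⧸ v.asIdeal) := Ideal.Quotient.field v.asIdeal
  have hfin : Finite (𝓞 K ⧸ v.asIdeal) := Ring.HasFiniteQuotients.finiteQuotient v.ne_bot
  let _ : Fintype (𝓞 K ⧸ v.asIdeal) := Fintype.ofFinite _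
  have hcard : Fintype.card (𝓞 K ⧸ v.asIdeal) = Ideal.absNorm v.asIdeal := by
    rw [Ideal.absNorm_apply, Submodule.cardQuot_apply, Nat.card_eq_fintype_card]
  set x : 𝓞 K ⧸ v.asIdeal := Ideal.Quotient.mk v.asIdeal ζ with hx
  have hxp : x ^ p = 1 := by
    rw [hx, ← map_pow, hζ.pow_eq_one, map_one]
  have hζK : IsPrimitiveRoot (ζ : K) p := hζ.map_of_injective NumberField.RingOfIntegers.coe_injective
  have hdvd : ζ - 1 ∣ (p : 𝓞 K) := hζK.toInteger_sub_one_dvd_prime'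
  have hx1 : x ≠ 1 := by
    intro h
    apply hv
    have h1 : ζ - 1 ∈ v.asIdeal := by
      rw [← Ideal.Quotient.eq_zero_iff_mem, map_sub, map_one, ← hx, h, sub_self]
    obtain ⟨c, hc⟩ := hdvd
    rw [hc]
    exact Ideal.mul_mem_right _ _ h1
  have hx0 : x ≠ 0 := by
    intro h
    rw [h, zero_pow hp.ne_zero] at hxp
    exact zero_ne_one hxp
  have hord : orderOf x = p := by
    have h1 : orderOf x ∣ p := orderOf_dvd_of_pow_eq_one hxp
    rcases (Nat.dvd_prime hp).mp h1 with h | h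
    · exact absurd (orderOf_eq_one_iff.mp h) hx1
    · exact h
  have hpow : x ^ (Fintype.card (𝓞 K ⧸ v.asIdeal) - 1) = 1 :=
    FiniteField.pow_card_sub_one_eq_one x hx0
  have h2 : p ∣ Fintype.card (𝓞 K ⧸ v.asIdeal) - 1 := by
    rw [← hord]
    exact orderOf_dvd_of_pow_eq_one hpow
  rw [hcard] at h2
  have hpos : 1 ≤ Ideal.absNorm v.asIdeal := by
    rw [← hcard]
    exact Fintype.card_pos
  obtain ⟨c, hc⟩ := h2
  have h3 : Ideal.absNorm v.asIdeal = p * c + 1 := by omega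
  rw [h3, Nat.mul_add_mod, Nat.mod_eq_of_lt hp.one_lt]

end NoPi

open NoPi in
/-- NOPI : there is no nonzero class functional of type `ω²`. -/
theorem no_pi {p : ℕ} [Fact p.Prime] (hp : 5 ≤ p) (K : Type) [Field K] [NumberField K]
    [IsCyclotomicExtension {p} ℚ K] (π : Ideal (𝓞 K) → ZMod p) (hπ : IsPi p K π)
    (I : Ideal (𝓞 K)) (hI : I ≠ ⊥) : π I = 0 := by
  classical
  by_contra hne
  have hpp : p.Prime := Fact.out
  have hζK : IsPrimitiveRoot (IsCyclotomicExtension.zeta p ℚ K) p :=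
    IsCyclotomicExtension.zeta_spec p ℚ K
  set ζ : 𝓞 K := hζK.toInteger with hζdef
  have hζ : IsPrimitiveRoot ζ p := hζK.toInteger_isPrimitiveRoot
  have h₁ := mass_kernel_le K π hπ.mul hπ.principal ⟨I, hI, hne⟩
  have h₂ := mass_power_residue_le K (IsCyclotomicExtension.zeta p ℚ K) hζK (eta p K ζ)
    (eta_spec hp K ζ hζ).2.2.2
  have h₃ := mass_not_prime_norm_bounded K
  have hp0 : (p : 𝓞 K) ≠ 0 := Nat.cast_ne_zero.mpr hpp.ne_zero
  have hF : {v : HeightOneSpectrum (𝓞 K) | (p : 𝓞 K) ∈ v.asIdeal}.Finite := by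
    have h := Ideal.finite_factors (I := Ideal.span {(p : 𝓞 K)})
      (by rw [Ne, Ideal.zero_eq_bot, Ideal.span_singleton_eq_bot]; exact hp0)
    refine h.subset fun v hv => ?_
    show v.asIdeal ∣ Ideal.span {(p : 𝓞 K)}
    rw [Ideal.dvd_span_singleton]
    exact hv
  refine density_contradiction (by omega : 3 ≤ p) K
    {v | π v.asIdeal = 0} {v | ∃ m : 𝓞 K, eta p K ζ - m ^ p ∈ v.asIdeal}
    {v | ¬ (Ideal.absNorm v.asIdeal).Prime} h₁ h₂ h₃
    {v | (p : 𝓞 K) ∈ v.asIdeal} hF fun v => ?_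
  by_cases hprime : (Ideal.absNorm v.asIdeal).Prime
  · by_cases hpv : (p : 𝓞 K) ∈ v.asIdeal
    · exact Or.inr (Or.inr (Or.inr hpv))
    · by_cases hπv : π v.asIdeal = 0
      · exact Or.inl hπv
      · right; left
        have : Fact (Ideal.absNorm v.asIdeal).Prime := ⟨hprime⟩
        have : v.asIdeal.IsPrime := v.isPrime
        exact thaine_consequence (by omega : 3 ≤ p) (norm_mod_eq_one K ζ hζ v hpv) K ζ hζ π hπ
          v.asIdeal (Ideal.absNorm_mem v.asIdeal) hπv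
  · exact Or.inr (Or.inr (Or.inl hprime))

end Fermat.Agent.S14
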