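import Mathlib

set_option autoImplicit false

open scoped NumberField
open IsDedekindDomain

namespace Fermat.Agent.S14
namespace ReductionLocal

/-- (R1) trivial inertia group in `Gal(L/K')` at `w` ⟹ `e(w|v) = 1` ⟹ the `w`-adic valuation
restricts to the `v`-adic valuation on `𝓞 K'`. -/
theorem intValuation_algebraMap_eq_of_inertia (L : Type) [Field L] [NumberField L] [IsGalois ℚ L]
    (K' : IntermediateField ℚ L) (v : HeightOneSpectrum (𝓞 K')) (w : HeightOneSpectrum (𝓞 L))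
    [w.asIdeal.LiesOver v.asIdeal]
    (h : ∀ τ : L ≃ₐ[ℚ] L, (∀ x ∈ K', τ x = x) → (∀ x : 𝓞 L, τ • x - x ∈ w.asIdeal) → τ = 1)
    (x : 𝓞 K') :
    w.intValuation (algebraMap (𝓞 K') (𝓞 L) x) = v.intValuation x := by
  have hinst : IsGaloisGroup Gal(L/K') (𝓞 K') (𝓞 L) := inferInstance
  have hcard : Nat.card (Ideal.inertia Gal(L/K') w.asIdeal) = 1 := by
    rw [Nat.card_eq_one_iff_unique]
    refine ⟨⟨?_⟩, ⟨1⟩⟩
    rintro ⟨σ, hσ⟩ ⟨σ', hσ'⟩
    have key : ∀ ρ : Gal(L/K'), ρ ∈ Ideal.inertia Gal(L/K') w.asIdeal → ρ = 1 := by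
      intro ρ hρ
      have h1 : ρ.restrictScalars ℚ = 1 := by
        apply h
        · intro y hy
          exact ρ.commutes ⟨y, hy⟩
        · intro y
          exact hρ y
      ext y
      have := congrArg (fun τ : L ≃ₐ[ℚ] L => τ y) h1
      simpa using this
    exact Subtype.ext ((key σ hσ).trans (key σ' hσ').symm)
  have hv : v.asIdeal.IsMaximal := v.isMaximal
  have hfin : Finite (𝓞 K' ⧸ v.asIdeal) := Ideal.finiteQuotientOfFreeOfNeBot _ v.ne_bot
  have e1 := Ideal.card_inertia_eq_ramificationIdxIn (G := Gal(L/K')) v.asIdeal w.asIdeal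
  rw [hcard, Ideal.ramificationIdxIn_eq_ramificationIdx v.asIdeal w.asIdeal Gal(L/K'),
    ← Ideal.ramificationIdx'_eq_ramificationIdx v.asIdeal w.asIdeal v.ne_bot] at e1
  have := HeightOneSpectrum.intValuation_liesOver v w x
  rw [← e1, pow_one] at this
  exact this.symm

open scoped Pointwise in
/-- (R2) trivial decomposition group in `Gal(L/K')` at `w` ⟹ `f(w|v) = 1`: every algebraic
integer of `L` is congruent modulo `w` to one of `K'`. -/
theorem exists_sub_mem_of_stabilizer (L : Type) [Field L] [NumberField L] [IsGalois ℚ L]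
    (K' : IntermediateField ℚ L) (v : HeightOneSpectrum (𝓞 K')) (w : HeightOneSpectrum (𝓞 L))
    [w.asIdeal.LiesOver v.asIdeal]
    (h : ∀ τ : L ≃ₐ[ℚ] L, (∀ x ∈ K', τ x = x) → (∀ x ∈ w.asIdeal, τ • x ∈ w.asIdeal) → τ = 1)
    (y : 𝓞 L) :
    ∃ a : 𝓞 K', y - algebraMap (𝓞 K') (𝓞 L) a ∈ w.asIdeal := by
  have hinst : IsGaloisGroup Gal(L/K') (𝓞 K') (𝓞 L) := inferInstance
  have hcard : Nat.card (MulAction.stabilizer Gal(L/K') w.asIdeal) = 1 := by
    rw [Nat.card_eq_one_iff_unique]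
    refine ⟨⟨?_⟩, ⟨1⟩⟩
    rintro ⟨σ, hσ⟩ ⟨σ', hσ'⟩
    have key : ∀ ρ : Gal(L/K'), ρ ∈ MulAction.stabilizer Gal(L/K') w.asIdeal → ρ = 1 := by
      intro ρ hρ
      have h1 : ρ.restrictScalars ℚ = 1 := by
        apply h
        · intro y hy
          exact ρ.commutes ⟨y, hy⟩
        · intro y hy
          have h2 : ρ • y ∈ ρ • w.asIdeal := Ideal.smul_mem_pointwise_smul ρ y w.asIdeal hy
          rw [MulAction.mem_stabilizer_iff.mp hρ] at h2
          exact h2
      ext y
      have := congrArg (fun τ : L ≃ₐ[ℚ] L => τ y) h1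
      simpa using this
    exact Subtype.ext ((key σ hσ).trans (key σ' hσ').symm)
  have hv : v.asIdeal.IsMaximal := v.isMaximal
  have hw : w.asIdeal.IsMaximal := w.isMaximal
  have hfin : Finite (𝓞 K' ⧸ v.asIdeal) := Ideal.finiteQuotientOfFreeOfNeBot _ v.ne_bot
  have e1 := Ideal.card_stabilizer_eq (G := Gal(L/K')) v.asIdeal w.asIdeal
  rw [hcard] at e1
  have e2 : v.asIdeal.inertiaDegIn (𝓞 L) = 1 := Nat.eq_one_of_mul_eq_one_left e1.symm
  rw [Ideal.inertiaDegIn_eq_inertiaDeg v.asIdeal w.asIdeal Gal(L/K'),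
    Ideal.inertiaDeg_eq_of_isMaximal v.asIdeal w.asIdeal] at e2
  let _ : Field (𝓞 K' ⧸ v.asIdeal) := Ideal.Quotient.field _
  have h1 : (1 : 𝓞 L ⧸ w.asIdeal) ≠ 0 := by
    intro h0
    have : (1 : 𝓞 L) ∈ w.asIdeal := by
      rw [← Ideal.Quotient.eq_zero_iff_mem]; simpa using h0
    exact hw.ne_top ((Ideal.eq_top_iff_one _).mpr this)
  obtain ⟨c, hc⟩ := (finrank_eq_one_iff_of_nonzero' (1 : 𝓞 L ⧸ w.asIdeal) h1).mp e2
    (Ideal.Quotient.mk _ y)
  obtain ⟨a, rfl⟩ := Ideal.Quotient.mk_surjective c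
  refine ⟨a, ?_⟩
  rw [← Ideal.Quotient.eq]
  rw [← hc, Algebra.smul_def, mul_one]
  rfl

/-- (R3) an element of a Dedekind domain all of whose valuations are divisible by `n` generates
an `n`-th power ideal. -/
theorem exists_ideal_pow_eq {R : Type*} [CommRing R] [IsDedekindDomain R] (n : ℕ) (x : R)
    (hx : x ≠ 0)
    (h : ∀ v : HeightOneSpectrum R, ∃ m : ℕ, v.intValuation x = WithZero.exp (-((n * m : ℕ) : ℤ))) :
    ∃ 𝔞 : Ideal R, Ideal.span {x} = 𝔞 ^ n := by
  classical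
  have hI : (Ideal.span {x} : Ideal R) ≠ ⊥ := by simpa using hx
  have hmult : ∀ v : HeightOneSpectrum R, multiplicity v.asIdeal (Ideal.span {x}) =
      n * (multiplicity v.asIdeal (Ideal.span {x}) / n) := by
    intro v
    obtain ⟨m, hm⟩ := h v
    rw [v.intValuation_eq_exp_neg_multiplicity hx, WithZero.exp_inj, neg_inj, Int.natCast_inj] at hm
    rw [hm]
    rcases Nat.eq_zero_or_pos n with rfl | hn
    · simp
    · rw [Nat.mul_div_cancel_left _ hn]
  refine ⟨∏ᶠ v : HeightOneSpectrum R,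
    v.asIdeal ^ (multiplicity v.asIdeal (Ideal.span {x}) / n), ?_⟩
  have hfin : (Function.mulSupport fun v : HeightOneSpectrum R =>
      v.asIdeal ^ (multiplicity v.asIdeal (Ideal.span {x}) / n)).Finite := by
    refine (Ideal.hasFiniteMulSupport hI).subset ?_
    intro v hv
    simp only [Function.mem_mulSupport] at hv ⊢
    rw [HeightOneSpectrum.maxPowDividing_eq_pow_multiplicity hI]
    intro h1
    apply hv
    have h0 : multiplicity v.asIdeal (Ideal.span {x}) = 0 := by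
      by_contra hne
      have : v.asIdeal ^ multiplicity v.asIdeal (Ideal.span {x}) ≤ v.asIdeal :=
        Ideal.pow_le_self hne
      rw [h1] at this
      exact v.isPrime.ne_top (top_le_iff.mp (by simpa using this))
    rw [h0]; simp
  rw [finprod_pow hfin]
  conv_lhs => rw [← Ideal.finprod_heightOneSpectrum_pow_multiplicity hI]
  congr 1
  funext v
  rw [← pow_mul, mul_comm, ← hmult v]

end ReductionLocal
end Fermat.Agent.S14
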