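import Fermat.Agent.S14.Defs

set_option autoImplicit false

open scoped NumberField
open NumberField

namespace Fermat.Agent.S14

namespace UnitPartition

/-! ### The tent function -/

/-- The tent function `max 0 (1 - |t|)`. -/
noncomputable def tent (t : ℝ) : ℝ := max 0 (1 - |t|)

theorem tent_nonneg (t : ℝ) : 0 ≤ tent t := le_max_left _ _

theorem tent_le_one (t : ℝ) : tent t ≤ 1 :=
  max_le zero_le_one (by linarith [abs_nonneg t])

theorem tent_eq_zero {t : ℝ} (h : 1 ≤ |t|) : tent t = 0 :=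
  max_eq_left (by linarith)

theorem tent_of_abs_le {t : ℝ} (h : |t| ≤ 1) : tent t = 1 - |t| :=
  max_eq_right (by linarith)

theorem abs_lt_one_of_tent_ne_zero {t : ℝ} (h : tent t ≠ 0) : |t| < 1 := by
  by_contra h'
  exact h (tent_eq_zero (not_lt.mp h'))

theorem tent_lipschitz (t t' : ℝ) : |tent t - tent t'| ≤ |t - t'| := by
  unfold tent
  refine (abs_max_sub_max_le_max _ _ _ _).trans ?_
  have h1 : |(1 - |t|) - (1 - |t'|)| ≤ |t - t'| := by
    have h2 : (1 - |t|) - (1 - |t'|) = |t'| - |t| := by ring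
    rw [h2, abs_sub_comm t t']
    exact abs_abs_sub_abs_le_abs_sub t' t
  simpa using h1

/-- The two translates of the tent function that can be nonzero at `t` add up to `1`. -/
theorem tent_add_tent (t : ℝ) :
    tent (t + (-⌊t⌋ : ℤ)) + tent (t + (-⌊t⌋ - 1 : ℤ)) = 1 := by
  have h0 := Int.floor_le t
  have h1 := Int.lt_floor_add_one t
  push_cast
  rw [tent_of_abs_le, tent_of_abs_le]
  · rw [abs_of_nonneg (by linarith), abs_of_nonpos (by linarith)]
    ring
  · rw [abs_le]; constructor <;> linarith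
  · rw [abs_le]; constructor <;> linarith

theorem tent_add_int_eq_zero (t : ℝ) (n : ℤ) (h0 : n ≠ -⌊t⌋) (h1 : n ≠ -⌊t⌋ - 1) :
    tent (t + n) = 0 := by
  apply tent_eq_zero
  have hf0 := Int.floor_le t
  have hf1 := Int.lt_floor_add_one t
  rcases lt_or_gt_of_ne h0 with h | h
  · -- n < -⌊t⌋, and n ≠ -⌊t⌋ - 1, so n ≤ -⌊t⌋ - 2
    have h2 : n ≤ -⌊t⌋ - 2 := by omega
    have h3 : (n : ℝ) ≤ -(⌊t⌋ : ℝ) - 2 := by exact_mod_cast h2
    rw [le_abs]; right; linarith
  · have h2 : -⌊t⌋ + 1 ≤ n := by omega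
    have h3 : -(⌊t⌋ : ℝ) + 1 ≤ (n : ℝ) := by exact_mod_cast h2
    rw [le_abs]; left; linarith

/-! ### Products of tent functions -/

section Prod

variable {ι : Type} [Fintype ι]

/-- The product of tent functions of the coordinates. -/
noncomputable def tentProd (c : ι → ℝ) : ℝ := ∏ i, tent (c i)

theorem tentProd_nonneg (c : ι → ℝ) : 0 ≤ tentProd c :=
  Finset.prod_nonneg fun i _ => tent_nonneg (c i)

theorem tentProd_le_one (c : ι → ℝ) : tentProd c ≤ 1 :=
  Finset.prod_le_one (fun i _ => tent_nonneg (c i)) (fun i _ => tent_le_one (c i))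

theorem abs_lt_one_of_tentProd_ne_zero {c : ι → ℝ} (h : tentProd c ≠ 0) (i : ι) : |c i| < 1 := by
  apply abs_lt_one_of_tent_ne_zero
  intro h0
  exact h (Finset.prod_eq_zero (Finset.mem_univ i) h0)

omit [Fintype ι] in
theorem abs_prod_sub_prod_le (s : Finset ι) (a b : ι → ℝ)
    (ha : ∀ i, 0 ≤ a i ∧ a i ≤ 1) (hb : ∀ i, 0 ≤ b i ∧ b i ≤ 1) :
    |∏ i ∈ s, a i - ∏ i ∈ s, b i| ≤ ∑ i ∈ s, |a i - b i| := by
  classical
  induction s using Finset.induction_on with
  | empty => simp
  | insert j s hj ih =>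
    rw [Finset.prod_insert hj, Finset.prod_insert hj, Finset.sum_insert hj]
    have hA0 : 0 ≤ ∏ i ∈ s, a i := Finset.prod_nonneg fun i _ => (ha i).1
    have hA1 : ∏ i ∈ s, a i ≤ 1 := Finset.prod_le_one (fun i _ => (ha i).1) (fun i _ => (ha i).2)
    have e : a j * ∏ i ∈ s, a i - b j * ∏ i ∈ s, b i
        = (a j - b j) * ∏ i ∈ s, a i + b j * (∏ i ∈ s, a i - ∏ i ∈ s, b i) := by ring
    rw [e]
    refine (abs_add_le _ _).trans ?_
    rw [abs_mul, abs_mul, abs_of_nonneg hA0, abs_of_nonneg (hb j).1]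
    have h1 : |a j - b j| * ∏ i ∈ s, a i ≤ |a j - b j| :=
      mul_le_of_le_one_right (abs_nonneg _) hA1
    have h2 : b j * |∏ i ∈ s, a i - ∏ i ∈ s, b i| ≤ |∏ i ∈ s, a i - ∏ i ∈ s, b i| :=
      mul_le_of_le_one_left (abs_nonneg _) (hb j).2
    linarith

theorem tentProd_lipschitz (c c' : ι → ℝ) :
    |tentProd c - tentProd c'| ≤ ∑ i, |c i - c' i| := by
  unfold tentProd
  refine (abs_prod_sub_prod_le Finset.univ _ _ (fun i => ⟨tent_nonneg _, tent_le_one _⟩)
    (fun i => ⟨tent_nonneg _, tent_le_one _⟩)).trans ?_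
  exact Finset.sum_le_sum fun i _ => tent_lipschitz _ _

/-- The finite set of integer translations that can see the support. -/
noncomputable def transSet (c : ι → ℝ) : Finset (ι → ℤ) := by
  classical
  exact Fintype.piFinset fun i => ({-⌊c i⌋, -⌊c i⌋ - 1} : Finset ℤ)

theorem tentProd_translate_eq_zero (c : ι → ℝ) (n : ι → ℤ) (hn : n ∉ transSet c) :
    tentProd (fun i => c i + n i) = 0 := by
  classical
  unfold transSet at hn
  rw [Fintype.mem_piFinset] at hn
  rw [not_forall] at hn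
  obtain ⟨i, hi⟩ := hn
  simp only [Finset.mem_insert, Finset.mem_singleton, not_or] at hi
  exact Finset.prod_eq_zero (Finset.mem_univ i) (tent_add_int_eq_zero (c i) (n i) hi.1 hi.2)

theorem sum_tentProd_translate (c : ι → ℝ) :
    ∑ n ∈ transSet c, tentProd (fun i => c i + n i) = 1 := by
  classical
  unfold transSet tentProd
  have h := Finset.prod_univ_sum (fun i => ({-⌊c i⌋, -⌊c i⌋ - 1} : Finset ℤ))
    (fun i (k : ℤ) => tent (c i + k))
  rw [← h]
  apply Finset.prod_eq_one
  intro i _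
  rw [Finset.sum_pair (by omega)]
  exact tent_add_tent (c i)

end Prod

/-! ### The number field part -/

section Field

open NumberField.Units NumberField.Units.dirichletUnitTheorem NumberField.mixedEmbedding
  NumberField.InfinitePlace

variable (K : Type) [Field K] [NumberField K]

open scoped Classical in
/-- The real basis of the log space coming from the unit lattice. -/
noncomputable def logBasis : Module.Basis (Fin (rank K)) ℝ (logSpace K) :=
  (basisUnitLattice K).ofZLatticeBasis ℝ (unitLattice K)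

open scoped Classical in
/-- Coordinates of the log image of `x` in the basis of the unit lattice. -/
noncomputable def coords (x : K) : Fin (rank K) → ℝ :=
  (logBasis K).equivFun (logMap (mixedEmbedding K x))

/-- The partition function. -/
noncomputable def Psi (x : K) : ℝ := (torsionOrder K : ℝ)⁻¹ * tentProd (coords K x)

theorem norm_mixed_ne_zero {x : K} (hx : x ≠ 0) :
    mixedEmbedding.norm (mixedEmbedding K x) ≠ 0 := by
  rw [mixedEmbedding.norm_eq_norm]
  simpa using hx

theorem logMap_unit_mul (u : (𝓞 K)ˣ) {x : K} (hx : x ≠ 0) :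
    logMap (mixedEmbedding K (((u : 𝓞 K) : K) * x))
      = logEmbedding K (Additive.ofMul u) + logMap (mixedEmbedding K x) := by
  rw [map_mul, logMap_mul (by rw [norm_unit]; norm_num) (norm_mixed_ne_zero K hx),
    logMap_eq_logEmbedding]

/-- Dirichlet's unit theorem as an equivalence. -/
noncomputable def unitEquiv : torsion K × (Fin (rank K) → ℤ) ≃ (𝓞 K)ˣ :=
  Equiv.ofBijective
    (fun ζe : torsion K × (Fin (rank K) → ℤ) => (ζe.1 : (𝓞 K)ˣ) * ∏ i, fundSystem K i ^ ζe.2 i)
    (by
      rw [Function.bijective_iff_existsUnique]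
      intro x
      obtain ⟨ζe, h1, h2⟩ := exist_unique_eq_mul_prod K x
      exact ⟨ζe, h1.symm, fun y hy => h2 y hy.symm⟩)

theorem unitEquiv_apply (ζe : torsion K × (Fin (rank K) → ℤ)) :
    unitEquiv K ζe = (ζe.1 : (𝓞 K)ˣ) * ∏ i, fundSystem K i ^ ζe.2 i := rfl

open scoped Classical in
theorem logEmbedding_unitEquiv (ζe : torsion K × (Fin (rank K) → ℤ)) :
    logEmbedding K (Additive.ofMul (unitEquiv K ζe))
      = ∑ i, ((ζe.2 i : ℤ) : ℝ) • logBasis K i := by
  rw [unitEquiv_apply, ofMul_mul, map_add, ofMul_prod, map_sum]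
  have h0 : logEmbedding K (Additive.ofMul (ζe.1 : (𝓞 K)ˣ)) = 0 :=
    logEmbedding_eq_zero_iff.mpr ζe.1.2
  rw [h0, zero_add]
  refine Finset.sum_congr rfl fun i _ => ?_
  rw [ofMul_zpow, map_zsmul, logEmbedding_fundSystem, logBasis,
    Module.Basis.ofZLatticeBasis_apply, Int.cast_smul_eq_zsmul]

open scoped Classical in
theorem coords_unitEquiv_mul (ζe : torsion K × (Fin (rank K) → ℤ)) {x : K} (hx : x ≠ 0) :
    coords K ((((unitEquiv K ζe : (𝓞 K)ˣ) : 𝓞 K) : K) * x)
      = fun i => coords K x i + ((ζe.2 i : ℤ) : ℝ) := by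
  unfold coords
  rw [logMap_unit_mul K _ hx, logEmbedding_unitEquiv, map_add]
  have h1 : (∑ i, ((ζe.2 i : ℤ) : ℝ) • logBasis K i)
      = (logBasis K).equivFun.symm (fun i => ((ζe.2 i : ℤ) : ℝ)) := by
    rw [Module.Basis.equivFun_symm_apply]
  rw [h1, LinearEquiv.apply_symm_apply]
  funext i
  simp [add_comm]

theorem Psi_nonneg (x : K) : 0 ≤ Psi K x :=
  mul_nonneg (inv_nonneg.mpr (Nat.cast_nonneg _)) (tentProd_nonneg _)

theorem Psi_le_one (x : K) : Psi K x ≤ 1 := by
  have h1 : (1 : ℝ) ≤ torsionOrder K := by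
    exact_mod_cast Nat.one_le_iff_ne_zero.mpr (torsionOrder_ne_zero K)
  have h2 : (torsionOrder K : ℝ)⁻¹ ≤ 1 := inv_le_one_of_one_le₀ h1
  calc Psi K x ≤ 1 * 1 :=
        mul_le_mul h2 (tentProd_le_one _) (tentProd_nonneg _) zero_le_one
    _ = 1 := one_mul 1

theorem Psi_partition {x : K} (hx : x ≠ 0) :
    (Function.support fun u : (𝓞 K)ˣ => Psi K (((u : 𝓞 K) : K) * x)).Finite ∧
      ∑ᶠ u : (𝓞 K)ˣ, Psi K (((u : 𝓞 K) : K) * x) = 1 := by
  classical
  have : Fintype (torsion K) := Fintype.ofFinite _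
  set g := fun u : (𝓞 K)ˣ => Psi K (((u : 𝓞 K) : K) * x) with hg
  set T := transSet (coords K x) with hT
  have hgE : ∀ ζe : torsion K × (Fin (rank K) → ℤ), g (unitEquiv K ζe)
      = (torsionOrder K : ℝ)⁻¹ * tentProd (fun i => coords K x i + ((ζe.2 i : ℤ) : ℝ)) := by
    intro ζe
    simp only [hg, Psi]
    rw [coords_unitEquiv_mul K ζe hx]
  have hsupp : Function.support (fun ζe => g (unitEquiv K ζe))
      ⊆ ↑((Finset.univ : Finset (torsion K)) ×ˢ T) := by
    intro ζe hζe
    simp only [Function.mem_support] at hζe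
    by_contra hmem
    apply hζe
    rw [hgE]
    have : ζe.2 ∉ T := by
      intro h; apply hmem; simp [h]
    rw [tentProd_translate_eq_zero _ _ this, mul_zero]
  constructor
  · refine Set.Finite.subset
      (((Finset.univ : Finset (torsion K)) ×ˢ T).finite_toSet.image (unitEquiv K)) ?_
    intro u hu
    refine ⟨(unitEquiv K).symm u, hsupp ?_, by simp⟩
    simpa using hu
  · rw [← finsum_comp_equiv (unitEquiv K), finsum_eq_sum_of_support_subset _ hsupp,
      Finset.sum_product]
    simp only [hgE]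
    rw [Finset.sum_const, ← Finset.mul_sum, sum_tentProd_translate, Finset.card_univ,
      nsmul_eq_mul, mul_one, ← Nat.card_eq_fintype_card]
    have h1 : (torsionOrder K : ℝ) ≠ 0 := Nat.cast_ne_zero.mpr (torsionOrder_ne_zero K)
    exact mul_inv_cancel₀ h1

/-- The normalised logarithm at a place. -/
noncomputable def ell (x : K) (w : InfinitePlace K) : ℝ :=
  Real.log (w x) - Real.log ((|Algebra.norm ℚ x| : ℚ) : ℝ) * (Module.finrank ℚ K : ℝ)⁻¹

theorem logMap_mixed_apply (x : K) (w : {w : InfinitePlace K // w ≠ w₀}) :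
    logMap (mixedEmbedding K x) w = mult w.val * ell K x w.val := by
  rw [logMap_apply, normAtPlace_apply, mixedEmbedding.norm_eq_norm, ell]

omit [NumberField K] in
theorem place_pos {x : K} (hx : x ≠ 0) (w : InfinitePlace K) : 0 < w x :=
  InfinitePlace.pos_iff.mpr hx

theorem log_abs_norm {x : K} (hx : x ≠ 0) :
    Real.log ((|Algebra.norm ℚ x| : ℚ) : ℝ) = ∑ w : InfinitePlace K, (mult w : ℝ) * Real.log (w x) := by
  rw [← InfinitePlace.prod_eq_abs_norm, Real.log_prod]
  · refine Finset.sum_congr rfl fun w _ => ?_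
    rw [Real.log_pow]
  · intro w _
    exact pow_ne_zero _ (place_pos K hx w).ne'

theorem sum_mult_cast : ∑ w : InfinitePlace K, (mult w : ℝ) = (Module.finrank ℚ K : ℝ) := by
  rw [← Nat.cast_sum, InfinitePlace.sum_mult_eq]

theorem finrank_pos_real : (0 : ℝ) < (Module.finrank ℚ K : ℝ) :=
  Nat.cast_pos.mpr Module.finrank_pos

theorem sum_mult_mul_ell {x : K} (hx : x ≠ 0) :
    ∑ w : InfinitePlace K, (mult w : ℝ) * ell K x w = 0 := by
  unfold ell
  simp only [mul_sub]
  rw [Finset.sum_sub_distrib, ← log_abs_norm K hx]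
  simp only [← mul_assoc]
  rw [← Finset.sum_mul, ← Finset.sum_mul, sum_mult_cast]
  have := (finrank_pos_real K).ne'
  field_simp
  ring

omit [NumberField K] in
theorem one_le_mult (w : InfinitePlace K) : (1 : ℝ) ≤ (mult w : ℝ) := by
  exact_mod_cast InfinitePlace.one_le_mult

omit [NumberField K] in
theorem mult_le_two' (w : InfinitePlace K) : (mult w : ℝ) ≤ 2 := by
  unfold mult
  split_ifs <;> norm_num

/-- If the normalised logarithms at the places `≠ w₀` are bounded, so are all of them. -/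
theorem abs_ell_le {x : K} (hx : x ≠ 0) {A : ℝ} (hA : 0 ≤ A)
    (h : ∀ w : {w : InfinitePlace K // w ≠ w₀}, |(mult w.val : ℝ) * ell K x w.val| ≤ A)
    (w : InfinitePlace K) :
    |ell K x w| ≤ (Fintype.card (InfinitePlace K) : ℝ) * A := by
  classical
  have hcard : (1 : ℝ) ≤ (Fintype.card (InfinitePlace K) : ℝ) := by
    exact_mod_cast Fintype.card_pos
  have hle : ∀ w' : InfinitePlace K, |ell K x w'| ≤ |(mult w' : ℝ) * ell K x w'| := by
    intro w'
    have hm : (0 : ℝ) ≤ (mult w' : ℝ) := by linarith [one_le_mult K w']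
    rw [abs_mul, abs_of_nonneg hm]
    exact le_mul_of_one_le_left (abs_nonneg _) (one_le_mult K w')
  by_cases hw : w = w₀
  · subst hw
    have hsum := sum_mult_mul_ell K hx
    rw [Fintype.sum_eq_add_sum_subtype_ne _ (w₀ : InfinitePlace K)] at hsum
    have h1 : (mult (w₀ : InfinitePlace K) : ℝ) * ell K x w₀
        = -∑ w : {w : InfinitePlace K // w ≠ w₀}, (mult w.val : ℝ) * ell K x w.val := by
      linarith
    refine (hle _).trans ?_
    rw [h1, abs_neg]
    refine (Finset.abs_sum_le_sum_abs _ _).trans ?_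
    refine (Finset.sum_le_sum fun w' _ => h w').trans ?_
    rw [Finset.sum_const, nsmul_eq_mul, Finset.card_univ]
    refine mul_le_mul_of_nonneg_right ?_ hA
    exact_mod_cast Fintype.card_subtype_le _
  · refine (hle _).trans ((h ⟨w, hw⟩).trans ?_)
    exact le_mul_of_one_le_left hA hcard

open scoped Classical in
/-- The constant bounding the log image on the support. -/
noncomputable def coneA : ℝ := ∑ i, ‖logBasis K i‖

open scoped Classical in
theorem coneA_nonneg : 0 ≤ coneA K := Finset.sum_nonneg fun _ _ => norm_nonneg _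

open scoped Classical in
theorem abs_logMap_le_of_coords {x : K} (h : ∀ i, |coords K x i| < 1)
    (w : {w : InfinitePlace K // w ≠ w₀}) :
    |logMap (mixedEmbedding K x) w| ≤ coneA K := by
  have h1 : logMap (mixedEmbedding K x) = ∑ i, coords K x i • logBasis K i := by
    unfold coords
    rw [Module.Basis.sum_equivFun]
  rw [h1, Finset.sum_apply]
  refine (Finset.abs_sum_le_sum_abs _ _).trans ?_
  unfold coneA
  refine Finset.sum_le_sum fun i _ => ?_
  rw [Pi.smul_apply, smul_eq_mul, abs_mul]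
  have h2 : |logBasis K i w| ≤ ‖logBasis K i‖ := by
    have := norm_le_pi_norm (logBasis K i) w
    rwa [Real.norm_eq_abs] at this
  calc |coords K x i| * |logBasis K i w| ≤ 1 * ‖logBasis K i‖ :=
        mul_le_mul (h i).le h2 (abs_nonneg _) zero_le_one
    _ = ‖logBasis K i‖ := one_mul _

/-- The cone constant. -/
noncomputable def coneC : ℝ :=
  Real.exp (-(2 * ((Fintype.card (InfinitePlace K) : ℝ) * coneA K)))

theorem coneC_pos : 0 < coneC K := Real.exp_pos _

theorem Psi_cone (x : K) (hΨ : Psi K x ≠ 0) (w w' : InfinitePlace K) :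
    coneC K * w' x ≤ w x := by
  classical
  by_cases hx : x = 0
  · subst hx; simp
  have hc : ∀ i, |coords K x i| < 1 := by
    intro i
    apply abs_lt_one_of_tentProd_ne_zero
    intro h0
    apply hΨ
    rw [Psi, h0, mul_zero]
  have hB : ∀ v : InfinitePlace K,
      |ell K x v| ≤ (Fintype.card (InfinitePlace K) : ℝ) * coneA K := by
    apply abs_ell_le K hx (coneA_nonneg K)
    intro v
    rw [← logMap_mixed_apply]
    exact abs_logMap_le_of_coords K hc v
  have h1 := hB w
  have h2 := hB w'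
  rw [abs_le] at h1 h2
  have h3 : Real.log (w' x) - Real.log (w x) = ell K x w' - ell K x w := by
    unfold ell; ring
  have h4 : Real.log (w' x) ≤
      Real.log (w x) + 2 * ((Fintype.card (InfinitePlace K) : ℝ) * coneA K) := by
    linarith
  have hw := place_pos K hx w
  have hw' := place_pos K hx w'
  have h5 : w' x ≤ w x * Real.exp (2 * ((Fintype.card (InfinitePlace K) : ℝ) * coneA K)) := by
    have := Real.exp_le_exp.mpr h4
    rwa [Real.exp_log hw', Real.exp_add, Real.exp_log hw] at this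
  unfold coneC
  rw [Real.exp_neg]
  rw [inv_mul_le_iff₀ (Real.exp_pos _)]
  linarith

omit [Field K] [NumberField K] in
theorem abs_log_sub_log_le {a b δ : ℝ} (ha : 0 < a) (h2 : |b - a| ≤ a / 2)
    (hδ : |b - a| ≤ δ * a) : |Real.log b - Real.log a| ≤ 2 * δ := by
  have hb : a / 2 ≤ b := by have := (abs_le.mp h2).1; linarith
  have hb0 : 0 < b := by linarith
  have hδ0 : 0 ≤ δ := by
    by_contra hneg
    have h1 : δ * a < 0 := mul_neg_of_neg_of_pos (not_le.mp hneg) ha
    linarith [abs_nonneg (b - a)]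
  rw [abs_le]
  constructor
  · have h := Real.log_le_sub_one_of_pos (div_pos ha hb0)
    rw [Real.log_div ha.ne' hb0.ne'] at h
    have h3 : a / b - 1 ≤ 2 * δ := by
      rw [div_sub_one hb0.ne', div_le_iff₀ hb0]
      have h4 := (abs_le.mp hδ).1
      nlinarith
    linarith
  · have h := Real.log_le_sub_one_of_pos (div_pos hb0 ha)
    rw [Real.log_div hb0.ne' ha.ne'] at h
    have h3 : b / a - 1 ≤ δ := by
      rw [div_sub_one ha.ne', div_le_iff₀ ha]
      exact (abs_le.mp hδ).2
    linarith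

open scoped Classical in
/-- The operator norm of the coordinate map. -/
noncomputable def lipM : ℝ :=
  ‖LinearMap.toContinuousLinearMap
    ((logBasis K).equivFun : logSpace K →ₗ[ℝ] (Fin (rank K) → ℝ))‖

open scoped Classical in
theorem lipM_nonneg : 0 ≤ lipM K := norm_nonneg _

theorem Psi_lipschitz (x y : K) (hx : x ≠ 0) (hy : y ≠ 0)
    (h2 : ∀ w : InfinitePlace K, |w y - w x| ≤ w x / 2) (δ : ℝ)
    (hδ : ∀ w : InfinitePlace K, |w y - w x| ≤ δ * w x) :
    |Psi K y - Psi K x| ≤ (8 * (rank K : ℝ) * lipM K + 1) * δ := by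
  classical
  have hδ0 : 0 ≤ δ := by
    by_contra hneg
    have h1 : δ * (w₀ : InfinitePlace K) x < 0 :=
      mul_neg_of_neg_of_pos (not_le.mp hneg) (place_pos K hx w₀)
    linarith [abs_nonneg ((w₀ : InfinitePlace K) y - (w₀ : InfinitePlace K) x), hδ w₀]
  have hn := finrank_pos_real K
  have hlog : ∀ w : InfinitePlace K, |Real.log (w y) - Real.log (w x)| ≤ 2 * δ :=
    fun w => abs_log_sub_log_le (place_pos K hx w) (h2 w) (hδ w)
  have hN : |Real.log ((|Algebra.norm ℚ y| : ℚ) : ℝ) - Real.log ((|Algebra.norm ℚ x| : ℚ) : ℝ)|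
      ≤ (Module.finrank ℚ K : ℝ) * (2 * δ) := by
    rw [log_abs_norm K hx, log_abs_norm K hy, ← Finset.sum_sub_distrib]
    refine (Finset.abs_sum_le_sum_abs _ _).trans ?_
    rw [← sum_mult_cast, Finset.sum_mul]
    refine Finset.sum_le_sum fun w _ => ?_
    rw [← mul_sub, abs_mul, abs_of_nonneg (by linarith [one_le_mult K w] : (0 : ℝ) ≤ (mult w : ℝ))]
    exact mul_le_mul_of_nonneg_left (hlog w) (by linarith [one_le_mult K w])
  have hell : ∀ w : InfinitePlace K, |ell K y w - ell K x w| ≤ 4 * δ := by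
    intro w
    unfold ell
    have e : (Real.log (w y) - Real.log ((|Algebra.norm ℚ y| : ℚ) : ℝ) * (Module.finrank ℚ K : ℝ)⁻¹)
        - (Real.log (w x) - Real.log ((|Algebra.norm ℚ x| : ℚ) : ℝ) * (Module.finrank ℚ K : ℝ)⁻¹)
        = (Real.log (w y) - Real.log (w x))
          - (Real.log ((|Algebra.norm ℚ y| : ℚ) : ℝ) - Real.log ((|Algebra.norm ℚ x| : ℚ) : ℝ))
            * (Module.finrank ℚ K : ℝ)⁻¹ := by ring
    rw [e]
    refine (abs_sub _ _).trans ?_
    rw [abs_mul, abs_of_pos (inv_pos.mpr hn)]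
    have h3 : |Real.log ((|Algebra.norm ℚ y| : ℚ) : ℝ) - Real.log ((|Algebra.norm ℚ x| : ℚ) : ℝ)|
        * (Module.finrank ℚ K : ℝ)⁻¹ ≤ 2 * δ := by
      rw [mul_inv_le_iff₀ hn]
      linarith
    linarith [hlog w]
  have hnorm : ‖logMap (mixedEmbedding K y) - logMap (mixedEmbedding K x)‖ ≤ 8 * δ := by
    rw [pi_norm_le_iff_of_nonneg (by positivity)]
    intro w
    rw [Pi.sub_apply, logMap_mixed_apply, logMap_mixed_apply, ← mul_sub, Real.norm_eq_abs,
      abs_mul, abs_of_nonneg (by linarith [one_le_mult K w.val] : (0 : ℝ) ≤ (mult w.val : ℝ))]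
    calc (mult w.val : ℝ) * |ell K y w.val - ell K x w.val| ≤ 2 * (4 * δ) :=
          mul_le_mul (mult_le_two' K w.val) (hell w.val) (abs_nonneg _) (by norm_num)
      _ = 8 * δ := by ring
  have hcoord : ∀ i, |coords K y i - coords K x i| ≤ lipM K * (8 * δ) := by
    intro i
    have e : coords K y i - coords K x i
        = (logBasis K).equivFun
            (logMap (mixedEmbedding K y) - logMap (mixedEmbedding K x)) i := by
      unfold coords
      rw [map_sub, Pi.sub_apply]
    rw [e]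
    have h1 : ‖(logBasis K).equivFun
        (logMap (mixedEmbedding K y) - logMap (mixedEmbedding K x))‖
        ≤ lipM K * ‖logMap (mixedEmbedding K y) - logMap (mixedEmbedding K x)‖ :=
      (LinearMap.toContinuousLinearMap
        ((logBasis K).equivFun : logSpace K →ₗ[ℝ] (Fin (rank K) → ℝ))).le_opNorm _
    have h3 := norm_le_pi_norm ((logBasis K).equivFun
        (logMap (mixedEmbedding K y) - logMap (mixedEmbedding K x))) i
    rw [Real.norm_eq_abs] at h3
    refine h3.trans (h1.trans ?_)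
    exact mul_le_mul_of_nonneg_left hnorm (lipM_nonneg K)
  have hw1 : (1 : ℝ) ≤ torsionOrder K := by
    exact_mod_cast Nat.one_le_iff_ne_zero.mpr (torsionOrder_ne_zero K)
  have hw2 : (torsionOrder K : ℝ)⁻¹ ≤ 1 := inv_le_one_of_one_le₀ hw1
  have hw0 : (0 : ℝ) ≤ (torsionOrder K : ℝ)⁻¹ := inv_nonneg.mpr (by linarith)
  unfold Psi
  rw [← mul_sub, abs_mul, abs_of_nonneg hw0]
  have h5 : |tentProd (coords K y) - tentProd (coords K x)|
      ≤ (rank K : ℝ) * (lipM K * (8 * δ)) := by
    refine (tentProd_lipschitz _ _).trans ?_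
    refine (Finset.sum_le_sum fun i _ => hcoord i).trans ?_
    rw [Finset.sum_const, Finset.card_univ, Fintype.card_fin, nsmul_eq_mul]
  have h6 : (torsionOrder K : ℝ)⁻¹ * |tentProd (coords K y) - tentProd (coords K x)|
      ≤ 1 * ((rank K : ℝ) * (lipM K * (8 * δ))) :=
    mul_le_mul hw2 h5 (abs_nonneg _) zero_le_one
  have h7 : (0 : ℝ) ≤ (rank K : ℝ) * lipM K := mul_nonneg (Nat.cast_nonneg _) (lipM_nonneg K)
  nlinarith

end Field

end UnitPartition

/-- AN1 : a Lipschitz partition of unity over the unit group. -/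
theorem exists_unit_partition (K : Type) [Field K] [NumberField K] :
    ∃ (Ψ : K → ℝ) (c L : ℝ), 0 < c ∧ 0 < L ∧
      (∀ x, 0 ≤ Ψ x ∧ Ψ x ≤ 1) ∧
      (∀ x : K, x ≠ 0 → (Function.support fun u : (𝓞 K)ˣ => Ψ (((u : 𝓞 K) : K) * x)).Finite ∧
        ∑ᶠ u : (𝓞 K)ˣ, Ψ (((u : 𝓞 K) : K) * x) = 1) ∧
      (∀ x : K, Ψ x ≠ 0 → ∀ w w' : NumberField.InfinitePlace K, c * w' x ≤ w x) ∧
      (∀ x y : K, x ≠ 0 → y ≠ 0 →
        (∀ w : NumberField.InfinitePlace K, |w y - w x| ≤ w x / 2) →
        ∀ δ : ℝ, (∀ w : NumberField.InfinitePlace K, |w y - w x| ≤ δ * w x) → |Ψ y - Ψ x| ≤ L * δ) := by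
  refine ⟨UnitPartition.Psi K, UnitPartition.coneC K,
    8 * (NumberField.Units.rank K : ℝ) * UnitPartition.lipM K + 1, UnitPartition.coneC_pos K, ?_,
    fun x => ⟨UnitPartition.Psi_nonneg K x, UnitPartition.Psi_le_one K x⟩,
    fun x hx => UnitPartition.Psi_partition K hx,
    fun x hx w w' => UnitPartition.Psi_cone K x hx w w',
    fun x y hx hy h2 δ hδ => UnitPartition.Psi_lipschitz K x y hx hy h2 δ hδ⟩
  have h7 : (0 : ℝ) ≤ (NumberField.Units.rank K : ℝ) * UnitPartition.lipM K :=
    mul_nonneg (Nat.cast_nonneg _) (UnitPartition.lipM_nonneg K)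
  nlinarith

end Fermat.Agent.S14
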